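/-
S36, block [Descent], leaf (DS-R) (helper19): **rationality of functions on `X_0(N)_{Q̄}` read off the
`q`-expansion coefficients.**

`Fb N = Q̄ · F_N ⊆ Q̄((q))` (the prelude's `modularFunctionFieldBar N`), `lev K N : FF K N → Fb N` the
coefficientwise base change for a field `K → Q̄`.

* `lsMap_coeffMap_mul` : the coefficientwise application of a `K`-linear functional `π : L → K` is
  `K((q))`-linear;
* `mem_range_lev_of_coeff_mem` : **a function `t ∈ Fb N` all of whose coefficients lie in `K` is
  `lev K N` of a function of `FF K N`** (no Galois theory: write `t b = a` with `a`, `b` finite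
  `Q̄`-combinations of functions from `F_K`, apply a functional `π` with `π`-image of `b` nonzero);
* `mem_range_levK_of_coeff_mem` : the same for a subfield `K ⊆ Q̄` in `Lvl` language.
-/
import Mathlib
import Fermat.Agent.N4F.C.Rationality
import Fermat.Agent.N4.ModPolyDescent

set_option autoImplicit false
set_option linter.unusedSectionVars false
set_option linter.style.haveILetI false

open ModularCurve AlgebraicCurve
open Fermat.Agent.N4.Setting Fermat.Agent.N4F.C.Levels
open Fermat.Agent.N4.ModPolyDescent (lsMap lsMap_coeff)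

noncomputable section

namespace Fermat.Agent.S36.Descent.Rational

local notation "Qb" => AlgebraicClosure ℚ

/-! ### Coefficientwise functionals -/

section LsMap

variable {K L : Type*} [Field K] [Field L] [Algebra K L] (π : L →ₗ[K] K)

/-- The coefficientwise application of a `K`-linear functional is `K((q))`-linear. -/
theorem lsMap_coeffMap_mul (t : LaurentSeries K) (b : LaurentSeries L) :
    lsMap π (coeffMap (algebraMap K L) t * b) = t * lsMap π b := by
  ext n
  rw [lsMap_coeff]
  have hs1 : (coeffMap (algebraMap K L) t).support ⊆ t.support := by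
    intro k hk
    rw [HahnSeries.mem_support] at hk ⊢
    intro h0
    apply hk
    rw [coeffMap_coeff, h0, map_zero]
  have hs2 : (lsMap π b).support ⊆ b.support := by
    intro k hk
    rw [HahnSeries.mem_support] at hk ⊢
    intro h0
    apply hk
    rw [lsMap_coeff, h0, map_zero]
  rw [HahnSeries.coeff_mul_left' t.isPWO_support hs1,
    HahnSeries.coeff_mul_right' b.isPWO_support hs2, map_sum]
  refine Finset.sum_congr rfl fun ij _ => ?_
  rw [coeffMap_coeff, lsMap_coeff, ← Algebra.smul_def, map_smul, smul_eq_mul]

theorem lsMap_coeffMap (t : LaurentSeries K) :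
    lsMap π (coeffMap (algebraMap K L) t) = algebraMap K (LaurentSeries K) (π 1) * t := by
  have h := lsMap_coeffMap_mul π t 1
  rw [mul_one] at h
  rw [h, mul_comm]
  congr 1
  ext n
  rw [lsMap_coeff, algebraMap_laurentSeries_eq_single]
  by_cases hn : n = 0
  · subst hn
    rw [HahnSeries.coeff_one, if_pos rfl, HahnSeries.coeff_single_same]
  · rw [HahnSeries.coeff_one, if_neg hn, HahnSeries.coeff_single_of_ne hn, map_zero]

end LsMap

/-! ### Functions with coefficients in `K` -/

section Main

variable (K : Type) [Field K] [Algebra K Qb] (N : ℕ) [NeZero N]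
  [Algebra K ↥(modularFunctionFieldBar N)] [IsScalarTower K Qb ↥(modularFunctionFieldBar N)]

/-- The finite `Q̄`-linear combinations of functions from `F_K`. -/
def combs : Submodule Qb ↥(modularFunctionFieldBar N) :=
  Submodule.span Qb (Set.range (lev K N))

theorem lev_mem_combs (y : FF K N) : lev K N y ∈ combs K N :=
  Submodule.subset_span ⟨y, rfl⟩

theorem one_mem_combs : (1 : ↥(modularFunctionFieldBar N)) ∈ combs K N := by
  have := lev_mem_combs K N 1
  rwa [map_one] at this

theorem algebraMap_mem_combs (c : Qb) :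
    algebraMap Qb ↥(modularFunctionFieldBar N) c ∈ combs K N := by
  rw [Algebra.algebraMap_eq_smul_one]
  exact Submodule.smul_mem _ c (one_mem_combs K N)

theorem mul_mem_combs {a b : ↥(modularFunctionFieldBar N)} (ha : a ∈ combs K N)
    (hb : b ∈ combs K N) : a * b ∈ combs K N := by
  have h : combs K N * combs K N ≤ combs K N := by
    rw [combs, Submodule.span_mul_span]
    apply Submodule.span_mono
    rintro _ ⟨_, ⟨y, rfl⟩, _, ⟨z, rfl⟩, rfl⟩
    exact ⟨y * z, map_mul _ _ _⟩
  exact h (Submodule.mul_mem_mul ha hb)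

/-- A coefficientwise functional maps combinations into `F_K`. -/
theorem lsMap_mem_of_mem_combs {a : ↥(modularFunctionFieldBar N)} (ha : a ∈ combs K N)
    (π : Qb →ₗ[K] K) :
    lsMap π (a : LaurentSeries Qb) ∈ modularFunctionFieldFullC K N := by
  induction ha using Submodule.span_induction generalizing π with
  | mem a ha =>
    obtain ⟨y, rfl⟩ := ha
    rw [coe_lev, lsMap_coeffMap]
    exact mul_mem ((modularFunctionFieldFullC K N).algebraMap_mem _) y.2
  | zero =>
    have : ((0 : ↥(modularFunctionFieldBar N)) : LaurentSeries Qb) = 0 := rfl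
    rw [this, map_zero]
    exact zero_mem _
  | add a b _ _ iha ihb =>
    have : ((a + b : ↥(modularFunctionFieldBar N)) : LaurentSeries Qb) =
        (a : LaurentSeries Qb) + (b : LaurentSeries Qb) := rfl
    rw [this, map_add]
    exact add_mem (iha π) (ihb π)
  | smul c a _ iha =>
    have h1 : ((c • a : ↥(modularFunctionFieldBar N)) : LaurentSeries Qb) =
        algebraMap Qb (LaurentSeries Qb) c * (a : LaurentSeries Qb) := by
      rw [Algebra.smul_def]
      rfl
    have h2 : lsMap π (algebraMap Qb (LaurentSeries Qb) c * (a : LaurentSeries Qb)) =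
        lsMap (π.comp (LinearMap.mulLeft K c)) (a : LaurentSeries Qb) := by
      ext n
      rw [lsMap_coeff, lsMap_coeff, algebraMap_laurentSeries_eq_single,
        HahnSeries.coeff_single_zero_mul]
      rfl
    rw [h1, h2]
    exact iha _

/-- Every function is a quotient of two combinations. -/
theorem exists_combs_of_mem {y : LaurentSeries Qb} (hy : y ∈ modularFunctionFieldFullC Qb N) :
    ∃ a b : ↥(modularFunctionFieldBar N), a ∈ combs K N ∧ b ∈ combs K N ∧ b ≠ 0 ∧
      y * (b : LaurentSeries Qb) = (a : LaurentSeries Qb) := by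
  rw [modularFunctionFieldFullC] at hy
  induction hy using IntermediateField.adjoin_induction with
  | mem y hy =>
    obtain ⟨d, hd, hdN, rfl⟩ := hy
    haveI := hd
    refine ⟨lev K N (jdF K N hdN), 1, lev_mem_combs K N _, one_mem_combs K N, one_ne_zero, ?_⟩
    rw [lev_jdF]
    show _ * (1 : LaurentSeries Qb) = _
    rw [mul_one]
  | algebraMap c =>
    refine ⟨algebraMap Qb _ c, 1, algebraMap_mem_combs K N c, one_mem_combs K N, one_ne_zero, ?_⟩
    show _ * (1 : LaurentSeries Qb) = _
    rw [mul_one]
    rfl
  | add x y _ _ ihx ihy =>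
    obtain ⟨a, b, ha, hb, hb0, hab⟩ := ihx
    obtain ⟨a', b', ha', hb', hb0', hab'⟩ := ihy
    refine ⟨a * b' + a' * b, b * b', Submodule.add_mem _ (mul_mem_combs K N ha hb')
      (mul_mem_combs K N ha' hb), mul_mem_combs K N hb hb', mul_ne_zero hb0 hb0', ?_⟩
    show (x + y) * ((b : LaurentSeries Qb) * (b' : LaurentSeries Qb)) =
      (a : LaurentSeries Qb) * (b' : LaurentSeries Qb) +
        (a' : LaurentSeries Qb) * (b : LaurentSeries Qb)
    rw [← hab, ← hab']
    ring
  | inv x _ ihx =>
    obtain ⟨a, b, ha, hb, hb0, hab⟩ := ihx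
    by_cases hx : x = 0
    · refine ⟨0, 1, Submodule.zero_mem _, one_mem_combs K N, one_ne_zero, ?_⟩
      rw [hx, inv_zero, zero_mul]
      rfl
    · have ha0 : a ≠ 0 := by
        rintro rfl
        have h0 : x * (b : LaurentSeries Qb) = 0 := hab
        rcases mul_eq_zero.mp h0 with h | h
        · exact hx h
        · exact hb0 (Subtype.ext h)
      refine ⟨b, a, hb, ha, ha0, ?_⟩
      rw [← hab, ← mul_assoc, inv_mul_cancel₀ hx, one_mul]
  | mul x y _ _ ihx ihy =>
    obtain ⟨a, b, ha, hb, hb0, hab⟩ := ihx
    obtain ⟨a', b', ha', hb', hb0', hab'⟩ := ihy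
    refine ⟨a * a', b * b', mul_mem_combs K N ha ha', mul_mem_combs K N hb hb',
      mul_ne_zero hb0 hb0', ?_⟩
    show (x * y) * ((b : LaurentSeries Qb) * (b' : LaurentSeries Qb)) =
      (a : LaurentSeries Qb) * (a' : LaurentSeries Qb)
    rw [← hab, ← hab']
    ring

/-- **A function on `X_0(N)_{Q̄}` all of whose `q`-expansion coefficients lie in `K` is defined
over `K`.** -/
theorem mem_range_lev_of_coeff_mem (t : ↥(modularFunctionFieldBar N))
    (ht : ∀ n : ℤ, (t : LaurentSeries Qb).coeff n ∈ (algebraMap K Qb).range) :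
    t ∈ Set.range (lev K N) := by
  classical
  -- the series over `K`
  choose cK hcK using ht
  have hinj : Function.Injective (algebraMap K Qb) := (algebraMap K Qb).injective
  have hsupp : {n : ℤ | cK n ≠ 0} = (t : LaurentSeries Qb).support := by
    ext n
    rw [Set.mem_ofPred_eq, HahnSeries.mem_support, ← hcK n, Ne, Ne, map_eq_zero_iff _ hinj]
  let tK : LaurentSeries K :=
    { coeff := cK
      isPWO_support' := by
        have : Function.support cK = (t : LaurentSeries Qb).support := hsupp
        rw [this]
        exact (t : LaurentSeries Qb).isPWO_support }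
  have htK : coeffMap (algebraMap K Qb) tK = (t : LaurentSeries Qb) := by
    ext n
    rw [coeffMap_coeff]
    exact hcK n
  obtain ⟨a, b, ha, hb, hb0, hab⟩ := exists_combs_of_mem K N
    (by rw [← bar_eq_full]; exact t.2 : (t : LaurentSeries Qb) ∈ modularFunctionFieldFullC Qb N)
  -- a coefficient of `b` which is not zero, and a functional seeing it
  have hb0' : (b : LaurentSeries Qb) ≠ 0 := fun h => hb0 (Subtype.ext h)
  obtain ⟨n, hn⟩ : ∃ n, (b : LaurentSeries Qb).coeff n ≠ 0 := by
    by_contra hcon
    push Not at hcon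
    exact hb0' (HahnSeries.ext (funext hcon))
  obtain ⟨π, hπ⟩ : ∃ π : Qb →ₗ[K] K, π ((b : LaurentSeries Qb).coeff n) ≠ 0 := by
    by_contra hcon
    push Not at hcon
    exact hn ((Module.forall_dual_apply_eq_zero_iff K _).mp hcon)
  have hπb : lsMap π (b : LaurentSeries Qb) ≠ 0 := by
    intro h0
    apply hπ
    rw [← lsMap_coeff, h0]
    rfl
  have key : tK * lsMap π (b : LaurentSeries Qb) = lsMap π (a : LaurentSeries Qb) := by
    rw [← lsMap_coeffMap_mul, htK, hab]
  have hA := lsMap_mem_of_mem_combs K N ha π
  have hB := lsMap_mem_of_mem_combs K N hb π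
  have htKmem : tK ∈ modularFunctionFieldFullC K N := by
    have : tK = lsMap π (a : LaurentSeries Qb) * (lsMap π (b : LaurentSeries Qb))⁻¹ := by
      rw [← key, mul_assoc, mul_inv_cancel₀ hπb, mul_one]
    rw [this]
    exact mul_mem hA (inv_mem hB)
  exact ⟨⟨tK, htKmem⟩, Subtype.ext htK⟩

end Main

/-- The same for a subfield `K ⊆ Q̄`, in `Lvl` language. -/
theorem mem_range_levK_of_coeff_mem (N : ℕ) [NeZero N] (K : IntermediateField ℚ Qb)
    (t : ↥(modularFunctionFieldBar N)) (ht : ∀ n : ℤ, (t : LaurentSeries Qb).coeff n ∈ K) :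
    t ∈ Set.range (levK N K) :=
  mem_range_lev_of_coeff_mem (Lvl K) N t fun n => (Lvl.mem_range_iff K).mpr (ht n)

end Fermat.Agent.S36.Descent.Rational
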