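/-
S36, leaf [LF] (helper23): **the base facts at a level `K ⊆ Q̄`, packaged once.**

This is the preamble of `P3G/Assembly/PointsFinal.levelPointsAt_mul`, stated as separate lemmas so
that every instantiation of the S36 blocks (R1 Final, BRANCH-I, ONE-I, R2-G, R3-G, CUSP, the C1
instance, N-S36, the ThreeVal instance, LevelCore) can quote them instead of re-deriving them.

Setting: `A` a valuation subring of `Q̄` over the prime `q`, `K` an intermediate field (no finiteness,
no Galois stability) such that `O_K = baseRing A K = A ∩ K` is a discrete valuation ring in which `q`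
is not a unit, with algebraically closed residue field, and containing the roots of unity of order
prime to `q` (`goodRoots A`); `M` a level prime to `q`.

* `goodBase`, `charP`, `perfectRing`;
* `star`, `smooth` (`(∗)` and `(S)` of N4 at level `M`), `isPrime_fin`, `isPrime_inf`,
  `isDedekindDomain_fin`, `isDedekindDomain_inf`;
* `redMem`, `theta_mem` (`(A2)`), `isUnit_level`;
* `nonempty_secondVal` (the second vertical valuation of level `M q`);
* `twoVal`, `semiFin`, `semiInf`, `isFractionRing_W`, `isIntegrallyClosed_W` (the pair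
  `V₁ = gaussVS`, `V₂ = S₂.V` of level `M q`, `W = V₁ ∩ V₂`).
-/
import Mathlib
import Fermat.Agent.P3G.Assembly.PointsFinal

set_option autoImplicit false
set_option linter.unusedSectionVars false
set_option linter.style.haveILetI false

open ModularCurve AlgebraicCurve IntermediateField

noncomputable section

namespace Fermat.Agent.S36.Descent.LevelFacts

open Fermat.Agent.N4.Setting Fermat.Agent.N4.Chart Fermat.Agent.N4.S18Glue Fermat.Agent.N4.BigDVR
  Fermat.Agent.P3G.Cover.Lift Fermat.Agent.P3G.Cover.OfValuations Fermat.Agent.P3G.Assembly.PowCover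
  Fermat.Agent.P3G.Assembly.LevelStep
  Fermat.Agent.P3G.Gamma Fermat.Agent.P3G.GammaAut
  Fermat.Agent.N4F.C Fermat.Agent.N4F.C.Levels Fermat.Agent.N4F.C.Galois
  Fermat.Agent.N4F.E.GaussDVR

local notation "Qbar" => AlgebraicClosure ℚ

variable {A : ValuationSubring Qbar} {q : ℕ} [hqF : Fact q.Prime] (hA : A.LiesOverPrime q)
  (K : IntermediateField ℚ Qbar) [IsDiscreteValuationRing ↥(baseRing A K)]
  (hroots : ∀ ξ ∈ goodRoots A, ξ ∈ K)
  (hnu : ¬ IsUnit ((q : ℕ) : ↥(baseRing A K)))
  (M : ℕ) [NeZero M] (hqM : ¬ q ∣ M)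

/-- `Frac O_K = K`. -/
theorem isFractionRing : IsFractionRing ↥(baseRing A K) (Lvl K) := isFractionRing_trSubring A K

include hnu hqM in
/-- The base `(K, O_K)` is good for the level `M`. -/
theorem goodBase : GoodBase (Lvl K) M (baseRing A K) q :=
  ⟨hqF.out, hqM, isFractionRing K, hnu⟩

include hnu hqM in
/-- The residue field has characteristic `q`. -/
theorem charP : CharP (IsLocalRing.ResidueField ↥(baseRing A K)) q :=
  haveI := isFractionRing (A := A) K
  Fermat.Agent.N4F.E.GaussResidue.charP_residueField (Lvl K) M (baseRing A K) (goodBase K hnu M hqM)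

include hA hroots hnu hqM in
/-- `(∗)` at level `M`: both charts have a fibre embedding. -/
theorem star : StarStatement (Lvl K) M (baseRing A K) :=
  LevelStatements.starStatement_lvl hqF.out hA K (goodBase K hnu M hqM) hroots

include hA hroots hnu hqM in
/-- `(S)` at level `M`: both special fibres are Dedekind. -/
theorem smooth [IsAlgClosed (IsLocalRing.ResidueField ↥(baseRing A K))] :
    SmoothStatement (Lvl K) M (baseRing A K) :=
  LevelStatements.smoothStatement_lvl hqF.out hA hqM K (goodBase K hnu M hqM) hroots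

include hA hroots hnu hqM in
theorem isPrime_fin :
    (fibreIdeal (Lvl K) M (baseRing A K) (Rfin (Lvl K) M (baseRing A K))).IsPrime :=
  (star hA K hroots hnu M hqM).1.isPrime

include hA hroots hnu hqM in
theorem isPrime_inf :
    (fibreIdeal (Lvl K) M (baseRing A K) (Rinf (Lvl K) M (baseRing A K))).IsPrime :=
  (star hA K hroots hnu M hqM).2.isPrime

include hA hroots hnu hqM in
theorem isDedekindDomain_fin [IsAlgClosed (IsLocalRing.ResidueField ↥(baseRing A K))] :
    IsDedekindDomain (↥(Rfin (Lvl K) M (baseRing A K)) ⧸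
      fibreIdeal (Lvl K) M (baseRing A K) (Rfin (Lvl K) M (baseRing A K))) :=
  (smooth hA K hroots hnu M hqM).1

include hA hroots hnu hqM in
theorem isDedekindDomain_inf [IsAlgClosed (IsLocalRing.ResidueField ↥(baseRing A K))] :
    IsDedekindDomain (↥(Rinf (Lvl K) M (baseRing A K)) ⧸
      fibreIdeal (Lvl K) M (baseRing A K) (Rinf (Lvl K) M (baseRing A K))) :=
  (smooth hA K hroots hnu M hqM).2

include hA hroots hnu hqM in
/-- Reduction preserves the function field of level `M`. -/
theorem redMem : PGI.RedMem (Lvl K) M (baseRing A K) := fun s hs =>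
  ChartReduction.red_mem_full (Lvl K) M (baseRing A K) (goodBase K hnu M hqM)
    (star hA K hroots hnu M hqM) s hs

include hA hroots hnu hqM in
/-- `(A2)`: the Gauss reduction of level `M` lands in the function field of level `M` over the
residue field. -/
theorem theta_mem (x : ↥(Fermat.Agent.N4.FibreEmbedding.gaussSubalgebra (Lvl K) M (baseRing A K))) :
    Fermat.Agent.N4.FibreEmbedding.theta (Lvl K) M (baseRing A K) x ∈
      modularFunctionFieldFullC (IsLocalRing.ResidueField ↥(baseRing A K)) M :=
  haveI := isFractionRing (A := A) K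
  Fermat.Agent.N4F.E.NormReduction.theta_mem_full (Lvl K) M (baseRing A K)
    (redMem hA K hroots hnu M hqM) x

include hA hqM in
/-- The level is a unit of `O_K`. -/
theorem isUnit_level : IsUnit ((M : ℕ) : ↥(baseRing A K)) :=
  Fermat.Agent.P3G.GammaUnits.isUnit_natCast_baseRing K hqF.out hA hqM

include hA hroots hnu hqM in
/-- The second vertical valuation of level `M q` exists. -/
theorem nonempty_secondVal :
    haveI := isFractionRing (A := A) K
    haveI := charP K hnu M hqM
    Nonempty (Fermat.Agent.P3G.FibreTwo.SecondVal (Lvl K) M q (baseRing A K)) :=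
  haveI := isFractionRing (A := A) K
  haveI := charP K hnu M hqM
  Fermat.Agent.P3G.FibreTwo.nonempty_secondVal (Lvl K) M q (baseRing A K)
    (Fermat.Agent.P3G.GammaV2.lvlToComplex K) hqM (isPrime_fin hA K hroots hnu M hqM)
    (theta_mem hA K hroots hnu M hqM)

/-! ### The two vertical valuations of level `M q` -/

section TwoVal

variable [IsAlgClosed (IsLocalRing.ResidueField ↥(baseRing A K))]

include hA hroots hnu hqM in
/-- `W = gaussVS ∩ S₂.V` at level `M q`: the `TwoVal` structure. -/
theorem twoVal
    (S₂ : haveI := isFractionRing (A := A) K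
      haveI := charP K hnu M hqM
      Fermat.Agent.P3G.FibreTwo.SecondVal (Lvl K) M q (baseRing A K))
    {ϖ : ↥(baseRing A K)} (hϖ : Irreducible ϖ) :
    haveI := isFractionRing (A := A) K
    haveI := charP K hnu M hqM
    TwoVal ϖ (Fermat.Agent.P3G.FibreSatBridge.W (Lvl K) M q (baseRing A K) S₂)
      (gaussVS (Lvl K) (M * q) (baseRing A K)) S₂.V :=
  haveI := isFractionRing (A := A) K
  haveI := charP K hnu M hqM
  Fermat.Agent.P3G.FibreSatBridge.twoVal (Lvl K) M q (baseRing A K)
    (Fermat.Agent.P3G.GammaV2.lvlToComplex K) hqM (isPrime_fin hA K hroots hnu M hqM)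
    (Fermat.Agent.P3G.FibreIdent.betaOut_of_secondVal (Lvl K) M q (baseRing A K) S₂) S₂ hϖ

include hA hroots hnu hqM in
/-- `W` is semi-Gauss for the finite chart of level `M q`. -/
theorem semiFin
    (S₂ : haveI := isFractionRing (A := A) K
      haveI := charP K hnu M hqM
      Fermat.Agent.P3G.FibreTwo.SecondVal (Lvl K) M q (baseRing A K))
    {ϖ : ↥(baseRing A K)} (hϖ : Irreducible ϖ) :
    haveI := isFractionRing (A := A) K
    haveI := charP K hnu M hqM
    IsSemiGaussRing (Fermat.Agent.P3G.FibreSatBridge.W (Lvl K) M q (baseRing A K) S₂)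
      (algebraMap ↥(baseRing A K) ↥(Rfin (Lvl K) (M * q) (baseRing A K)) ϖ) :=
  haveI := isFractionRing (A := A) K
  haveI := charP K hnu M hqM
  Fermat.Agent.P3G.FibreSatBridge.semiP (Lvl K) M q (baseRing A K)
    (Fermat.Agent.P3G.GammaV2.lvlToComplex K) hqM (isPrime_fin hA K hroots hnu M hqM)
    (Fermat.Agent.P3G.FibreIdent.betaOut_of_secondVal (Lvl K) M q (baseRing A K) S₂) S₂ hϖ

include hA hroots hnu hqM in
/-- `W` is semi-Gauss for the chart at infinity of level `M q`. -/
theorem semiInf
    (S₂ : haveI := isFractionRing (A := A) K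
      haveI := charP K hnu M hqM
      Fermat.Agent.P3G.FibreTwo.SecondVal (Lvl K) M q (baseRing A K))
    {ϖ : ↥(baseRing A K)} (hϖ : Irreducible ϖ) :
    haveI := isFractionRing (A := A) K
    haveI := charP K hnu M hqM
    IsSemiGaussRing (Fermat.Agent.P3G.FibreSatBridge.W (Lvl K) M q (baseRing A K) S₂)
      (algebraMap ↥(baseRing A K) ↥(Rinf (Lvl K) (M * q) (baseRing A K)) ϖ) :=
  haveI := isFractionRing (A := A) K
  haveI := charP K hnu M hqM
  Fermat.Agent.P3G.FibreSatBridge.semiM (Lvl K) M q (baseRing A K)
    (Fermat.Agent.P3G.GammaV2.lvlToComplex K) hqM (isPrime_fin hA K hroots hnu M hqM)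
    (Fermat.Agent.P3G.FibreIdent.betaOut_of_secondVal (Lvl K) M q (baseRing A K) S₂) S₂
    (isPrime_inf hA K hroots hnu M hqM) hϖ

end TwoVal

end Fermat.Agent.S36.Descent.LevelFacts
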