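import Mathlib
import Fermat.Prelude.Def_FLTPrelim_Ramification
import Fermat.Agent.N4.FrobDensity.CycloFrob

/-!
# S36 / Descent: Kummer extensions by roots of units are unramified (inertia-fixed)

`A` a valuation subring of a field `M` with residue characteristic `q` (i.e. `(q : M) ∈ 𝔪_A`),
`σ` in the inertia subgroup of `A`.  If `a ^ n = u` with `n` prime to `q`, `u` a unit of `A` fixed
by `σ`, then `σ a = a`: roots of order prime to `q` of inertia-fixed units are inertia-fixed.

* `apply_eq_of_pow_eq_of_unit` : the statement above;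
* `apply_eq_of_pow_eq_of_unit'` : the same with `u` given by membership and valuation one;
* `apply_eq_of_prime_pow` : the form used in the dévissage (`n = p ^ k`, `p ≠ q` primes);
* `apply_eq_of_mem_adjoin_root` : `σ` fixes `E(a)` pointwise as soon as it fixes `E ∋ u`.
-/

set_option autoImplicit false
set_option linter.unusedSectionVars false

open Fermat.Agent.N4.FrobDensity

namespace Fermat.Agent.S36.Descent.KummerUnram

variable {K M : Type*} [Field K] [Field M] [Algebra K M]

/-- A root of a unit of `A` is a unit of `A`. -/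
theorem valuation_eq_one_of_pow_eq (A : ValuationSubring M) {a u : M} {n : ℕ} (hn : n ≠ 0)
    (hau : a ^ n = u) (hu : A.valuation u = 1) : A.valuation a = 1 := by
  have h1 : A.valuation a ^ n = 1 := by rw [← map_pow, hau, hu]
  rcases lt_trichotomy (A.valuation a) 1 with h | h | h
  · exact absurd h1 (pow_lt_one₀ zero_le h hn).ne
  · exact h
  · exact absurd h1 (one_lt_pow₀ h hn).ne'

/-- **Roots of order prime to the residue characteristic of inertia-fixed units are
inertia-fixed.** -/
theorem apply_eq_of_pow_eq_of_unit {A : ValuationSubring M} {σ : M ≃ₐ[K] M} {q n : ℕ}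
    (hσ : σ ∈ A.inertiaSubgroupIn K) (hq : (q : M) ∈ A.nonunits) (hqn : Nat.Coprime q n)
    (hn : n ≠ 0) {a u : M} (hau : a ^ n = u) (hu : A.valuation u = 1) (hσu : σ u = u) :
    σ a = a := by
  have hva : A.valuation a = 1 := valuation_eq_one_of_pow_eq A hn hau hu
  have haA : a ∈ A := (A.valuation_le_one_iff a).mp hva.le
  have ha0 : a ≠ 0 := by
    intro h0
    rw [h0, map_zero] at hva
    exact zero_ne_one hva
  have hinvA : a⁻¹ ∈ A := by
    apply (A.valuation_le_one_iff _).mp
    rw [map_inv₀, hva, inv_one]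
  -- `ζ := σ a / a` is an `n`-th root of unity congruent to `1`
  have hζn : (σ a * a⁻¹) ^ n = 1 := by
    rw [mul_pow, ← map_pow, hau, hσu, inv_pow, hau, ← hau]
    exact mul_inv_cancel₀ (pow_ne_zero n ha0)
  have hmem : σ a - a ∈ A.nonunits := sub_mem_nonunits_of_mem_inertia hσ haA
  have hmem' : σ a * a⁻¹ - 1 ∈ A.nonunits := by
    have h1 : σ a * a⁻¹ - 1 = a⁻¹ * (σ a - a) := by
      field_simp
    rw [h1]
    exact mul_mem_nonunits A hinvA hmem
  have hζ1 : σ a * a⁻¹ = 1 :=
    eq_of_sub_mem_nonunits A hq hqn hn hζn (one_pow n) hmem'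
  have := congrArg (· * a) hζ1
  simpa [ha0] using this

/-- The same with the unit given by membership. -/
theorem apply_eq_of_pow_eq_of_unit' {A : ValuationSubring M} {σ : M ≃ₐ[K] M} {q n : ℕ}
    (hσ : σ ∈ A.inertiaSubgroupIn K) (hq : (q : M) ∈ A.nonunits) (hqn : Nat.Coprime q n)
    (hn : n ≠ 0) {a u : M} (hau : a ^ n = u) (huA : u ∈ A) (hu : u ∉ A.nonunits)
    (hσu : σ u = u) : σ a = a := by
  refine apply_eq_of_pow_eq_of_unit hσ hq hqn hn hau ?_ hσu
  exact le_antisymm ((A.valuation_le_one_iff u).mpr huA)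
    (not_lt.mp fun h => hu (A.mem_nonunits_iff.mpr h))

/-- The form used in the dévissage: `n = p ^ k` with `p ≠ q` primes. -/
theorem apply_eq_of_prime_pow {A : ValuationSubring M} {σ : M ≃ₐ[K] M} {q p : ℕ} (hqp : q.Prime)
    (hp : p.Prime) (hne : p ≠ q) (k : ℕ)
    (hσ : σ ∈ A.inertiaSubgroupIn K) (hq : (q : M) ∈ A.nonunits) {a u : M} (hau : a ^ p ^ k = u)
    (huA : u ∈ A) (hu : u ∉ A.nonunits) (hσu : σ u = u) : σ a = a := by
  have hcop : Nat.Coprime q (p ^ k) :=
    Nat.Coprime.pow_right k ((Nat.coprime_primes hqp hp).mpr (Ne.symm hne))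
  exact apply_eq_of_pow_eq_of_unit' hσ hq hcop (pow_ne_zero k hp.ne_zero) hau huA hu hσu

/-- If `σ` (in the inertia group) fixes the intermediate field `E` pointwise and `a ^ n ∈ E` is a
unit of `A`, `n` prime to the residue characteristic, then `σ` fixes `E(a)` pointwise. -/
theorem apply_eq_of_mem_adjoin_root {A : ValuationSubring M} {σ : M ≃ₐ[K] M} {q n : ℕ}
    (hσ : σ ∈ A.inertiaSubgroupIn K) (hq : (q : M) ∈ A.nonunits) (hqn : Nat.Coprime q n)
    (hn : n ≠ 0) (E : IntermediateField K M) (hE : ∀ x ∈ E, σ x = x) {a : M} (haE : a ^ n ∈ E)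
    (huA : a ^ n ∈ A) (hu : a ^ n ∉ A.nonunits) {x : M}
    (hx : x ∈ IntermediateField.adjoin K ((E : Set M) ∪ {a})) : σ x = x := by
  let Fx : IntermediateField K M :=
    { carrier := {y | σ y = y}
      mul_mem' := fun {a b} ha hb => by
        show σ (a * b) = a * b
        rw [map_mul, ha, hb]
      one_mem' := map_one σ
      add_mem' := fun {a b} ha hb => by
        show σ (a + b) = a + b
        rw [map_add, ha, hb]
      zero_mem' := map_zero σ
      algebraMap_mem' := fun r => σ.commutes r
      inv_mem' := fun a ha => by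
        show σ a⁻¹ = a⁻¹
        rw [map_inv₀, ha] }
  have h1 : IntermediateField.adjoin K ((E : Set M) ∪ {a}) ≤ Fx := by
    rw [IntermediateField.adjoin_le_iff]
    rintro y (hy | hy)
    · exact hE y hy
    · rw [Set.mem_singleton_iff] at hy
      rw [hy]
      exact apply_eq_of_pow_eq_of_unit' hσ hq hqn hn rfl huA hu (hE _ haE)
  exact h1 hx

end Fermat.Agent.S36.Descent.KummerUnram
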