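import Mathlib
import Fermat.Prelude.Def_FLTPrelim_Ramification
import Fermat.Agent.N4.BigDVR
import Fermat.Agent.S13.InertiaLift

/-!
# S36 / Descent-U: the inertia field is unramified

For a valuation subring `A` of `ℚ̄` lying over the prime `q` and a finite extension `E ⊆ ℚ̄` of `ℚ`
on which the (prelude) inertia subgroup `A.inertiaSubgroupIn ℚ` acts trivially, the prime `q` is a
uniformiser of `A ∩ E`:

* `ramificationIdx_under_inertiaFld` : in a Galois number field `L/ℚ`, the prime of the inertia field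
  of `P` below `P` has ramification index one over `ℤ` (Hilbert theory, via Mathlib's
  `Ideal.card_inertia_eq_ramificationIdxIn` twice and the tower formula);
* `mul_inv_mem_of_ramificationIdx_eq_one` : translation to valuation subrings through
  `BigDVR.isLocalization_atPrime_centre`;
* `mul_inv_mem_of_inertia_fixed` : the element form `x ∈ E ∩ 𝔪_A → x / q ∈ A`;
* `irreducible_natCast_trSubring_of_inertia_fixed` : `Irreducible (q : A ∩ E)`.
-/

open scoped NumberField Pointwise

set_option autoImplicit false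
set_option linter.unusedSectionVars false
set_option linter.style.haveILetI false

namespace Fermat.Agent.S36.Descent.UnramFixed

open Fermat.Agent.N4.BigDVR

section NumberFieldPart

variable (L : Type*) [Field L] [NumberField L] [IsGalois ℚ L] (P : Ideal (𝓞 L)) [P.IsPrime]

/-- The inertia field of `P` in `L/ℚ`. -/
noncomputable abbrev inertiaFld : IntermediateField ℚ L :=
  FixedPoints.intermediateField (P.inertia Gal(L/ℚ))

/-- **The inertia field is unramified**: the prime of the inertia field below `P` has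
ramification index one over `ℤ`. -/
theorem ramificationIdx_under_inertiaFld :
    (P.under (𝓞 (inertiaFld L P))).ramificationIdx ℤ = 1 := by
  set H := P.inertia Gal(L/ℚ) with hH
  set T := inertiaFld L P with hT
  set PT := P.under (𝓞 T) with hPT
  haveI : IsGaloisGroup H (𝓞 T) (𝓞 L) := IsGaloisGroup.of_isFractionRing H (𝓞 T) (𝓞 L) T L
  have htop : P.inertia H = ⊤ := by
    ext σ
    simp only [Subgroup.mem_top, iff_true]
    exact AddSubgroup.coe_mem_inertia.mp σ.2
  have h1 : Nat.card H = (P.under ℤ).ramificationIdxIn (𝓞 L) :=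
    Ideal.card_inertia_eq_ramificationIdxIn (P.under ℤ) P
  have h2 : Nat.card (P.inertia H) = PT.ramificationIdxIn (𝓞 L) :=
    Ideal.card_inertia_eq_ramificationIdxIn PT P
  rw [htop, Subgroup.card_top] at h2
  rw [Ideal.ramificationIdxIn_eq_ramificationIdx (P.under ℤ) P Gal(L/ℚ)] at h1
  rw [Ideal.ramificationIdxIn_eq_ramificationIdx PT P H] at h2
  have h3 := Ideal.ramificationIdx_tower (R := ℤ) PT P
  rw [← h1, ← h2] at h3
  have hpos : 0 < Nat.card H := Nat.card_pos
  have : PT.ramificationIdx ℤ * Nat.card H = 1 * Nat.card H := by rw [one_mul]; exact h3.symm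
  exact Nat.eq_of_mul_eq_mul_right hpos this

end NumberFieldPart

section Translate

variable {Ω : Type*} [Field Ω] [CharZero Ω] (𝔸 : ValuationSubring Ω)
variable (K : Type*) [Field K] [NumberField K] [Algebra K Ω]

/-- The ring of integers of a number field lies in the trace of any valuation subring. -/
theorem ringOfIntegers_mem_tr (d : 𝓞 K) : algebraMap (𝓞 K) K d ∈ tr 𝔸 K := by
  rw [mem_tr_iff]
  refine mem_of_isIntegral 𝔸 (R := ℤ) (fun n => ?_)
    ((NumberField.RingOfIntegers.isIntegral_coe d).map ((algebraMap K Ω).toIntAlgHom))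
  rw [eq_intCast]
  exact intCast_mem 𝔸 n

/-- The prime of `𝓞 K` cut out by `𝔸`. -/
noncomputable abbrev centreK : Ideal (𝓞 K) := centre (tr 𝔸 K) (ringOfIntegers_mem_tr 𝔸 K)

theorem mem_centreK_iff (d : 𝓞 K) :
    d ∈ centreK 𝔸 K ↔ algebraMap K Ω (algebraMap (𝓞 K) K d) ∈ 𝔸.nonunits := by
  rw [mem_centre_iff, mem_tr_nonunits_iff]

/-- If the centre of `𝔸` on `𝓞 K` is unramified over the prime number `q`, then `q` generates the
maximal ideal of `𝔸 ∩ K`: every nonunit of `𝔸` lying in `K` is divisible by `q` in `𝔸`. -/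
theorem mul_inv_mem_of_ramificationIdx_eq_one {q : ℕ} (hq : q.Prime)
    (hqA : (q : Ω) ∈ 𝔸.nonunits) (hram : (centreK 𝔸 K).ramificationIdx ℤ = 1)
    {x : K} (hx : algebraMap K Ω x ∈ 𝔸.nonunits) : algebraMap K Ω x * (q : Ω)⁻¹ ∈ 𝔸 := by
  classical
  set V := tr 𝔸 K with hV
  have hDV := ringOfIntegers_mem_tr 𝔸 K
  set PK : Ideal (𝓞 K) := centreK 𝔸 K with hPK
  have hqPK : ((q : ℕ) : 𝓞 K) ∈ PK := by
    rw [hPK, mem_centreK_iff, map_natCast, map_natCast]
    exact hqA
  have hne : PK ≠ ⊥ := by
    intro h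
    rw [h, Ideal.mem_bot] at hqPK
    exact hq.ne_zero (Nat.cast_eq_zero.mp hqPK)
  -- the prime below
  have hunder : PK.under ℤ = Ideal.span {(q : ℤ)} := by
    have hqZ : Prime (q : ℤ) := Nat.prime_iff_prime_int.mp hq
    have hmax : (Ideal.span {(q : ℤ)}).IsMaximal :=
      PrincipalIdealRing.isMaximal_of_irreducible hqZ.irreducible
    refine (hmax.eq_of_le (Ideal.IsPrime.ne_top inferInstance) ?_).symm
    rw [Ideal.span_singleton_le_iff_mem, Ideal.under_def, Ideal.mem_comap]
    simpa using hqPK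
  -- ramification index one: `q` generates the maximal ideal of the localisation
  have h := hram
  rw [Ideal.ramificationIdx_def, ENat.toNat_eq_iff_eq_natCast, Nat.cast_one,
    Module.length_eq_one_iff, isSimpleModule_iff_isCoatom, ← Ideal.isMaximal_def,
    IsLocalRing.isMaximal_iff] at h
  -- transport to `V`
  letI := (toV V hDV).toAlgebra
  haveI : IsLocalization.AtPrime V PK := isLocalization_atPrime_centre V hDV hne
  let e : Localization.AtPrime PK ≃ₐ[𝓞 K] V := IsLocalization.algEquiv PK.primeCompl _ _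
  have h2 := congrArg (Ideal.map (e : Localization.AtPrime PK →+* V)) h
  rw [Ideal.map_map, ← Localization.AtPrime.map_eq_maximalIdeal, Ideal.map_map] at h2
  have e1 : ((e : Localization.AtPrime PK →+* V).comp (algebraMap ℤ (Localization.AtPrime PK))) =
      algebraMap ℤ V := Subsingleton.elim _ _
  have e2 : ((e : Localization.AtPrime PK →+* V).comp (algebraMap (𝓞 K) (Localization.AtPrime PK))) =
      algebraMap (𝓞 K) V := by
    ext d
    exact congrArg Subtype.val (e.commutes d)
  rw [e1, e2, IsLocalization.AtPrime.map_eq_maximalIdeal PK V, hunder, Ideal.map_span,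
    Set.image_singleton] at h2
  have hxV : x ∈ V := by
    rw [hV, mem_tr_iff]
    exact 𝔸.nonunits_le hx
  have hxmem : (⟨x, hxV⟩ : V) ∈ IsLocalRing.maximalIdeal V := by
    rw [← ValuationSubring.coe_mem_nonunits_iff]
    exact (mem_tr_nonunits_iff 𝔸 K).mpr hx
  rw [← h2, Ideal.mem_span_singleton'] at hxmem
  obtain ⟨v, hv⟩ := hxmem
  have hv' : (v : K) * (q : K) = x := by
    have := congrArg Subtype.val hv
    simpa using this
  have hq0 : (q : Ω) ≠ 0 := Nat.cast_ne_zero.mpr hq.ne_zero
  have : algebraMap K Ω x * (q : Ω)⁻¹ = algebraMap K Ω (v : K) := by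
    rw [← hv', map_mul, map_natCast, mul_assoc, mul_inv_cancel₀ hq0, mul_one]
  rw [this]
  exact (mem_tr_iff 𝔸 K).mp v.2

end Translate

section Main

local notation "Qbar" => AlgebraicClosure ℚ
local notation "Γ" => (AlgebraicClosure ℚ ≃ₐ[ℚ] AlgebraicClosure ℚ)

local instance isAlgebraicQbar_S36U : Algebra.IsAlgebraic ℚ (AlgebraicClosure ℚ) :=
  AlgebraicClosure.isAlgebraic ℚ
local instance isAlgClosureQbar_S36U : IsAlgClosure ℚ (AlgebraicClosure ℚ) :=
  ⟨inferInstance, inferInstance⟩
local instance normalQbar_S36U : Normal ℚ (AlgebraicClosure ℚ) :=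
  IsAlgClosure.normal ℚ (AlgebraicClosure ℚ)

/-- **Element form.** If the inertia subgroup of `A` fixes the finite extension `E` pointwise, every
nonunit of `A` lying in `E` is divisible by `q` in `A`. -/
theorem mul_inv_mem_of_inertia_fixed (A : ValuationSubring Qbar) {q : ℕ} (hq : q.Prime)
    (hA : A.LiesOverPrime q) (E : IntermediateField ℚ Qbar) [FiniteDimensional ℚ E]
    (hE : ∀ σ ∈ A.inertiaSubgroupIn ℚ, ∀ x ∈ E, σ x = x) {x : Qbar} (hxE : x ∈ E)
    (hx : x ∈ A.nonunits) : x * (q : Qbar)⁻¹ ∈ A := by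
  classical
  set L : IntermediateField ℚ Qbar := IntermediateField.normalClosure ℚ E Qbar with hL
  haveI : FiniteDimensional ℚ L := normalClosure.is_finiteDimensional ℚ E Qbar
  haveI : IsGalois ℚ L := IsGalois.normalClosure ℚ E Qbar
  haveI : NumberField L := { to_charZero := inferInstance, to_finiteDimensional := inferInstance }
  have hEL : E ≤ L := IntermediateField.le_normalClosure E
  have hqA : (q : Qbar) ∈ A.nonunits := hA
  set P : Ideal (𝓞 L) := centreK A L with hP
  set T : IntermediateField ℚ L := inertiaFld L P with hT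
  have hcentre : centreK A T = P.under (𝓞 T) := by
    ext d
    rw [mem_centreK_iff, Ideal.under_def, Ideal.mem_comap, hP, mem_centreK_iff]
    rfl
  have hram : (centreK A T).ramificationIdx ℤ = 1 := by
    rw [hcentre]
    exact ramificationIdx_under_inertiaFld L P
  have hxL : x ∈ L := hEL hxE
  have hxT : (⟨x, hxL⟩ : L) ∈ T := by
    rw [hT, FixedPoints.mem_intermediateField_iff]
    rintro ⟨g, hg⟩
    obtain ⟨τ, rfl⟩ := AlgEquiv.restrictNormalHom_surjective (F := ℚ) (K₁ := L) Qbar g
    have hτK : ∀ y : L, τ (y : Qbar) = ((AlgEquiv.restrictNormalHom L τ) y : Qbar) := fun y =>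
      (AlgEquiv.restrictNormal_commutes τ L y).symm
    obtain ⟨σ, hσ, hσK⟩ :=
      Fermat.Agent.S13.InertiaLift.exists_mem_inertiaSubgroupIn_forall_eq L A hq hqA τ (by
        intro b hb hbL
        have hbL' : IsIntegral ℤ (⟨b, hbL⟩ : L) := by
          refine (isIntegral_algHom_iff (IsScalarTower.toAlgHom ℤ L Qbar)
            (algebraMap L Qbar).injective).mp ?_
          exact hb
        let y : 𝓞 L := ⟨⟨b, hbL⟩, hbL'⟩
        have h1 := (mem_centreK_iff A L _).mp (hg y)
        have h2 : (algebraMap (𝓞 L) L ((AlgEquiv.restrictNormalHom L τ) • y - y)) =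
            (AlgEquiv.restrictNormalHom L τ) (⟨b, hbL⟩ : L) - ⟨b, hbL⟩ := rfl
        rw [h2] at h1
        have h3 := hτK ⟨b, hbL⟩
        simp only at h3
        rw [h3]
        exact_mod_cast h1)
    apply Subtype.ext
    show ((AlgEquiv.restrictNormalHom L τ) (⟨x, hxL⟩ : L) : Qbar) = x
    rw [← hτK ⟨x, hxL⟩]
    show τ x = x
    rw [← hσK x hxL]
    exact hE σ hσ x hxE
  exact mul_inv_mem_of_ramificationIdx_eq_one A T hq hqA hram (x := ⟨⟨x, hxL⟩, hxT⟩) hx

/-- In a domain, a nonzero nonunit dividing every nonunit is irreducible. -/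
theorem irreducible_of_forall_dvd {R : Type*} [CommRing R] [IsDomain R] {π : R} (hπ : ¬ IsUnit π)
    (hπ0 : π ≠ 0) (h : ∀ a : R, ¬ IsUnit a → π ∣ a) : Irreducible π := by
  refine irreducible_iff.mpr ⟨hπ, fun a b hab => ?_⟩
  by_contra hcon
  push Not at hcon
  obtain ⟨c, rfl⟩ := h a hcon.1
  have h1 : π * 1 = π * (c * b) := by rw [mul_one, ← mul_assoc]; exact hab
  have h2 : 1 = c * b := mul_left_cancel₀ hπ0 h1
  exact hcon.2 (IsUnit.of_mul_eq_one c (by rw [mul_comm]; exact h2.symm))

/-- **The inertia field is unramified** (`trSubring` form): if the inertia subgroup of `A` (over the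
prime `q`) fixes the finite extension `E ⊆ ℚ̄` pointwise, then `q` is a uniformiser of `A ∩ E`. -/
theorem irreducible_natCast_trSubring_of_inertia_fixed (A : ValuationSubring Qbar) {q : ℕ}
    (hq : q.Prime) (hA : A.LiesOverPrime q) (E : IntermediateField ℚ Qbar) [FiniteDimensional ℚ E]
    (hE : ∀ σ ∈ A.inertiaSubgroupIn ℚ, ∀ x ∈ E, σ x = x) :
    Irreducible ((q : ℕ) : ↥(trSubring A E)) := by
  have hqA : (q : Qbar) ∈ A.nonunits := hA
  have hq0 : (q : Qbar) ≠ 0 := Nat.cast_ne_zero.mpr hq.ne_zero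
  have hq0E : (q : ↥E) ≠ 0 := Nat.cast_ne_zero.mpr hq.ne_zero
  -- membership in `trSubring`
  have hmem : ∀ z : ↥E, z ∈ trSubring A E ↔ (z : Qbar) ∈ A := fun z => mem_tr_iff A ↥E
  refine irreducible_of_forall_dvd ?_ ?_ ?_
  · intro hu
    obtain ⟨u, hu⟩ := hu
    have h1 : ((u⁻¹ : (↥(trSubring A E))ˣ) : ↥(trSubring A E)) * ((q : ℕ) : ↥(trSubring A E)) = 1 := by
      rw [← hu]; exact u.inv_mul
    have h2 : (((u⁻¹ : (↥(trSubring A E))ˣ) : ↥(trSubring A E)) : ↥E) * (q : ↥E) = 1 := by
      have := congrArg Subtype.val h1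
      simpa using this
    have h3 : ((((u⁻¹ : (↥(trSubring A E))ˣ) : ↥(trSubring A E)) : ↥E) : Qbar) * (q : Qbar) = 1 := by
      have := congrArg (fun z : ↥E => (z : Qbar)) h2
      simpa using this
    have h4 : ((((u⁻¹ : (↥(trSubring A E))ˣ) : ↥(trSubring A E)) : ↥E) : Qbar) ∈ A :=
      (hmem _).mp (Subtype.property _)
    have h5 : A.valuation (q : Qbar) < 1 := A.mem_nonunits_iff.mp hqA
    have h6 := congrArg A.valuation h3
    rw [mul_comm, map_mul, map_one] at h6
    have h7 : A.valuation ((((u⁻¹ : (↥(trSubring A E))ˣ) : ↥(trSubring A E)) : ↥E) : Qbar) ≤ 1 :=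
      (A.valuation_le_one_iff _).mpr h4
    have h8 := mul_lt_one_of_lt_of_le h5 h7
    rw [h6] at h8
    exact lt_irrefl _ h8
  · intro h0
    have := congrArg Subtype.val h0
    exact hq0E (by simpa using this)
  · intro a ha
    -- `a` is a nonunit of `A`
    have haA : ((a : ↥E) : Qbar) ∈ A := (hmem _).mp a.2
    have hanon : ((a : ↥E) : Qbar) ∈ A.nonunits := by
      by_contra hcon
      apply ha
      have hv : A.valuation ((a : ↥E) : Qbar) = 1 :=
        le_antisymm ((A.valuation_le_one_iff _).mpr haA)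
          (not_lt.mp fun h => hcon (A.mem_nonunits_iff.mpr h))
      have ha0 : (a : ↥E) ≠ 0 := by
        intro h0
        rw [h0] at hv
        simp at hv
      have hinv : ((a : ↥E))⁻¹ ∈ trSubring A E := by
        rw [hmem]
        apply A.mem_of_valuation_le_one
        push_cast
        rw [map_inv₀, hv, inv_one]
      refine IsUnit.of_mul_eq_one ⟨(a : ↥E)⁻¹, hinv⟩ (Subtype.ext ?_)
      show (a : ↥E) * (a : ↥E)⁻¹ = 1
      exact mul_inv_cancel₀ ha0
    have hdiv := mul_inv_mem_of_inertia_fixed A hq hA E hE (a : ↥E).2 hanon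
    have hc : (a : ↥E) * (q : ↥E)⁻¹ ∈ trSubring A E := by
      rw [hmem]
      push_cast
      exact hdiv
    refine ⟨⟨(a : ↥E) * (q : ↥E)⁻¹, hc⟩, Subtype.ext ?_⟩
    show (a : ↥E) = (q : ↥E) * ((a : ↥E) * (q : ↥E)⁻¹)
    field_simp

end Main

end Fermat.Agent.S36.Descent.UnramFixed
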