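import Mathlib
import Fermat.Prelude.Def_FLTPrelim_Ramification
import Fermat.Agent.P3G.Gamma
import Fermat.Agent.S36.Descent.UnramFixedCore

/-!
# S36 / Descent: unramified levels exist above every inertia-fixed number field

`A ⊂ ℚ̄` a valuation subring over the prime `q`, `I_A = A.inertiaSubgroupIn ℚ`.  If `I_A` fixes the
number field `E ⊆ ℚ̄` pointwise, then the level `bigLevel A E = E(μ_m : m ∈ Aˣ)` is again fixed by
`I_A`, `A ∩ bigLevel A E` is a discrete valuation ring with UNIFORMISER `q`, algebraically closed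
residue field, equal to the residue field of `A`.

* `apply_eq_of_mem_bigLevel` : `I_A` fixes `bigLevel A E` pointwise;
* `irreducible_natCast_bigLevel` : `q` is irreducible in `A ∩ bigLevel A E`;
* `bigLevel_unramified` : the bundle (all fields of the consumer structure `IsUnramLevel`);
* `exists_unramified_level` : existence form, above any inertia-fixed number field.
-/

set_option autoImplicit false
set_option linter.style.haveILetI false
set_option linter.unusedSectionVars false

open Fermat.Agent.N4.BigDVR Fermat.Agent.P3G.Gamma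

namespace Fermat.Agent.S36.Descent.UnramBigLevel

open Fermat.Agent.S36.Descent.UnramFixed

local notation "Qbar" => AlgebraicClosure ℚ
local notation "Γ" => (AlgebraicClosure ℚ ≃ₐ[ℚ] AlgebraicClosure ℚ)

variable {A : ValuationSubring Qbar}

/-- **The inertia group fixes the level above an inertia-fixed field pointwise.** -/
theorem apply_eq_of_mem_bigLevel {q : ℕ} (hq : q.Prime) (hA : A.LiesOverPrime q)
    (E : IntermediateField ℚ Qbar) (hE : ∀ σ ∈ A.inertiaSubgroupIn ℚ, ∀ x ∈ E, σ x = x) {σ : Γ}
    (hσ : σ ∈ A.inertiaSubgroupIn ℚ) {x : Qbar} (hx : x ∈ bigLevel A E) : σ x = x := by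
  rw [bigLevel_eq_adjoin] at hx
  let Fx : IntermediateField ℚ Qbar :=
    { carrier := {y | σ y = y}
      mul_mem' := fun {a b} ha hb => by
        show σ (a * b) = a * b
        rw [map_mul, ha, hb]
      one_mem' := map_one σ
      add_mem' := fun {a b} ha hb => by
        show σ (a + b) = a + b
        rw [map_add, ha, hb]
      zero_mem' := map_zero σ
      algebraMap_mem' := fun r => σ.commutes r
      inv_mem' := fun a ha => by
        show σ a⁻¹ = a⁻¹
        rw [map_inv₀, ha] }
  have h1 : IntermediateField.adjoin ℚ ((E : Set Qbar) ∪ goodRoots A) ≤ Fx := by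
    rw [IntermediateField.adjoin_le_iff]
    rintro y (hy | hy)
    · exact hE σ hσ y hy
    · exact apply_goodRoot_of_mem_inertia hq hA hσ hy
  exact h1 hx

/-- **`q` stays a uniformiser at the level above an inertia-fixed number field.** -/
theorem irreducible_natCast_bigLevel {q : ℕ} (hq : q.Prime) (hA : A.LiesOverPrime q)
    (E : IntermediateField ℚ Qbar) [FiniteDimensional ℚ E]
    (hE : ∀ σ ∈ A.inertiaSubgroupIn ℚ, ∀ x ∈ E, σ x = x) :
    Irreducible ((q : ℕ) : ↥(trSubring A (bigLevel A E))) := by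
  classical
  have hqA : ((q : ℕ) : Qbar) ∈ A.nonunits := hA
  haveI : NumberField E := ⟨⟩
  haveI hDVR₁ : IsDiscreteValuationRing (tr A E) :=
    isDiscreteValuationRing_tr_of_numberField A E hq.ne_zero hqA
  have hirr : Irreducible ((q : ℕ) : ↥(trSubring A E)) :=
    irreducible_natCast_trSubring_of_inertia_fixed A hq hA E hE
  have hqmem : ((q : ℕ) : ↥E) ∈ tr A E := ((q : ℕ) : ↥(trSubring A E)).2
  have hirr' : Irreducible (⟨((q : ℕ) : ↥E), hqmem⟩ : tr A E) := hirr
  obtain ⟨-, h, hI⟩ := bigField_dvr A E hqmem hirr'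
  have heq : (⟨algebraMap ↥E ↥(bigField A E) ((q : ℕ) : ↥E), h⟩ : tr A (bigField A E)) =
      ((q : ℕ) : tr A (bigField A E)) := by
    apply Subtype.ext
    simp
  rw [heq] at hI
  exact hI

/-- **Unramified levels** (bundle): all the fields of the consumer structure `IsUnramLevel A q K`
for `K = bigLevel A E`, `E` a number field fixed by the inertia group. -/
theorem bigLevel_unramified {q : ℕ} (hq : q.Prime) (hA : A.LiesOverPrime q)
    (E : IntermediateField ℚ Qbar) [FiniteDimensional ℚ E]
    (hE : ∀ σ ∈ A.inertiaSubgroupIn ℚ, ∀ x ∈ E, σ x = x) :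
    (∀ σ ∈ A.inertiaSubgroupIn ℚ, ∀ x ∈ bigLevel A E, σ x = x) ∧
      K0 A ≤ bigLevel A E ∧
      (∀ ξ ∈ goodRoots A, ξ ∈ bigLevel A E) ∧
      IsDiscreteValuationRing ↥(trSubring A (bigLevel A E)) ∧
      Irreducible ((q : ℕ) : ↥(trSubring A (bigLevel A E))) ∧
      IsAlgClosed (IsLocalRing.ResidueField (tr A (bigLevel A E))) ∧
      Function.Bijective (IsLocalRing.ResidueField.map (trIncl A (bigLevel A E))) := by
  obtain ⟨h1, -, h3, h4⟩ := bigLevel_spec hq hA E
  exact ⟨fun σ hσ x hx => apply_eq_of_mem_bigLevel hq hA E hE hσ hx, K0_le_bigLevel A E,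
    goodRoots_subset_bigLevel A E, h1, irreducible_natCast_bigLevel hq hA E hE, h3, h4⟩

/-- **Existence of unramified levels** above any inertia-fixed number field. -/
theorem exists_unramified_level {q : ℕ} (hq : q.Prime) (hA : A.LiesOverPrime q)
    (E : IntermediateField ℚ Qbar) [FiniteDimensional ℚ E]
    (hE : ∀ σ ∈ A.inertiaSubgroupIn ℚ, ∀ x ∈ E, σ x = x) :
    ∃ K : IntermediateField ℚ Qbar, E ≤ K ∧
      (∀ σ ∈ A.inertiaSubgroupIn ℚ, ∀ x ∈ K, σ x = x) ∧ K0 A ≤ K ∧
      (∀ ξ ∈ goodRoots A, ξ ∈ K) ∧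
      IsDiscreteValuationRing ↥(trSubring A K) ∧
      Irreducible ((q : ℕ) : ↥(trSubring A K)) ∧
      IsAlgClosed (IsLocalRing.ResidueField (tr A K)) ∧
      Function.Bijective (IsLocalRing.ResidueField.map (trIncl A K)) :=
  ⟨bigLevel A E, le_bigLevel A E, bigLevel_unramified hq hA E hE⟩

end Fermat.Agent.S36.Descent.UnramBigLevel
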