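import Mathlib
import Fermat.Prelude.Def_FLTPrelim_Ramification
import Fermat.Agent.N4F.C.Rationality
import Fermat.Agent.S36.Descent.UnramFixedCore

/-!
# S36 / Descent-U: the inertia field is unramified (`baseRing` form)

`irreducible_natCast_of_inertia_fixed` : for a valuation subring `A` of `ℚ̄` over the prime `q` and a
finite extension `E ⊆ ℚ̄` of `ℚ` fixed pointwise by `A.inertiaSubgroupIn ℚ`, the prime `q` is
irreducible (a uniformiser) in `baseRing A E = A ∩ E`.  Proof in `UnramFixedCore`.
-/

set_option autoImplicit false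

namespace Fermat.Agent.S36.Descent.UnramFixed

open Fermat.Agent.N4F.C.Levels

local notation "Qbar" => AlgebraicClosure ℚ

/-- **The inertia field is unramified** (`baseRing` form). -/
theorem irreducible_natCast_of_inertia_fixed (A : ValuationSubring Qbar) {q : ℕ} (hq : q.Prime)
    (hA : A.LiesOverPrime q) (E : IntermediateField ℚ Qbar) [FiniteDimensional ℚ E]
    (hE : ∀ σ ∈ A.inertiaSubgroupIn ℚ, ∀ x ∈ E, σ x = x) :
    Irreducible ((q : ℕ) : ↥(baseRing A E)) :=
  irreducible_natCast_trSubring_of_inertia_fixed A hq hA E hE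

/-- Element form: every nonunit of `A` lying in `E` is divisible by `q` in `A`. -/
theorem mul_inv_mem_of_inertia_fixed' (A : ValuationSubring Qbar) {q : ℕ} (hq : q.Prime)
    (hA : A.LiesOverPrime q) (E : IntermediateField ℚ Qbar) [FiniteDimensional ℚ E]
    (hE : ∀ σ ∈ A.inertiaSubgroupIn ℚ, ∀ x ∈ E, σ x = x) :
    ∀ x ∈ E, x ∈ A.nonunits → x * (q : Qbar)⁻¹ ∈ A :=
  fun _ hxE hx => mul_inv_mem_of_inertia_fixed A hq hA E hE hxE hx

end Fermat.Agent.S36.Descent.UnramFixed
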