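/-
S36, block [Descent] (helper19): **UNRAMIFIED LEVELS and the maximal one.**

`A ⊂ Q̄` a valuation subring over the prime `q`, `I_A = A.inertiaSubgroupIn ℚ`.

* `IsUnramLevel A q K` : the levels `K ⊆ Q̄` at which the geometric spine of S36 works: `K` is
  fixed pointwise by `I_A`, contains the unramified base level `K0 A` (all roots of unity of order
  prime to `q`), `O_K = A ∩ K` is a discrete valuation ring with UNIFORMISER `q`, algebraically
  closed residue field, equal to the residue field of `A`;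
* `isUnramLevel_of_le` : EVERY field `K0 A ≤ K ≤ Kmax A` is an unramified level;
* `Kmax A` : the fixed field of `I_A`; `isUnramLevel_Kmax`; `isUnramLevel_bigLevel`;
* `exists_eq_pow_mul_unit` : every nonzero `x ∈ Kmax A` is `q ^ n · u`, `n : ℤ`, `u` a unit of `A`
  (in `Kmax A`);
* `mem_Kmax_of_pow_eq` : `Kmax A` is closed under roots of order prime to `q` of units of `A`.
-/
import Mathlib
import Fermat.Prelude.Def_FLTPrelim_Ramification
import Fermat.Agent.N4F.C.Rationality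
import Fermat.Agent.P3G.Gamma
import Fermat.Agent.S36.Descent.UnramFixed
import Fermat.Agent.S36.Descent.UnramBigLevel
import Fermat.Agent.S36.Descent.KummerUnram

set_option autoImplicit false
set_option linter.unusedSectionVars false
set_option linter.style.haveILetI false

open Fermat.Agent.N4.BigDVR Fermat.Agent.P3G.Gamma Fermat.Agent.N4F.C.Levels

noncomputable section

namespace Fermat.Agent.S36.Descent.UnramLevel

local notation "Qbar" => AlgebraicClosure ℚ
local notation "Γ" => (AlgebraicClosure ℚ ≃ₐ[ℚ] AlgebraicClosure ℚ)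

/-- **Unramified levels.** -/
structure IsUnramLevel (A : ValuationSubring Qbar) (q : ℕ) (K : IntermediateField ℚ Qbar) :
    Prop where
  fixed : ∀ σ ∈ A.inertiaSubgroupIn ℚ, ∀ x ∈ K, σ x = x
  K0_le : K0 A ≤ K
  dvr : IsDiscreteValuationRing ↥(baseRing A K)
  irred : Irreducible ((q : ℕ) : ↥(baseRing A K))
  algClosed : IsAlgClosed (IsLocalRing.ResidueField (tr A K))
  bij : Function.Bijective (IsLocalRing.ResidueField.map (trIncl A K))

variable {A : ValuationSubring Qbar}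

/-- An unramified level contains the roots of unity of order prime to `q`. -/
theorem IsUnramLevel.roots {q : ℕ} {K : IntermediateField ℚ Qbar} (h : IsUnramLevel A q K) :
    ∀ ξ ∈ goodRoots A, ξ ∈ K := fun ξ hξ => by
  apply h.K0_le
  rw [K0_eq_adjoin]
  exact IntermediateField.subset_adjoin ℚ _ hξ

/-- The level above a number field fixed by the inertia group is unramified (helper7). -/
theorem isUnramLevel_bigLevel {q : ℕ} (hq : q.Prime) (hA : A.LiesOverPrime q)
    (E : IntermediateField ℚ Qbar) [FiniteDimensional ℚ E]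
    (hE : ∀ σ ∈ A.inertiaSubgroupIn ℚ, ∀ x ∈ E, σ x = x) : IsUnramLevel A q (bigLevel A E) := by
  obtain ⟨h1, h2, -, h4, h5, h6, h7⟩ := UnramBigLevel.bigLevel_unramified hq hA E hE
  exact ⟨h1, h2, h4, h5, h6, h7⟩

/-! ### The maximal unramified level -/

variable (A)

/-- **The maximal unramified level**: the fixed field of the inertia group. -/
def Kmax : IntermediateField ℚ Qbar := IntermediateField.fixedField (A.inertiaSubgroupIn ℚ)

variable {A}

theorem mem_Kmax_iff {x : Qbar} : x ∈ Kmax A ↔ ∀ σ ∈ A.inertiaSubgroupIn ℚ, σ x = x :=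
  IntermediateField.mem_fixedField_iff _ x

theorem apply_eq_of_mem_Kmax {x : Qbar} (hx : x ∈ Kmax A) {σ : Γ}
    (hσ : σ ∈ A.inertiaSubgroupIn ℚ) : σ x = x := mem_Kmax_iff.mp hx σ hσ

theorem K0_le_Kmax {q : ℕ} (hq : q.Prime) (hA : A.LiesOverPrime q) : K0 A ≤ Kmax A :=
  fun _ hx => mem_Kmax_iff.mpr fun _ hσ => apply_eq_of_mem_K0 hq hA hσ hx

/-- The number field generated by an element of `Kmax A` is fixed by the inertia group. -/
theorem adjoin_le_Kmax {x : Qbar} (hx : x ∈ Kmax A) : IntermediateField.adjoin ℚ {x} ≤ Kmax A := by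
  rw [IntermediateField.adjoin_le_iff]
  rintro y rfl
  exact hx

local instance isAlgebraicQb_UL : Algebra.IsAlgebraic ℚ (AlgebraicClosure ℚ) :=
  AlgebraicClosure.isAlgebraic ℚ

/-- A nonunit of `A` fixed by the inertia group is divisible by `q` in `A`. -/
theorem mul_inv_mem_of_mem_Kmax {q : ℕ} (hq : q.Prime) (hA : A.LiesOverPrime q) {x : Qbar}
    (hx : x ∈ Kmax A) (hxA : x ∈ A.nonunits) : x * (q : Qbar)⁻¹ ∈ A := by
  haveI : FiniteDimensional ℚ (IntermediateField.adjoin ℚ ({x} : Set Qbar)) :=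
    IntermediateField.adjoin.finiteDimensional (Algebra.IsAlgebraic.isAlgebraic x).isIntegral
  exact UnramFixed.mul_inv_mem_of_inertia_fixed' A hq hA (IntermediateField.adjoin ℚ {x})
    (fun σ hσ y hy => apply_eq_of_mem_Kmax (adjoin_le_Kmax hx hy) hσ) x
    (IntermediateField.mem_adjoin_simple_self ℚ x) hxA

/-- **`q`-adic factorisation in `Kmax A`**, integral case. -/
theorem exists_eq_pow_mul_unit_of_mem {q : ℕ} (hq : q.Prime) (hA : A.LiesOverPrime q) {x : Qbar}
    (hx : x ∈ Kmax A) (hx0 : x ≠ 0) (hxA : x ∈ A) :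
    ∃ (n : ℕ) (u : Qbar), u ∈ A ∧ u⁻¹ ∈ A ∧ x = (q : Qbar) ^ n * u := by
  classical
  have hqA : ((q : ℕ) : Qbar) ∈ A.nonunits := hA
  set E : IntermediateField ℚ Qbar := IntermediateField.adjoin ℚ ({x} : Set Qbar) with hE
  haveI : FiniteDimensional ℚ E :=
    IntermediateField.adjoin.finiteDimensional (Algebra.IsAlgebraic.isAlgebraic x).isIntegral
  haveI : NumberField E := ⟨⟩
  haveI hDVR : IsDiscreteValuationRing (tr A E) :=
    isDiscreteValuationRing_tr_of_numberField A E hq.ne_zero hqA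
  have hfix : ∀ σ ∈ A.inertiaSubgroupIn ℚ, ∀ y ∈ E, σ y = y :=
    fun σ hσ y hy => apply_eq_of_mem_Kmax (adjoin_le_Kmax hx hy) hσ
  have hirr : Irreducible ((q : ℕ) : ↥(trSubring A E)) :=
    UnramFixed.irreducible_natCast_of_inertia_fixed A hq hA E hfix
  have hirr' : Irreducible ((q : ℕ) : tr A E) := hirr
  have hxE : x ∈ E := IntermediateField.mem_adjoin_simple_self ℚ x
  have hxtr : (⟨x, hxE⟩ : ↥E) ∈ tr A E := (mem_tr_iff A ↥E).mpr hxA
  have hx0' : (⟨⟨x, hxE⟩, hxtr⟩ : tr A E) ≠ 0 := by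
    intro h0
    apply hx0
    have := congrArg (fun z : tr A E => ((z : ↥E) : Qbar)) h0
    simpa using this
  obtain ⟨n, u, hu⟩ := IsDiscreteValuationRing.eq_unit_mul_pow_irreducible hx0' hirr'
  have hmulinv : ((((u : tr A E) : ↥E) : Qbar)) * ((((u⁻¹ : (tr A E)ˣ) : tr A E) : ↥E) : Qbar) = 1 :=
    congrArg (fun z : tr A E => ((z : ↥E) : Qbar)) (Units.mul_inv u)
  have hqcast : (((((q : ℕ) : tr A E)) : ↥E) : Qbar) = (q : Qbar) := by simp
  refine ⟨n, (((u : tr A E) : ↥E) : Qbar), ?_, ?_, ?_⟩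
  · exact (mem_tr_iff A ↥E).mp (u : tr A E).2
  · rw [← eq_inv_of_mul_eq_one_right hmulinv]
    exact (mem_tr_iff A ↥E).mp ((u⁻¹ : (tr A E)ˣ) : tr A E).2
  · have h4 : x = ((((u : tr A E) : ↥E) : Qbar)) * (((((q : ℕ) : tr A E)) : ↥E) : Qbar) ^ n :=
      congrArg (fun z : tr A E => ((z : ↥E) : Qbar)) hu
    rw [hqcast] at h4
    rw [h4, mul_comm]

/-- **`q`-adic factorisation in `Kmax A`**: every nonzero element is `q ^ n · u` with `n : ℤ` and
`u` a unit of `A`. -/
theorem exists_eq_zpow_mul_unit {q : ℕ} (hq : q.Prime) (hA : A.LiesOverPrime q) {x : Qbar}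
    (hx : x ∈ Kmax A) (hx0 : x ≠ 0) :
    ∃ (n : ℤ) (u : Qbar), u ∈ A ∧ u⁻¹ ∈ A ∧ u ∈ Kmax A ∧ x = (q : Qbar) ^ n * u := by
  have hq0 : (q : Qbar) ≠ 0 := Nat.cast_ne_zero.mpr hq.ne_zero
  have hqK : (q : Qbar) ∈ Kmax A := natCast_mem (Kmax A) q
  have key : ∀ y : Qbar, y ∈ Kmax A → y ≠ 0 → y ∈ A →
      ∃ (n : ℤ) (u : Qbar), u ∈ A ∧ u⁻¹ ∈ A ∧ u ∈ Kmax A ∧ y = (q : Qbar) ^ n * u := by
    intro y hy hy0 hyA
    obtain ⟨n, u, hu, hui, hyu⟩ := exists_eq_pow_mul_unit_of_mem hq hA hy hy0 hyA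
    refine ⟨n, u, hu, hui, ?_, by rw [zpow_natCast]; exact hyu⟩
    have : u = y * ((q : Qbar) ^ n)⁻¹ := by
      rw [hyu]
      field_simp
    rw [this]
    exact (Kmax A).mul_mem hy ((Kmax A).inv_mem (pow_mem hqK n))
  rcases A.mem_or_inv_mem x with hxA | hxA
  · exact key x hx hx0 hxA
  · obtain ⟨n, u, hu, hui, huK, hxu⟩ := key x⁻¹ ((Kmax A).inv_mem hx) (inv_ne_zero hx0) hxA
    refine ⟨-n, u⁻¹, hui, by rwa [inv_inv], (Kmax A).inv_mem huK, ?_⟩
    rw [zpow_neg, ← mul_inv, ← hxu, inv_inv]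

/-! ### Every field between `K0 A` and `Kmax A` is an unramified level -/

section Between

variable {q : ℕ} (hq : q.Prime) (hA : A.LiesOverPrime q) {K : IntermediateField ℚ Qbar}
  (hK0 : K0 A ≤ K) (hK : K ≤ Kmax A)

include hq hA hK in
/-- Nonunits of `A ∩ K` are divisible by `q`. -/
theorem natCast_dvd_of_not_isUnit (a : ↥(trSubring A K)) (ha : ¬ IsUnit a) :
    ((q : ℕ) : ↥(trSubring A K)) ∣ a := by
  have hq0 : (q : Qbar) ≠ 0 := Nat.cast_ne_zero.mpr hq.ne_zero
  have haK : ((a : ↥K) : Qbar) ∈ K := (a : ↥K).2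
  have hanu : ((a : ↥K) : Qbar) ∈ A.nonunits := by
    have h1 : (a : ↥K) ∈ (tr A K).nonunits := by
      have h2 : (⟨(a : ↥K), a.2⟩ : tr A K) ∈ IsLocalRing.maximalIdeal (tr A K) := by
        rw [IsLocalRing.mem_maximalIdeal, mem_nonunits_iff]
        exact ha
      exact ValuationSubring.coe_mem_nonunits_iff.mpr h2
    exact (mem_tr_nonunits_iff A ↥K).mp h1
  have hdiv := mul_inv_mem_of_mem_Kmax hq hA (hK haK) hanu
  have hmemK : ((a : ↥K) : Qbar) * (q : Qbar)⁻¹ ∈ K :=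
    K.mul_mem haK (K.inv_mem (natCast_mem K q))
  refine ⟨⟨⟨((a : ↥K) : Qbar) * (q : Qbar)⁻¹, hmemK⟩, (mem_tr_iff A ↥K).mpr hdiv⟩, ?_⟩
  apply Subtype.ext
  apply Subtype.ext
  show ((a : ↥K) : Qbar) = (q : Qbar) * (((a : ↥K) : Qbar) * (q : Qbar)⁻¹)
  field_simp

theorem coe_natCast_trSubring (K : IntermediateField ℚ Qbar) (q : ℕ) :
    (((((q : ℕ) : ↥(trSubring A K)) : ↥K)) : Qbar) = (q : Qbar) := by
  simp

include hq hA hK in
/-- `q` is irreducible in `A ∩ K`. -/
theorem irreducible_natCast_of_le : Irreducible ((q : ℕ) : ↥(trSubring A K)) := by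
  have hqA : ((q : ℕ) : Qbar) ∈ A.nonunits := hA
  refine UnramFixed.irreducible_of_forall_dvd ?_ ?_ (natCast_dvd_of_not_isUnit hq hA hK)
  · intro hu
    obtain ⟨v, hv⟩ := hu.exists_right_inv
    have h1 : (((((q : ℕ) : ↥(trSubring A K)) : ↥K)) : Qbar) * ((v : ↥K) : Qbar) = 1 :=
      congrArg (fun z : ↥(trSubring A K) => ((z : ↥K) : Qbar)) hv
    have hvA : ((v : ↥K) : Qbar) ∈ A := (mem_tr_iff A ↥K).mp v.2
    rw [ValuationSubring.mem_nonunits_iff] at hqA
    have h2 : A.valuation ((q : Qbar) * ((v : ↥K) : Qbar)) < 1 := by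
      rw [map_mul]
      exact mul_lt_one_of_lt_of_le hqA ((A.valuation_le_one_iff _).mpr hvA)
    rw [coe_natCast_trSubring] at h1
    rw [h1, map_one] at h2
    exact lt_irrefl _ h2
  · intro h0
    have h1 : (((((q : ℕ) : ↥(trSubring A K)) : ↥K)) : Qbar) = 0 :=
      congrArg (fun z : ↥(trSubring A K) => ((z : ↥K) : Qbar)) h0
    rw [coe_natCast_trSubring] at h1
    exact (Nat.cast_ne_zero.mpr hq.ne_zero) h1

include hq hA hK in
/-- `A ∩ K` is a discrete valuation ring. -/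
theorem isDiscreteValuationRing_of_le : IsDiscreteValuationRing ↥(trSubring A K) := by
  have hq0 : (q : Qbar) ≠ 0 := Nat.cast_ne_zero.mpr hq.ne_zero
  have hirr := irreducible_natCast_of_le hq hA hK
  haveI : IsDomain ↥(trSubring A K) := inferInstanceAs (IsDomain ↥(tr A K))
  refine IsDiscreteValuationRing.ofHasUnitMulPowIrreducibleFactorization
    ⟨((q : ℕ) : ↥(trSubring A K)), hirr, fun {x} hx => ?_⟩
  have hxK : ((x : ↥K) : Qbar) ∈ K := (x : ↥K).2
  have hxA : ((x : ↥K) : Qbar) ∈ A := (mem_tr_iff A ↥K).mp x.2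
  have hx0 : ((x : ↥K) : Qbar) ≠ 0 := by
    intro h0
    apply hx
    apply Subtype.ext
    apply Subtype.ext
    exact h0
  obtain ⟨n, u, hu, hui, hxu⟩ := exists_eq_pow_mul_unit_of_mem hq hA (hK hxK) hx0 hxA
  have huK : u ∈ K := by
    have : u = ((x : ↥K) : Qbar) * ((q : Qbar) ^ n)⁻¹ := by
      rw [hxu]
      field_simp
    rw [this]
    exact K.mul_mem hxK (K.inv_mem (pow_mem (natCast_mem K q) n))
  have hu0 : u ≠ 0 := by
    rintro rfl
    rw [mul_zero] at hxu
    exact hx0 hxu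
  let u' : ↥(trSubring A K) := ⟨⟨u, huK⟩, (mem_tr_iff A ↥K).mpr hu⟩
  let v' : ↥(trSubring A K) := ⟨⟨u⁻¹, K.inv_mem huK⟩, (mem_tr_iff A ↥K).mpr hui⟩
  have huv : u' * v' = 1 := by
    apply Subtype.ext
    apply Subtype.ext
    show u * u⁻¹ = 1
    exact mul_inv_cancel₀ hu0
  refine ⟨n, ⟨Units.mkOfMulEqOne u' v' huv, ?_⟩⟩
  apply Subtype.ext
  apply Subtype.ext
  show (((((q : ℕ) : ↥(trSubring A K)) : ↥K)) : Qbar) ^ n * u = ((x : ↥K) : Qbar)
  rw [coe_natCast_trSubring, hxu]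

include hq hA hK0 hK in
/-- **Every field between `K0 A` and `Kmax A` is an unramified level.** -/
theorem isUnramLevel_of_le : IsUnramLevel A q K := by
  have hqA : ((q : ℕ) : Qbar) ∈ A.nonunits := hA
  have hgood : ∀ ξ ∈ goodRoots A, ξ ∈ (algebraMap ↥K Qbar).range := fun ξ hξ => by
    have h1 : ξ ∈ K := by
      apply hK0
      rw [K0_eq_adjoin]
      exact IntermediateField.subset_adjoin ℚ _ hξ
    exact ⟨⟨ξ, h1⟩, rfl⟩
  exact ⟨fun σ hσ x hx => apply_eq_of_mem_Kmax (hK hx) hσ, hK0,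
    isDiscreteValuationRing_of_le hq hA hK, irreducible_natCast_of_le hq hA hK,
    isAlgClosed_residueField_tr A ↥K hq hqA hgood, bijective_residueField_map A ↥K hq hqA hgood⟩

end Between

/-- **The fixed field of the inertia group is an unramified level.** -/
theorem isUnramLevel_Kmax {q : ℕ} (hq : q.Prime) (hA : A.LiesOverPrime q) :
    IsUnramLevel A q (Kmax A) :=
  isUnramLevel_of_le hq hA (K0_le_Kmax hq hA) le_rfl

/-! ### Roots of units -/

/-- **`Kmax A` is closed under roots of order prime to `q` of units of `A`.** -/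
theorem mem_Kmax_of_pow_eq {q : ℕ} (hA : A.LiesOverPrime q) {n : ℕ} (hn : n ≠ 0)
    (hqn : Nat.Coprime q n) {a u : Qbar} (hau : a ^ n = u) (huK : u ∈ Kmax A) (huA : u ∈ A)
    (hu : u ∉ A.nonunits) : a ∈ Kmax A := by
  have hqA : ((q : ℕ) : Qbar) ∈ A.nonunits := hA
  exact mem_Kmax_iff.mpr fun σ hσ =>
    KummerUnram.apply_eq_of_pow_eq_of_unit' hσ hqA hqn hn hau huA hu
      (apply_eq_of_mem_Kmax huK hσ)

end Fermat.Agent.S36.Descent.UnramLevel
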