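/-
S36 / [Descent], leaf (DS-X), part 0 (helper27): **the ramification index bounds the degree, in the
form needed for "compositum = everything"** (Mathlib only).

`E ⊆ L` a field extension of degree `q`, `w : L →+* k((X))` a ring homomorphism (a discrete
valuation `ord ∘ w` on `L`).  If every element of `E` has order divisible by `q` and some
`z = lev₁ y` in the image of a ring homomorphism `lev₁ : F₁ →+* L` has order prime to `q`, then
`1, z, …, z^(q-1)` are linearly independent over `E` (their orders are pairwise distinct modulo `q`),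
hence span `L`: `span_E (range lev₁) = ⊤`.
-/
import Mathlib

set_option autoImplicit false

namespace Fermat.Agent.S36.Descent.ValIndex

open HahnSeries

/-- A finite sum of nonzero Laurent series with pairwise distinct orders is nonzero. -/
theorem sum_ne_zero_of_order_injOn {k : Type*} [Field k] {ι : Type*} (s : Finset ι)
    (hs : s.Nonempty) (t : ι → LaurentSeries k) (ht : ∀ i ∈ s, t i ≠ 0)
    (hinj : Set.InjOn (fun i => (t i).order) (s : Set ι)) : ∑ i ∈ s, t i ≠ 0 := by
  classical
  obtain ⟨i0, hi0, hmin⟩ := Finset.exists_min_image s (fun i => (t i).order) hs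
  intro h0
  have h1 : (∑ i ∈ s, t i).coeff (t i0).order = (t i0).coeff (t i0).order := by
    rw [HahnSeries.coeff_sum]
    refine Finset.sum_eq_single_of_mem i0 hi0 fun i hi hne => ?_
    apply HahnSeries.coeff_eq_zero_of_lt_order
    rcases lt_or_eq_of_le (hmin i hi) with h | h
    · exact h
    · exact absurd (hinj hi hi0 h.symm) hne
  rw [h0, HahnSeries.coeff_zero] at h1
  exact ht i0 hi0 (HahnSeries.coeff_order_eq_zero.mp h1.symm)

/-- **Index of value groups ≤ degree**, in the form "the image of `lev₁` spans". -/
theorem span_range_eq_top_of_order {E L F₁ k : Type*} [Field E] [Field L] [Field F₁] [Field k]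
    [Algebra E L] {q : ℕ} (hq : 0 < q) (hdeg : Module.finrank E L = q)
    (w : L →+* LaurentSeries k)
    (hE : ∀ x : E, (q : ℤ) ∣ (w (algebraMap E L x)).order)
    (lev₁ : F₁ →+* L) (y : F₁) (hy : IsCoprime (w (lev₁ y)).order (q : ℤ)) :
    Submodule.span E (Set.range lev₁) = ⊤ := by
  classical
  rcases Nat.eq_or_lt_of_le (Nat.succ_le_of_lt hq) with hq1 | hq2
  · -- `q = 1`
    have hdeg1 : Module.finrank E L = 1 := by rw [hdeg]; exact hq1.symm
    have h := (finrank_eq_one_iff_of_nonzero' (1 : L) one_ne_zero).mp hdeg1
    rw [eq_top_iff]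
    intro x _
    obtain ⟨c, rfl⟩ := h x
    exact Submodule.smul_mem _ _ (Submodule.subset_span ⟨1, map_one lev₁⟩)
  · -- `q ≥ 2`
    set z : L := lev₁ y with hz
    set o : ℤ := (w z).order with ho
    have hwz : w z ≠ 0 := by
      intro h
      have ho0 : o = 0 := by rw [ho, h, HahnSeries.order_zero]
      rw [ho0] at hy
      have h1 : IsUnit ((q : ℤ)) := isCoprime_zero_left.mp hy
      have h2 := Int.isUnit_iff_natAbs_eq.mp h1
      simp at h2
      omega
    haveI : FiniteDimensional E L := Module.finite_of_finrank_pos (by rw [hdeg]; exact hq)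
    have hli : LinearIndependent E (fun i : Fin q => z ^ (i : ℕ)) := by
      rw [Fintype.linearIndependent_iff]
      intro g hg
      by_contra hne
      push Not at hne
      obtain ⟨j0, hj0⟩ := hne
      set s : Finset (Fin q) := Finset.univ.filter fun i => g i ≠ 0 with hs
      have hsne : s.Nonempty := ⟨j0, by rw [hs, Finset.mem_filter]; exact ⟨Finset.mem_univ _, hj0⟩⟩
      set t : Fin q → LaurentSeries k := fun i => w (algebraMap E L (g i)) * w z ^ (i : ℕ) with ht
      have htne : ∀ i ∈ s, t i ≠ 0 := by
        intro i hi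
        rw [hs, Finset.mem_filter] at hi
        exact mul_ne_zero ((map_ne_zero w).mpr ((map_ne_zero _).mpr hi.2)) (pow_ne_zero _ hwz)
      have hord : ∀ i ∈ s, (t i).order = (w (algebraMap E L (g i))).order + (i : ℕ) * o := by
        intro i hi
        rw [hs, Finset.mem_filter] at hi
        rw [ht]
        simp only
        rw [HahnSeries.order_mul ((map_ne_zero w).mpr ((map_ne_zero _).mpr hi.2))
          (pow_ne_zero _ hwz), HahnSeries.order_pow, nsmul_eq_mul]
      have hinj : Set.InjOn (fun i => (t i).order) (s : Set (Fin q)) := by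
        intro i hi j hj hij
        simp only at hij
        rw [hord i hi, hord j hj] at hij
        obtain ⟨a, ha⟩ := hE (g i)
        obtain ⟨b, hb⟩ := hE (g j)
        rw [ha, hb] at hij
        have h1 : (q : ℤ) ∣ (((i : ℕ) : ℤ) - ((j : ℕ) : ℤ)) * o :=
          ⟨b - a, by linear_combination hij⟩
        have h2 : (q : ℤ) ∣ ((i : ℕ) : ℤ) - ((j : ℕ) : ℤ) := hy.symm.dvd_of_dvd_mul_right h1
        have hi' := i.2
        have hj' := j.2
        apply Fin.ext
        obtain ⟨c, hc⟩ := h2
        have hc0 : c = 0 := by
          by_contra hc0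
          have : (1 : ℤ) ≤ |c| := Int.one_le_abs hc0
          have h3 : |((i : ℕ) : ℤ) - ((j : ℕ) : ℤ)| = (q : ℤ) * |c| := by
            rw [hc, abs_mul, Nat.abs_cast]
          have h4 : |((i : ℕ) : ℤ) - ((j : ℕ) : ℤ)| < (q : ℤ) := by
            rw [abs_lt]
            constructor <;> omega
          nlinarith
        rw [hc0, mul_zero] at hc
        omega
      have hsum := sum_ne_zero_of_order_injOn s hsne t htne hinj
      apply hsum
      have h3 : w (∑ i, g i • z ^ (i : ℕ)) = ∑ i, t i := by
        rw [map_sum]
        refine Finset.sum_congr rfl fun i _ => ?_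
        rw [Algebra.smul_def, map_mul, map_pow]
      rw [hg, map_zero] at h3
      have h4 : ∑ i ∈ s, t i = ∑ i, t i := by
        rw [hs, Finset.sum_filter]
        refine Finset.sum_congr rfl fun i _ => ?_
        split_ifs with h
        · rfl
        · push Not at h
          rw [ht]
          simp only
          rw [h, map_zero, map_zero, zero_mul]
      rw [h4, ← h3]
    have hspan := hli.span_eq_top_of_card_eq_finrank' (by rw [Fintype.card_fin, hdeg])
    rw [eq_top_iff, ← hspan]
    apply Submodule.span_mono
    rintro _ ⟨i, rfl⟩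
    exact ⟨y ^ (i : ℕ), by rw [map_pow]⟩

end Fermat.Agent.S36.Descent.ValIndex
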