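/-
S36 / [Descent], leaf (DS-X) (helper27): **CHANGE OF THE AUXILIARY LEVEL.**

`TorsionBoundAt N q lam A` : `∃ c ≠ 0` killing every `lam`-power torsion point of the `q`-new part
of `J₀(N q)` fixed by the inertia group `I_A` (the body of `Top/Final.InertiaTorsionBound`).

`torsionBoundAt_of_mul` : for `q` prime, `q ∣ N`, `r` prime to `q`:
`TorsionBoundAt (N r) q lam A → TorsionBoundAt N q lam A`.

Route: pull back along the inclusion `F_{N q} ⊂ F_{N r q}` (`levelMap`, no casts).  A torsion class
`y = [D]`, `m D = div f`, of the `q`-new part of level `N q` goes to the `q`-new part of level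
`N r q` because the norms along `α_q`, `β_q` commute with the inclusions
(`NormDescent.norm_map_along`): `F_{N r q} = F_{N r} · F_{N q}` with equal degrees `q`, which is
a ramification-index count (`ValIndex.span_range_eq_top_of_order`) at the cusp `∞` (for `β_q`)
resp. at the cusp `0` (for `α_q`, through the Fricke involution `FrickeK.wK`).
-/
import Mathlib
import Fermat.Agent.P4.Push
import Fermat.Agent.N4F.E.NormDescent
import Fermat.Agent.S36.New.PushAlphaQ
import Fermat.Agent.S36.New.PushBetaQ
import Fermat.Agent.S36.V.FrickeK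
import Fermat.Agent.S36.Descent.ValIndex

set_option autoImplicit false
set_option linter.unusedSectionVars false
set_option linter.style.haveILetI false

open AlgebraicCurve ModularCurve

noncomputable section

namespace Fermat.Agent.S36.Descent.AuxLevel

open Fermat.Agent.N4F.A.LevelMaps Fermat.Agent.N4F.A.PlaceFiber Fermat.Agent.N4F.A.GaloisHecke
  Fermat.Agent.N4F.A.HeckeInputsFinal Fermat.Agent.N4F.A.HeckeInputs Fermat.Agent.P3G.AuxPrime
  Fermat.Agent.P3G.GammaDict Fermat.Agent.N4F.C Fermat.Agent.N4F.C.Galois Fermat.Agent.P4.Push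

local notation "Qbar" => AlgebraicClosure ℚ
local notation "Γ" => (AlgebraicClosure ℚ ≃ₐ[ℚ] AlgebraicClosure ℚ)

/-! ### Arithmetic of `ψ` -/

/-- `ψ(M q) = q ψ(M)` for a prime `q ∣ M`. -/
theorem dedekindPsi_mul_prime_of_dvd {M q : ℕ} (hM : M ≠ 0) (hq : q.Prime) (hqM : q ∣ M) :
    dedekindPsi (M * q) = q * dedekindPsi M := by
  obtain ⟨e, M₁, hM₁, rfl⟩ := Nat.exists_eq_pow_mul_and_not_dvd hM q hq.ne_one
  obtain ⟨a, rfl⟩ : ∃ a, e = a + 1 := by
    rcases e with _ | a
    · rw [pow_zero, one_mul] at hqM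
      exact absurd hqM hM₁
    · exact ⟨a, rfl⟩
  have hc1 : (q ^ (a + 1)).Coprime M₁ :=
    Nat.Coprime.pow_left _ ((Nat.Prime.coprime_iff_not_dvd hq).mpr hM₁)
  have hc2 : (q ^ (a + 1 + 1)).Coprime M₁ :=
    Nat.Coprime.pow_left _ ((Nat.Prime.coprime_iff_not_dvd hq).mpr hM₁)
  have e1 : q ^ (a + 1) * M₁ * q = q ^ (a + 1 + 1) * M₁ := by ring
  rw [e1, Fermat.Agent.M2.P1.dedekindPsi_mul hc1, Fermat.Agent.M2.P1.dedekindPsi_mul hc2,
    Fermat.Agent.M2.P1.dedekindPsi_prime_pow q a hq,
    Fermat.Agent.M2.P1.dedekindPsi_prime_pow q (a + 1) hq]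
  ring

variable (N q r : ℕ) [NeZero N] [NeZero q] [NeZero r]

theorem dvd_aux : N * q * 1 ∣ N * r * q := ⟨r, by ring⟩

/-- The inclusion `F_{N q} ⊂ F_{N r q}`. -/
def incl : Fb (N * q) →ₐ[Qb] Fb (N * r * q) := levelMap (N * q) (N * r * q) 1 (dvd_aux N q r)

@[simp] theorem coe_incl (x : Fb (N * q)) :
    ((incl N q r x : Fb (N * r * q)) : LaurentSeries Qb) = (x : LaurentSeries Qb) := by
  rw [incl, coe_levelMap, qExpand_one_apply]

theorem finiteAlong_incl : FiniteAlong Qb (incl N q r) := levelMap_finite _ _ _ _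

theorem incl_integral : (incl N q r).toRingHom.IsIntegral := levelMap_integral _ _ _ _

/-- The coefficientwise Galois action commutes with the inclusion. -/
theorem intertwines_incl (σ : Γ) :
    SemilinearAut.IntertwinesAlong (incl N q r).toRingHom
      (arithmeticGalois (modularFunctionFieldFull (N * q)) σ)
      (arithmeticGalois (modularFunctionFieldFull (N * r * q)) σ) := by
  intro x
  apply Subtype.ext
  show coeffMap (σ : Qb →+* Qb) ((incl N q r x : _) : LaurentSeries Qb) =
    ((incl N q r (arithmeticGalois (modularFunctionFieldFull (N * q)) σ • x) : _) :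
      LaurentSeries Qb)
  rw [coe_incl, coe_incl]
  rfl

/-! ### Pull-back and push-forward along the inclusion -/

/-- Pull-back of divisor classes along `F_{N q} ⊂ F_{N r q}`. -/
def pullQ : JZero (N * q) →+ JZero (N * r * q) :=
  letI := algebraAlong (incl N q r)
  haveI := isScalarTower_along (incl N q r)
  haveI := isIntegral_along (incl N q r) (incl_integral N q r)
  haveI := hasPrincipalDivisors_bar (N * r * q)
  haveI : FundamentalIdentity Qbar (modularFunctionFieldBar (N * q))
      (modularFunctionFieldBar (N * r * q)) :=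
    Fermat.Agent.N4F.A.PlaceFiber.fundamentalIdentityAlong (incl N q r) (finiteAlong_incl N q r)
      (incl_integral N q r)
  Pic0.pullbackHom (modularFunctionFieldBar (N * r * q))

theorem normFormulaAlong_incl :
    NormFormulaAlong Qbar (incl N q r) (finiteAlong_incl N q r) := by
  haveI := hasPrincipalDivisors_bar (N * r * q)
  exact Fermat.Agent.N4F.A.PlaceFiber.normFormulaAlong (incl N q r) (finiteAlong_incl N q r)

/-- Push-forward of divisor classes along `F_{N q} ⊂ F_{N r q}`. -/
def pushQ : JZero (N * r * q) →+ JZero (N * q) :=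
  letI := algebraAlong (incl N q r)
  haveI := isScalarTower_along (incl N q r)
  haveI := isIntegral_along (incl N q r) (incl_integral N q r)
  haveI : Module.Finite (modularFunctionFieldBar (N * q)) (modularFunctionFieldBar (N * r * q)) :=
    finiteAlong_incl N q r
  Pic0.pushforwardHom Qbar (modularFunctionFieldBar (N * q)) (modularFunctionFieldBar (N * r * q))
    (normFormulaAlong_incl N q r)

/-- The degree of the inclusion. -/
def degQ : ℕ := finrankAlong Qbar (incl N q r)

theorem degQ_pos : 0 < degQ N q r := by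
  letI := algebraAlong (incl N q r)
  haveI : Module.Finite (modularFunctionFieldBar (N * q)) (modularFunctionFieldBar (N * r * q)) :=
    finiteAlong_incl N q r
  exact Module.finrank_pos

/-- `push ∘ pull = deg`. -/
theorem pushQ_pullQ (x : JZero (N * q)) :
    pushQ N q r (pullQ N q r x) = (degQ N q r : ℤ) • x := by
  letI := algebraAlong (incl N q r)
  haveI := isScalarTower_along (incl N q r)
  haveI := isIntegral_along (incl N q r) (incl_integral N q r)
  haveI := hasPrincipalDivisors_bar (N * r * q)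
  haveI : Module.Finite (modularFunctionFieldBar (N * q)) (modularFunctionFieldBar (N * r * q)) :=
    finiteAlong_incl N q r
  haveI : CharZero (modularFunctionFieldBar (N * q)) := charZero_of_algebra Qbar _
  haveI : Algebra.IsSeparable (modularFunctionFieldBar (N * q))
      (modularFunctionFieldBar (N * r * q)) := inferInstance
  exact pushforwardHom_pullbackHom (normFormulaAlong_incl N q r) x

/-- The pull-back commutes with the Galois action. -/
theorem pullQ_smul (σ : Γ) (x : JZero (N * q)) : pullQ N q r (σ • x) = σ • pullQ N q r x := by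
  letI := algebraAlong (incl N q r)
  haveI := isScalarTower_along (incl N q r)
  haveI := isIntegral_along (incl N q r) (incl_integral N q r)
  haveI := hasPrincipalDivisors_bar (N * r * q)
  haveI : FundamentalIdentity Qbar (modularFunctionFieldBar (N * q))
      (modularFunctionFieldBar (N * r * q)) :=
    Fermat.Agent.N4F.A.PlaceFiber.fundamentalIdentityAlong (incl N q r) (finiteAlong_incl N q r)
      (incl_integral N q r)
  rw [galois_smul_pic0_def, galois_smul_pic0_def]
  exact (smul_pullbackHom (fun y => intertwines_incl N q r σ y) x).symm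

/-! ### Orders of Laurent series -/

section Order

variable {K : Type*} [Field K] (m : ℕ) [NeZero m]

/-- The order of `f(X^m)` is divisible by `m`. -/
theorem dvd_order_qExpand (f : LaurentSeries K) : (m : ℤ) ∣ (qExpand K m f).order := by
  by_contra h
  have h1 := qExpand_coeff_of_not_dvd m f h
  rw [HahnSeries.coeff_order_eq_zero] at h1
  rw [h1, HahnSeries.order_zero] at h
  exact h (dvd_zero _)

/-- The order of `f(X^m)` is `m` times the order of `f`. -/
theorem order_qExpand (f : LaurentSeries K) : (qExpand K m f).order = (m : ℤ) * f.order := by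
  by_cases hf : f = 0
  · rw [hf, map_zero, HahnSeries.order_zero, mul_zero]
  have hf' : qExpand K m f ≠ 0 := fun h => hf (qExpand_injective m (by rw [h, map_zero]))
  have hm : (0 : ℤ) < (m : ℤ) := by exact_mod_cast Nat.pos_of_ne_zero (NeZero.ne m)
  apply le_antisymm
  · apply HahnSeries.order_le_of_coeff_ne_zero
    rw [qExpand_coeff_mul]
    exact fun h => hf (HahnSeries.coeff_order_eq_zero.mp h)
  · obtain ⟨k, hk⟩ := dvd_order_qExpand m f
    rw [hk]
    apply mul_le_mul_of_nonneg_left _ hm.le
    apply HahnSeries.order_le_of_coeff_ne_zero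
    rw [← qExpand_coeff_mul m f k, ← hk]
    exact fun h => hf' (HahnSeries.coeff_order_eq_zero.mp h)

/-- The `j`-series has a simple pole. -/
theorem order_jqModC : (jqModC K).order = -1 := by
  have h0 : jqModC K ≠ 0 := jqModC_ne_zero_of_nontrivial K
  apply le_antisymm
  · apply HahnSeries.order_le_of_coeff_ne_zero
    rw [coeff_jqModC_neg_one]
    exact one_ne_zero
  · by_contra h
    push Not at h
    have h1 : (jqModC K).order < -1 := h
    exact h0 (HahnSeries.coeff_order_eq_zero.mp (coeff_jqModC_of_lt K h1))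

end Order

/-! ### The two commutative squares and the degrees -/

theorem incl_alpha (x : Fb N) :
    incl N q r (heckeAlphaBar Qbar N q x) =
      heckeAlphaBar Qbar (N * r) q (heckeAlphaBar Qbar N r x) := by
  apply Subtype.ext
  rw [coe_incl, coe_heckeAlphaBar, coe_heckeAlphaBar, coe_heckeAlphaBar]

theorem incl_beta (x : Fb N) :
    incl N q r (heckeBetaBar Qbar N q x) =
      heckeBetaBar Qbar (N * r) q (heckeAlphaBar Qbar N r x) := by
  apply Subtype.ext
  rw [coe_incl, coe_heckeBetaBar, coe_heckeBetaBar, coe_heckeAlphaBar]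

open Fermat.Agent.N4F.E.DegreeLevelRaise in
/-- `[F_{M q} : α F_M] = q` for a prime `q ∣ M`. -/
theorem finrankAlong_alpha_of_dvd (M : ℕ) [NeZero M] (hq : q.Prime) (hqM : q ∣ M) :
    finrankAlong Qbar (heckeAlphaBar Qbar M q) = q := by
  have h1 := Fermat.Agent.S36.New.PushAlphaQ.finrankAlong_alpha_mul M q Qbar iotaQbar
  rw [dedekindPsi_mul_prime_of_dvd (NeZero.ne M) hq hqM, mul_comm q] at h1
  exact Nat.eq_of_mul_eq_mul_left (Fermat.Agent.N4.ModPolyShape.dedekindPsi_pos M) h1

open Fermat.Agent.N4F.E.DegreeLevelRaise in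
/-- `[F_{M q} : β F_M] = q` for a prime `q ∣ M`. -/
theorem finrankAlong_beta_of_dvd (M : ℕ) [NeZero M] (hq : q.Prime) (hqM : q ∣ M) :
    finrankAlong Qbar (heckeBetaBar Qbar M q) = q := by
  have h1 := Fermat.Agent.S36.New.PushBetaQ.finrankAlong_beta_mul M q Qbar iotaQbar
  rw [dedekindPsi_mul_prime_of_dvd (NeZero.ne M) hq hqM, mul_comm q] at h1
  exact Nat.eq_of_mul_eq_mul_left (Fermat.Agent.N4.ModPolyShape.dedekindPsi_pos M) h1

/-! ### `F_{N r q} = F_{N r} · F_{N q}` -/

/-- The `q`-expansion embedding. -/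
def coeHom (M : ℕ) [NeZero M] : Fb M →+* LaurentSeries Qb :=
  (modularFunctionFieldBar M).val.toRingHom

@[simp] theorem coeHom_apply (M : ℕ) [NeZero M] (x : Fb M) :
    coeHom M x = (x : LaurentSeries Qb) := rfl

/-- The `β`-square: `F_{N r q}` is spanned over `β_q F_{N r}` by `F_{N q}` (total ramification of
`β_q` at the cusp `∞`). -/
theorem span_beta (hq : q.Prime) (hqN : q ∣ N) :
    letI := algebraAlong (heckeBetaBar Qbar (N * r) q)
    Submodule.span (Fb (N * r)) (Set.range (incl N q r).toRingHom) = ⊤ := by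
  letI := algebraAlong (heckeBetaBar Qbar (N * r) q)
  have hdeg : Module.finrank (Fb (N * r)) (Fb (N * r * q)) = q :=
    finrankAlong_beta_of_dvd q (N * r) hq (hqN.mul_right r)
  refine ValIndex.span_range_eq_top_of_order hq.pos hdeg (coeHom (N * r * q)) ?_
    (incl N q r).toRingHom (xj (N * q)) ?_
  · intro x
    show (q : ℤ) ∣ ((heckeBetaBar Qbar (N * r) q x : Fb (N * r * q)) : LaurentSeries Qb).order
    rw [coe_heckeBetaBar]
    exact dvd_order_qExpand q _
  · show IsCoprime ((incl N q r (xj (N * q)) : Fb (N * r * q)) : LaurentSeries Qb).order (q : ℤ)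
    rw [coe_incl, coe_xj, Fermat.Agent.S24.FFBasics.coeffEmb_jq, order_jqModC]
    exact isCoprime_one_left.neg_left

section Fricke

open Fermat.Agent.N4.Setting Fermat.Agent.N4F.E.DegreeLevelRaise Fermat.Agent.S36.V.FrickeK

/-- `Q̄ · F_M = FF Q̄ M` (the prelude's two presentations). -/
def toFF (M : ℕ) [NeZero M] : Fb M →ₐ[Qb] FF Qb M :=
  IntermediateField.inclusion (le_of_eq (laurentBaseChange_full_eq Qb M))

@[simp] theorem coe_toFF (M : ℕ) [NeZero M] (x : Fb M) :
    ((toFF M x : FF Qb M) : LaurentSeries Qb) = (x : LaurentSeries Qb) :=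
  IntermediateField.coe_inclusion _ x

/-- The Fricke involution followed by the `q`-expansion: the expansion at the cusp `0`. -/
def frickeHom (M : ℕ) [NeZero M] : Fb M →+* LaurentSeries Qb :=
  (modularFunctionFieldFullC Qb M).val.toRingHom.comp
    ((wK Qb iotaQbar M).toAlgHom.toRingHom.comp (toFF M).toRingHom)

theorem frickeHom_apply (M : ℕ) [NeZero M] (x : Fb M) :
    frickeHom M x = ((wK Qb iotaQbar M (toFF M x) : FF Qb M) : LaurentSeries Qb) := rfl

/-- `j(Q^{N q})` as an element of `F_{N q}`. -/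
def jTop : Fb (N * q) :=
  ⟨qExpand Qb (N * q) (jqModC Qb), by
    show _ ∈ laurentBaseChange Qb (modularFunctionFieldFull (N * q))
    rw [laurentBaseChange_full_eq Qb (N * q)]
    exact jqModCd_mem_full Qb (N * q) (dvd_refl _)⟩

theorem dvd_aux' : N * q ∣ N * r * q := ⟨r, by ring⟩

theorem toFF_incl_jTop :
    toFF (N * r * q) (incl N q r (jTop N q)) = jdF Qb (N * r * q) (dvd_aux' N q r) := by
  apply Subtype.ext
  rw [coe_toFF, coe_incl, coe_jdF]
  rfl

theorem frickeHom_incl_jTop :
    frickeHom (N * r * q) (incl N q r (jTop N q)) = qExpand Qb r (jqModC Qb) := by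
  haveI := Fermat.Agent.S16.Bridge.neZero_div (N * r * q) (dvd_aux' N q r)
  rw [frickeHom_apply, toFF_incl_jTop, wK_jdF]
  have h : N * r * q / (N * q) = r := by
    have h0 : 0 < N * q := Nat.pos_of_ne_zero (NeZero.ne (N * q))
    rw [show N * r * q = (N * q) * r by ring, Nat.mul_div_cancel_left r h0]
  rw [jdF_congr Qb (N * r * q) (Nat.div_dvd_of_dvd (dvd_aux' N q r))
    (⟨N * q, by ring⟩ : r ∣ N * r * q) h, coe_jdF]

theorem toFF_alpha (M : ℕ) [NeZero M] (x : Fb M) :
    toFF (M * q) (heckeAlphaBar Qbar M q x) = alphaF Qb M q (toFF M x) := by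
  apply Subtype.ext
  rw [coe_toFF, coe_heckeAlphaBar, coe_alphaF, coe_toFF]

/-- The `α`-square: `F_{N r q}` is spanned over `F_{N r}` by `F_{N q}` (total ramification of
`α_q` at the cusp `0`). -/
theorem span_alpha (hq : q.Prime) (hqN : q ∣ N) (hr : Nat.Coprime r q) :
    letI := algebraAlong (heckeAlphaBar Qbar (N * r) q)
    Submodule.span (Fb (N * r)) (Set.range (incl N q r).toRingHom) = ⊤ := by
  letI := algebraAlong (heckeAlphaBar Qbar (N * r) q)
  have hdeg : Module.finrank (Fb (N * r)) (Fb (N * r * q)) = q :=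
    finrankAlong_alpha_of_dvd q (N * r) hq (hqN.mul_right r)
  refine ValIndex.span_range_eq_top_of_order hq.pos hdeg (frickeHom (N * r * q)) ?_
    (incl N q r).toRingHom (jTop N q) ?_
  · intro x
    show (q : ℤ) ∣ (frickeHom (N * r * q) (heckeAlphaBar Qbar (N * r) q x)).order
    rw [frickeHom_apply, toFF_alpha, wK_alphaF, coe_betaF]
    exact dvd_order_qExpand q _
  · show IsCoprime (frickeHom (N * r * q) (incl N q r (jTop N q))).order (q : ℤ)
    rw [frickeHom_incl_jTop, order_qExpand, order_jqModC, mul_neg_one]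
    exact (Nat.isCoprime_iff_coprime.mpr hr).neg_left

end Fricke

/-! ### Norm base change -/

/-- **Norm base change along `α_q`**: `N_{α_q}(f|_{N r q}) = (N_{α_q} f)|_{N r}`. -/
theorem normAlpha_incl (hq : q.Prime) (hqN : q ∣ N) (hr : Nat.Coprime r q) (f : Fb (N * q)) :
    normAlpha (N * r) q (incl N q r f) = heckeAlphaBar Qbar N r (normAlpha N q f) := by
  have h := Fermat.Agent.N4F.E.NormDescent.norm_map_along (heckeAlphaBar Qbar N q)
    (heckeAlphaBar Qbar (N * r) q) (heckeAlphaBar Qbar N r).toRingHom (incl N q r).toRingHom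
    (fun x => incl_alpha N q r x) (finiteAlong_heckeAlphaBar N q) (span_alpha N q r hq hqN hr)
    ((finrankAlong_alpha_of_dvd q (N * r) hq (hqN.mul_right r)).trans
      (finrankAlong_alpha_of_dvd q N hq hqN).symm) f
  exact h.symm

/-- **Norm base change along `β_q`**. -/
theorem normBeta_incl (hq : q.Prime) (hqN : q ∣ N) (f : Fb (N * q)) :
    normBeta (N * r) q (incl N q r f) = heckeAlphaBar Qbar N r (normBeta N q f) := by
  have h := Fermat.Agent.N4F.E.NormDescent.norm_map_along (heckeBetaBar Qbar N q)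
    (heckeBetaBar Qbar (N * r) q) (heckeAlphaBar Qbar N r).toRingHom (incl N q r).toRingHom
    (fun x => incl_beta N q r x) (finiteAlong_heckeBetaBar N q) (span_beta N q r hq hqN)
    ((finrankAlong_beta_of_dvd q (N * r) hq (hqN.mul_right r)).trans
      (finrankAlong_beta_of_dvd q N hq hqN).symm) f
  exact h.symm

/-! ### Torsion classes of the new part stay new after pull-back -/

/-- Pull-back of degree-zero divisors along the inclusion. -/
def pullDegZero : Divisor.degZero (K := Qb) (F := Fb (N * q)) →+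
    Divisor.degZero (K := Qb) (F := Fb (N * r * q)) :=
  letI := algebraAlong (incl N q r)
  haveI := isScalarTower_along (incl N q r)
  haveI := isIntegral_along (incl N q r) (incl_integral N q r)
  haveI := hasPrincipalDivisors_bar (N * r * q)
  haveI : FundamentalIdentity Qbar (modularFunctionFieldBar (N * q))
      (modularFunctionFieldBar (N * r * q)) :=
    Fermat.Agent.N4F.A.PlaceFiber.fundamentalIdentityAlong (incl N q r) (finiteAlong_incl N q r)
      (incl_integral N q r)
  Pic0.pullbackDegZeroHom (modularFunctionFieldBar (N * r * q))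

theorem pullQ_mk (D : Divisor.degZero (K := Qb) (F := Fb (N * q))) :
    pullQ N q r (Pic0.mk D) = Pic0.mk (pullDegZero N q r D) := rfl

/-- The pull-back of `m D = div f` is `m (pull D) = div (f|_{N r q})`. -/
theorem isDivOf_pull {m : ℕ} {f : Fb (N * q)} {D : Divisor.degZero (K := Qb) (F := Fb (N * q))}
    (hf : IsDivOf f (m • (D : Divisor Qb (Fb (N * q))))) :
    IsDivOf (incl N q r f) (m • (pullDegZero N q r D : Divisor Qb (Fb (N * r * q)))) := by
  letI := algebraAlong (incl N q r)
  haveI := isScalarTower_along (incl N q r)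
  haveI := isIntegral_along (incl N q r) (incl_integral N q r)
  haveI := hasPrincipalDivisors_bar (N * r * q)
  haveI : FundamentalIdentity Qbar (modularFunctionFieldBar (N * q))
      (modularFunctionFieldBar (N * r * q)) :=
    Fermat.Agent.N4F.A.PlaceFiber.fundamentalIdentityAlong (incl N q r) (finiteAlong_incl N q r)
      (incl_integral N q r)
  have e : (pullDegZero N q r D : Divisor Qb (Fb (N * r * q))) =
      Divisor.pullback (Fb (N * r * q)) (D : Divisor Qb (Fb (N * q))) := rfl
  rw [e, ← map_nsmul]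
  refine ⟨(map_ne_zero (incl N q r)).mpr hf.1, fun w => ?_⟩
  exact Divisor.pullback_apply_eq_ord hf.2 w

variable {N q r}

/-- A torsion class killed by `α_*` at level `N q` is killed by `α_*` at level `N r q` after
pull-back. -/
theorem alphaPush_pullQ_eq_zero (hq : q.Prime) (hqN : q ∣ N) (hr : Nat.Coprime r q) {m : ℕ}
    (hm : m ≠ 0) (y : JZero (N * q)) (hy : m • y = 0) (h0 : alphaPush N q y = 0) :
    alphaPush (N * r) q (pullQ N q r y) = 0 := by
  obtain ⟨D, f, rfl, hf⟩ := exists_isDivOf_of_nsmul_eq_zero y m hy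
  obtain ⟨c, u, hc, -, hcu⟩ := exists_normAlpha_eq hf h0
  rw [pullQ_mk, alphaPush_mk]
  refine mk_eq_zero_of_isDivOf_nsmul_of_pow hm (pushAlphaDegZero (N * r) q (pullDegZero N q r D))
    (κ := normAlpha (N * r) q (incl N q r f)) (w := heckeAlphaBar Qbar N r u) (c := c) ?_ hc ?_
  · have h1 := IsDivOf.pushAlpha (isDivOf_pull N q r hf)
    rw [map_nsmul] at h1
    rw [coe_pushAlphaDegZero]
    exact h1
  · rw [normAlpha_incl N q r hq hqN hr, hcu, map_mul, map_pow, AlgHom.commutes]

/-- The same for `β_*`. -/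
theorem betaPush_pullQ_eq_zero (hq : q.Prime) (hqN : q ∣ N) {m : ℕ}
    (hm : m ≠ 0) (y : JZero (N * q)) (hy : m • y = 0) (h0 : betaPush N q y = 0) :
    betaPush (N * r) q (pullQ N q r y) = 0 := by
  obtain ⟨D, f, rfl, hf⟩ := exists_isDivOf_of_nsmul_eq_zero y m hy
  obtain ⟨c, u, hc, -, hcu⟩ := exists_normBeta_eq hf h0
  rw [pullQ_mk, betaPush_mk]
  refine mk_eq_zero_of_isDivOf_nsmul_of_pow hm (pushBetaDegZero (N * r) q (pullDegZero N q r D))
    (κ := normBeta (N * r) q (incl N q r f)) (w := heckeAlphaBar Qbar N r u) (c := c) ?_ hc ?_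
  · have h1 := IsDivOf.pushBeta (isDivOf_pull N q r hf)
    rw [map_nsmul] at h1
    rw [coe_pushBetaDegZero]
    exact h1
  · rw [normBeta_incl N q r hq hqN, hcu, map_mul, map_pow, AlgHom.commutes]

/-- **Torsion classes of the `q`-new part of level `N q` pull back into the `q`-new part of level
`N r q`.** -/
theorem pullQ_mem_newPart (hq : q.Prime) (hqN : q ∣ N) (hr : Nat.Coprime r q) {m : ℕ}
    (hm : m ≠ 0) {y : JZero (N * q)} (hy : m • y = 0) (hnew : y ∈ newPart N q) :
    pullQ N q r y ∈ newPart (N * r) q := by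
  obtain ⟨h1, h2⟩ := mem_newPart_iff.mp hnew
  exact mem_newPart_iff.mpr ⟨alphaPush_pullQ_eq_zero hq hqN hr hm y hy h1,
    betaPush_pullQ_eq_zero hq hqN hm y hy h2⟩

/-! ### The torsion bound and the change of level -/

/-- **The torsion bound at level `(N, q)`** for the place `A`: some `c ≠ 0` kills every point of
`lam`-power order of the `q`-new part of `J₀(N q)` fixed by the inertia group `I_A`. -/
def TorsionBoundAt (N q lam : ℕ) [NeZero N] [NeZero q] (A : ValuationSubring Qbar) : Prop :=
  ∃ c : ℕ, c ≠ 0 ∧ ∀ k : ℕ, ∀ y ∈ newPart N q, lam ^ k • y = 0 →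
    (∀ σ ∈ A.inertiaSubgroupIn ℚ, σ • y = y) → c • y = 0

/-- **(DS-X) Change of level**: the torsion bound at the auxiliary level `N r` (`r` prime to `q`)
implies the torsion bound at level `N`. -/
theorem torsionBoundAt_of_mul {lam : ℕ} (hlam : lam ≠ 0) {A : ValuationSubring Qbar}
    (hq : q.Prime) (hqN : q ∣ N) (r : ℕ) [NeZero r] (hr : Nat.Coprime r q)
    (h : TorsionBoundAt (N * r) q lam A) : TorsionBoundAt N q lam A := by
  obtain ⟨c, hc, H⟩ := h
  refine ⟨c * degQ N q r, Nat.mul_ne_zero hc (degQ_pos N q r).ne', fun k y hy hk hfix => ?_⟩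
  have h1 : c • pullQ N q r y = 0 := by
    refine H k (pullQ N q r y) (pullQ_mem_newPart hq hqN hr (pow_ne_zero k hlam) hk hy) ?_ ?_
    · rw [← map_nsmul, hk, map_zero]
    · intro σ hσ
      rw [← pullQ_smul, hfix σ hσ]
  have h2 := congrArg (pushQ N q r) h1
  rw [map_nsmul, pushQ_pullQ, map_zero, natCast_zsmul, ← mul_nsmul'] at h2
  exact h2

/-- `q` odd: the auxiliary level `4 N`. -/
theorem torsionBoundAt_of_four {lam : ℕ} (hlam : lam ≠ 0) {A : ValuationSubring Qbar}
    (hq : q.Prime) (hqN : q ∣ N) (hq2 : q ≠ 2) (h : TorsionBoundAt (N * 4) q lam A) :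
    TorsionBoundAt N q lam A := by
  refine torsionBoundAt_of_mul hlam hq hqN 4 ?_ h
  have h2 : Nat.Coprime 2 q := (Nat.coprime_primes Nat.prime_two hq).mpr (Ne.symm hq2)
  exact Nat.Coprime.pow_left 2 h2

/-- `q = 2`: the auxiliary level `9 N`. -/
theorem torsionBoundAt_of_nine {lam : ℕ} (hlam : lam ≠ 0) {A : ValuationSubring Qbar}
    (hq : q.Prime) (hqN : q ∣ N) (hq2 : q = 2) (h : TorsionBoundAt (N * 9) q lam A) :
    TorsionBoundAt N q lam A := by
  refine torsionBoundAt_of_mul hlam hq hqN 9 ?_ h
  subst hq2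
  decide

end Fermat.Agent.S36.Descent.AuxLevel
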