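/-
S36, block [Descent], leaf (DS-H) (helper19): **Hilbert 90 for a cocycle which factors through finitely
many field automorphisms** (Mathlib only).

`E` a field, `G` a group acting on `E` through `ρ : G →* (E ≃+* E)` with FINITE image, `κ : G → E`
a `1`-cocycle with nonzero values (`κ (g h) = κ g · g (κ h)`) which only depends on the automorphism
`ρ g`.  Then `κ` is a coboundary: there is `b ≠ 0` with `g b · κ g = b` for all `g`.

Proof: Dedekind's independence of characters gives `θ` with `b := ∑_r κ_r · r θ ≠ 0` (sum over the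
finitely many automorphisms `r` in the image of `ρ`); the cocycle relation gives `g b = b / κ g`.
-/
import Mathlib

set_option autoImplicit false

namespace Fermat.Agent.S36.Descent.Hilbert90

open Finset

variable {E : Type*} [Field E] {G : Type*} [Group G]

/-- **Hilbert 90**, finite image form. -/
theorem exists_coboundary (ρ : G →* (E ≃+* E)) (κ : G → E) (hκ0 : ∀ g, κ g ≠ 0)
    (hκ : ∀ g h, κ (g * h) = κ g * ρ g (κ h)) (hfin : (Set.range ρ).Finite)
    (hdep : ∀ g g', ρ g = ρ g' → κ g = κ g') :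
    ∃ b : E, b ≠ 0 ∧ ∀ g, ρ g b * κ g = b := by
  classical
  set R : Finset (E ≃+* E) := hfin.toFinset with hR
  have hmemR : ∀ r, r ∈ R ↔ ∃ g, ρ g = r := fun r => by
    rw [hR, Set.Finite.mem_toFinset, Set.mem_range]
  -- a section of `ρ`
  have hsec : ∀ r : E ≃+* E, ∃ g : G, r ∈ R → ρ g = r := fun r => by
    by_cases h : r ∈ R
    · obtain ⟨g, hg⟩ := (hmemR r).mp h
      exact ⟨g, fun _ => hg⟩
    · exact ⟨1, fun h' => absurd h' h⟩
  choose s hs using hsec
  set c : (E ≃+* E) → E := fun r => κ (s r) with hc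
  have hcρ : ∀ g, c (ρ g) = κ g := fun g =>
    hdep _ _ (hs (ρ g) ((hmemR _).mpr ⟨g, rfl⟩))
  -- Dedekind
  have hinj : Function.Injective (fun r : E ≃+* E => ((r : E →+* E) : E →* E)) := by
    intro r r' h
    ext x
    exact DFunLike.congr_fun h x
  have hli : LinearIndependent E (fun r : E ≃+* E => ((((r : E →+* E) : E →* E)) : E → E)) :=
    (linearIndependent_monoidHom E E).comp _ hinj
  have hex : ∃ θ : E, ∑ r ∈ R, c r * r θ ≠ 0 := by
    by_contra hcon
    push Not at hcon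
    have hsum : ∑ r ∈ R, c r • (((((r : E →+* E) : E →* E)) : E → E)) = 0 := by
      funext θ
      rw [Finset.sum_apply]
      simpa using hcon θ
    have h1 := linearIndependent_iff'.mp hli R c hsum (ρ 1) ((hmemR _).mpr ⟨1, rfl⟩)
    rw [hcρ] at h1
    exact hκ0 1 h1
  obtain ⟨θ, hθ⟩ := hex
  refine ⟨∑ r ∈ R, c r * r θ, hθ, fun g => ?_⟩
  rw [map_sum, Finset.sum_mul]
  refine Finset.sum_nbij' (fun r => ρ g * r) (fun r => ρ g⁻¹ * r) ?_ ?_ ?_ ?_ ?_
  · intro r hr
    obtain ⟨h, rfl⟩ := (hmemR r).mp hr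
    exact (hmemR _).mpr ⟨g * h, map_mul ρ g h⟩
  · intro r hr
    obtain ⟨h, rfl⟩ := (hmemR r).mp hr
    exact (hmemR _).mpr ⟨g⁻¹ * h, map_mul ρ g⁻¹ h⟩
  · intro r _
    rw [← mul_assoc, ← map_mul, inv_mul_cancel, map_one, one_mul]
  · intro r _
    rw [← mul_assoc, ← map_mul, mul_inv_cancel, map_one, one_mul]
  · intro r hr
    obtain ⟨h, rfl⟩ := (hmemR r).mp hr
    rw [← map_mul ρ g h, hcρ, hcρ, hκ g h, map_mul, map_mul ρ g h, RingAut.mul_apply]
    ring

/-- The same for an action given by ring homomorphism valued `ρ` on a SUBGROUP-indexed family: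
the quotient form `g b = b / κ g`. -/
theorem exists_coboundary_div (ρ : G →* (E ≃+* E)) (κ : G → E) (hκ0 : ∀ g, κ g ≠ 0)
    (hκ : ∀ g h, κ (g * h) = κ g * ρ g (κ h)) (hfin : (Set.range ρ).Finite)
    (hdep : ∀ g g', ρ g = ρ g' → κ g = κ g') :
    ∃ b : E, b ≠ 0 ∧ ∀ g, ρ g b = b / κ g := by
  obtain ⟨b, hb, h⟩ := exists_coboundary ρ κ hκ0 hκ hfin hdep
  exact ⟨b, hb, fun g => by rw [eq_div_iff (hκ0 g)]; exact h g⟩

end Fermat.Agent.S36.Descent.Hilbert90
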