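/-
S36, block [Descent], leaf (DS-R), part 2 (helper19): **the leading `q`-expansion coefficient on
`Fb N = Q̄ · F_N ⊆ Q̄((q))`** and the normalisation of roots.

* `lc g` : the leading coefficient of the `q`-expansion at `∞`; multiplicative (`lc_mul`, `lc_inv`,
  `lc_pow`, `lc_div`), `lc (algebraMap c) = c`, and Galois equivariant: `lc (σ g) = σ (lc g)`;
* `eq_algebraMap_of_pow_eq_one` : a function with `u ^ m = 1` is a constant;
* `eq_of_pow_eq_of_lc` : two `m`-th roots of the same function with leading coefficient `1` are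
  equal — the normalisation which turns `κ_σ` (only defined up to `μ_m`) into a genuine cocycle;
* `normalize`, `lc_normalize` : `g / lc g` has leading coefficient `1`.
-/
import Mathlib
import Fermat.Agent.N4F.C.Galois

set_option autoImplicit false
set_option linter.unusedSectionVars false
set_option linter.style.haveILetI false

open ModularCurve AlgebraicCurve
open Fermat.Agent.N4F.C Fermat.Agent.N4F.C.Galois

noncomputable section

namespace Fermat.Agent.S36.Descent.LeadCoeff

local notation "Γ" => (AlgebraicClosure ℚ ≃ₐ[ℚ] AlgebraicClosure ℚ)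

/-! ### Leading coefficients of Laurent series under injective coefficient maps -/

section Series

variable {R S : Type*} [Field R] [Field S]

theorem order_coeffMap (f : R →+* S) (x : LaurentSeries R) :
    (coeffMap f x).order = x.order := by
  by_cases hx : x = 0
  · subst hx
    rw [map_zero, HahnSeries.order_zero, HahnSeries.order_zero]
  · have hinj : Function.Injective f := f.injective
    have hy : coeffMap f x ≠ 0 := by
      intro h0
      apply hx
      ext n
      have := congrArg (fun z : LaurentSeries S => z.coeff n) h0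
      simp only [coeffMap_coeff, HahnSeries.coeff_zero] at this
      rw [HahnSeries.coeff_zero]
      exact (map_eq_zero_iff f hinj).mp this
    apply le_antisymm
    · apply HahnSeries.order_le_of_coeff_ne_zero
      rw [coeffMap_coeff, Ne, map_eq_zero_iff f hinj]
      exact fun h => hx (HahnSeries.coeff_order_eq_zero.mp h)
    · apply HahnSeries.order_le_of_coeff_ne_zero
      intro h0
      have h1 : (coeffMap f x).coeff (coeffMap f x).order = 0 := by
        rw [coeffMap_coeff, h0, map_zero]
      exact hy (HahnSeries.coeff_order_eq_zero.mp h1)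

theorem leadingCoeff_coeffMap (f : R →+* S) (x : LaurentSeries R) :
    (coeffMap f x).leadingCoeff = f x.leadingCoeff := by
  rw [HahnSeries.leadingCoeff_eq, HahnSeries.leadingCoeff_eq, order_coeffMap, coeffMap_coeff]

end Series

/-! ### The leading coefficient on `Fb N` -/

variable (N : ℕ)

/-- The leading coefficient of the `q`-expansion at `∞`. -/
def lc (g : Fb N) : Qb := (g : LaurentSeries Qb).leadingCoeff

variable {N}

theorem lc_def (g : Fb N) : lc N g = (g : LaurentSeries Qb).leadingCoeff := rfl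

@[simp] theorem lc_zero : lc N 0 = 0 := HahnSeries.leadingCoeff_zero

theorem lc_eq_zero_iff {g : Fb N} : lc N g = 0 ↔ g = 0 := by
  rw [lc_def, HahnSeries.leadingCoeff_eq_zero]
  exact ⟨fun h => Subtype.ext h, fun h => by rw [h]; rfl⟩

theorem lc_ne_zero {g : Fb N} (hg : g ≠ 0) : lc N g ≠ 0 := fun h => hg (lc_eq_zero_iff.mp h)

theorem lc_mul (g h : Fb N) : lc N (g * h) = lc N g * lc N h :=
  HahnSeries.leadingCoeff_mul _ _

theorem lc_algebraMap (c : Qb) : lc N (algebraMap Qb (Fb N) c) = c := by
  have h : ((algebraMap Qb (Fb N) c : Fb N) : LaurentSeries Qb) = HahnSeries.single 0 c := by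
    rw [← algebraMap_laurentSeries_eq_single]
    rfl
  rw [lc_def, h, HahnSeries.leadingCoeff_of_single]

@[simp] theorem lc_one : lc N (1 : Fb N) = 1 := by
  rw [← map_one (algebraMap Qb (Fb N)), lc_algebraMap]

theorem lc_inv (g : Fb N) : lc N g⁻¹ = (lc N g)⁻¹ := by
  by_cases hg : g = 0
  · subst hg
    rw [inv_zero, lc_zero, inv_zero]
  · have h : lc N g⁻¹ * lc N g = 1 := by rw [← lc_mul, inv_mul_cancel₀ hg, lc_one]
    exact eq_inv_of_mul_eq_one_left h

theorem lc_div (g h : Fb N) : lc N (g / h) = lc N g / lc N h := by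
  rw [div_eq_mul_inv, lc_mul, lc_inv, div_eq_mul_inv]

theorem lc_pow (g : Fb N) (m : ℕ) : lc N (g ^ m) = lc N g ^ m := by
  induction m with
  | zero => rw [pow_zero, pow_zero, lc_one]
  | succ m ih => rw [pow_succ, pow_succ, lc_mul, ih]

/-- **The leading coefficient is Galois equivariant.** -/
theorem lc_gal_smul (σ : Γ) (g : Fb N) : lc N (gal N σ • g) = σ (lc N g) := by
  rw [lc_def, coe_gal_smul, leadingCoeff_coeffMap]
  rfl

/-! ### Constants and roots -/

/-- A function with `u ^ m = 1`, `m ≠ 0`, is constant. -/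
theorem eq_algebraMap_of_pow_eq_one {u : Fb N} {m : ℕ} (hm : m ≠ 0) (hu : u ^ m = 1) :
    ∃ c : Qb, u = algebraMap Qb (Fb N) c := by
  have hint : IsIntegral Qb u := by
    refine ⟨Polynomial.X ^ m - 1, Polynomial.monic_X_pow_sub_C 1 hm, ?_⟩
    rw [Polynomial.eval₂_sub, Polynomial.eval₂_pow, Polynomial.eval₂_X, Polynomial.eval₂_one, hu,
      sub_self]
  have hdeg : (minpoly Qb u).degree = 1 :=
    IsAlgClosed.degree_eq_one_of_irreducible Qb (minpoly.irreducible hint)
  obtain ⟨c, hc⟩ := minpoly.mem_range_of_degree_eq_one Qb u hdeg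
  exact ⟨c, hc.symm⟩

/-- **Normalised roots are unique.** -/
theorem eq_of_pow_eq_of_lc {a b : Fb N} {m : ℕ} (hm : m ≠ 0) (hab : a ^ m = b ^ m)
    (ha : lc N a = 1) (hb : lc N b = 1) : a = b := by
  have hb0 : b ≠ 0 := by
    rintro rfl
    rw [lc_zero] at hb
    exact zero_ne_one hb
  have hu : (a / b) ^ m = 1 := by
    rw [div_pow, hab, div_self (pow_ne_zero m hb0)]
  obtain ⟨c, hc⟩ := eq_algebraMap_of_pow_eq_one hm hu
  have h1 : c = 1 := by
    have := congrArg (lc N) hc
    rwa [lc_div, ha, hb, div_one, lc_algebraMap, eq_comm] at this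
  rw [h1, map_one, div_eq_one_iff_eq hb0] at hc
  exact hc

/-- `g / lc g`. -/
def normalize (g : Fb N) : Fb N := g * algebraMap Qb (Fb N) (lc N g)⁻¹

theorem normalize_ne_zero {g : Fb N} (hg : g ≠ 0) : normalize g ≠ 0 :=
  mul_ne_zero hg ((map_ne_zero _).mpr (inv_ne_zero (lc_ne_zero hg)))

theorem lc_normalize {g : Fb N} (hg : g ≠ 0) : lc N (normalize g) = 1 := by
  rw [normalize, lc_mul, lc_algebraMap, mul_inv_cancel₀ (lc_ne_zero hg)]

theorem eq_lc_mul_normalize {g : Fb N} (hg : g ≠ 0) :
    g = algebraMap Qb (Fb N) (lc N g) * normalize g := by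
  rw [normalize, mul_comm g, ← mul_assoc, ← map_mul, mul_inv_cancel₀ (lc_ne_zero hg), map_one,
    one_mul]

/-- If `u = c · h ^ m` then `u = lc u · (normalize h) ^ m`. -/
theorem eq_lc_mul_normalize_pow {u h : Fb N} {c : Qb} {m : ℕ} (hu : u ≠ 0)
    (huh : u = algebraMap Qb (Fb N) c * h ^ m) :
    u = algebraMap Qb (Fb N) (lc N u) * normalize h ^ m := by
  by_cases hm : m = 0
  · subst hm
    rw [pow_zero, mul_one] at huh
    rw [pow_zero, mul_one, huh, lc_algebraMap]
  have hh : h ≠ 0 := by
    rintro rfl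
    rw [zero_pow hm, mul_zero] at huh
    exact hu huh
  have h1 : lc N u = c * lc N h ^ m := by rw [huh, lc_mul, lc_algebraMap, lc_pow]
  rw [h1, normalize, mul_pow, ← map_pow, map_mul, map_pow, map_pow, huh]
  have h2 : algebraMap Qb (Fb N) (lc N h) * algebraMap Qb (Fb N) (lc N h)⁻¹ = 1 := by
    rw [← map_mul, mul_inv_cancel₀ (lc_ne_zero hh), map_one]
  calc algebraMap Qb (Fb N) c * h ^ m
      = algebraMap Qb (Fb N) c * h ^ m *
          (algebraMap Qb (Fb N) (lc N h) * algebraMap Qb (Fb N) (lc N h)⁻¹) ^ m := by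
        rw [h2, one_pow, mul_one]
    _ = _ := by ring

end Fermat.Agent.S36.Descent.LeadCoeff
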