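/-
S36, block [Descent], leaf (DS-M) (helper19): **a class fixed by a group `H` of Galois automorphisms
has an `H`-invariant Kummer function.**

`H ≤ Γ = Gal(Q̄/ℚ)` any subgroup (in the application the inertia group `I_A`), `f ∈ Fb N = Q̄ · F_N`
nonzero, `m ≠ 0`, such that for every `σ ∈ H` the function `σ f / f` is a constant times an `m`-th
power (this is what `σ [D] = [D]` means when `m D = div f`).  Then there are a constant `c₀ ≠ 0` and
`b ≠ 0` with `σ (c₀ f b^m) = c₀ f b^m` for all `σ ∈ H`.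

Proof: normalise leading `q`-expansion coefficients, so that `σ f = κ_σ^m f` with a UNIQUE `κ_σ` of
leading coefficient `1`; `κ` is then a genuine `1`-cocycle; everything lives over a `Γ`-stable number
field `K₂`, the action of `H` on `FF (Lvl K₂) N` factors through the finite group `Aut K₂`, and
Hilbert 90 (`Hilbert90.exists_coboundary`) gives `b`.

* `exists_invariant_mul_pow` : the statement above;
* `exists_invariant_root` : an `H`-invariant function which is a constant times an `m`-th power over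
  `Q̄` is `lc u · h^m` with `h` `H`-invariant (and `lc u` is `H`-fixed);
* `coeff_fixed_of_smul_eq` : the coefficients of an `H`-invariant function are `H`-fixed.
-/
import Mathlib
import Fermat.Agent.S36.Descent.Hilbert90
import Fermat.Agent.S36.Descent.Rational
import Fermat.Agent.S36.Descent.LeadCoeff
import Fermat.Agent.P3G.GammaAut

set_option autoImplicit false
set_option linter.unusedSectionVars false
set_option linter.style.haveILetI false

open ModularCurve AlgebraicCurve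
open Fermat.Agent.N4.Setting Fermat.Agent.N4F.C Fermat.Agent.N4F.C.Levels
  Fermat.Agent.N4F.C.Galois Fermat.Agent.N4F.C.CoeffAut
open Fermat.Agent.P3G.Gamma Fermat.Agent.P3G.GammaAut
open Fermat.Agent.S36.Descent.LeadCoeff Fermat.Agent.S36.Descent.Rational

noncomputable section

namespace Fermat.Agent.S36.Descent.InvariantModel

local notation "Γ" => (AlgebraicClosure ℚ ≃ₐ[ℚ] AlgebraicClosure ℚ)

/-! ### Coefficients of invariant functions -/

section Coeff

variable {N : ℕ}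

/-- The coefficients of a function fixed by `σ` are fixed by `σ`. -/
theorem coeff_fixed_of_smul_eq {σ : Γ} {t : Fb N} (h : gal N σ • t = t) (n : ℤ) :
    σ ((t : LaurentSeries Qb).coeff n) = (t : LaurentSeries Qb).coeff n := by
  have h1 := congrArg (fun y : Fb N => (y : LaurentSeries Qb).coeff n) h
  simp only [coe_gal_smul, coeffMap_coeff] at h1
  exact h1

end Coeff

/-! ### Finiteness of the automorphism group of a number field level -/

section Finite

variable (K : IntermediateField ℚ Qb) [FiniteDimensional ℚ K]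

theorem finite_ringAut_lvl : Finite (Lvl K ≃+* Lvl K) := by
  let Φ : (Lvl K ≃+* Lvl K) → (↥K →ₐ[ℚ] ↥K) := fun r =>
    RingHom.toRatAlgHom
      (((Lvl.toSub K).symm.trans (r.trans (Lvl.toSub K)) : ↥K ≃+* ↥K) : ↥K →+* ↥K)
  refine Finite.of_injective Φ fun r r' h => ?_
  ext x
  have h1 := DFunLike.congr_fun h (Lvl.toSub K x)
  exact (Lvl.toSub K).injective h1

end Finite

/-! ### The invariant Kummer function -/

section Main

variable {N : ℕ} [NeZero N]

theorem normalize_eq (g : Fb N) :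
    LeadCoeff.normalize g = g * algebraMap Qb (Fb N) (lc N g)⁻¹ := rfl

/-- The normalised form of the hypothesis: `σ f = κ^m f` with `lc κ = 1`. -/
theorem exists_normalized_kappa {m : ℕ} (hm : m ≠ 0) {f : Fb N} (hf : f ≠ 0) {σ : Γ}
    (h : ∃ (c : Qb) (κ : Fb N), gal N σ • f = algebraMap Qb (Fb N) c * κ ^ m * f) :
    ∃ κ : Fb N, lc N κ = 1 ∧ gal N σ • LeadCoeff.normalize f = κ ^ m * LeadCoeff.normalize f := by
  obtain ⟨c, κ, hκ⟩ := h
  have hf1 : LeadCoeff.normalize f ≠ 0 := normalize_ne_zero hf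
  have hσf1 : gal N σ • LeadCoeff.normalize f ≠ 0 := by
    intro h0
    apply hf1
    have : gal N σ • LeadCoeff.normalize f = gal N σ • (0 : Fb N) := by rw [h0, smul_zero]
    exact MulAction.injective (gal N σ) this
  set u : Fb N := gal N σ • LeadCoeff.normalize f / LeadCoeff.normalize f with hu
  have hu0 : u ≠ 0 := div_ne_zero hσf1 hf1
  have hlcu : lc N u = 1 := by
    rw [hu, lc_div, lc_gal_smul, lc_normalize hf, map_one, div_one]
  -- `u` is a constant times `κ ^ m`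
  have huκ : u = algebraMap Qb (Fb N) (c * σ (lc N f)⁻¹ * lc N f) * κ ^ m := by
    rw [hu, normalize_eq, smul_mul', gal_smul_algebraMap, hκ, map_mul, map_mul]
    have h1 : algebraMap Qb (Fb N) (lc N f)⁻¹ ≠ 0 :=
      (map_ne_zero _).mpr (inv_ne_zero (lc_ne_zero hf))
    have h2 : algebraMap Qb (Fb N) (lc N f) * algebraMap Qb (Fb N) (lc N f)⁻¹ = 1 := by
      rw [← map_mul, mul_inv_cancel₀ (lc_ne_zero hf), map_one]
    rw [div_eq_iff (mul_ne_zero hf h1)]
    linear_combination (-(algebraMap Qb (Fb N) c * κ ^ m * f *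
      algebraMap Qb (Fb N) (σ (lc N f)⁻¹))) * h2
  have key := eq_lc_mul_normalize_pow hu0 huκ
  rw [hlcu, map_one, one_mul] at key
  refine ⟨LeadCoeff.normalize κ, ?_, ?_⟩
  · have hκ0 : κ ≠ 0 := by
      rintro rfl
      rw [zero_pow hm, mul_zero] at huκ
      exact hu0 huκ
    exact lc_normalize hκ0
  · rw [← key, hu, div_mul_cancel₀ _ hf1]

/-- **Hilbert 90 descent**: if `σ f / f` is a constant times an `m`-th power for every `σ ∈ H`,
then `c₀ f b^m` is `H`-invariant for suitable `c₀ ≠ 0`, `b ≠ 0`. -/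
theorem exists_invariant_mul_pow (H : Subgroup Γ) {m : ℕ} (hm : m ≠ 0) {f : Fb N} (hf : f ≠ 0)
    (hH : ∀ σ ∈ H, ∃ (c : Qb) (κ : Fb N), gal N σ • f = algebraMap Qb (Fb N) c * κ ^ m * f) :
    ∃ (c₀ : Qb) (b : Fb N), c₀ ≠ 0 ∧ b ≠ 0 ∧ ∀ σ ∈ H,
      gal N σ • (algebraMap Qb (Fb N) c₀ * f * b ^ m) = algebraMap Qb (Fb N) c₀ * f * b ^ m := by
  classical
  set f₁ : Fb N := LeadCoeff.normalize f with hf₁def
  have hf1 : f₁ ≠ 0 := normalize_ne_zero hf
  have hκex : ∀ σ : ↥H, ∃ κ : Fb N, lc N κ = 1 ∧ gal N (σ : Γ) • f₁ = κ ^ m * f₁ :=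
    fun σ => exists_normalized_kappa hm hf (hH σ σ.2)
  choose κ hκlc hκ using hκex
  have huniq : ∀ (σ : ↥H) (κ' : Fb N), lc N κ' = 1 → gal N (σ : Γ) • f₁ = κ' ^ m * f₁ →
      κ' = κ σ := by
    intro σ κ' h1 h2
    refine eq_of_pow_eq_of_lc hm ?_ h1 (hκlc σ)
    exact mul_right_cancel₀ hf1 (h2.symm.trans (hκ σ))
  -- a stable number field over which `f₁` is defined
  obtain ⟨K₁, hK₁fin, hK₁⟩ := exists_finiteDimensional_level N {f₁} ∅
  haveI := hK₁fin
  obtain ⟨T, hT⟩ : K₁.FG := IntermediateField.essFiniteType_iff.mp inferInstance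
  obtain ⟨K₂, hK₂fin, hTK, hstab⟩ := exists_stable_numberField T
  have hle : K₁ ≤ K₂ := by
    rw [← hT, IntermediateField.adjoin_le_iff]
    exact fun t ht => hTK t (Finset.mem_coe.mp ht)
  haveI := hK₂fin
  obtain ⟨f₂, hf₂⟩ := (hK₁ K₂ hle).1 f₁ (Finset.mem_singleton_self f₁)
  have hfixrange : ∀ τ : Γ, (∀ x ∈ K₂, τ x = x) → ∀ y : FF (Lvl K₂) N,
      gal N τ • levK N K₂ y = levK N K₂ y := fun τ hτ y =>
    arithmeticGalois_smul_lev N (Lvl K₂) τ (fun a => hτ _ (Lvl.algebraMap_mem K₂ a)) y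
  have hσf₁ : ∀ σ : Γ, gal N σ • f₁ = levK N K₂ (levelFF K₂ hstab N σ • f₂) := fun σ => by
    rw [levK_levelFF_smul, hf₂]
  -- the `κ σ` are defined over `K₂`
  have hκmem : ∀ σ : ↥H, κ σ ∈ Set.range (levK N K₂) := by
    intro σ
    refine mem_range_levK_of_coeff_mem N K₂ (κ σ) fun n => ?_
    refine (Lvl.mem_range_iff K₂).mp (hasFixedField_lvl K₂ _ fun τ hτ => ?_)
    have hτ' : ∀ x ∈ K₂, τ x = x := fun x hx => by
      obtain ⟨a, rfl⟩ := (Lvl.mem_range_iff K₂).mpr hx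
      exact hτ a
    have h1 : gal N τ • κ σ = κ σ := by
      refine huniq σ _ ?_ ?_
      · rw [lc_gal_smul, hκlc, map_one]
      · have e1 : gal N τ • (gal N (σ : Γ) • f₁) = gal N (σ : Γ) • f₁ := by
          rw [hσf₁]
          exact hfixrange τ hτ' _
        have e2 : gal N τ • f₁ = f₁ := by
          rw [← hf₂]
          exact hfixrange τ hτ' _
        have e3 := congrArg (fun y : Fb N => gal N τ • y) (hκ σ)
        simp only [smul_mul', smul_pow'] at e3
        rw [e1, e2] at e3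
        exact e3
    exact coeff_fixed_of_smul_eq h1 n
  choose κ₂ hκ₂ using hκmem
  -- the representation of `H` on `FF (Lvl K₂) N`
  let ρ : ↥H →* (FF (Lvl K₂) N ≃+* FF (Lvl K₂) N) :=
    (MulSemiringAction.toRingAut (SemilinearAut (Lvl K₂) (FF (Lvl K₂) N)) (FF (Lvl K₂) N)).comp
      ((levelFF K₂ hstab N).comp H.subtype)
  have hρ : ∀ (σ : ↥H) (y : FF (Lvl K₂) N), ρ σ y = levelFF K₂ hstab N (σ : Γ) • y :=
    fun σ y => rfl
  have hlevρ : ∀ (σ : ↥H) (y : FF (Lvl K₂) N),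
      levK N K₂ (ρ σ y) = gal N (σ : Γ) • levK N K₂ y := fun σ y => by
    rw [hρ]
    exact levK_levelFF_smul K₂ hstab N σ y
  have hinj : Function.Injective (levK N K₂) := (levK N K₂).toRingHom.injective
  have hκ₂0 : ∀ σ : ↥H, κ₂ σ ≠ 0 := by
    intro σ h0
    have h1 : κ σ = 0 := by rw [← hκ₂ σ, h0, map_zero]
    have h2 := hκlc σ
    rw [h1, lc_zero] at h2
    exact zero_ne_one h2
  have hcocycle : ∀ σ τ : ↥H, κ₂ (σ * τ) = κ₂ σ * ρ σ (κ₂ τ) := by
    intro σ τ
    apply hinj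
    rw [map_mul, hlevρ, hκ₂, hκ₂, hκ₂]
    refine (huniq (σ * τ) _ ?_ ?_).symm
    · rw [lc_mul, lc_gal_smul, hκlc, hκlc, map_one, mul_one]
    · have e1 : gal N ((σ * τ : ↥H) : Γ) • f₁ = gal N (σ : Γ) • (gal N (τ : Γ) • f₁) := by
        show arithmeticGalois (modularFunctionFieldFull N) ((σ : Γ) * (τ : Γ)) • f₁ = _
        rw [map_mul, mul_smul]
      rw [e1, hκ τ, smul_mul', smul_pow', hκ σ, mul_pow]
      ring
  have hfin : (Set.range ρ).Finite := by
    haveI := finite_ringAut_lvl K₂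
    let Φ : (Lvl K₂ ≃+* Lvl K₂) → (FF (Lvl K₂) N ≃+* FF (Lvl K₂) N) := fun r =>
      MulSemiringAction.toRingAut (SemilinearAut (Lvl K₂) (FF (Lvl K₂) N)) (FF (Lvl K₂) N)
        (coeffAut (Lvl K₂) N r)
    refine (Set.finite_range Φ).subset ?_
    rintro _ ⟨σ, rfl⟩
    exact ⟨levelAut K₂ hstab (σ : Γ), rfl⟩
  have hdep : ∀ σ σ' : ↥H, ρ σ = ρ σ' → κ₂ σ = κ₂ σ' := by
    intro σ σ' hσσ'
    apply hinj
    rw [hκ₂, hκ₂]
    refine huniq σ' (κ σ) (hκlc σ) ?_
    have e1 : gal N (σ' : Γ) • f₁ = gal N (σ : Γ) • f₁ := by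
      rw [← hf₂, ← hlevρ, ← hlevρ, hσσ']
    rw [e1]
    exact hκ σ
  obtain ⟨b₂, hb₂, hb⟩ := Hilbert90.exists_coboundary ρ κ₂ hκ₂0 hcocycle hfin hdep
  have hb' : ∀ σ : ↥H, gal N (σ : Γ) • levK N K₂ b₂ * κ σ = levK N K₂ b₂ := by
    intro σ
    rw [← hκ₂ σ, ← hlevρ, ← map_mul, hb σ]
  refine ⟨(lc N f)⁻¹, levK N K₂ b₂, inv_ne_zero (lc_ne_zero hf), ?_, fun σ hσ => ?_⟩
  · exact (map_ne_zero_iff _ hinj).mpr hb₂
  · have e0 : algebraMap Qb (Fb N) (lc N f)⁻¹ * f = f₁ := by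
      rw [hf₁def, normalize_eq, mul_comm]
    rw [e0, smul_mul', smul_pow', hκ ⟨σ, hσ⟩]
    have e1 := hb' ⟨σ, hσ⟩
    calc κ ⟨σ, hσ⟩ ^ m * f₁ * (gal N σ • levK N K₂ b₂) ^ m
        = f₁ * (gal N σ • levK N K₂ b₂ * κ ⟨σ, hσ⟩) ^ m := by ring
      _ = f₁ * levK N K₂ b₂ ^ m := by rw [e1]

/-- **Roots of invariant functions**: an `H`-invariant function which is a constant times an
`m`-th power is `lc u · h^m` with `h` `H`-invariant, `lc h = 1`, and `lc u` fixed by `H`. -/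
theorem exists_invariant_root (H : Subgroup Γ) {m : ℕ} (hm : m ≠ 0) {u : Fb N} (hu : u ≠ 0)
    (hinv : ∀ σ ∈ H, gal N σ • u = u)
    (hpow : ∃ (c : Qb) (h : Fb N), u = algebraMap Qb (Fb N) c * h ^ m) :
    ∃ h : Fb N, h ≠ 0 ∧ u = algebraMap Qb (Fb N) (lc N u) * h ^ m ∧
      (∀ σ ∈ H, σ (lc N u) = lc N u) ∧ ∀ σ ∈ H, gal N σ • h = h := by
  obtain ⟨c, h, hch⟩ := hpow
  have hh0 : h ≠ 0 := by
    rintro rfl
    rw [zero_pow hm, mul_zero] at hch
    exact hu hch
  have key := eq_lc_mul_normalize_pow hu hch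
  have hlcfix : ∀ σ ∈ H, σ (lc N u) = lc N u := fun σ hσ => by
    rw [← lc_gal_smul, hinv σ hσ]
  have hlcu : algebraMap Qb (Fb N) (lc N u) ≠ 0 := (map_ne_zero _).mpr (lc_ne_zero hu)
  refine ⟨LeadCoeff.normalize h, normalize_ne_zero hh0, key, hlcfix, fun σ hσ => ?_⟩
  refine eq_of_pow_eq_of_lc hm ?_ ?_ (lc_normalize hh0)
  · have e1 := congrArg (fun y : Fb N => gal N σ • y) key
    simp only [smul_mul', smul_pow', gal_smul_algebraMap] at e1
    rw [hinv σ hσ, hlcfix σ hσ] at e1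
    exact mul_left_cancel₀ hlcu (e1.symm.trans key)
  · rw [lc_gal_smul, lc_normalize hh0, map_one]

end Main

end Fermat.Agent.S36.Descent.InvariantModel
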