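/-
S36, block [Descent] (helper19): **THE DÉVISSAGE AT THE MAXIMAL UNRAMIFIED LEVEL.**

`A ⊂ Q̄` over `q`, `K = Kmax A` the fixed field of the inertia group `I_A`, `F = FF (Lvl K) M`.

* `int_dvd_of_unif` : if `π` is a uniformiser of a valuation ring `V` (every nonunit is divisible
  by `π`) and `π ^ n · w ^ p` is a unit of `V`, then `p ∣ n` (no discreteness needed);
* `exists_root_at_Kmax` : if `kn ∈ F` is a unit at a valuation ring `V₀ ⊇ O_K` of `F` with
  uniformiser `q`, and `lev kn` is a `p`-th power in `Q̄ · F_M` (`p ≠ q` prime), then `kn` is a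
  `p`-th power in `F` (normalised roots are `I_A`-invariant, hence defined over `K`; the constant is
  `q ^ (p s) · unit`, and `K` contains the `p`-th roots of units);
* `exists_pow_eq_of_step` : induction — if every `p ^ n`-th root (`n < k`) of `h` in `F` becomes a
  `p`-th power over `Q̄`, then `h` is a `p ^ k`-th power in `F`.
-/
import Mathlib
import Fermat.Agent.S36.Descent.UnramLevel
import Fermat.Agent.S36.Descent.InvariantModel

set_option autoImplicit false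
set_option linter.unusedSectionVars false
set_option linter.style.haveILetI false

open ModularCurve AlgebraicCurve
open Fermat.Agent.N4.Setting Fermat.Agent.N4.BigDVR Fermat.Agent.N4F.C Fermat.Agent.N4F.C.Levels
  Fermat.Agent.N4F.C.Galois
open Fermat.Agent.P3G.Gamma
open Fermat.Agent.S36.Descent.LeadCoeff Fermat.Agent.S36.Descent.Rational
  Fermat.Agent.S36.Descent.InvariantModel Fermat.Agent.S36.Descent.UnramLevel

noncomputable section

namespace Fermat.Agent.S36.Descent.Devissage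

local notation "Qbar" => AlgebraicClosure ℚ
local notation "Γ" => (AlgebraicClosure ℚ ≃ₐ[ℚ] AlgebraicClosure ℚ)

/-! ### A valuation lemma -/

section Val

variable {F : Type*} [Field F]

/-- If every nonunit of `V` is divisible by `π` and `π ^ n · w ^ p` is a unit of `V`, then
`p ∣ n`. -/
theorem int_dvd_of_unif (V : ValuationSubring F) {π : F} (hπ : π ∈ V.nonunits) (hπ0 : π ≠ 0)
    (hunif : ∀ x ∈ V.nonunits, x * π⁻¹ ∈ V) {p : ℕ} (hp : 0 < p) {n : ℤ} {w : F}
    (h : V.valuation (π ^ n * w ^ p) = 1) : (p : ℤ) ∣ n := by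
  have hp' : (0 : ℤ) < p := by exact_mod_cast hp
  set s : ℤ := n / p with hs
  set r : ℤ := n % p with hr
  have hr0 : 0 ≤ r := Int.emod_nonneg n hp'.ne'
  have hrp : r < p := Int.emod_lt_of_pos n hp'
  have hn : n = p * s + r := (Int.mul_ediv_add_emod n p).symm
  obtain ⟨r', hr'⟩ := Int.eq_ofNat_of_zero_le hr0
  have hr'p : r' < p := by
    have : (r' : ℤ) < p := by rw [← hr']; exact hrp
    exact_mod_cast this
  by_cases hr'0 : r' = 0
  · refine ⟨s, ?_⟩
    rw [hn, hr', hr'0]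
    simp
  exfalso
  set z : F := π ^ s * w with hz
  have hvπ : V.valuation π < 1 := (V.mem_nonunits_iff).mp hπ
  have hvπ0 : V.valuation π ≠ 0 := (Valuation.ne_zero_iff _).mpr hπ0
  have hvπpos : 0 < V.valuation π := zero_lt_iff.mpr hvπ0
  have hprod : π ^ n * w ^ p = π ^ r' * z ^ p := by
    rw [hz, mul_pow, ← zpow_natCast (π ^ s) p, ← zpow_mul, hn, hr', zpow_add₀ hπ0,
      zpow_natCast π r', mul_comm (p : ℤ) s]
    ring
  rw [hprod, map_mul, map_pow, map_pow] at h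
  -- `v(z) > 1`
  have h1 : V.valuation π ^ r' < 1 := pow_lt_one₀ zero_le hvπ hr'0
  have hz0 : z ≠ 0 := by
    intro h0
    rw [h0, map_zero, zero_pow hp.ne', mul_zero] at h
    exact zero_ne_one h
  have hvz0 : V.valuation z ≠ 0 := (Valuation.ne_zero_iff _).mpr hz0
  have hvzpos : 0 < V.valuation z := zero_lt_iff.mpr hvz0
  have hzgt : 1 < V.valuation z := by
    by_contra hle
    push Not at hle
    have h2 : V.valuation z ^ p ≤ 1 := pow_le_one₀ zero_le hle
    have h3 : V.valuation π ^ r' * V.valuation z ^ p < 1 := by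
      calc V.valuation π ^ r' * V.valuation z ^ p ≤ V.valuation π ^ r' * 1 :=
            mul_le_mul_right h2 _
        _ = V.valuation π ^ r' := mul_one _
        _ < 1 := h1
    rw [h] at h3
    exact lt_irrefl _ h3
  -- `z⁻¹` is a nonunit, hence divisible by `π`
  have hzinv : z⁻¹ ∈ V.nonunits := by
    rw [V.mem_nonunits_iff, map_inv₀]
    exact inv_lt_one_of_one_lt₀ hzgt
  have h4 := hunif z⁻¹ hzinv
  rw [← V.valuation_le_one_iff, map_mul, map_inv₀, map_inv₀] at h4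
  -- `v(π) ^ r' = v(z) ^ (-p) ≤ v(π) ^ p < v(π) ^ r'`
  have h5 : V.valuation π ^ r' = (V.valuation z ^ p)⁻¹ :=
    eq_inv_of_mul_eq_one_left h
  have h6 : (V.valuation z)⁻¹ ≤ V.valuation π := by
    have := mul_le_mul_left h4 (V.valuation π)
    rwa [one_mul, mul_assoc, inv_mul_cancel₀ hvπ0, mul_one] at this
  have h7 : (V.valuation z ^ p)⁻¹ ≤ V.valuation π ^ p := by
    rw [← inv_pow]
    exact pow_le_pow_left₀ zero_le h6 p
  have h8 : V.valuation π ^ p < V.valuation π ^ r' :=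
    pow_lt_pow_right_of_lt_one₀ hvπpos hvπ hr'p
  rw [h5] at h8
  exact lt_irrefl _ (lt_of_le_of_lt h7 h8)

/-- An element with a unit power is a unit. -/
theorem valuation_eq_one_of_pow (V : ValuationSubring F) {a : F} {n : ℕ} (hn : n ≠ 0)
    (h : V.valuation (a ^ n) = 1) : V.valuation a = 1 := by
  rw [map_pow] at h
  rcases lt_trichotomy (V.valuation a) 1 with h1 | h1 | h1
  · exact absurd h (pow_lt_one₀ zero_le h1 hn).ne
  · exact h1
  · exact absurd h (one_lt_pow₀ h1 hn).ne'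

theorem valuation_eq_one_of_mem (V : ValuationSubring F) {a : F} (ha0 : a ≠ 0) (h1 : a ∈ V)
    (h2 : a⁻¹ ∈ V) : V.valuation a = 1 := by
  have ha : V.valuation a ≤ 1 := (V.valuation_le_one_iff a).mpr h1
  have hb : V.valuation a⁻¹ ≤ 1 := (V.valuation_le_one_iff _).mpr h2
  rw [map_inv₀] at hb
  have hv0 : V.valuation a ≠ 0 := (Valuation.ne_zero_iff _).mpr ha0
  exact le_antisymm ha ((inv_le_one₀ (zero_lt_iff.mpr hv0)).mp hb)

end Val

/-! ### Roots at the maximal unramified level -/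

section Root

variable {A : ValuationSubring Qbar} {q : ℕ} (hq : q.Prime) (hA : A.LiesOverPrime q)
  (M : ℕ) [NeZero M]

/-- An element of `Kmax A` as an element of `Lvl (Kmax A)`. -/
def toLvl (c : Qbar) (hc : c ∈ Kmax A) : Lvl (Kmax A) := (Lvl.toSub (Kmax A)).symm ⟨c, hc⟩

theorem algebraMap_toLvl (c : Qbar) (hc : c ∈ Kmax A) :
    algebraMap (Lvl (Kmax A)) Qbar (toLvl c hc) = c := rfl

/-- Functions of level `Kmax A` are fixed by the inertia group. -/
theorem gal_smul_levK_Kmax {σ : Γ} (hσ : σ ∈ A.inertiaSubgroupIn ℚ) (y : FF (Lvl (Kmax A)) M) :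
    gal M σ • levK M (Kmax A) y = levK M (Kmax A) y :=
  arithmeticGalois_smul_lev M (Lvl (Kmax A)) σ
    (fun a => apply_eq_of_mem_Kmax (Lvl.algebraMap_mem (Kmax A) a) hσ) y

/-- An `I_A`-invariant function is defined over `Kmax A`. -/
theorem mem_range_levK_Kmax {t : Fb M}
    (ht : ∀ σ ∈ A.inertiaSubgroupIn ℚ, gal M σ • t = t) : t ∈ Set.range (levK M (Kmax A)) :=
  mem_range_levK_of_coeff_mem M (Kmax A) t fun n =>
    mem_Kmax_iff.mpr fun σ hσ => coeff_fixed_of_smul_eq (ht σ hσ) n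

include hq hA in
/-- **Roots at the maximal unramified level.** -/
theorem exists_root_at_Kmax {p : ℕ} (hp : p.Prime) (hpq : p ≠ q)
    (V₀ : ValuationSubring (FF (Lvl (Kmax A)) M))
    (hO : ∀ c : Lvl (Kmax A), algebraMap (Lvl (Kmax A)) Qbar c ∈ A →
      algebraMap (Lvl (Kmax A)) (FF (Lvl (Kmax A)) M) c ∈ V₀)
    (hqV : ((q : ℕ) : FF (Lvl (Kmax A)) M) ∈ V₀.nonunits)
    (hunif : ∀ x ∈ V₀.nonunits, x * ((q : ℕ) : FF (Lvl (Kmax A)) M)⁻¹ ∈ V₀)
    {kn : FF (Lvl (Kmax A)) M} (hkn : V₀.valuation kn = 1)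
    {w : Fb M} (hw : w ^ p = levK M (Kmax A) kn) :
    ∃ k' : FF (Lvl (Kmax A)) M, k' ^ p = kn := by
  classical
  have hinj : Function.Injective (levK M (Kmax A)) := (levK M (Kmax A)).toRingHom.injective
  have hkn0 : kn ≠ 0 := by
    rintro rfl
    rw [map_zero] at hkn
    exact zero_ne_one hkn
  have hu0 : levK M (Kmax A) kn ≠ 0 := (map_ne_zero_iff _ hinj).mpr hkn0
  -- the normalised root is invariant
  obtain ⟨h₁, hh₁0, hu, hlcfix, hh₁inv⟩ := exists_invariant_root (A.inertiaSubgroupIn ℚ)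
    hp.ne_zero hu0 (fun σ hσ => gal_smul_levK_Kmax M hσ kn)
    ⟨1, w, by rw [map_one, one_mul, hw]⟩
  obtain ⟨wK, hwK⟩ := mem_range_levK_Kmax M hh₁inv
  set d : Qbar := lc M (levK M (Kmax A) kn) with hd
  have hdK : d ∈ Kmax A := mem_Kmax_iff.mpr hlcfix
  have hd0 : d ≠ 0 := lc_ne_zero hu0
  -- the equation at level `K`
  have hknd : kn = algebraMap (Lvl (Kmax A)) (FF (Lvl (Kmax A)) M) (toLvl d hdK) * wK ^ p := by
    apply hinj
    rw [map_mul, map_pow, hwK, AlgHom.commutes, IsScalarTower.algebraMap_apply (Lvl (Kmax A)) Qbar (Fb M),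
      algebraMap_toLvl]
    exact hu
  -- the constant is `q ^ n · unit`
  obtain ⟨n, u₀, hu₀A, hu₀iA, hu₀K, hdn⟩ := exists_eq_zpow_mul_unit hq hA hdK hd0
  have hu₀0 : u₀ ≠ 0 := by
    rintro rfl
    rw [mul_zero] at hdn
    exact hd0 hdn
  have hdn' : toLvl d hdK = ((q : ℕ) : Lvl (Kmax A)) ^ n * toLvl u₀ hu₀K := by
    apply (algebraMap (Lvl (Kmax A)) Qbar).injective
    rw [map_mul, map_zpow₀, map_natCast, algebraMap_toLvl, algebraMap_toLvl]
    exact hdn
  have hvu₀ : V₀.valuation (algebraMap (Lvl (Kmax A)) (FF (Lvl (Kmax A)) M) (toLvl u₀ hu₀K)) = 1 := by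
    refine valuation_eq_one_of_mem V₀ ?_ (hO _ hu₀A) ?_
    · rw [Ne, map_eq_zero_iff _ (algebraMap (Lvl (Kmax A)) (FF (Lvl (Kmax A)) M)).injective]
      intro h0
      apply hu₀0
      have := congrArg (algebraMap (Lvl (Kmax A)) Qbar) h0
      rwa [algebraMap_toLvl, map_zero] at this
    · rw [← map_inv₀]
      refine hO _ ?_
      rw [map_inv₀, algebraMap_toLvl]
      exact hu₀iA
  have hq0F : ((q : ℕ) : FF (Lvl (Kmax A)) M) ≠ 0 := Nat.cast_ne_zero.mpr hq.ne_zero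
  have hval : V₀.valuation (((q : ℕ) : FF (Lvl (Kmax A)) M) ^ n * wK ^ p) = 1 := by
    have h1 : kn = (((q : ℕ) : FF (Lvl (Kmax A)) M) ^ n * wK ^ p) *
        algebraMap (Lvl (Kmax A)) (FF (Lvl (Kmax A)) M) (toLvl u₀ hu₀K) := by
      rw [hknd, hdn', map_mul, map_zpow₀, map_natCast]
      ring
    rw [h1, map_mul, hvu₀, mul_one] at hkn
    exact hkn
  obtain ⟨s, hs⟩ := int_dvd_of_unif V₀ hqV hq0F hunif hp.pos hval
  -- a `p`-th root of the unit
  obtain ⟨a, ha⟩ := IsAlgClosed.exists_pow_nat_eq u₀ hp.pos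
  have hu₀nu : u₀ ∉ A.nonunits := by
    intro hnu
    have h1 : A.valuation u₀ = 1 := valuation_eq_one_of_mem A hu₀0 hu₀A hu₀iA
    rw [A.mem_nonunits_iff, h1] at hnu
    exact lt_irrefl _ hnu
  have hcop : Nat.Coprime q p := (Nat.coprime_primes hq hp).mpr (Ne.symm hpq)
  have haK : a ∈ Kmax A := mem_Kmax_of_pow_eq hA hp.ne_zero hcop ha hu₀K hu₀A hu₀nu
  have hqK : ((q : ℕ) : Qbar) ∈ Kmax A := natCast_mem (Kmax A) q
  have hδK : ((q : ℕ) : Qbar) ^ s * a ∈ Kmax A := (Kmax A).mul_mem (zpow_mem hqK s) haK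
  refine ⟨algebraMap (Lvl (Kmax A)) (FF (Lvl (Kmax A)) M) (toLvl (((q : ℕ) : Qbar) ^ s * a) hδK) * wK, ?_⟩
  rw [mul_pow, ← map_pow, hknd]
  congr 2
  apply (algebraMap (Lvl (Kmax A)) Qbar).injective
  rw [map_pow, algebraMap_toLvl, algebraMap_toLvl, mul_pow, ha, hdn, hs, ← zpow_natCast, ← zpow_mul,
    mul_comm s (p : ℤ)]

include hq hA in
/-- **The dévissage at the maximal unramified level**: if every `p ^ n`-th root (`n < k`) of `h` in
`FF (Lvl (Kmax A)) M` becomes a `p`-th power over `Q̄`, then `h` is a `p ^ k`-th power in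
`FF (Lvl (Kmax A)) M`. -/
theorem exists_pow_eq_of_step {p : ℕ} (hp : p.Prime) (hpq : p ≠ q)
    (V₀ : ValuationSubring (FF (Lvl (Kmax A)) M))
    (hO : ∀ c : Lvl (Kmax A), algebraMap (Lvl (Kmax A)) Qbar c ∈ A →
      algebraMap (Lvl (Kmax A)) (FF (Lvl (Kmax A)) M) c ∈ V₀)
    (hqV : ((q : ℕ) : FF (Lvl (Kmax A)) M) ∈ V₀.nonunits)
    (hunif : ∀ x ∈ V₀.nonunits, x * ((q : ℕ) : FF (Lvl (Kmax A)) M)⁻¹ ∈ V₀)
    {h : FF (Lvl (Kmax A)) M} (hh : V₀.valuation h = 1) (k : ℕ)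
    (hstep : ∀ n < k, ∀ kn : FF (Lvl (Kmax A)) M, kn ^ (p ^ n) = h →
      ∃ w : Fb M, w ^ p = levK M (Kmax A) kn) :
    ∃ κ : FF (Lvl (Kmax A)) M, κ ^ (p ^ k) = h := by
  have key : ∀ n : ℕ, n ≤ k → ∃ kn : FF (Lvl (Kmax A)) M, kn ^ (p ^ n) = h := by
    intro n
    induction n with
    | zero => exact fun _ => ⟨h, by rw [pow_zero, pow_one]⟩
    | succ n ih =>
      intro hn
      obtain ⟨kn, hkn⟩ := ih (Nat.le_of_succ_le hn)
      obtain ⟨w, hw⟩ := hstep n (Nat.lt_of_succ_le hn) kn hkn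
      have hvkn : V₀.valuation kn = 1 :=
        valuation_eq_one_of_pow V₀ (pow_ne_zero n hp.ne_zero) (by rw [hkn]; exact hh)
      obtain ⟨k', hk'⟩ := exists_root_at_Kmax hq hA M hp hpq V₀ hO hqV hunif hvkn hw
      exact ⟨k', by rw [pow_succ', pow_mul, hk', hkn]⟩
  exact key k le_rfl

end Root

end Fermat.Agent.S36.Descent.Devissage
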