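/-
S36, block [Descent] (helper19): **FROM THE SPINE AT AN UNRAMIFIED LEVEL TO THE TORSION BOUND ON
`J_0(N q)^{q-new}`.**

* `NewRootStepAt N q` : what [Descent] consumes from the geometric spine (helper13's
  `Descent/LevelCore`), at unramified levels `K`: for `f ∈ FF (Lvl K) (N q)` with `p ^ k ∣ div f` and
  both norms to level `N` constants times `p ^ k`-th powers there are `c₀ ≠ 0`, `G ≠ 0` and
  `h = c₀ f ^ C / G ^ (p ^ k)` such that (U) `h` is a unit at a valuation ring `V₀ ⊇ O_K` with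
  uniformiser `q`, and (S) every `p ^ n`-th root (`n < k`) of `h` in `FF (Lvl K) (N q)` becomes a
  `p`-th power over `Q̄`;
* `torsionBound_of_rootStep` : then `C` kills every `p`-power torsion class of the `q`-new part
  `newPart N q ⊆ J_0(N q)(Q̄)` fixed by the inertia group `I_A` (the statement
  `Descent.AuxLevel.TorsionBoundAt N q p A`).

Proof: `y = [D]`, `p ^ k D = div f₀`; `σ y = y` for `σ ∈ I_A` gives an `I_A`-invariant
`f₁ = c₁ f₀ b ^ (p ^ k)` (Hilbert 90, `InvariantModel`), defined over `K = Kmax A` together with the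
normalised roots of its two norms; the spine at `K` and the dévissage at `K` (`Devissage`) give
`c₀ f₁ ^ C = g ^ (p ^ k)`, hence `C (D + div b) = div g`.
-/
import Mathlib
import Fermat.Agent.S36.Descent.Devissage
import Fermat.Agent.P4.Push
import Fermat.Agent.P4.FrobLevelStep

set_option autoImplicit false
set_option linter.unusedSectionVars false
set_option linter.style.haveILetI false

open ModularCurve AlgebraicCurve
open Fermat.Agent.N4.Setting Fermat.Agent.N4.BigDVR Fermat.Agent.N4F.C Fermat.Agent.N4F.C.Levels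
  Fermat.Agent.N4F.C.Galois Fermat.Agent.N4F.A.LevelMaps
open Fermat.Agent.P3G.Gamma Fermat.Agent.P3G.GammaDict
open Fermat.Agent.P4.Push Fermat.Agent.P4.FrobLevelStep
open Fermat.Agent.S36.Descent.LeadCoeff Fermat.Agent.S36.Descent.Rational
  Fermat.Agent.S36.Descent.InvariantModel Fermat.Agent.S36.Descent.UnramLevel
  Fermat.Agent.S36.Descent.Devissage

noncomputable section

namespace Fermat.Agent.S36.Descent.Main

local notation "Qbar" => AlgebraicClosure ℚ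
local notation "Γ" => (AlgebraicClosure ℚ ≃ₐ[ℚ] AlgebraicClosure ℚ)

/-- **What [Descent] consumes from the geometric spine**, at unramified levels. -/
def NewRootStepAt (N q : ℕ) [NeZero N] [NeZero q] : Prop :=
  ∀ A : ValuationSubring Qbar, A.LiesOverPrime q → ∀ p : ℕ, p.Prime → p ≠ q →
    ∃ C : ℕ, C ≠ 0 ∧ ∀ (k : ℕ) (K : IntermediateField ℚ Qbar), IsUnramLevel A q K →
      ∀ (f : FF (Lvl K) (N * q)) (ha hb : FF (Lvl K) N) (ca cb : Lvl K),
      f ≠ 0 → ca ≠ 0 → cb ≠ 0 →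
      (∀ P : Place Qb (Fb (N * q)), ((p ^ k : ℕ) : ℤ) ∣ P.ord (levK (N * q) K f)) →
      normAlphaK K N q f = algebraMap (Lvl K) (FF (Lvl K) N) ca * ha ^ (p ^ k) →
      normBetaK K N q f = algebraMap (Lvl K) (FF (Lvl K) N) cb * hb ^ (p ^ k) →
      ∃ (c₀ : Lvl K) (G h : FF (Lvl K) (N * q)), c₀ ≠ 0 ∧ G ≠ 0 ∧
        algebraMap (Lvl K) (FF (Lvl K) (N * q)) c₀ * f ^ C = h * G ^ (p ^ k) ∧
        (∃ V₀ : ValuationSubring (FF (Lvl K) (N * q)),
          (∀ c : Lvl K, algebraMap (Lvl K) Qbar c ∈ A →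
            algebraMap (Lvl K) (FF (Lvl K) (N * q)) c ∈ V₀) ∧
          ((q : ℕ) : FF (Lvl K) (N * q)) ∈ V₀.nonunits ∧
          (∀ x ∈ V₀.nonunits, x * ((q : ℕ) : FF (Lvl K) (N * q))⁻¹ ∈ V₀) ∧
          V₀.valuation h = 1) ∧
        ∀ n < k, ∀ kn : FF (Lvl K) (N * q), kn ^ (p ^ n) = h →
          ∃ w : Fb (N * q), w ^ p = levK (N * q) K kn

variable {N q : ℕ} [NeZero N] [NeZero q]

set_option maxHeartbeats 1600000 in
/-- **The torsion bound on the inertia invariants of the `q`-new part**, from the spine at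
unramified levels and the compatibility of the norms with the level maps. -/
theorem torsionBound_of_rootStep (hq : q.Prime) (hstep : NewRootStepAt N q)
    (hcompA : ∀ (K : IntermediateField ℚ Qbar) (y : FF (Lvl K) (N * q)),
      levK N K (normAlphaK K N q y) = normAlpha N q (levK (N * q) K y))
    (hcompB : ∀ (K : IntermediateField ℚ Qbar) (y : FF (Lvl K) (N * q)),
      levK N K (normBetaK K N q y) = normBeta N q (levK (N * q) K y))
    (A : ValuationSubring Qbar) (hA : A.LiesOverPrime q) (p : ℕ) (hp : p.Prime) (hpq : p ≠ q) :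
    ∃ c : ℕ, c ≠ 0 ∧ ∀ k : ℕ, ∀ y ∈ newPart N q, p ^ k • y = 0 →
      (∀ σ ∈ A.inertiaSubgroupIn ℚ, σ • y = y) → c • y = 0 := by
  classical
  obtain ⟨C, hC, hspine⟩ := hstep A hA p hp hpq
  refine ⟨C, hC, fun k y hy hky hfix => ?_⟩
  have hm : p ^ k ≠ 0 := pow_ne_zero k hp.ne_zero
  obtain ⟨D, f₀, rfl, hf₀⟩ := exists_isDivOf_of_torsion (N * q) y (p ^ k) hky
  -- `σ f₀ / f₀` is a constant times a `p ^ k`-th power for `σ ∈ I_A`
  have hH : ∀ σ ∈ A.inertiaSubgroupIn ℚ, ∃ (c : Qb) (κ : Fb (N * q)),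
      gal (N * q) σ • f₀ = algebraMap Qb (Fb (N * q)) c * κ ^ (p ^ k) * f₀ := by
    intro σ hσ
    have h1 : gal (N * q) σ • (Pic0.mk D : JZero (N * q)) - Pic0.mk D = 0 := by
      rw [← galois_smul_eq, hfix σ hσ, sub_self]
    rw [smul_mk_sub_mk, mk_eq_zero_iff] at h1
    obtain ⟨g, hg⟩ := h1
    obtain ⟨c, -, hcg⟩ := Fermat.Agent.P3G.GeomStep.IsDivOf.eq_const_mul (N * q)
      (hf₀.diff (gal (N * q) σ)) (hg.pow (p ^ k))
    refine ⟨c, g, ?_⟩
    rw [diffFn_def] at hcg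
    exact (div_eq_iff hf₀.1).mp hcg
  -- Hilbert 90: an invariant Kummer function
  obtain ⟨c₁, b, hc₁, hb, hinv⟩ := exists_invariant_mul_pow (A.inertiaSubgroupIn ℚ) hm hf₀.1 hH
  set f₁ : Fb (N * q) := algebraMap Qb (Fb (N * q)) c₁ * f₀ * b ^ (p ^ k) with hf₁def
  -- its divisor
  haveI := hasPrincipalDivisors_bar (N * q)
  obtain ⟨E, hE, hE0⟩ := HasPrincipalDivisors.exists_divisor (K := Qb) b hb
  have hbE : IsDivOf b E := ⟨hb, hE⟩
  set E₀ : Divisor.degZero (K := Qb) (F := Fb (N * q)) := ⟨E, hE0⟩ with hE₀def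
  have hE₀mk : (Pic0.mk E₀ : JZero (N * q)) = 0 := (mk_eq_zero_iff E₀).mpr ⟨b, hbE⟩
  set D₁ : Divisor.degZero (K := Qb) (F := Fb (N * q)) := D + E₀ with hD₁def
  have hD₁mk : (Pic0.mk D₁ : JZero (N * q)) = Pic0.mk D := by
    rw [hD₁def, Pic0.mk_add, hE₀mk, add_zero]
  have hf₁ : IsDivOf f₁ (p ^ k • (D₁ : Divisor Qb (Fb (N * q)))) := by
    have h1 := (hf₀.const_mul hc₁).mul (hbE.pow (p ^ k))
    have h2 : (p ^ k • (D₁ : Divisor Qb (Fb (N * q)))) =
        p ^ k • (D : Divisor Qb (Fb (N * q))) + p ^ k • E := by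
      rw [hD₁def, AddSubgroup.coe_add, smul_add]
    rw [h2]
    exact h1
  have hf₁0 : f₁ ≠ 0 := hf₁.1
  clear_value f₁ D₁ E₀
  have hy₁ : (Pic0.mk D₁ : JZero (N * q)) ∈ newPart N q := by rw [hD₁mk]; exact hy
  -- the two norms
  obtain ⟨cA, uA, -, -, hnA⟩ := exists_normAlpha_eq hf₁ (mem_newPart_iff.mp hy₁).1
  obtain ⟨cB, uB, -, -, hnB⟩ := exists_normBeta_eq hf₁ (mem_newPart_iff.mp hy₁).2
  have hNA0 : normAlpha N q f₁ ≠ 0 := (IsDivOf.pushAlpha hf₁).1
  have hNB0 : normBeta N q f₁ ≠ 0 := (IsDivOf.pushBeta hf₁).1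
  obtain ⟨hA', hA'0, hA'eq, hlcA, hA'inv⟩ := exists_invariant_root (A.inertiaSubgroupIn ℚ) hm hNA0
    (fun σ hσ => by rw [← normAlpha_smul, hinv σ hσ]) ⟨cA, uA, hnA⟩
  obtain ⟨hB', hB'0, hB'eq, hlcB, hB'inv⟩ := exists_invariant_root (A.inertiaSubgroupIn ℚ) hm hNB0
    (fun σ hσ => by rw [← normBeta_smul, hinv σ hσ]) ⟨cB, uB, hnB⟩
  -- everything is defined over `K = Kmax A`
  have hK := isUnramLevel_Kmax hq hA
  obtain ⟨fK, hfK⟩ := mem_range_levK_Kmax (N * q) hinv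
  obtain ⟨hAK, hhAK⟩ := mem_range_levK_Kmax N hA'inv
  obtain ⟨hBK, hhBK⟩ := mem_range_levK_Kmax N hB'inv
  have hcAK : lc N (normAlpha N q f₁) ∈ Kmax A := mem_Kmax_iff.mpr hlcA
  have hcBK : lc N (normBeta N q f₁) ∈ Kmax A := mem_Kmax_iff.mpr hlcB
  have hinjN : Function.Injective (levK N (Kmax A)) := (levK N (Kmax A)).toRingHom.injective
  have hinjNq : Function.Injective (levK (N * q) (Kmax A)) :=
    (levK (N * q) (Kmax A)).toRingHom.injective
  have hfK0 : fK ≠ 0 := by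
    rintro rfl
    rw [map_zero] at hfK
    exact hf₁0 hfK.symm
  have hcA0 : toLvl (lc N (normAlpha N q f₁)) hcAK ≠ 0 := by
    intro h0
    have := congrArg (algebraMap (Lvl (Kmax A)) Qbar) h0
    rw [algebraMap_toLvl, map_zero] at this
    exact lc_ne_zero hNA0 this
  have hcB0 : toLvl (lc N (normBeta N q f₁)) hcBK ≠ 0 := by
    intro h0
    have := congrArg (algebraMap (Lvl (Kmax A)) Qbar) h0
    rw [algebraMap_toLvl, map_zero] at this
    exact lc_ne_zero hNB0 this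
  have hnAK : normAlphaK (Kmax A) N q fK =
      algebraMap (Lvl (Kmax A)) (FF (Lvl (Kmax A)) N) (toLvl _ hcAK) * hAK ^ (p ^ k) := by
    apply hinjN
    rw [hcompA, hfK, map_mul, map_pow, hhAK, AlgHom.commutes,
      IsScalarTower.algebraMap_apply (Lvl (Kmax A)) Qbar (Fb N), algebraMap_toLvl]
    exact hA'eq
  have hnBK : normBetaK (Kmax A) N q fK =
      algebraMap (Lvl (Kmax A)) (FF (Lvl (Kmax A)) N) (toLvl _ hcBK) * hBK ^ (p ^ k) := by
    apply hinjN
    rw [hcompB, hfK, map_mul, map_pow, hhBK, AlgHom.commutes,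
      IsScalarTower.algebraMap_apply (Lvl (Kmax A)) Qbar (Fb N), algebraMap_toLvl]
    exact hB'eq
  have hdiv : ∀ P : Place Qb (Fb (N * q)),
      ((p ^ k : ℕ) : ℤ) ∣ P.ord (levK (N * q) (Kmax A) fK) := by
    intro P
    rw [hfK, ← hf₁.2 P, Finsupp.smul_apply, nsmul_eq_mul]
    exact Dvd.intro _ rfl
  -- the spine at `K`
  obtain ⟨c₀, G, h, hc₀, hG, heq, ⟨V₀, hO, hqV, hunif, hvh⟩, hS⟩ :=
    hspine k (Kmax A) hK fK hAK hBK _ _ hfK0 hcA0 hcB0 hdiv hnAK hnBK
  -- the dévissage at `K`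
  obtain ⟨κ, hκ⟩ := exists_pow_eq_of_step hq hA (N * q) hp hpq V₀ hO hqV hunif hvh k hS
  -- conclusion over `Q̄`
  set c₀' : Qb := algebraMap (Lvl (Kmax A)) Qbar c₀ with hc₀'def
  have hc₀'0 : c₀' ≠ 0 := by
    rw [hc₀'def]
    exact (map_ne_zero_iff _ (algebraMap (Lvl (Kmax A)) Qbar).injective).mpr hc₀
  have hfinal : f₁ ^ C = algebraMap Qb (Fb (N * q)) c₀'⁻¹ *
      (levK (N * q) (Kmax A) (κ * G)) ^ (p ^ k) := by
    have h1 := congrArg (levK (N * q) (Kmax A)) heq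
    rw [← hκ, ← mul_pow, map_mul, map_pow, map_pow, hfK, AlgHom.commutes,
      IsScalarTower.algebraMap_apply (Lvl (Kmax A)) Qbar (Fb (N * q))] at h1
    rw [← h1, ← mul_assoc, ← map_mul, inv_mul_cancel₀ hc₀'0, map_one, one_mul]
  have hdivC : IsDivOf (f₁ ^ C)
      (p ^ k • ((C • D₁ : Divisor.degZero (K := Qb) (F := Fb (N * q))) :
        Divisor Qb (Fb (N * q)))) := by
    have h1 := hf₁.pow C
    rw [AddSubgroup.coe_nsmul, smul_comm]
    exact h1
  have hzero : (Pic0.mk (C • D₁) : JZero (N * q)) = 0 :=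
    mk_eq_zero_of_isDivOf_nsmul_of_pow hm (C • D₁) hdivC (inv_ne_zero hc₀'0) hfinal
  rw [mk_nsmul, hD₁mk] at hzero
  exact hzero

end Fermat.Agent.S36.Descent.Main
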