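/-
S36, block [Descent] (helper19): **ADAPTERS between the spine (`Descent/LevelCore`) and
`Descent/Main`.**

* `torsionBound_of_rootStep'` : `Main.torsionBound_of_rootStep` with the norm compatibility
  discharged by helper7's `NormCompatQ`;
* `rootClauses_of_levelGeom` : the per-level adapter.  At an unramified level `K`, the geometric
  bundle of the spine for `h` (uniformiser `ϖ`, family of vertical valuations `V` with
  `FamVal ϖ W V E`, semilocal Gauss ring `W` for both charts, `h ≡ 1` modulo `ϖ W`, local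
  `p ^ k`-th roots on both charts) together with ONE reduced component `i₀`
  (`x ∈ 𝔪_{V i₀} → x / ϖ ∈ V i₀`) gives the two clauses (U), (S) of `Main.NewRootStepAt`:
  (U) `V₀ := V i₀ ⊇ O_K` has uniformiser `q` and `h` is a unit of it;
  (S) every `p ^ n`-th root (`n < k`) of `h` in `FF (Lvl K) M` is a `p`-th power over `Q̄`
      (`C/AtBasePowFam.no_kummer_pow_at_base_fam`).
-/
import Mathlib
import Fermat.Agent.S36.Descent.Main
import Fermat.Agent.S36.Descent.NormCompatQ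
import Fermat.Agent.S36.C.AtBasePowFam
import Fermat.Agent.S36.C.FamValOfUnif
import Fermat.Agent.P3G.Assembly.LevelStep
import Fermat.Agent.N4.S18Glue.Final

set_option autoImplicit false
set_option linter.unusedSectionVars false
set_option linter.style.haveILetI false

open ModularCurve AlgebraicCurve
open Fermat.Agent.N4.Setting Fermat.Agent.N4.Chart Fermat.Agent.N4.S18Glue Fermat.Agent.N4.BigDVR
  Fermat.Agent.N4F.C Fermat.Agent.N4F.C.Levels Fermat.Agent.N4F.C.Galois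
open Fermat.Agent.P3G.Gamma Fermat.Agent.P3G.GammaDict
open Fermat.Agent.P3G.Cover.Lift Fermat.Agent.P3G.Assembly.PowCover
  Fermat.Agent.P3G.Assembly.LevelStep
open Fermat.Agent.S36.C.PowCoverFam Fermat.Agent.S36.C.AtBasePowFam
open Fermat.Agent.P4.Push Fermat.Agent.P4.FrobLevelStep
open Fermat.Agent.S36.Descent.UnramLevel Fermat.Agent.S36.Descent.Devissage
  Fermat.Agent.S36.Descent.Main

noncomputable section

namespace Fermat.Agent.S36.Descent.Adapter

local notation "Qbar" => AlgebraicClosure ℚ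
local notation "Γ" => (AlgebraicClosure ℚ ≃ₐ[ℚ] AlgebraicClosure ℚ)

/-- **The torsion bound from the spine** (norm compatibility discharged). -/
theorem torsionBound_of_rootStep' {N q : ℕ} [NeZero N] [NeZero q] (hq : q.Prime)
    (hstep : NewRootStepAt N q) (A : ValuationSubring Qbar) (hA : A.LiesOverPrime q) (p : ℕ)
    (hp : p.Prime) (hpq : p ≠ q) :
    ∃ c : ℕ, c ≠ 0 ∧ ∀ k : ℕ, ∀ y ∈ newPart N q, p ^ k • y = 0 →
      (∀ σ ∈ A.inertiaSubgroupIn ℚ, σ • y = y) → c • y = 0 :=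
  torsionBound_of_rootStep hq hstep
    (fun K y => NormCompatQ.levK_normAlphaK_push K N q y)
    (fun K y => NormCompatQ.levK_normBetaK_push K N q y) A hA p hp hpq

section PerLevel

variable {A : ValuationSubring Qbar} {q : ℕ} (hq : q.Prime) (hA : A.LiesOverPrime q)
  {K : IntermediateField ℚ Qbar} (hK : IsUnramLevel A q K) (M : ℕ) [NeZero M]

include hq hA hK in
set_option maxHeartbeats 1600000 in
/-- **Clause (S)** from the geometric bundle at an unramified level. -/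
theorem stepClause_of_levelGeom {p : ℕ} (hp : p.Prime) (hpq : p ≠ q) (k : ℕ)
    {h : FF (Lvl K) M} {ϖ : ↥(baseRing A K)} (hϖ : Irreducible ϖ)
    (W : Subring (FF (Lvl K) M)) [IsIntegrallyClosed W] [IsFractionRing W (FF (Lvl K) M)]
    {ι : Type*} [Finite ι] [Nonempty ι] (V : ι → ValuationSubring (FF (Lvl K) M)) {E : ℕ}
    (hT : FamVal ϖ W V E)
    (hWp : IsSemiGaussRing W
      (algebraMap ↥(baseRing A K) (Rfin (Lvl K) M (baseRing A K)) ϖ))
    (hWm : IsSemiGaussRing W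
      (algebraMap ↥(baseRing A K) (Rinf (Lvl K) M (baseRing A K)) ϖ))
    (hh : ∃ w ∈ W, h - 1 = algebraMap ↥(baseRing A K) (FF (Lvl K) M) ϖ * w)
    (hlocp : LocalRoots ϖ W (jF (Lvl K) M) h (p ^ k))
    (hlocm : LocalRoots ϖ W (jF (Lvl K) M)⁻¹ h (p ^ k)) :
    ∀ n < k, ∀ kn : FF (Lvl K) M, kn ^ (p ^ n) = h →
      ∃ w : Fb M, w ^ p = levK M K kn := by
  intro n hn kn hkn
  by_contra hne
  push Not at hne
  haveI := hK.dvr
  haveI : IsFractionRing ↥(baseRing A K) (Lvl K) := isFractionRing_trSubring A K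
  have hqA : ((q : ℕ) : Qbar) ∈ A.nonunits := hA
  have hpA : ((p : ℕ) : Qbar) ∉ A.nonunits := natCast_not_mem_nonunits A hq hqA hp hpq
  have hpO : IsUnit ((p : ℕ) : ↥(baseRing A K)) := isUnit_natCast_trS A (Lvl K) hpA
  have hpjA : ((p ^ (n + 1) : ℕ) : Qbar) ∉ A.nonunits :=
    natCast_not_mem_nonunits_of_not_dvd A hq hqA fun hdvd =>
      hpq ((Nat.prime_dvd_prime_iff_eq hq hp).mp (hq.dvd_of_dvd_pow hdvd)).symm
  obtain ⟨ζ, hζ⟩ := exists_primitiveRoot_trS A (Lvl K)
    (fun ξ hξ => (Lvl.mem_range_iff K).mpr (hK.roots ξ hξ)) (pow_pos hp.pos (n + 1)) hpjA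
  have hπW : algebraMap ↥(baseRing A K) (FF (Lvl K) M) ϖ ∈ W :=
    hWp.le (algebraMap ↥(baseRing A K) (Rfin (Lvl K) M (baseRing A K)) ϖ)
  have hm : p ^ k = p ^ (n + 1) * p ^ (k - n - 1) := by
    rw [← pow_add]
    congr 1
    omega
  rw [hm] at hlocp hlocm
  exact no_kummer_pow_at_base_fam (Lvl K) M (baseRing A K) hϖ W V hT hWp hWm hp hpO n hζ hkn hh
    (localRoots_of_mul hπW hlocp) (localRoots_of_mul hπW hlocm) hne

include hK in
/-- **Clause (U)** from the geometric bundle at an unramified level and one reduced component. -/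
theorem unitClause_of_levelGeom {h : FF (Lvl K) M} {ϖ : ↥(baseRing A K)} (hϖ : Irreducible ϖ)
    (W : Subring (FF (Lvl K) M)) {ι : Type*} (V : ι → ValuationSubring (FF (Lvl K) M)) {E : ℕ}
    (hT : FamVal ϖ W V E)
    (hWp : IsSemiGaussRing W
      (algebraMap ↥(baseRing A K) (Rfin (Lvl K) M (baseRing A K)) ϖ))
    (hh : ∃ w ∈ W, h - 1 = algebraMap ↥(baseRing A K) (FF (Lvl K) M) ϖ * w)
    (i₀ : ι) (hi₀ : ∀ x ∈ (V i₀).nonunits,
      x * (algebraMap ↥(baseRing A K) (FF (Lvl K) M) ϖ)⁻¹ ∈ V i₀) :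
    ∃ V₀ : ValuationSubring (FF (Lvl K) M),
      (∀ c : Lvl K, algebraMap (Lvl K) Qbar c ∈ A →
        algebraMap (Lvl K) (FF (Lvl K) M) c ∈ V₀) ∧
      ((q : ℕ) : FF (Lvl K) M) ∈ V₀.nonunits ∧
      (∀ x ∈ V₀.nonunits, x * ((q : ℕ) : FF (Lvl K) M)⁻¹ ∈ V₀) ∧
      V₀.valuation h = 1 := by
  haveI := hK.dvr
  -- `O_K ⊆ W ⊆ V i₀`
  have hOW : ∀ c : ↥(baseRing A K), algebraMap ↥(baseRing A K) (FF (Lvl K) M) c ∈ W := fun c =>
    hWp.le (algebraMap ↥(baseRing A K) (Rfin (Lvl K) M (baseRing A K)) c)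
  have hOV : ∀ c : ↥(baseRing A K), algebraMap ↥(baseRing A K) (FF (Lvl K) M) c ∈ V i₀ :=
    fun c => hT.mem (hOW c) i₀
  -- `q` and `ϖ` are associated
  obtain ⟨u, hu⟩ := IsDiscreteValuationRing.associated_of_irreducible ↥(baseRing A K) hK.irred hϖ
  set P : FF (Lvl K) M := algebraMap ↥(baseRing A K) (FF (Lvl K) M) ϖ with hP
  set U : FF (Lvl K) M := algebraMap ↥(baseRing A K) (FF (Lvl K) M) (u : ↥(baseRing A K)) with hU
  set U' : FF (Lvl K) M :=
    algebraMap ↥(baseRing A K) (FF (Lvl K) M) ((u⁻¹ : (↥(baseRing A K))ˣ) : ↥(baseRing A K)) with hU'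
  have hQ : ((q : ℕ) : FF (Lvl K) M) * U = P := by
    rw [hU, hP, ← hu, map_mul, map_natCast]
  have hUU' : U * U' = 1 := by
    rw [hU, hU', ← map_mul, Units.mul_inv, map_one]
  have hP0 : P ≠ 0 := hT.pi_ne
  have hPnu : P ∈ (V i₀).nonunits := hT.pi_mem i₀
  have hQ' : ((q : ℕ) : FF (Lvl K) M) = U' * P := by
    rw [← hQ]
    calc ((q : ℕ) : FF (Lvl K) M) = ((q : ℕ) : FF (Lvl K) M) * (U * U') := by rw [hUU', mul_one]
      _ = U' * (((q : ℕ) : FF (Lvl K) M) * U) := by ring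
  refine ⟨V i₀, fun c hc => hOV ⟨c, hc⟩, ?_, fun x hx => ?_, ?_⟩
  · rw [hQ']
    exact Fermat.Agent.S36.C.FamValOfUnif.mul_mem_nonunits (V i₀) (hOV _) hPnu
  · have hU0 : U ≠ 0 := left_ne_zero_of_mul_eq_one hUU'
    have hU'0 : U' ≠ 0 := right_ne_zero_of_mul_eq_one hUU'
    have h1 : x * ((q : ℕ) : FF (Lvl K) M)⁻¹ = x * P⁻¹ * U := by
      rw [hQ', mul_inv, ← eq_inv_of_mul_eq_one_left hUU']
      ring
    rw [h1]
    exact (V i₀).mul_mem _ _ (hi₀ x hx) (hOV _)
  · obtain ⟨w, hw, hhw⟩ := hh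
    have hh1 : h = 1 + P * w := by linear_combination hhw
    have hPW : P ∈ W := hOW ϖ
    have hhW : h ∈ W := by
      rw [hh1]
      exact W.add_mem W.one_mem (W.mul_mem hPW hw)
    have hhinvW : h⁻¹ ∈ W := by
      rw [hh1]
      exact hWp.rad w hw
    have hh0 : h ≠ 0 := by
      intro h0
      apply hWp.not_unit
      have h2 : P * w = -1 := by
        have := hh1
        rw [h0] at this
        linear_combination -this
      have h3 : P⁻¹ = -w := by
        rw [inv_eq_iff_eq_inv, eq_comm, inv_eq_of_mul_eq_one_left]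
        linear_combination -h2
      show P⁻¹ ∈ W
      rw [h3]
      exact W.neg_mem hw
    exact valuation_eq_one_of_mem (V i₀) hh0 (hT.mem hhW i₀) (hT.mem hhinvW i₀)

end PerLevel

end Fermat.Agent.S36.Descent.Adapter
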