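/-
S36, block [Descent] (helper19): **THE GEOMETRIC INPUT OF S36 FROM THE SPINE.**

`inertiaTorsionBound_of_spine` : `Top.Final.InertiaTorsionBound` from

* `hspine` : the spine `Main.NewRootStepAt N q` at the levels `N` with `q ∥ N` satisfying the level
  condition `LevelCond N q` (`4 ∣ N` for `q` odd, `9 ∣ N` for `q = 2`: the auxiliary level
  structure of the Hauptmodul blocks);
* `haux` : the removal of the auxiliary level (`Descent/AuxLevel`): the torsion bound at level
  `N r`, `r` prime to `q`, gives the torsion bound at level `N`.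
-/
import Mathlib
import Fermat.Agent.S36.Descent.Adapter
import Fermat.Agent.S36.Top.Final
import Fermat.Agent.S54.Frobenius

set_option autoImplicit false
set_option linter.unusedSectionVars false
set_option linter.style.haveILetI false

open ModularCurve AlgebraicCurve
open Fermat.Agent.P4.Push
open Fermat.Agent.S36.Descent.Main Fermat.Agent.S36.Descent.Adapter

noncomputable section

namespace Fermat.Agent.S36.Descent.Final

local notation "Qbar" => AlgebraicClosure ℚ
local notation "Γ" => (AlgebraicClosure ℚ ≃ₐ[ℚ] AlgebraicClosure ℚ)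

/-- The auxiliary level structure needed by the geometric spine. -/
def LevelCond (N q : ℕ) : Prop := (q ≠ 2 ∧ 4 ∣ N) ∨ (q = 2 ∧ 9 ∣ N)

/-- The torsion bound at one level and one place (unfolded `AuxLevel.TorsionBoundAt`). -/
def BoundAt (N q lam : ℕ) [NeZero N] [NeZero q] (A : ValuationSubring Qbar) : Prop :=
  ∃ c : ℕ, c ≠ 0 ∧ ∀ k : ℕ, ∀ y ∈ newPart N q, lam ^ k • y = 0 →
    (∀ σ ∈ A.inertiaSubgroupIn ℚ, σ • y = y) → c • y = 0

/-- The auxiliary multiplier: `4` for odd `q`, `9` for `q = 2`. -/
def auxMul (q : ℕ) : ℕ := if q = 2 then 9 else 4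

instance (q : ℕ) : NeZero (auxMul q) := ⟨by unfold auxMul; split_ifs <;> norm_num⟩

theorem coprime_auxMul {q : ℕ} (hq : q.Prime) : Nat.Coprime (auxMul q) q := by
  unfold auxMul
  split_ifs with h
  · subst h
    norm_num
  · have h4 : (4 : ℕ) = 2 ^ 2 := by norm_num
    rw [h4]
    refine Nat.Coprime.pow_left 2 ?_
    exact (Nat.coprime_primes Nat.prime_two hq).mpr (Ne.symm h)

theorem levelCond_mul_auxMul (N q : ℕ) : LevelCond (N * auxMul q) q := by
  unfold LevelCond auxMul
  by_cases h : q = 2
  · right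
    rw [if_pos h]
    exact ⟨h, Dvd.intro_left N rfl⟩
  · left
    rw [if_neg h]
    exact ⟨h, Dvd.intro_left N rfl⟩

/-- **The geometric input of S36 from the spine and the removal of the auxiliary level.** -/
theorem inertiaTorsionBound_of_spine
    (hspine : ∀ (N q : ℕ) [NeZero N] [NeZero q], q.Prime → q ∣ N → ¬ q ^ 2 ∣ N →
      LevelCond N q → NewRootStepAt N q)
    (haux : ∀ (N q lam r : ℕ) [NeZero N] [NeZero q] [NeZero r] (A : ValuationSubring Qbar),
      Nat.Coprime r q → BoundAt (N * r) q lam A → BoundAt N q lam A) :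
    Fermat.Agent.S36.Top.Final.InertiaTorsionBound := by
  intro N q _ _ hq hqN hq2 lam hlam hqlam
  obtain ⟨A, hA⟩ := Fermat.Agent.S54.exists_valuationSubring_liesOverPrime q hq
  refine ⟨A, hA, ?_⟩
  have hcop := coprime_auxMul hq
  have hqN' : q ∣ N * auxMul q := Dvd.dvd.mul_right hqN _
  have hq2' : ¬ q ^ 2 ∣ N * auxMul q := by
    intro hdvd
    exact hq2 ((Nat.Coprime.pow_left 2 hcop.symm).dvd_of_dvd_mul_right hdvd)
  have hstep := hspine (N * auxMul q) q hq hqN' hq2' (levelCond_mul_auxMul N q)
  have hbound : BoundAt (N * auxMul q) q lam A :=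
    torsionBound_of_rootStep' hq hstep A hA lam hlam.out (Ne.symm hqlam)
  exact haux N q lam (auxMul q) A hcop hbound

end Fermat.Agent.S36.Descent.Final
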