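/-
S36, blocks [L]+[D], instantiation file (helper29): **`PowCover.LocalRoots` on a whole chart** from the
per-point theorems `ChartRoots.localRoots_onlyOne` / `ChartRoots.localRoots_triple`.

Chart `R` of the level `q² M0` model over the DVR `O`, `F = Frac R`, the three vertical valuation
rings `V 0 = V20`, `V 1 = V11`, `V 2 = V02`, `H : ChartHyp V hV π E`.  Global data:

* `h ≡ 1` modulo `π V i` for all `i`, horizontally an `e`-th power, `e ∈ Rˣ`;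
* GLOBAL unit constants `S T S' T' : Rˣ` (the images of the constants `s_α, t_α, s_β, t_β` of the global
  roots of the two norms of `h`), `p = q - 1`;
* `cg` with `cg ≡ Xi i` on `V i`, `Xi = (A0, B0, 1)` the constants of `Trivialise` computed in `Rˣ`, and
  `h₂ := h ^ (p (p + 2)) / cg ^ e ≡ 1` modulo `π V i` for all `i`.

Per closed point `𝔫 ∋ π`: the dichotomy of `Points/ClassifyChart.dispatch` (`𝔫` on exactly one
component, or on all three), (I-R) = `locAt 𝔫` factorial and `locAt 𝔫 / P_i` a PID for every branch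
through `𝔫`, and at the triple points the two cross-ratio relations `hrel` (the output of
`TripleRel.hrel_of_splitInsep`).  Conclusion: the local root of `h₂` at `𝔫` with `τ ≡ 1 (π W)`:

* `horizontal_pow_div`   : `Horizontal K₀ e h → Horizontal K₀ e (h ^ m / c ^ e)`;
* `localRoot_onlyOne`    : point on ONE component (any finite family `V`): local root of `h₂`;
* `localRoot_triple`     : triple point, global constants;
* `localRoot_at`         : the dichotomy;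
* `hrel_at`              : `hrel` at a triple point from the two `NormGlue.SplitInsep` packages;
* `localRoots_on`        : all closed points `𝔫 ∋ π` with a property `P 𝔫` (generic `R`, conclusion in
                           the `W`-form of `PowCover.LocalRoots`);
* `localRoots_chart`     : `PowCover.LocalRoots π W s h₂ e` for `R = chartAlg O F₀ {s}`;
* `localRoots_chart_onlyOne` : the same when every point with `P 𝔫` lies on ONE component (any finite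
                           family) — with `P 𝔫 := gen t ∈ 𝔫` this is the hypothesis `hcusp` of
                           `Alg/ChartTransfer.localRoots_inv` (the cusps of the chart at infinity).
-/
import Mathlib
import Fermat.Agent.P3G.Assembly.PowCover
import Fermat.Agent.S36.D.ChartRoots
import Fermat.Agent.S36.D.TripleRel

set_option autoImplicit false
set_option linter.unusedSectionVars false

namespace Fermat.Agent.S36.Descent.LocalRootsInst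

open Fermat.Agent.S36.Local.LocalRoot Fermat.Agent.S36.Local.Spread
  Fermat.Agent.S36.Local.ChartSpread Fermat.Agent.S36.D.RootData Fermat.Agent.S36.D.Trivialise
  Fermat.Agent.S36.D.ChartRoots Fermat.Agent.N4.Cover.Globalize Fermat.Agent.N4.Chart

universe u

/-! ### Horizontal powers -/

/-- `h ^ m / c ^ e` is horizontally an `e`-th power if `h` is. -/
theorem horizontal_pow_div {K₀ : Type*} [Field K₀] {F : Type u} [Field F] [Algebra K₀ F] {e : ℕ}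
    {h : F} (hhor : Horizontal K₀ e h) (m : ℕ) (c : F) : Horizontal K₀ e (h ^ m / c ^ e) := by
  intro V _ _ _ _ _ hK
  obtain ⟨u, g, hg⟩ := hhor V hK
  refine ⟨u ^ m, g ^ m / c, ?_⟩
  rw [hg, Units.val_pow_eq_pow_val, map_pow, div_pow, mul_pow, ← pow_mul, ← pow_mul, mul_comm m e,
    mul_div_assoc]

/-! ### The gluing constants are compatible with ring homomorphisms -/

theorem constXi_map {R B : Type*} [CommRing R] [CommRing B] (f : R →* B) (p : ℕ) (S T S' T' : Rˣ)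
    (i : Fin 3) :
    constXi p (Units.map f S) (Units.map f T) (Units.map f S') (Units.map f T') i =
      Units.map f (constXi p S T S' T' i) := by
  fin_cases i <;> simp [constXi, constA, constB]

section Point

variable {O K₀ : Type*} [CommRing O] [IsDomain O] [IsDiscreteValuationRing O]
  [Field K₀] [Algebra O K₀] [IsFractionRing O K₀]
variable {R : Type*} [CommRing R] [IsDomain R] [IsNoetherianRing R] [Algebra O R]
variable {F : Type u} [Field F] [Algebra R F] [IsFractionRing R F] [Algebra O F] [Algebra K₀ F]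
  [IsScalarTower O R F] [IsScalarTower O K₀ F]

/-- **Point on one component**: the local root of `h₂ = h ^ m / cg ^ e`. -/
theorem localRoot_onlyOne {ι : Type*} [Fintype ι] {V : ι → ValuationSubring F}
    {hV : ∀ i (r : R), algebraMap R F r ∈ V i} {π : O} {E : ℕ} (H : ChartHyp V hV π E)
    (𝔫 : Ideal R) [𝔫.IsPrime] (i₀ : ι) (hi₀ : centre (V i₀) (hV i₀) ≤ 𝔫)
    (honly : ∀ j, j ≠ i₀ → ¬ centre (V j) (hV j) ≤ 𝔫)
    (hUFD : UniqueFactorizationMonoid (locAt (F := F) 𝔫))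
    (hPID : IsPrincipalIdealRing (locAt (F := F) 𝔫 ⧸
      centre (V i₀) (fun b => locAt_le 𝔫 (V i₀) (hV i₀) hi₀ b)))
    {e : ℕ} (he : IsUnit ((e : ℕ) : R)) {h : F} (hhor : Horizontal K₀ e h) (m : ℕ) (cg : F)
    (hh2 : ∀ i, Cong (V i) (algebraMap R F (algebraMap O R π)) (h ^ m / cg ^ e - 1)) :
    ∃ τ : F, τ ≠ 0 ∧
      (∃ a r : R, a ∉ 𝔫 ∧ r ∉ 𝔫 ∧
        h ^ m / cg ^ e * algebraMap R F a = τ ^ e * algebraMap R F r) ∧
      ∃ w : F, (∀ i, w ∈ V i) ∧ τ - 1 = algebraMap R F (algebraMap O R π) * w :=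
  localRoots_onlyOne (K₀ := K₀) H 𝔫 i₀ hi₀ honly hPID he hh2 (horizontal_pow_div hhor m cg)

variable {V : Fin 3 → ValuationSubring F} {hV : ∀ i (r : R), algebraMap R F r ∈ V i}

/-- **Triple point, global constants** `S T S' T' : Rˣ`. -/
theorem localRoot_triple {π : O} {E : ℕ} (H : ChartHyp V hV π E)
    (𝔫 : Ideal R) [𝔫.IsPrime] (htriple : ∀ i, centre (V i) (hV i) ≤ 𝔫)
    (hUFD : UniqueFactorizationMonoid (locAt (F := F) 𝔫))
    (hPID : ∀ i, IsPrincipalIdealRing (locAt (F := F) 𝔫 ⧸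
      centre (V i) (fun b => locAt_le 𝔫 (V i) (hV i) (htriple i) b)))
    {e : ℕ} (he : IsUnit ((e : ℕ) : R)) {h : F}
    (hh1 : ∀ i, h - 1 ∈ (V i).nonunits) (hhor : Horizontal K₀ e h)
    {p : ℕ} (S T S' T' : Rˣ)
    (hrel : ∀ D : RootDatum (locAt (F := F) 𝔫) V e h,
      ¬ IsUnit (algebraMap R (locAt (F := F) 𝔫) T * D.y 0 * D.y 1 ^ p -
        algebraMap R (locAt (F := F) 𝔫) S * D.y 2 ^ (p + 1)) ∧
      ¬ IsUnit (algebraMap R (locAt (F := F) 𝔫) S' * D.y 2 * D.y 1 ^ p -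
        algebraMap R (locAt (F := F) 𝔫) T' * D.y 0 ^ (p + 1)))
    (cg : F)
    (hcg : ∀ i, cg - algebraMap R F (constXi p S T S' T' i : Rˣ) ∈ (V i).nonunits)
    (hh2 : ∀ i, Cong (V i) (algebraMap R F (algebraMap O R π))
      (h ^ (p * (p + 2)) / cg ^ e - 1)) :
    ∃ τ : F, τ ≠ 0 ∧
      (∃ a r : R, a ∉ 𝔫 ∧ r ∉ 𝔫 ∧
        h ^ (p * (p + 2)) / cg ^ e * algebraMap R F a = τ ^ e * algebraMap R F r) ∧
      ∃ w : F, (∀ i, w ∈ V i) ∧ τ - 1 = algebraMap R F (algebraMap O R π) * w := by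
  set f : R →* locAt (F := F) 𝔫 := (algebraMap R (locAt (F := F) 𝔫) : R →* locAt (F := F) 𝔫) with hf
  have := hUFD
  refine localRoots_triple (K₀ := K₀) H 𝔫 htriple hPID he hh1 hhor (p := p)
    (Units.map f S) (Units.map f T) (Units.map f S') (Units.map f T') ?_ cg ?_ hh2
  · intro D
    exact hrel D
  · intro i
    rw [constXi_map f p S T S' T' i]
    have : algebraMap (locAt (F := F) 𝔫) F
        ((Units.map f (constXi p S T S' T' i) : (locAt (F := F) 𝔫)ˣ) : locAt (F := F) 𝔫) =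
        algebraMap R F (constXi p S T S' T' i : Rˣ) := by
      rw [Units.coe_map]
      exact (IsScalarTower.algebraMap_apply R (locAt (F := F) 𝔫) F _).symm
    rw [this]
    exact hcg i

/-- **The dichotomy**: at a closed point `𝔫` which lies on exactly one component or on all three, the
local root of `h₂ = h ^ (p (p + 2)) / cg ^ e`. -/
theorem localRoot_at {π : O} {E : ℕ} (H : ChartHyp V hV π E)
    (𝔫 : Ideal R) [𝔫.IsPrime]
    (hclass : (∃ i₀, centre (V i₀) (hV i₀) ≤ 𝔫 ∧ ∀ j, j ≠ i₀ → ¬ centre (V j) (hV j) ≤ 𝔫) ∨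
      ∀ i, centre (V i) (hV i) ≤ 𝔫)
    (hUFD : UniqueFactorizationMonoid (locAt (F := F) 𝔫))
    (hPID : ∀ i (hi : centre (V i) (hV i) ≤ 𝔫), IsPrincipalIdealRing (locAt (F := F) 𝔫 ⧸
      centre (V i) (fun b => locAt_le 𝔫 (V i) (hV i) hi b)))
    {e : ℕ} (he : IsUnit ((e : ℕ) : R)) {h : F}
    (hh1 : ∀ i, h - 1 ∈ (V i).nonunits) (hhor : Horizontal K₀ e h)
    {p : ℕ} (S T S' T' : Rˣ)
    (hrel : (∀ i, centre (V i) (hV i) ≤ 𝔫) → ∀ D : RootDatum (locAt (F := F) 𝔫) V e h,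
      ¬ IsUnit (algebraMap R (locAt (F := F) 𝔫) T * D.y 0 * D.y 1 ^ p -
        algebraMap R (locAt (F := F) 𝔫) S * D.y 2 ^ (p + 1)) ∧
      ¬ IsUnit (algebraMap R (locAt (F := F) 𝔫) S' * D.y 2 * D.y 1 ^ p -
        algebraMap R (locAt (F := F) 𝔫) T' * D.y 0 ^ (p + 1)))
    (cg : F)
    (hcg : ∀ i, cg - algebraMap R F (constXi p S T S' T' i : Rˣ) ∈ (V i).nonunits)
    (hh2 : ∀ i, Cong (V i) (algebraMap R F (algebraMap O R π))
      (h ^ (p * (p + 2)) / cg ^ e - 1)) :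
    ∃ τ : F, τ ≠ 0 ∧
      (∃ a r : R, a ∉ 𝔫 ∧ r ∉ 𝔫 ∧
        h ^ (p * (p + 2)) / cg ^ e * algebraMap R F a = τ ^ e * algebraMap R F r) ∧
      ∃ w : F, (∀ i, w ∈ V i) ∧ τ - 1 = algebraMap R F (algebraMap O R π) * w := by
  rcases hclass with ⟨i₀, hi₀, honly⟩ | htriple
  · exact localRoot_onlyOne (K₀ := K₀) H 𝔫 i₀ hi₀ honly hUFD (hPID i₀ hi₀) he hhor _ cg hh2
  · exact localRoot_triple (K₀ := K₀) H 𝔫 htriple hUFD (fun i => hPID i (htriple i)) he hh1 hhor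
      S T S' T' (hrel htriple) cg hcg hh2

/-- **All closed points `𝔫 ∋ π` with a property `P 𝔫`** (generic chart `R`), conclusion in the
`W`-form of `PowCover.LocalRoots`. -/
theorem localRoots_on {π : O} {E : ℕ} (H : ChartHyp V hV π E) {W : Subring F}
    (hW : ∀ w : F, (∀ i, w ∈ V i) → w ∈ W) (P : Ideal R → Prop)
    (hclass : ∀ (𝔫 : Ideal R) [𝔫.IsPrime], 𝔫.IsMaximal → algebraMap O R π ∈ 𝔫 → P 𝔫 →
      (∃ i₀, centre (V i₀) (hV i₀) ≤ 𝔫 ∧ ∀ j, j ≠ i₀ → ¬ centre (V j) (hV j) ≤ 𝔫) ∨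
        ∀ i, centre (V i) (hV i) ≤ 𝔫)
    (hUFD : ∀ (𝔫 : Ideal R) [𝔫.IsPrime], 𝔫.IsMaximal → algebraMap O R π ∈ 𝔫 → P 𝔫 →
      UniqueFactorizationMonoid (locAt (F := F) 𝔫))
    (hPID : ∀ (𝔫 : Ideal R) [𝔫.IsPrime], 𝔫.IsMaximal → algebraMap O R π ∈ 𝔫 → P 𝔫 →
      ∀ i (hi : centre (V i) (hV i) ≤ 𝔫), IsPrincipalIdealRing (locAt (F := F) 𝔫 ⧸
        centre (V i) (fun b => locAt_le 𝔫 (V i) (hV i) hi b)))
    {e : ℕ} (he : IsUnit ((e : ℕ) : R)) {h : F}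
    (hh1 : ∀ i, h - 1 ∈ (V i).nonunits) (hhor : Horizontal K₀ e h)
    {p : ℕ} (S T S' T' : Rˣ)
    (hrel : ∀ (𝔫 : Ideal R) [𝔫.IsPrime], 𝔫.IsMaximal → algebraMap O R π ∈ 𝔫 → P 𝔫 →
      (∀ i, centre (V i) (hV i) ≤ 𝔫) → ∀ D : RootDatum (locAt (F := F) 𝔫) V e h,
      ¬ IsUnit (algebraMap R (locAt (F := F) 𝔫) T * D.y 0 * D.y 1 ^ p -
        algebraMap R (locAt (F := F) 𝔫) S * D.y 2 ^ (p + 1)) ∧
      ¬ IsUnit (algebraMap R (locAt (F := F) 𝔫) S' * D.y 2 * D.y 1 ^ p -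
        algebraMap R (locAt (F := F) 𝔫) T' * D.y 0 ^ (p + 1)))
    (cg : F)
    (hcg : ∀ i, cg - algebraMap R F (constXi p S T S' T' i : Rˣ) ∈ (V i).nonunits)
    (hh2 : ∀ i, Cong (V i) (algebraMap R F (algebraMap O R π))
      (h ^ (p * (p + 2)) / cg ^ e - 1)) :
    ∀ 𝔫 : Ideal R, 𝔫.IsMaximal → algebraMap O R π ∈ 𝔫 → P 𝔫 →
      ∃ τ : F, τ ≠ 0 ∧
        (∃ a r : R, a ∉ 𝔫 ∧ r ∉ 𝔫 ∧
          h ^ (p * (p + 2)) / cg ^ e * algebraMap R F a = τ ^ e * algebraMap R F r) ∧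
        ∃ w ∈ W, τ - 1 = algebraMap O F π * w := by
  intro 𝔫 h𝔫 hπ hP
  have : 𝔫.IsPrime := h𝔫.isPrime
  obtain ⟨τ, hτ0, har, w, hw, hτ⟩ := localRoot_at (K₀ := K₀) H 𝔫 (hclass 𝔫 h𝔫 hπ hP)
    (hUFD 𝔫 h𝔫 hπ hP) (hPID 𝔫 h𝔫 hπ hP) he hh1 hhor S T S' T' (hrel 𝔫 h𝔫 hπ hP) cg hcg hh2
  refine ⟨τ, hτ0, har, w, hW w hw, ?_⟩
  rw [hτ, ← IsScalarTower.algebraMap_apply O R F]

end Point

section OnlyOne

variable {O K₀ : Type*} [CommRing O] [IsDomain O] [IsDiscreteValuationRing O]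
  [Field K₀] [Algebra O K₀] [IsFractionRing O K₀]
variable {R : Type*} [CommRing R] [IsDomain R] [IsNoetherianRing R] [Algebra O R]
variable {F : Type u} [Field F] [Algebra R F] [IsFractionRing R F] [Algebra O F] [Algebra K₀ F]
  [IsScalarTower O R F] [IsScalarTower O K₀ F]
variable {ι : Type*} [Fintype ι] {V : ι → ValuationSubring F}
  {hV : ∀ i (r : R), algebraMap R F r ∈ V i}

/-- **All closed points `𝔫 ∋ π` with `P 𝔫`, each on exactly one component** (any finite family). -/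
theorem localRoots_on_onlyOne {π : O} {E : ℕ} (H : ChartHyp V hV π E) {W : Subring F}
    (hW : ∀ w : F, (∀ i, w ∈ V i) → w ∈ W) (P : Ideal R → Prop)
    (hone : ∀ (𝔫 : Ideal R) [𝔫.IsPrime], 𝔫.IsMaximal → algebraMap O R π ∈ 𝔫 → P 𝔫 →
      ∃ i₀, centre (V i₀) (hV i₀) ≤ 𝔫 ∧ ∀ j, j ≠ i₀ → ¬ centre (V j) (hV j) ≤ 𝔫)
    (hUFD : ∀ (𝔫 : Ideal R) [𝔫.IsPrime], 𝔫.IsMaximal → algebraMap O R π ∈ 𝔫 → P 𝔫 →
      UniqueFactorizationMonoid (locAt (F := F) 𝔫))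
    (hPID : ∀ (𝔫 : Ideal R) [𝔫.IsPrime], 𝔫.IsMaximal → algebraMap O R π ∈ 𝔫 → P 𝔫 →
      ∀ i (hi : centre (V i) (hV i) ≤ 𝔫), IsPrincipalIdealRing (locAt (F := F) 𝔫 ⧸
        centre (V i) (fun b => locAt_le 𝔫 (V i) (hV i) hi b)))
    {e : ℕ} (he : IsUnit ((e : ℕ) : R)) {h : F} (hhor : Horizontal K₀ e h) (m : ℕ) (cg : F)
    (hh2 : ∀ i, Cong (V i) (algebraMap R F (algebraMap O R π)) (h ^ m / cg ^ e - 1)) :
    ∀ 𝔫 : Ideal R, 𝔫.IsMaximal → algebraMap O R π ∈ 𝔫 → P 𝔫 →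
      ∃ τ : F, τ ≠ 0 ∧
        (∃ a r : R, a ∉ 𝔫 ∧ r ∉ 𝔫 ∧
          h ^ m / cg ^ e * algebraMap R F a = τ ^ e * algebraMap R F r) ∧
        ∃ w ∈ W, τ - 1 = algebraMap O F π * w := by
  intro 𝔫 h𝔫 hπ hP
  have : 𝔫.IsPrime := h𝔫.isPrime
  obtain ⟨i₀, hi₀, honly⟩ := hone 𝔫 h𝔫 hπ hP
  obtain ⟨τ, hτ0, har, w, hw, hτ⟩ := localRoot_onlyOne (K₀ := K₀) H 𝔫 i₀ hi₀ honly
    (hUFD 𝔫 h𝔫 hπ hP) (hPID 𝔫 h𝔫 hπ hP i₀ hi₀) he hhor m cg hh2
  refine ⟨τ, hτ0, har, w, hW w hw, ?_⟩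
  rw [hτ, ← IsScalarTower.algebraMap_apply O R F]

end OnlyOne

/-! ### `hrel` at a triple point from the two `SplitInsep` packages -/

section Rel

open Fermat.Agent.S36.D.NormGlue Fermat.Agent.S36.D.TripleRel

variable {R : Type*} [CommRing R] [IsDomain R] [IsNoetherianRing R]
variable {F2 : Type u} [Field F2] [Algebra R F2] [IsFractionRing R F2]
variable {F1 : Type*} [Field F1]
variable {Aα Aβ : Type*} [CommRing Aα] [CommRing Aβ] [Algebra Aα F1] [Algebra Aβ F1]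
  [IsDomain Aα] [IsFractionRing Aα F1] [IsIntegrallyClosed Aα] [IsLocalRing Aα]
  [IsDomain Aβ] [IsFractionRing Aβ F1] [IsIntegrallyClosed Aβ] [IsLocalRing Aβ]

/-- `TripleRel.hrel_of_splitInsep` at `B = locAt 𝔫` with GLOBAL unit constants `S T S' T' : Rˣ`: the
hypothesis `hrel` of `localRoot_triple` / `localRoot_at` / `localRoots_chart` at the triple point `𝔫`.
`Aα`, `Aβ` = the local rings of the two image points at the lower level (any local normal domains with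
fraction field `F1` and local homomorphisms into `locAt 𝔫`). -/
theorem hrel_at (𝔫 : Ideal R) [𝔫.IsPrime] {φα φβ : F1 →+* F2} {Nα Nβ : F2 →* F1}
    {inclα : Aα →+* locAt (F := F2) 𝔫} {inclβ : Aβ →+* locAt (F := F2) 𝔫}
    [IsLocalHom inclα] [IsLocalHom inclβ] {p : ℕ}
    {U10 U01 : ValuationSubring F1} {V : Fin 3 → ValuationSubring F2}
    (Sα : SplitInsep φα Nα inclα (p + 1) U10 U01 (V 0) (V 1) (V 2))
    (Sβ : SplitInsep φβ Nβ inclβ (p + 1) U01 U10 (V 2) (V 1) (V 0))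
    (hAα10 : ∀ a : Aα, algebraMap Aα F1 a ∈ U10) (hAα01 : ∀ a : Aα, algebraMap Aα F1 a ∈ U01)
    (hAβ10 : ∀ a : Aβ, algebraMap Aβ F1 a ∈ U10) (hAβ01 : ∀ a : Aβ, algebraMap Aβ F1 a ∈ U01)
    (hB : ∀ i (b : locAt (F := F2) 𝔫), algebraMap (locAt (F := F2) 𝔫) F2 b ∈ V i)
    {e : ℕ} (he : 0 < e) {h : F2} (hh0 : h ≠ 0)
    {Hα Hβ : F1} {cα sα tα : Aα} {cβ sβ tβ : Aβ} (hcα : IsUnit cα) (hcβ : IsUnit cβ)
    (hHα : Nα h = algebraMap Aα F1 cα * Hα ^ e)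
    (hsα : Hα - algebraMap Aα F1 sα ∈ U10.nonunits) (htα : Hα - algebraMap Aα F1 tα ∈ U01.nonunits)
    (hHβ : Nβ h = algebraMap Aβ F1 cβ * Hβ ^ e)
    (hsβ : Hβ - algebraMap Aβ F1 sβ ∈ U10.nonunits) (htβ : Hβ - algebraMap Aβ F1 tβ ∈ U01.nonunits)
    (S T S' T' : Rˣ) (hS : algebraMap R (locAt (F := F2) 𝔫) S = inclα sα)
    (hT : algebraMap R (locAt (F := F2) 𝔫) T = inclα tα)
    (hS' : algebraMap R (locAt (F := F2) 𝔫) S' = inclβ sβ)
    (hT' : algebraMap R (locAt (F := F2) 𝔫) T' = inclβ tβ) :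
    ∀ D : RootDatum (locAt (F := F2) 𝔫) V e h,
      ¬ IsUnit (algebraMap R (locAt (F := F2) 𝔫) T * D.y 0 * D.y 1 ^ p -
        algebraMap R (locAt (F := F2) 𝔫) S * D.y 2 ^ (p + 1)) ∧
      ¬ IsUnit (algebraMap R (locAt (F := F2) 𝔫) S' * D.y 2 * D.y 1 ^ p -
        algebraMap R (locAt (F := F2) 𝔫) T' * D.y 0 ^ (p + 1)) := by
  have : IsLocalRing (locAt (F := F2) 𝔫) := isLocalRing_locAt 𝔫
  intro D
  exact hrel_of_splitInsep Sα Sβ hAα10 hAα01 hAβ10 hAβ01 hB he hh0 hcα hcβ hHα hsα htα hHβ hsβ htβ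
    (Units.map (algebraMap R (locAt (F := F2) 𝔫) : R →* locAt (F := F2) 𝔫) S)
    (Units.map (algebraMap R (locAt (F := F2) 𝔫) : R →* locAt (F := F2) 𝔫) T)
    (Units.map (algebraMap R (locAt (F := F2) 𝔫) : R →* locAt (F := F2) 𝔫) S')
    (Units.map (algebraMap R (locAt (F := F2) 𝔫) : R →* locAt (F := F2) 𝔫) T') hS hT hS' hT' D

end Rel

/-! ### The chart `chartAlg O F₀ {s}` -/

section ChartAlg

variable {O K₀ : Type*} [CommRing O] [IsDomain O] [IsDiscreteValuationRing O]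
  [Field K₀] [CharZero K₀] [Algebra O K₀] [IsFractionRing O K₀]
variable {F₀ : Type u} [Field F₀] [Algebra K₀ F₀] [Algebra O F₀] [IsScalarTower O K₀ F₀]

open Fermat.Agent.P3G.Assembly.PowCover (LocalRoots)

/-- **`PowCover.LocalRoots` on the chart `chartAlg O F₀ {s}`** for
`h₂ = h ^ (p (p + 2)) / cg ^ e`. -/
theorem localRoots_chart (s : F₀) [IsNoetherianRing (chartAlg O F₀ {s})]
    [IsFractionRing (chartAlg O F₀ {s}) F₀]
    {V : Fin 3 → ValuationSubring F₀}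
    {hV : ∀ i (r : chartAlg O F₀ {s}), algebraMap (chartAlg O F₀ {s}) F₀ r ∈ V i}
    {π : O} {E : ℕ} (H : ChartHyp V hV π E) {W : Subring F₀}
    (hW : ∀ w : F₀, (∀ i, w ∈ V i) → w ∈ W)
    (hclass : ∀ (𝔫 : Ideal (chartAlg O F₀ {s})) [𝔫.IsPrime], 𝔫.IsMaximal →
      algebraMap O (chartAlg O F₀ {s}) π ∈ 𝔫 →
      (∃ i₀, centre (V i₀) (hV i₀) ≤ 𝔫 ∧ ∀ j, j ≠ i₀ → ¬ centre (V j) (hV j) ≤ 𝔫) ∨
        ∀ i, centre (V i) (hV i) ≤ 𝔫)
    (hUFD : ∀ (𝔫 : Ideal (chartAlg O F₀ {s})) [𝔫.IsPrime], 𝔫.IsMaximal →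
      algebraMap O (chartAlg O F₀ {s}) π ∈ 𝔫 → UniqueFactorizationMonoid (locAt (F := F₀) 𝔫))
    (hPID : ∀ (𝔫 : Ideal (chartAlg O F₀ {s})) [𝔫.IsPrime], 𝔫.IsMaximal →
      algebraMap O (chartAlg O F₀ {s}) π ∈ 𝔫 →
      ∀ i (hi : centre (V i) (hV i) ≤ 𝔫), IsPrincipalIdealRing (locAt (F := F₀) 𝔫 ⧸
        centre (V i) (fun b => locAt_le 𝔫 (V i) (hV i) hi b)))
    {e : ℕ} (he : IsUnit ((e : ℕ) : chartAlg O F₀ {s})) {h : F₀}
    (hh1 : ∀ i, h - 1 ∈ (V i).nonunits) (hhor : Horizontal K₀ e h)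
    {p : ℕ} (S T S' T' : (chartAlg O F₀ {s})ˣ)
    (hrel : ∀ (𝔫 : Ideal (chartAlg O F₀ {s})) [𝔫.IsPrime], 𝔫.IsMaximal →
      algebraMap O (chartAlg O F₀ {s}) π ∈ 𝔫 →
      (∀ i, centre (V i) (hV i) ≤ 𝔫) → ∀ D : RootDatum (locAt (F := F₀) 𝔫) V e h,
      ¬ IsUnit (algebraMap (chartAlg O F₀ {s}) (locAt (F := F₀) 𝔫) T * D.y 0 * D.y 1 ^ p -
        algebraMap (chartAlg O F₀ {s}) (locAt (F := F₀) 𝔫) S * D.y 2 ^ (p + 1)) ∧
      ¬ IsUnit (algebraMap (chartAlg O F₀ {s}) (locAt (F := F₀) 𝔫) S' * D.y 2 * D.y 1 ^ p -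
        algebraMap (chartAlg O F₀ {s}) (locAt (F := F₀) 𝔫) T' * D.y 0 ^ (p + 1)))
    (cg : F₀)
    (hcg : ∀ i, cg - algebraMap (chartAlg O F₀ {s}) F₀
      (constXi p S T S' T' i : (chartAlg O F₀ {s})ˣ) ∈ (V i).nonunits)
    (hh2 : ∀ i, Cong (V i) (algebraMap (chartAlg O F₀ {s}) F₀ (algebraMap O (chartAlg O F₀ {s}) π))
      (h ^ (p * (p + 2)) / cg ^ e - 1)) :
    LocalRoots π W s (h ^ (p * (p + 2)) / cg ^ e) e := by
  intro 𝔫 h𝔫 hπ
  exact localRoots_on (K₀ := K₀) H hW (fun _ => True)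
    (fun 𝔫 _ h𝔫 hπ _ => hclass 𝔫 h𝔫 hπ) (fun 𝔫 _ h𝔫 hπ _ => hUFD 𝔫 h𝔫 hπ)
    (fun 𝔫 _ h𝔫 hπ _ => hPID 𝔫 h𝔫 hπ) he hh1 hhor S T S' T'
    (fun 𝔫 _ h𝔫 hπ _ => hrel 𝔫 h𝔫 hπ) cg hcg hh2 𝔫 h𝔫 hπ trivial

/-- **The points of the chart `chartAlg O F₀ {t}` with a property `P`, each on one component**: with
`P 𝔫 := gen t ∈ 𝔫` this is the hypothesis `hcusp` of `Alg/ChartTransfer.localRoots_inv`. -/
theorem localRoots_chart_onlyOne (t : F₀) [IsNoetherianRing (chartAlg O F₀ {t})]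
    [IsFractionRing (chartAlg O F₀ {t}) F₀]
    {ι : Type*} [Fintype ι] {V : ι → ValuationSubring F₀}
    {hV : ∀ i (r : chartAlg O F₀ {t}), algebraMap (chartAlg O F₀ {t}) F₀ r ∈ V i}
    {π : O} {E : ℕ} (H : ChartHyp V hV π E) {W : Subring F₀}
    (hW : ∀ w : F₀, (∀ i, w ∈ V i) → w ∈ W) (P : Ideal (chartAlg O F₀ {t}) → Prop)
    (hone : ∀ (𝔫 : Ideal (chartAlg O F₀ {t})) [𝔫.IsPrime], 𝔫.IsMaximal →
      algebraMap O (chartAlg O F₀ {t}) π ∈ 𝔫 → P 𝔫 →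
      ∃ i₀, centre (V i₀) (hV i₀) ≤ 𝔫 ∧ ∀ j, j ≠ i₀ → ¬ centre (V j) (hV j) ≤ 𝔫)
    (hUFD : ∀ (𝔫 : Ideal (chartAlg O F₀ {t})) [𝔫.IsPrime], 𝔫.IsMaximal →
      algebraMap O (chartAlg O F₀ {t}) π ∈ 𝔫 → P 𝔫 →
      UniqueFactorizationMonoid (locAt (F := F₀) 𝔫))
    (hPID : ∀ (𝔫 : Ideal (chartAlg O F₀ {t})) [𝔫.IsPrime], 𝔫.IsMaximal →
      algebraMap O (chartAlg O F₀ {t}) π ∈ 𝔫 → P 𝔫 →
      ∀ i (hi : centre (V i) (hV i) ≤ 𝔫), IsPrincipalIdealRing (locAt (F := F₀) 𝔫 ⧸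
        centre (V i) (fun b => locAt_le 𝔫 (V i) (hV i) hi b)))
    {e : ℕ} (he : IsUnit ((e : ℕ) : chartAlg O F₀ {t})) {h : F₀} (hhor : Horizontal K₀ e h)
    (m : ℕ) (cg : F₀)
    (hh2 : ∀ i, Cong (V i) (algebraMap (chartAlg O F₀ {t}) F₀ (algebraMap O (chartAlg O F₀ {t}) π))
      (h ^ m / cg ^ e - 1)) :
    ∀ 𝔫 : Ideal (chartAlg O F₀ {t}), 𝔫.IsMaximal → algebraMap O (chartAlg O F₀ {t}) π ∈ 𝔫 → P 𝔫 →
      ∃ τ : F₀, τ ≠ 0 ∧
        (∃ a r : chartAlg O F₀ {t}, a ∉ 𝔫 ∧ r ∉ 𝔫 ∧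
          h ^ m / cg ^ e * algebraMap (chartAlg O F₀ {t}) F₀ a =
            τ ^ e * algebraMap (chartAlg O F₀ {t}) F₀ r) ∧
        ∃ w ∈ W, τ - 1 = algebraMap O F₀ π * w :=
  localRoots_on_onlyOne (K₀ := K₀) H hW P hone hUFD hPID he hhor m cg hh2

end ChartAlg

end Fermat.Agent.S36.Descent.LocalRootsInst
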