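/-
S36 [Desc-K] (helper13), tool: **the radical of `W = ⨅ V i` is nilpotent modulo `t W`**, and
`e`-th roots of one-units of `W` modulo `t W` (upgrade "≡ 1 mod rad W" ⇒ "≡ 1 mod t W").

`V : ι → ValuationSubring F` any family, `W = infSubring V`, `t ∈ F` with the `FamVal.pow_unif` /
`ChartHyp.pow` property `x ∈ 𝔪_{V i} → x ^ E / t ∈ V i`.  Then `(rad W) ^ E ≤ t W`, where
`rad W = {x ∈ W | ∀ i, x ∈ 𝔪_{V i}}` and `t W = {x ∈ W | ∀ i, x / t ∈ V i}`; with
`Local/OneUnitRoot.exists_root` this gives roots of one-units.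

Mathlib + `V/SemiLocalW` (for `infSubring`) + `Local/OneUnitRoot`.
-/
import Mathlib
import Fermat.Agent.S36.V.SemiLocalW
import Fermat.Agent.S36.Local.OneUnitRoot

set_option autoImplicit false
set_option linter.unusedSectionVars false

namespace Fermat.Agent.S36.Descent.RadPow

open Fermat.Agent.S36.V.SemiLocalW Fermat.Agent.S36.Local.OneUnitRoot

variable {F : Type*} [Field F] {ι : Type*} [Finite ι] (V : ι → ValuationSubring F)

/-- `rad W`: the elements of `W = ⨅ V i` lying in every maximal ideal `𝔪_{V i}`. -/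
def radIdeal : Ideal ↥(infSubring V) where
  carrier := {x | ∀ i, (V i).valuation (x : F) < 1}
  add_mem' := by
    intro x y hx hy i
    rw [Subring.coe_add]
    exact Valuation.map_add_lt _ (hx i) (hy i)
  zero_mem' := by
    intro i
    rw [Subring.coe_zero, map_zero]
    exact zero_lt_one
  smul_mem' := by
    intro c x hx i
    rw [smul_eq_mul, Subring.coe_mul, map_mul]
    have hc : (V i).valuation (c : F) ≤ 1 :=
      (ValuationSubring.valuation_le_one_iff _ _).mpr ((mem_infSubring V).mp c.2 i)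
    calc (V i).valuation (c : F) * (V i).valuation (x : F)
        ≤ 1 * (V i).valuation (x : F) := mul_le_mul_left hc _
      _ = (V i).valuation (x : F) := one_mul _
      _ < 1 := hx i

theorem mem_radIdeal {x : ↥(infSubring V)} :
    x ∈ radIdeal V ↔ ∀ i, (V i).valuation (x : F) < 1 := Iff.rfl

/-- `t W`: the elements `x` of `W` with `x / t ∈ V i` for all `i`. -/
def piIdeal (t : F) : Ideal ↥(infSubring V) where
  carrier := {x | ∀ i, (x : F) * t⁻¹ ∈ V i}
  add_mem' := by
    intro x y hx hy i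
    rw [Subring.coe_add, add_mul]
    exact (V i).add_mem _ _ (hx i) (hy i)
  zero_mem' := by
    intro i
    rw [Subring.coe_zero, zero_mul]
    exact (V i).zero_mem
  smul_mem' := by
    intro c x hx i
    rw [smul_eq_mul, Subring.coe_mul, mul_assoc]
    exact (V i).mul_mem _ _ ((mem_infSubring V).mp c.2 i) (hx i)

theorem mem_piIdeal {t : F} {x : ↥(infSubring V)} :
    x ∈ piIdeal V t ↔ ∀ i, (x : F) * t⁻¹ ∈ V i := Iff.rfl

/-- `x` is bounded at every `V i` by the `n`-th power of a non-unit. -/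
def Bd (n : ℕ) (x : F) : Prop :=
  ∀ i, ∃ z : F, (V i).valuation z < 1 ∧ (V i).valuation x ≤ (V i).valuation z ^ n

theorem bd_add {n : ℕ} {x y : F} (hx : Bd V n x) (hy : Bd V n y) : Bd V n (x + y) := by
  intro i
  obtain ⟨z, hz, hxz⟩ := hx i
  obtain ⟨z', hz', hyz⟩ := hy i
  rcases le_total ((V i).valuation z) ((V i).valuation z') with h | h
  · refine ⟨z', hz', le_trans ((V i).valuation.map_add x y) (max_le ?_ hyz)⟩
    exact le_trans hxz (pow_le_pow_left₀ zero_le h n)
  · refine ⟨z, hz, le_trans ((V i).valuation.map_add x y) (max_le hxz ?_)⟩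
    exact le_trans hyz (pow_le_pow_left₀ zero_le h n)

theorem bd_mul {n : ℕ} {x m : F} (hx : Bd V n x) (hm : ∀ i, (V i).valuation m < 1) :
    Bd V (n + 1) (x * m) := by
  intro i
  obtain ⟨z, hz, hxz⟩ := hx i
  rcases le_total ((V i).valuation z) ((V i).valuation m) with h | h
  · refine ⟨m, hm i, ?_⟩
    rw [map_mul, pow_succ]
    exact mul_le_mul' (le_trans hxz (pow_le_pow_left₀ zero_le h n)) le_rfl
  · refine ⟨z, hz, ?_⟩
    rw [map_mul, pow_succ]
    exact mul_le_mul' hxz h

theorem bd_of_mem_pow (n : ℕ) : ∀ x : ↥(infSubring V), x ∈ radIdeal V ^ n → Bd V n (x : F) := by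
  induction n with
  | zero =>
    intro x _ i
    refine ⟨0, by rw [map_zero]; exact zero_lt_one, ?_⟩
    rw [pow_zero]
    exact (ValuationSubring.valuation_le_one_iff _ _).mpr ((mem_infSubring V).mp x.2 i)
  | succ n ih =>
    intro x hx
    rw [pow_succ] at hx
    refine Submodule.mul_induction_on hx ?_ ?_
    · intro a ha b hb
      rw [Subring.coe_mul]
      exact bd_mul V (ih a ha) hb
    · intro a b ha hb
      rw [Subring.coe_add]
      exact bd_add V ha hb

/-- **`(rad W) ^ E ≤ t W`** from the `pow_unif` property. -/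
theorem radIdeal_pow_le {t : F} {E : ℕ}
    (hpow : ∀ i (x : F), (V i).valuation x < 1 → x ^ E * t⁻¹ ∈ V i) :
    radIdeal V ^ E ≤ piIdeal V t := by
  intro x hx i
  obtain ⟨z, hz, hxz⟩ := bd_of_mem_pow V E x hx i
  have h1 := hpow i z hz
  rw [← ValuationSubring.valuation_le_one_iff, map_mul, map_pow] at h1
  rw [← ValuationSubring.valuation_le_one_iff, map_mul]
  exact le_trans (mul_le_mul' hxz le_rfl) h1

/-- **Roots of one-units of `W` modulo `t W`.** -/
theorem exists_root_W {t : F} {E : ℕ}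
    (hpow : ∀ i (x : F), (V i).valuation x < 1 → x ^ E * t⁻¹ ∈ V i) {e : ℕ}
    (he0 : (e : F) ≠ 0) (he : ∀ i, ((e : F))⁻¹ ∈ V i) {a : F}
    (ha : ∀ i, (V i).valuation (a - 1) < 1) :
    ∃ v : F, (∀ i, (V i).valuation (v - 1) < 1) ∧ ∀ i, (v ^ e - a) * t⁻¹ ∈ V i := by
  have haW : a ∈ infSubring V := by
    rw [mem_infSubring]
    intro i
    have : a = (a - 1) + 1 := by ring
    rw [this]
    exact (V i).add_mem _ _ ((V i).nonunits_subset (ha i)) (V i).one_mem
  have heW : ((e : F))⁻¹ ∈ infSubring V := (mem_infSubring V).mpr he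
  have hunit : IsUnit ((e : ℕ) : ↥(infSubring V)) := by
    refine IsUnit.of_mul_eq_one ⟨_, heW⟩ ?_
    apply Subtype.ext
    rw [Subring.coe_mul, Subring.coe_natCast, Subring.coe_one]
    exact mul_inv_cancel₀ he0
  have ha' : (⟨a, haW⟩ : ↥(infSubring V)) - 1 ∈ radIdeal V := by
    intro i
    rw [AddSubgroupClass.coe_sub, Subring.coe_one]
    exact ha i
  obtain ⟨v, hv1, hv2⟩ := exists_root (radIdeal V) (piIdeal V t) (radIdeal_pow_le V hpow) hunit ha'
  refine ⟨(v : F), fun i => ?_, fun i => ?_⟩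
  · have := hv1 i
    rwa [AddSubgroupClass.coe_sub, Subring.coe_one] at this
  · have := hv2 i
    rwa [AddSubgroupClass.coe_sub, Subring.coe_pow] at this

/-- The upgrade: `a ≡ 1 mod rad W` ⟹ `a / v ^ e ≡ 1 mod t W` for some `v ≡ 1 mod rad W`. -/
theorem exists_div_pow_sub_one {t : F} {E : ℕ}
    (hpow : ∀ i (x : F), (V i).valuation x < 1 → x ^ E * t⁻¹ ∈ V i) {e : ℕ}
    (he0 : (e : F) ≠ 0) (he : ∀ i, ((e : F))⁻¹ ∈ V i) {a : F}
    (ha : ∀ i, (V i).valuation (a - 1) < 1) :
    ∃ v : F, v ≠ 0 ∧ (∀ i, (V i).valuation (v - 1) < 1) ∧ ∀ i, (a / v ^ e - 1) * t⁻¹ ∈ V i := by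
  obtain ⟨v, hv1, hv2⟩ := exists_root_W V hpow he0 he ha
  have hvu : ∀ i, (V i).valuation v = 1 := by
    intro i
    have : v = 1 + (v - 1) := by ring
    rw [this]
    exact Valuation.map_one_add_of_lt _ (hv1 i)
  rcases isEmpty_or_nonempty ι with hι | ⟨⟨i₀⟩⟩
  · exact ⟨1, one_ne_zero, fun i => (hι.false i).elim, fun i => (hι.false i).elim⟩
  have hv0 : v ≠ 0 := by
    rintro rfl
    have := hvu i₀
    rw [map_zero] at this
    exact zero_ne_one this
  refine ⟨v, hv0, hv1, fun i => ?_⟩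
  have e1 : (a / v ^ e - 1) * t⁻¹ = -((v ^ e - a) * t⁻¹) * (v ^ e)⁻¹ := by
    field_simp
    ring
  rw [e1]
  refine (V i).mul_mem _ _ ((V i).neg_mem _ (hv2 i)) ?_
  rw [← ValuationSubring.valuation_le_one_iff, map_inv₀, map_pow, hvu i, one_pow, inv_one]

end Fermat.Agent.S36.Descent.RadPow
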