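/-
S36 [Desc-K] (helper13), file A: **norm plumbing** = producer of the global inputs (I-G) of block [D].

Abstract setting (Mathlib + `V/SemiLocalW` + `Local/OneUnitRoot` only): fields `F1 ⊆ F2` along two
embeddings `φ, ψ` (`α2, β2`), norms `Nα, Nβ : F2 →* F1`, valuation subrings `U 0, U 1` of `F1`
(`V10, V01`) and `V 0, V 1, V 2` of `F2` (`V20, V11, V02`), a common uniformiser `π` of the `U j`, with
`φ π` a uniformiser of `V 0`, `V 2` and `φ π ~ ϖ ^ (q - 1)` on `V 1`.  The norm–residue formulas of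
block [N] are taken elementwise, in the shape of `D/NormGlue.SplitInsep`.
-/
import Mathlib
import Fermat.Agent.S36.V.SemiLocalW
import Fermat.Agent.S36.Local.OneUnitRoot
import Fermat.Agent.S36.Descent.RadPow

set_option autoImplicit false

namespace Fermat.Agent.S36.Descent.NormPlumb

open Fermat.Agent.S36.V.SemiLocalW

/-! ### Units congruent modulo the maximal ideal of a valuation subring -/

section Basic

variable {F : Type*} [Field F] (A : ValuationSubring F)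

theorem val_eq_one_iff {x : F} : A.valuation x = 1 ↔ x ≠ 0 ∧ x ∈ A ∧ x⁻¹ ∈ A := by
  constructor
  · intro h
    have hx0 : x ≠ 0 := by
      rintro rfl
      rw [map_zero] at h
      exact zero_ne_one h
    refine ⟨hx0, ?_, ?_⟩
    · rw [← ValuationSubring.valuation_le_one_iff, h]
    · rw [← ValuationSubring.valuation_le_one_iff, map_inv₀, h, inv_one]
  · rintro ⟨hx0, h1, h2⟩
    rw [← ValuationSubring.valuation_le_one_iff] at h1 h2
    rw [map_inv₀] at h2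
    have hv0 : A.valuation x ≠ 0 := by
      rw [Valuation.ne_zero_iff]; exact hx0
    have h3 : 1 ≤ A.valuation x := by
      have := (inv_le_one₀ (zero_lt_iff.mpr hv0)).mp h2
      exact this
    exact le_antisymm h1 h3

theorem ne_zero_of_val_eq_one {x : F} (h : A.valuation x = 1) : x ≠ 0 :=
  ((val_eq_one_iff A).mp h).1

/-- `x` and `y` are units of `A`, congruent modulo the maximal ideal. -/
structure UCg (x y : F) : Prop where
  left : A.valuation x = 1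
  right : A.valuation y = 1
  sub : A.valuation (x - y) < 1

variable {A}

theorem UCg.refl {x : F} (hx : A.valuation x = 1) : UCg A x x :=
  ⟨hx, hx, by rw [sub_self, map_zero]; exact zero_lt_one⟩

theorem UCg.symm {x y : F} (h : UCg A x y) : UCg A y x :=
  ⟨h.right, h.left, by rw [← neg_sub, Valuation.map_neg]; exact h.sub⟩

theorem UCg.trans {x y z : F} (h : UCg A x y) (h' : UCg A y z) : UCg A x z :=
  ⟨h.left, h'.right, by
    have : x - z = (x - y) + (y - z) := by ring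
    rw [this]
    exact Valuation.map_add_lt _ h.sub h'.sub⟩

theorem UCg.mul {x y x' y' : F} (h : UCg A x y) (h' : UCg A x' y') : UCg A (x * x') (y * y') :=
  ⟨by rw [map_mul, h.left, h'.left, one_mul], by rw [map_mul, h.right, h'.right, one_mul], by
    have : x * x' - y * y' = x * (x' - y') + (x - y) * y' := by ring
    rw [this]
    refine Valuation.map_add_lt _ ?_ ?_
    · rw [map_mul, h.left, one_mul]; exact h'.sub
    · rw [map_mul, h'.right, mul_one]; exact h.sub⟩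

theorem UCg.pow {x y : F} (h : UCg A x y) (n : ℕ) : UCg A (x ^ n) (y ^ n) := by
  induction n with
  | zero => simpa using UCg.refl (A := A) (x := 1) (map_one _)
  | succ n ih => rw [pow_succ, pow_succ]; exact ih.mul h

theorem UCg.inv {x y : F} (h : UCg A x y) : UCg A x⁻¹ y⁻¹ :=
  ⟨by rw [map_inv₀, h.left, inv_one], by rw [map_inv₀, h.right, inv_one], by
    have hx := ne_zero_of_val_eq_one A h.left
    have hy := ne_zero_of_val_eq_one A h.right
    have : x⁻¹ - y⁻¹ = (y - x) * (x⁻¹ * y⁻¹) := by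
      field_simp
    rw [this, map_mul, map_mul, map_inv₀, map_inv₀, h.left, h.right, inv_one, one_mul, mul_one]
    exact h.symm.sub⟩

theorem UCg.div {x y x' y' : F} (h : UCg A x y) (h' : UCg A x' y') : UCg A (x / x') (y / y') := by
  rw [div_eq_mul_inv, div_eq_mul_inv]
  exact h.mul h'.inv

/-- A congruence to a unit is a unit congruence. -/
theorem UCg.of_sub {x y : F} (hy : A.valuation y = 1) (h : A.valuation (x - y) < 1) : UCg A x y := by
  refine ⟨?_, hy, h⟩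
  have : x = (x - y) + y := by ring
  rw [this, Valuation.map_add_eq_of_lt_right]
  · exact hy
  · rw [hy]; exact h

theorem UCg.of_sub' {x y : F} (hx : A.valuation x = 1) (h : A.valuation (x - y) < 1) : UCg A x y :=
  (UCg.of_sub (x := y) (y := x) hx (by rw [← neg_sub, Valuation.map_neg]; exact h)).symm

/-- `x ≡ y ^ e`, `g ≡ y` ⟹ `x / g ^ e ≡ 1`. -/
theorem UCg.div_pow_sub_one {x y g : F} {e : ℕ} (h : UCg A x (y ^ e)) (hg : UCg A g y) :
    A.valuation (x / g ^ e - 1) < 1 := by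
  have h1 : UCg A (x / g ^ e) (y ^ e / y ^ e) := h.div (hg.pow e)
  have hy : y ^ e ≠ 0 := ne_zero_of_val_eq_one A h.right
  rw [div_self hy] at h1
  exact h1.sub

end Basic

/-! ### Transfer along a field embedding with `V.comap φ = U` -/

section Transfer

variable {F1 F2 : Type*} [Field F1] [Field F2] (φ : F1 →+* F2)
  {U : ValuationSubring F1} {V : ValuationSubring F2} (hφ : ∀ a, φ a ∈ V ↔ a ∈ U)

include hφ

theorem val_eq_one_map {a : F1} : V.valuation (φ a) = 1 ↔ U.valuation a = 1 := by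
  rw [val_eq_one_iff, val_eq_one_iff, ← map_inv₀, hφ, hφ, map_ne_zero]

theorem val_lt_one_map {a : F1} : V.valuation (φ a) < 1 ↔ U.valuation a < 1 := by
  rw [← ValuationSubring.mem_nonunits_iff, ← ValuationSubring.mem_nonunits_iff,
    ValuationSubring.mem_nonunits_iff_or, ValuationSubring.mem_nonunits_iff_or, ← map_inv₀, hφ,
    map_eq_zero]

theorem UCg.map {a b : F1} (h : UCg U a b) : UCg V (φ a) (φ b) :=
  ⟨(val_eq_one_map φ hφ).mpr h.left, (val_eq_one_map φ hφ).mpr h.right, by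
    rw [← map_sub]; exact (val_lt_one_map φ hφ).mpr h.sub⟩

theorem UCg.of_map {a b : F1} (h : UCg V (φ a) (φ b)) : UCg U a b :=
  ⟨(val_eq_one_map φ hφ).mp h.left, (val_eq_one_map φ hφ).mp h.right, by
    have := h.sub
    rw [← map_sub] at this
    exact (val_lt_one_map φ hφ).mp this⟩

end Transfer

/-! ### Orders with respect to a uniformiser -/

section Ord

variable {F : Type*} [Field F]

/-- `x` has order `n` at `A` with respect to `ϖ`. -/
def HasOrd (A : ValuationSubring F) (ϖ x : F) (n : ℤ) : Prop := A.valuation x = A.valuation ϖ ^ n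

variable {A : ValuationSubring F} {ϖ : F}

theorem HasOrd.mul (hϖ : ϖ ≠ 0) {x y : F} {n m : ℤ} (hx : HasOrd A ϖ x n) (hy : HasOrd A ϖ y m) :
    HasOrd A ϖ (x * y) (n + m) := by
  unfold HasOrd at *
  rw [map_mul, hx, hy, zpow_add₀ ((Valuation.ne_zero_iff _).mpr hϖ)]

theorem HasOrd.inv {x : F} {n : ℤ} (hx : HasOrd A ϖ x n) : HasOrd A ϖ x⁻¹ (-n) := by
  unfold HasOrd at *
  rw [map_inv₀, hx, zpow_neg]

theorem HasOrd.div (hϖ : ϖ ≠ 0) {x y : F} {n m : ℤ} (hx : HasOrd A ϖ x n) (hy : HasOrd A ϖ y m) :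
    HasOrd A ϖ (x / y) (n - m) := by
  rw [div_eq_mul_inv, sub_eq_add_neg]
  exact hx.mul hϖ hy.inv

theorem HasOrd.pow {x : F} {n : ℤ} (hx : HasOrd A ϖ x n) (k : ℕ) : HasOrd A ϖ (x ^ k) (k * n) := by
  unfold HasOrd at *
  rw [map_pow, hx, ← zpow_natCast, ← zpow_mul, mul_comm]

theorem HasOrd.zpow {x : F} {n : ℤ} (hx : HasOrd A ϖ x n) (k : ℤ) : HasOrd A ϖ (x ^ k) (k * n) := by
  unfold HasOrd at *
  rw [map_zpow₀, hx, ← zpow_mul, mul_comm]

theorem hasOrd_self : HasOrd A ϖ ϖ 1 := by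
  unfold HasOrd
  rw [zpow_one]

theorem hasOrd_zpow (m : ℤ) : HasOrd A ϖ (ϖ ^ m) m := by
  unfold HasOrd
  rw [map_zpow₀]

theorem hasOrd_zero_iff {x : F} : HasOrd A ϖ x 0 ↔ A.valuation x = 1 := by
  unfold HasOrd
  rw [zpow_zero]

theorem HasOrd.unique (hϖ0 : ϖ ≠ 0) (hϖ : A.valuation ϖ < 1) {x : F} {n m : ℤ}
    (hx : HasOrd A ϖ x n) (hy : HasOrd A ϖ x m) : n = m :=
  (zpow_right_inj₀ (zero_lt_iff.mpr ((Valuation.ne_zero_iff _).mpr hϖ0)) hϖ.ne).mp
    (hx.symm.trans hy)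

theorem HasOrd.congr {x y : F} {n : ℤ} (hx : HasOrd A ϖ x n) (h : A.valuation y = A.valuation x) :
    HasOrd A ϖ y n := by
  unfold HasOrd at *
  rw [h, hx]

end Ord

/-! ### The setting -/

section Main

open Fermat.Agent.P4.TwoValApprox

variable {F1 F2 : Type*} [Field F1] [Field F2]

/-- Valuation-theoretic setting: `U 0, U 1 = V10, V01` on `F1`, `V 0, V 1, V 2 = V20, V11, V02` on `F2`,
comap tables along `φ = α2` and `ψ = β2`, uniformisers `π` (of `U j`; `φ π` of `V 0`, `V 2`) and `Pm`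
(of `V 1`, with `φ π ~ Pm ^ (q - 1)`). -/
structure ValSetting (φ ψ : F1 →+* F2) (q : ℕ) (U : Fin 2 → ValuationSubring F1)
    (V : Fin 3 → ValuationSubring F2) (π : F1) (Pm : F2) : Prop where
  q_two : 2 ≤ q
  π_ne : π ≠ 0
  π_lt : ∀ j, (U j).valuation π < 1
  Pm_ne : Pm ≠ 0
  Pm_lt : (V 1).valuation Pm < 1
  Pm_pow : HasOrd (V 1) Pm (φ π) ((q : ℤ) - 1)
  φψ : φ π = ψ π
  discU : ∀ j, ∀ b : F1, b ≠ 0 → ∃ n : ℤ, HasOrd (U j) π b n
  disc0 : ∀ b : F2, b ≠ 0 → ∃ n : ℤ, HasOrd (V 0) (φ π) b n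
  disc1 : ∀ b : F2, b ≠ 0 → ∃ n : ℤ, HasOrd (V 1) Pm b n
  disc2 : ∀ b : F2, b ≠ 0 → ∃ n : ℤ, HasOrd (V 2) (φ π) b n
  arch : ∀ i, IsArch (V i)
  inc : ∀ i j, i ≠ j → ¬ V i ≤ V j
  φ0 : ∀ a, φ a ∈ V 0 ↔ a ∈ U 0
  φ1 : ∀ a, φ a ∈ V 1 ↔ a ∈ U 0
  φ2 : ∀ a, φ a ∈ V 2 ↔ a ∈ U 1
  ψ0 : ∀ a, ψ a ∈ V 0 ↔ a ∈ U 0
  ψ1 : ∀ a, ψ a ∈ V 1 ↔ a ∈ U 1
  ψ2 : ∀ a, ψ a ∈ V 2 ↔ a ∈ U 1

/-- The norm–residue table of one degeneracy map (block [N]), at the level of valuation rings: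
split branch `Us ← Va (e = f = 1), Vb (e = q - 1, f = 1)`, inseparable branch `Ui ← Vc (f = q)`.
Same fields as `D/NormGlue.SplitInsep`. -/
structure NormTable (φ : F1 →+* F2) (Nm : F2 →* F1) (q : ℕ) (Us Ui : ValuationSubring F1)
    (Va Vb Vc : ValuationSubring F2) : Prop where
  lift_a : ∀ w ∈ Va, ∃ a ∈ Us, w - φ a ∈ Va.nonunits
  lift_b : ∀ w ∈ Vb, ∃ a ∈ Us, w - φ a ∈ Vb.nonunits
  lift_c : ∀ w ∈ Vc, ∃ a ∈ Ui, w ^ q - φ a ∈ Vc.nonunits
  norm_split : ∀ (w : F2) (a₁ a₂ : F1), a₁ ∈ Us → a₂ ∈ Us → w - φ a₁ ∈ Va.nonunits →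
    w - φ a₂ ∈ Vb.nonunits → Nm w - a₁ * a₂ ^ (q - 1) ∈ Us.nonunits
  norm_insep : ∀ (w : F2) (a : F1), a ∈ Ui → w ^ q - φ a ∈ Vc.nonunits → Nm w - a ∈ Ui.nonunits
  norm_map : ∀ a, Nm (φ a) = a ^ q

section Table

variable {φ : F1 →+* F2} {Nm : F2 →* F1} {q : ℕ} {Us Ui : ValuationSubring F1}
  {Va Vb Vc : ValuationSubring F2}

theorem mem_of_val_eq_one {F : Type*} [Field F] {A : ValuationSubring F} {x : F}
    (h : A.valuation x = 1) : x ∈ A :=
  ((val_eq_one_iff A).mp h).2.1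

/-- Unit case of the split formula. -/
theorem NormTable.ucg_split (T : NormTable φ Nm q Us Ui Va Vb Vc)
    (hVa : ∀ a, φ a ∈ Va ↔ a ∈ Us) (hVb : ∀ a, φ a ∈ Vb ↔ a ∈ Us) {w : F2}
    (hwa : Va.valuation w = 1) (hwb : Vb.valuation w = 1) :
    ∃ a₁ a₂ : F1, UCg Va w (φ a₁) ∧ UCg Vb w (φ a₂) ∧ UCg Us (Nm w) (a₁ * a₂ ^ (q - 1)) := by
  obtain ⟨a₁, ha₁, h1⟩ := T.lift_a w (mem_of_val_eq_one hwa)
  obtain ⟨a₂, ha₂, h2⟩ := T.lift_b w (mem_of_val_eq_one hwb)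
  have c1 : UCg Va w (φ a₁) := UCg.of_sub' hwa h1
  have c2 : UCg Vb w (φ a₂) := UCg.of_sub' hwb h2
  have u1 : Us.valuation a₁ = 1 := (val_eq_one_map φ hVa).mp c1.right
  have u2 : Us.valuation a₂ = 1 := (val_eq_one_map φ hVb).mp c2.right
  refine ⟨a₁, a₂, c1, c2, UCg.of_sub ?_ (T.norm_split w a₁ a₂ ha₁ ha₂ h1 h2)⟩
  rw [map_mul, map_pow, u1, u2, one_pow, one_mul]

/-- Unit case of the inseparable formula. -/
theorem NormTable.ucg_insep (T : NormTable φ Nm q Us Ui Va Vb Vc)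
    (hVc : ∀ a, φ a ∈ Vc ↔ a ∈ Ui) {w : F2} (hwc : Vc.valuation w = 1) :
    ∃ a : F1, UCg Vc (w ^ q) (φ a) ∧ UCg Ui (Nm w) a := by
  obtain ⟨a, ha, h1⟩ := T.lift_c w (mem_of_val_eq_one hwc)
  have hwq : Vc.valuation (w ^ q) = 1 := by rw [map_pow, hwc, one_pow]
  have c1 : UCg Vc (w ^ q) (φ a) := UCg.of_sub' hwq h1
  have u1 : Ui.valuation a = 1 := (val_eq_one_map φ hVc).mp c1.right
  exact ⟨a, c1, UCg.of_sub u1 (T.norm_insep w a ha h1)⟩

end Table

/-- `x ^ q ≡ y ^ e` with `u q = 1 + v e` ⟹ `x ≡ (y ^ u / x ^ v) ^ e`. -/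
theorem UCg.root_of_pow {F : Type*} [Field F] {A : ValuationSubring F} {x y : F} {q e u v : ℕ}
    (huv : u * q = 1 + v * e) (hx : A.valuation x = 1) (h : UCg A (x ^ q) (y ^ e)) :
    UCg A x ((y ^ u / x ^ v) ^ e) := by
  have hx0 : x ≠ 0 := ne_zero_of_val_eq_one A hx
  have hxv : A.valuation ((x ^ v) ^ e) = 1 := by rw [map_pow, map_pow, hx, one_pow, one_pow]
  have h1 : UCg A ((x ^ q) ^ u / (x ^ v) ^ e) ((y ^ e) ^ u / (x ^ v) ^ e) :=
    (h.pow u).div (UCg.refl hxv)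
  have e1 : (x ^ q) ^ u / (x ^ v) ^ e = x := by
    rw [← pow_mul, ← pow_mul, mul_comm q u, huv, pow_add, pow_one, mul_div_assoc,
      div_self (pow_ne_zero _ hx0), mul_one]
  have e2 : (y ^ e) ^ u / (x ^ v) ^ e = (y ^ u / x ^ v) ^ e := by
    rw [div_pow, ← pow_mul, ← pow_mul, ← pow_mul, mul_comm e u]
  rwa [e1, e2] at h1

theorem val_eq_one_of_pow {F : Type*} [Field F] {A : ValuationSubring F} {x : F} {e : ℕ}
    (he : e ≠ 0) (h : A.valuation (x ^ e) = 1) : A.valuation x = 1 := by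
  rw [map_pow] at h
  rcases lt_trichotomy (A.valuation x) 1 with h1 | h1 | h1
  · exact absurd h (pow_lt_one₀ zero_le h1 he).ne
  · exact h1
  · exact absurd h (one_lt_pow₀ h1 he).ne'

theorem exists_bezout_nat {q e : ℕ} (hq : 2 ≤ q) (h : Nat.Coprime q e) :
    ∃ u v : ℕ, u * q = 1 + v * e := by
  rcases Nat.lt_or_ge e 2 with he | he
  · interval_cases e
    · rw [Nat.coprime_zero_right] at h
      omega
    · exact ⟨1, q - 1, by omega⟩
  · obtain ⟨m, -, hm⟩ := Nat.exists_mul_mod_eq_one_of_coprime h (by omega)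
    refine ⟨m, q * m / e, ?_⟩
    have := Nat.div_add_mod (q * m) e
    rw [hm] at this
    rw [mul_comm m q, mul_comm (q * m / e) e]
    omega

/-- **Residue normalisation.** `f1` a unit at `V 0, V 1, V 2` whose two norms are `e`-th powers modulo
the maximal ideals (`gcd (q, e) = 1`): then `f1 ^ (q - 1) / g ^ e ≡ 1` on all three, for a unit `g`. -/
theorem exists_residue_normalisation {φ ψ : F1 →+* F2} {Nα Nβ : F2 →* F1} {q : ℕ}
    {U : Fin 2 → ValuationSubring F1} {V : Fin 3 → ValuationSubring F2} {π : F1} {Pm : F2}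
    (S : ValSetting φ ψ q U V π Pm)
    (Tα : NormTable φ Nα q (U 0) (U 1) (V 0) (V 1) (V 2))
    (Tβ : NormTable ψ Nβ q (U 1) (U 0) (V 2) (V 1) (V 0))
    {e : ℕ} (hqe : Nat.Coprime q e)
    {f1 : F2} (hf1 : ∀ i, (V i).valuation f1 = 1) {P P' : F1}
    (hNa0 : UCg (U 0) (Nα f1) (P ^ e)) (hNa1 : UCg (U 1) (Nα f1) (P ^ e))
    (hNb0 : UCg (U 0) (Nβ f1) (P' ^ e)) :
    ∃ g : F2, (∀ i, (V i).valuation g = 1) ∧
      ∀ i, (V i).valuation (f1 ^ (q - 1) / g ^ e - 1) < 1 := by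
  classical
  obtain ⟨u, v, huv⟩ := exists_bezout_nat S.q_two hqe
  have he0 : e ≠ 0 := by
    rintro rfl
    rw [Nat.coprime_zero_right] at hqe
    have := S.q_two
    omega
  -- the residue data of `f1`
  obtain ⟨a₁, a₂, h20, h11, hs⟩ := Tα.ucg_split S.φ0 S.φ1 (hf1 0) (hf1 1)
  obtain ⟨a₃, h02, hi⟩ := Tα.ucg_insep S.φ2 (hf1 2)
  obtain ⟨b₃, k20, ki⟩ := Tβ.ucg_insep S.ψ0 (hf1 0)
  -- `f1 ^ q` is an `e`-th power on `V 2` and on `V 0`
  have p02 : UCg (V 2) (f1 ^ q) (φ P ^ e) := by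
    have h1 : UCg (U 1) a₃ (P ^ e) := hi.symm.trans hNa1
    have h2 := h1.map φ S.φ2
    rw [map_pow] at h2
    exact h02.trans h2
  have p20 : UCg (V 0) (f1 ^ q) (ψ P' ^ e) := by
    have h1 : UCg (U 0) b₃ (P' ^ e) := ki.symm.trans hNb0
    have h2 := h1.map ψ S.ψ0
    rw [map_pow] at h2
    exact k20.trans h2
  -- hence `f1` itself
  set x02 : F2 := φ P ^ u / f1 ^ v with hx02
  set x20 : F2 := ψ P' ^ u / f1 ^ v with hx20
  have r02 : UCg (V 2) f1 (x02 ^ e) := UCg.root_of_pow huv (hf1 2) p02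
  have r20 : UCg (V 0) f1 (x20 ^ e) := UCg.root_of_pow huv (hf1 0) p20
  have ux02 : (V 2).valuation x02 = 1 := val_eq_one_of_pow he0 r02.right
  have ux20 : (V 0).valuation x20 = 1 := val_eq_one_of_pow he0 r20.right
  -- the middle component
  obtain ⟨a₀, ha₀, hl⟩ := Tα.lift_a x20 (mem_of_val_eq_one ux20)
  have c0 : UCg (V 0) x20 (φ a₀) := UCg.of_sub' ux20 hl
  have c1 : UCg (U 0) a₁ (a₀ ^ e) := by
    have h1 : UCg (V 0) (φ a₁) (φ (a₀ ^ e)) := by
      rw [map_pow]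
      exact h20.symm.trans (r20.trans (c0.pow e))
    exact h1.of_map φ S.φ0
  have c2 : UCg (U 0) (a₂ ^ (q - 1)) ((P / a₀) ^ e) := by
    have h1 : UCg (U 0) (a₁ * a₂ ^ (q - 1)) (P ^ e) := hs.symm.trans hNa0
    have h2 := h1.div c1
    have ha₁0 : a₁ ≠ 0 := ne_zero_of_val_eq_one _ c1.left
    rwa [mul_div_cancel_left₀ _ ha₁0, ← div_pow] at h2
  set x11 : F2 := φ (P / a₀) with hx11
  have r11 : UCg (V 1) (f1 ^ (q - 1)) (x11 ^ e) := by
    have h1 := c2.map φ S.φ1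
    rw [map_pow, map_pow] at h1
    exact (h11.pow (q - 1)).trans h1
  have ux11 : (V 1).valuation x11 = 1 := val_eq_one_of_pow he0 r11.right
  -- glue by the approximation theorem
  set y : Fin 3 → F2 := ![x20 ^ (q - 1), x11, x02 ^ (q - 1)] with hy
  have uy : ∀ i, (V i).valuation (y i) = 1 := by
    intro i
    fin_cases i
    · show (V 0).valuation (x20 ^ (q - 1)) = 1
      rw [map_pow, ux20, one_pow]
    · exact ux11
    · show (V 2).valuation (x02 ^ (q - 1)) = 1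
      rw [map_pow, ux02, one_pow]
  have ry : ∀ i, UCg (V i) (f1 ^ (q - 1)) (y i ^ e) := by
    intro i
    fin_cases i
    · show UCg (V 0) (f1 ^ (q - 1)) ((x20 ^ (q - 1)) ^ e)
      have := r20.pow (q - 1)
      rwa [pow_right_comm] at this
    · exact r11
    · show UCg (V 2) (f1 ^ (q - 1)) ((x02 ^ (q - 1)) ^ e)
      have := r02.pow (q - 1)
      rwa [pow_right_comm] at this
  obtain ⟨g, hg1, hg2, hg3⟩ := exists_unit_forall_sub_mem_nonunits V S.arch S.inc y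
    (fun i => ((val_eq_one_iff _).mp (uy i)).2.1) (fun i => ((val_eq_one_iff _).mp (uy i)).2.2)
    (fun i => ((val_eq_one_iff _).mp (uy i)).1)
  have cg : ∀ i, UCg (V i) g (y i) := fun i => UCg.of_sub (uy i) (hg3 i)
  exact ⟨g, fun i => (cg i).left, fun i => (ry i).div_pow_sub_one (cg i)⟩

/-! ### Valuation normalisation -/

/-- The order formulas for the norm along one degeneracy map (derived below from the table). -/
def OrdFormula (Nm : F2 →* F1) (q : ℕ) (Us Ui : ValuationSubring F1) (Va Vb Vc : ValuationSubring F2)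
    (π : F1) (ta tb tc : F2) : Prop :=
  ∀ w : F2, w ≠ 0 → ∀ na nb nc : ℤ, HasOrd Va ta w na → HasOrd Vb tb w nb → HasOrd Vc tc w nc →
    HasOrd Us π (Nm w) (na + nb) ∧ HasOrd Ui π (Nm w) ((q : ℤ) * nc)

theorem ValSetting.φπ_ne {φ ψ : F1 →+* F2} {q : ℕ} {U : Fin 2 → ValuationSubring F1}
    {V : Fin 3 → ValuationSubring F2} {π : F1} {Pm : F2} (S : ValSetting φ ψ q U V π Pm) :
    φ π ≠ 0 := by
  rw [map_ne_zero]; exact S.π_ne

theorem ValSetting.φπ_lt0 {φ ψ : F1 →+* F2} {q : ℕ} {U : Fin 2 → ValuationSubring F1}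
    {V : Fin 3 → ValuationSubring F2} {π : F1} {Pm : F2} (S : ValSetting φ ψ q U V π Pm) :
    (V 0).valuation (φ π) < 1 := (val_lt_one_map φ S.φ0).mpr (S.π_lt 0)

theorem ValSetting.φπ_lt2 {φ ψ : F1 →+* F2} {q : ℕ} {U : Fin 2 → ValuationSubring F1}
    {V : Fin 3 → ValuationSubring F2} {π : F1} {Pm : F2} (S : ValSetting φ ψ q U V π Pm) :
    (V 2).valuation (φ π) < 1 := (val_lt_one_map φ S.φ2).mpr (S.π_lt 1)

/-- **Valuation normalisation.** If both norms of `f` are (constant)·(`e`-th power), then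
`f ^ (q + 1) * (φ π) ^ m / G0 ^ e` is a unit at `V 0, V 1, V 2` for suitable `m`, `G0`. -/
theorem exists_unit_normalisation {φ ψ : F1 →+* F2} {Nα Nβ : F2 →* F1} {q : ℕ}
    {U : Fin 2 → ValuationSubring F1} {V : Fin 3 → ValuationSubring F2} {π : F1} {Pm : F2}
    (S : ValSetting φ ψ q U V π Pm)
    (Oα : OrdFormula Nα q (U 0) (U 1) (V 0) (V 1) (V 2) π (φ π) Pm (φ π))
    (Oβ : OrdFormula Nβ q (U 1) (U 0) (V 2) (V 1) (V 0) π (φ π) Pm (φ π))
    {e : ℕ} {f : F2} (hf : f ≠ 0) {ca cb ha hb : F1} (hha : ha ≠ 0) (hhb : hb ≠ 0)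
    (hca : ∃ n : ℤ, ∀ j, HasOrd (U j) π ca n) (hcb : ∃ n : ℤ, ∀ j, HasOrd (U j) π cb n)
    (hNa : Nα f = ca * ha ^ e) (hNb : Nβ f = cb * hb ^ e) :
    ∃ (m : ℤ) (G0 : F2), G0 ≠ 0 ∧
      ∀ i, (V i).valuation (f ^ (q + 1) * (φ π) ^ m / G0 ^ e) = 1 := by
  classical
  obtain ⟨a, ha'⟩ := S.disc0 f hf
  obtain ⟨b, hb'⟩ := S.disc1 f hf
  obtain ⟨c, hc'⟩ := S.disc2 f hf
  obtain ⟨x0, hx0⟩ := S.discU 0 ha hha
  obtain ⟨x1, hx1⟩ := S.discU 1 ha hha
  obtain ⟨y0, hy0⟩ := S.discU 0 hb hhb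
  obtain ⟨y1, hy1⟩ := S.discU 1 hb hhb
  obtain ⟨na, hna⟩ := hca
  obtain ⟨nb, hnb⟩ := hcb
  obtain ⟨oa0, oa1⟩ := Oα f hf a b c ha' hb' hc'
  obtain ⟨ob1, ob0⟩ := Oβ f hf c b a hc' hb' ha'
  rw [hNa] at oa0 oa1
  rw [hNb] at ob0 ob1
  have E1 : a + b = na + e * x0 :=
    HasOrd.unique S.π_ne (S.π_lt 0) oa0 ((hna 0).mul S.π_ne (hx0.pow e))
  have E2 : (q : ℤ) * c = na + e * x1 :=
    HasOrd.unique S.π_ne (S.π_lt 1) oa1 ((hna 1).mul S.π_ne (hx1.pow e))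
  have E3 : (q : ℤ) * a = nb + e * y0 :=
    HasOrd.unique S.π_ne (S.π_lt 0) ob0 ((hnb 0).mul S.π_ne (hy0.pow e))
  have E4 : c + b = nb + e * y1 :=
    HasOrd.unique S.π_ne (S.π_lt 1) ob1 ((hnb 1).mul S.π_ne (hy1.pow e))
  set m : ℤ := -(a * ((q : ℤ) + 1)) with hm
  set n1 : ℤ := (x0 - x1) - (q : ℤ) * (y0 - y1) with hn1
  set n2 : ℤ := -((x0 - x1) + (y0 - y1)) with hn2
  set tgt : Fin 3 → F2 := ![1, Pm ^ n1, (φ π) ^ n2] with htgt
  have htgt0 : ∀ i, tgt i ≠ 0 := by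
    intro i
    fin_cases i
    · exact one_ne_zero
    · exact zpow_ne_zero _ S.Pm_ne
    · exact zpow_ne_zero _ S.φπ_ne
  obtain ⟨G0, hG0⟩ := exists_forall_div_sub_one_mem_nonunits V S.arch S.inc tgt htgt0
  have hG : ∀ i, (V i).valuation G0 = (V i).valuation (tgt i) := fun i =>
    valuation_eq_of_div_sub_one_mem_nonunits (V i) (htgt0 i) (hG0 i)
  have g0 : HasOrd (V 0) (φ π) G0 0 := by
    rw [hasOrd_zero_iff, hG 0]
    exact map_one _
  have g1 : HasOrd (V 1) Pm G0 n1 := (hasOrd_zpow n1).congr (hG 1)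
  have g2 : HasOrd (V 2) (φ π) G0 n2 := (hasOrd_zpow n2).congr (hG 2)
  have hG00 : G0 ≠ 0 := ne_zero_of_val_eq_one _ (hasOrd_zero_iff.mp g0)
  refine ⟨m, G0, hG00, ?_⟩
  intro i
  fin_cases i
  · have h1 : HasOrd (V 0) (φ π) (f ^ (q + 1) * (φ π) ^ m / G0 ^ e)
        ((((q + 1 : ℕ) : ℤ) * a + m) - (e : ℤ) * 0) :=
      (((ha'.pow (q + 1)).mul S.φπ_ne (hasOrd_zpow m))).div S.φπ_ne (g0.pow e)
    have h2 : (((q + 1 : ℕ) : ℤ) * a + m) - (e : ℤ) * 0 = 0 := by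
      rw [hm]; push_cast; ring
    rw [h2] at h1
    exact hasOrd_zero_iff.mp h1
  · have h1 : HasOrd (V 1) Pm (f ^ (q + 1) * (φ π) ^ m / G0 ^ e)
        ((((q + 1 : ℕ) : ℤ) * b + m * ((q : ℤ) - 1)) - (e : ℤ) * n1) :=
      (((hb'.pow (q + 1)).mul S.Pm_ne (S.Pm_pow.zpow m))).div S.Pm_ne (g1.pow e)
    have h2 : (((q + 1 : ℕ) : ℤ) * b + m * ((q : ℤ) - 1)) - (e : ℤ) * n1 = 0 := by
      rw [hm, hn1]; push_cast
      linear_combination E1 - E2 - (q : ℤ) * (E3 - E4)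
    rw [h2] at h1
    exact hasOrd_zero_iff.mp h1
  · have h1 : HasOrd (V 2) (φ π) (f ^ (q + 1) * (φ π) ^ m / G0 ^ e)
        ((((q + 1 : ℕ) : ℤ) * c + m) - (e : ℤ) * n2) :=
      (((hc'.pow (q + 1)).mul S.φπ_ne (hasOrd_zpow m))).div S.φπ_ne (g2.pow e)
    have h2 : (((q + 1 : ℕ) : ℤ) * c + m) - (e : ℤ) * n2 = 0 := by
      rw [hm, hn2]; push_cast
      linear_combination -(E1 - E2) - (E3 - E4)
    rw [h2] at h1
    exact hasOrd_zero_iff.mp h1

/-! ### Multiplicative maps between fields -/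

theorem map_mul_inv_eq_one (N : F2 →* F1) {x : F2} (hx : x ≠ 0) : N x * N x⁻¹ = 1 := by
  rw [← map_mul, mul_inv_cancel₀ hx, map_one]

theorem map_ne_zero_of_ne (N : F2 →* F1) {x : F2} (hx : x ≠ 0) : N x ≠ 0 :=
  left_ne_zero_of_mul_eq_one (map_mul_inv_eq_one N hx)

theorem map_inv_of_ne (N : F2 →* F1) {x : F2} (hx : x ≠ 0) : N x⁻¹ = (N x)⁻¹ :=
  eq_inv_of_mul_eq_one_right (map_mul_inv_eq_one N hx)

theorem map_div_of_ne (N : F2 →* F1) (x : F2) {y : F2} (hy : y ≠ 0) : N (x / y) = N x / N y := by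
  rw [div_eq_mul_inv, map_mul, map_inv_of_ne N hy, div_eq_mul_inv]

theorem map_zpow_of_ne (N : F2 →* F1) {x : F2} (hx : x ≠ 0) (n : ℤ) : N (x ^ n) = N x ^ n := by
  cases n with
  | ofNat k => rw [Int.ofNat_eq_natCast, zpow_natCast, zpow_natCast, map_pow]
  | negSucc k => rw [zpow_negSucc, zpow_negSucc, map_inv_of_ne N (pow_ne_zero _ hx), map_pow]

/-! ### Constants -/

/-- What is used of the base ring `O` (a discrete valuation ring with algebraically closed residue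
field, unit constants = units of `O`). -/
structure ConstHyp (O : Type*) [CommRing O] [Algebra O F1] (U : Fin 2 → ValuationSubring F1)
    (e : ℕ) : Prop where
  unit_val : ∀ c : O, IsUnit c → ∀ j, (U j).valuation (algebraMap O F1 c) = 1
  root : ∀ c : O, IsUnit c → ∃ d : O, IsUnit d ∧
    ∀ j, (U j).valuation (algebraMap O F1 c - algebraMap O F1 d ^ e) < 1
  split : ∀ (j : Fin 2) (H : F1) (c : O), IsUnit c →
    (U j).valuation (H ^ e - algebraMap O F1 c) < 1 →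
      ∃ s : O, IsUnit s ∧ (U j).valuation (H - algebraMap O F1 s) < 1

/-- The norm of `x` is (unit constant)·(`e`-th power of a unit at `U 0`, `U 1`). -/
def NormShape (O : Type*) [CommRing O] [Algebra O F1] (Nm : F2 →* F1)
    (U : Fin 2 → ValuationSubring F1) (e : ℕ) (x : F2) : Prop :=
  ∃ (c : O) (H : F1), IsUnit c ∧ (∀ j, (U j).valuation H = 1) ∧ Nm x = algebraMap O F1 c * H ^ e

section Shape

variable {O : Type*} [CommRing O] [Algebra O F1] {Nm : F2 →* F1} {U : Fin 2 → ValuationSubring F1}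
  {e : ℕ}

theorem NormShape.pow {x : F2} (h : NormShape O Nm U e x) (k : ℕ) : NormShape O Nm U e (x ^ k) := by
  obtain ⟨c, H, hc, hH, hN⟩ := h
  refine ⟨c ^ k, H ^ k, hc.pow k, fun j => by rw [map_pow, hH j, one_pow], ?_⟩
  rw [map_pow, hN, mul_pow, map_pow, ← pow_mul, ← pow_mul, mul_comm e k]

theorem NormShape.div_pow {x g : F2} (h : NormShape O Nm U e x) (hg0 : g ≠ 0)
    (hg : ∀ j, (U j).valuation (Nm g) = 1) : NormShape O Nm U e (x / g ^ e) := by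
  obtain ⟨c, H, hc, hH, hN⟩ := h
  refine ⟨c, H / Nm g, hc, fun j => by rw [map_div₀, hH j, hg j, div_one], ?_⟩
  rw [map_div_of_ne Nm x (pow_ne_zero _ hg0), hN, map_pow, _root_.div_pow, mul_div_assoc]

/-- Normalising the root: `x = π ^ n * u * H ^ e`, `x` a unit at `U 0`, `U 1`  ⟹  shape. -/
theorem normShape_of_eq {π : F1} (hπ0 : π ≠ 0) (hπ : ∀ j, (U j).valuation π < 1)
    (hdisc : ∀ j, ∀ b : F1, b ≠ 0 → ∃ n : ℤ, HasOrd (U j) π b n)
    (hunit : ∀ c : O, IsUnit c → ∀ j, (U j).valuation (algebraMap O F1 c) = 1)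
    (he : e ≠ 0) {x : F2} (hx : ∀ j, (U j).valuation (Nm x) = 1) {n : ℤ} {u : O} (hu : IsUnit u)
    {H : F1} (hH0 : H ≠ 0) (hN : Nm x = π ^ n * algebraMap O F1 u * H ^ e) :
    NormShape O Nm U e x := by
  obtain ⟨k0, hk0⟩ := hdisc 0 H hH0
  obtain ⟨k1, hk1⟩ := hdisc 1 H hH0
  have ord : ∀ j (k : ℤ), HasOrd (U j) π H k → n + e * k = 0 := by
    intro j k hk
    have h1 : HasOrd (U j) π (Nm x) (n + 0 + e * k) := by
      rw [hN]
      exact ((hasOrd_zpow n).mul hπ0 (hasOrd_zero_iff.mpr (hunit u hu j))).mul hπ0 (hk.pow e)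
    have h2 : HasOrd (U j) π (Nm x) 0 := hasOrd_zero_iff.mpr (hx j)
    have := HasOrd.unique hπ0 (hπ j) h1 h2
    linarith
  have e0 := ord 0 k0 hk0
  have e1 := ord 1 k1 hk1
  have hk : k1 = k0 := by
    have he' : (e : ℤ) ≠ 0 := by exact_mod_cast he
    have : (e : ℤ) * k1 = e * k0 := by linarith
    exact mul_left_cancel₀ he' this
  subst hk
  refine ⟨u, H * π ^ (-k1), hu, ?_, ?_⟩
  · intro j
    have hj : HasOrd (U j) π H k1 := by
      fin_cases j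
      · exact hk0
      · exact hk1
    have := hj.mul hπ0 (hasOrd_zpow (A := U j) (ϖ := π) (-k1))
    rw [add_neg_cancel] at this
    exact hasOrd_zero_iff.mp this
  · rw [hN, mul_pow, ← zpow_natCast (π ^ (-k1)) e, ← zpow_mul]
    have : (-k1) * (e : ℤ) = n := by linarith
    rw [this]
    ring

end Shape

/-! ### The main normalisation -/

section Assemble

variable {φ ψ : F1 →+* F2} {Nα Nβ : F2 →* F1} {q : ℕ}
  {U : Fin 2 → ValuationSubring F1} {V : Fin 3 → ValuationSubring F2} {π : F1} {Pm : F2}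

theorem val_normα_eq_one (S : ValSetting φ ψ q U V π Pm)
    (Tα : NormTable φ Nα q (U 0) (U 1) (V 0) (V 1) (V 2)) {x : F2}
    (hx : ∀ i, (V i).valuation x = 1) (j : Fin 2) : (U j).valuation (Nα x) = 1 := by
  fin_cases j
  · obtain ⟨a₁, a₂, -, -, h⟩ := Tα.ucg_split S.φ0 S.φ1 (hx 0) (hx 1)
    exact h.left
  · obtain ⟨a, -, h⟩ := Tα.ucg_insep S.φ2 (hx 2)
    exact h.left

theorem val_normβ_eq_one (S : ValSetting φ ψ q U V π Pm)
    (Tβ : NormTable ψ Nβ q (U 1) (U 0) (V 2) (V 1) (V 0)) {x : F2}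
    (hx : ∀ i, (V i).valuation x = 1) (j : Fin 2) : (U j).valuation (Nβ x) = 1 := by
  fin_cases j
  · obtain ⟨a, -, h⟩ := Tβ.ucg_insep S.ψ0 (hx 0)
    exact h.left
  · obtain ⟨a₁, a₂, -, -, h⟩ := Tβ.ucg_split S.ψ2 S.ψ1 (hx 2) (hx 1)
    exact h.left

/-- The shape of the norm of `f ^ (q + 1) * t ^ m0 / G0 ^ e` when `Nm f = π ^ n * u * h ^ e` and
`Nm t = π ^ q`. -/
theorem norm_eq_aux {O : Type*} [CommRing O] [Algebra O F1] (Nm : F2 →* F1) {π : F1} (hπ0 : π ≠ 0)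
    {t : F2} (ht0 : t ≠ 0) (ht : Nm t = π ^ q) {e : ℕ} {f G0 : F2} (hG0 : G0 ≠ 0) {n m0 : ℤ} {u : O}
    {h : F1} (hN : Nm f = π ^ n * algebraMap O F1 u * h ^ e) :
    Nm (f ^ (q + 1) * t ^ m0 / G0 ^ e) =
      π ^ (n * ((q + 1 : ℕ) : ℤ) + ((q : ℕ) : ℤ) * m0) * algebraMap O F1 (u ^ (q + 1)) *
        (h ^ (q + 1) / Nm G0) ^ e := by
  rw [map_div_of_ne Nm _ (pow_ne_zero _ hG0), map_mul, map_pow, hN, map_zpow_of_ne Nm ht0, ht,
    map_pow, map_pow, zpow_add₀ hπ0, zpow_mul, zpow_natCast, zpow_mul, zpow_natCast]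
  rw [_root_.div_pow, div_eq_mul_inv, div_eq_mul_inv]
  ring

/-- **Main normalisation (mod the radical).** -/
theorem exists_normalisation (S : ValSetting φ ψ q U V π Pm)
    (Tα : NormTable φ Nα q (U 0) (U 1) (V 0) (V 1) (V 2))
    (Tβ : NormTable ψ Nβ q (U 1) (U 0) (V 2) (V 1) (V 0))
    (Oα : OrdFormula Nα q (U 0) (U 1) (V 0) (V 1) (V 2) π (φ π) Pm (φ π))
    (Oβ : OrdFormula Nβ q (U 1) (U 0) (V 2) (V 1) (V 0) π (φ π) Pm (φ π))
    {O : Type*} [CommRing O] [Algebra O F1] {e : ℕ} (hC : ConstHyp O U e) (hqe : Nat.Coprime q e)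
    {f : F2} (hf : f ≠ 0) {ca cb ha hb : F1} (hha : ha ≠ 0) (hhb : hb ≠ 0)
    (hca : ∃ (n : ℤ) (u : O), IsUnit u ∧ ca = π ^ n * algebraMap O F1 u)
    (hcb : ∃ (n : ℤ) (u : O), IsUnit u ∧ cb = π ^ n * algebraMap O F1 u)
    (hNa : Nα f = ca * ha ^ e) (hNb : Nβ f = cb * hb ^ e) :
    ∃ (m : ℤ) (G : F2), G ≠ 0 ∧
      (∀ i, (V i).valuation (f ^ ((q + 1) * (q - 1)) * (φ π) ^ m / G ^ e - 1) < 1) ∧
      NormShape O Nα U e (f ^ ((q + 1) * (q - 1)) * (φ π) ^ m / G ^ e) ∧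
      NormShape O Nβ U e (f ^ ((q + 1) * (q - 1)) * (φ π) ^ m / G ^ e) := by
  classical
  have he0 : e ≠ 0 := by
    rintro rfl
    rw [Nat.coprime_zero_right] at hqe
    have := S.q_two
    omega
  obtain ⟨na, ua, hua, rfl⟩ := hca
  obtain ⟨nb, ub, hub, rfl⟩ := hcb
  have oca : ∃ n : ℤ, ∀ j, HasOrd (U j) π (π ^ na * algebraMap O F1 ua) n := ⟨na, fun j => by
    have := (hasOrd_zpow (A := U j) (ϖ := π) na).mul S.π_ne
      (hasOrd_zero_iff.mpr (hC.unit_val ua hua j))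
    rwa [add_zero] at this⟩
  have ocb : ∃ n : ℤ, ∀ j, HasOrd (U j) π (π ^ nb * algebraMap O F1 ub) n := ⟨nb, fun j => by
    have := (hasOrd_zpow (A := U j) (ϖ := π) nb).mul S.π_ne
      (hasOrd_zero_iff.mpr (hC.unit_val ub hub j))
    rwa [add_zero] at this⟩
  obtain ⟨m0, G0, hG0, hf1⟩ := exists_unit_normalisation S Oα Oβ hf hha hhb oca ocb hNa hNb
  set f1 : F2 := f ^ (q + 1) * (φ π) ^ m0 / G0 ^ e with hf1def
  -- the norms of `f1`
  have uNa := val_normα_eq_one S Tα hf1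
  have uNb := val_normβ_eq_one S Tβ hf1
  have htβ : Nβ (φ π) = π ^ q := by rw [S.φψ, Tβ.norm_map]
  have sa : NormShape O Nα U e f1 :=
    normShape_of_eq S.π_ne S.π_lt S.discU hC.unit_val he0 uNa (hua.pow (q + 1))
      (div_ne_zero (pow_ne_zero _ hha) (map_ne_zero_of_ne Nα hG0))
      (norm_eq_aux Nα S.π_ne S.φπ_ne (Tα.norm_map π) hG0 hNa)
  have sb : NormShape O Nβ U e f1 :=
    normShape_of_eq S.π_ne S.π_lt S.discU hC.unit_val he0 uNb (hub.pow (q + 1))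
      (div_ne_zero (pow_ne_zero _ hhb) (map_ne_zero_of_ne Nβ hG0))
      (norm_eq_aux Nβ S.π_ne S.φπ_ne htβ hG0 hNb)
  -- `e`-th powers modulo the maximal ideals
  have key : ∀ {Nm : F2 →* F1}, NormShape O Nm U e f1 → (∀ j, (U j).valuation (Nm f1) = 1) →
      ∃ P : F1, ∀ j, UCg (U j) (Nm f1) (P ^ e) := by
    intro Nm sh hu
    obtain ⟨c, H, hc, hH, hN⟩ := sh
    obtain ⟨d, -, hd⟩ := hC.root c hc
    refine ⟨algebraMap O F1 d * H, fun j => UCg.of_sub' (hu j) ?_⟩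
    have : Nm f1 - (algebraMap O F1 d * H) ^ e =
        (algebraMap O F1 c - algebraMap O F1 d ^ e) * H ^ e := by
      rw [hN]; ring
    rw [this, map_mul, map_pow, hH j, one_pow, mul_one]
    exact hd j
  obtain ⟨P, hP⟩ := key sa uNa
  obtain ⟨P', hP'⟩ := key sb uNb
  obtain ⟨g, hg1, hg2⟩ := exists_residue_normalisation S Tα Tβ hqe hf1 (hP 0) (hP 1) (hP' 0)
  have hg0 : g ≠ 0 := ne_zero_of_val_eq_one _ (hg1 0)
  have ident : f ^ ((q + 1) * (q - 1)) * (φ π) ^ (m0 * ((q - 1 : ℕ) : ℤ)) / (G0 ^ (q - 1) * g) ^ e =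
      f1 ^ (q - 1) / g ^ e := by
    rw [hf1def, zpow_mul, zpow_natCast, pow_mul, _root_.div_pow, mul_pow, mul_pow, ← pow_mul G0,
      ← pow_mul G0, mul_comm e (q - 1)]
    field_simp
  refine ⟨m0 * ((q - 1 : ℕ) : ℤ), G0 ^ (q - 1) * g, mul_ne_zero (pow_ne_zero _ hG0) hg0, ?_, ?_, ?_⟩
  · intro i
    rw [ident]
    exact hg2 i
  · rw [ident]
    exact (sa.pow (q - 1)).div_pow hg0 (val_normα_eq_one S Tα hg1)
  · rw [ident]
    exact (sb.pow (q - 1)).div_pow hg0 (val_normβ_eq_one S Tβ hg1)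

end Assemble

/-! ### Constant residues of the roots of the norms, and the upgrade modulo `π W` -/

section Strong

variable {φ ψ : F1 →+* F2} {Nα Nβ : F2 →* F1} {q : ℕ}
  {U : Fin 2 → ValuationSubring F1} {V : Fin 3 → ValuationSubring F2} {π : F1} {Pm : F2}

/-- The norm of an element `≡ 1` on the three upper branches is `≡ 1` on both lower branches. -/
theorem NormTable.norm_sub_one_lt {φ : F1 →+* F2} {Nm : F2 →* F1} {Us Ui : ValuationSubring F1}
    {Va Vb Vc : ValuationSubring F2} (T : NormTable φ Nm q Us Ui Va Vb Vc) {h : F2}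
    (ha : Va.valuation (h - 1) < 1) (hb : Vb.valuation (h - 1) < 1)
    (hc : Vc.valuation (h - 1) < 1) :
    Us.valuation (Nm h - 1) < 1 ∧ Ui.valuation (Nm h - 1) < 1 := by
  constructor
  · have := T.norm_split h 1 1 Us.one_mem Us.one_mem (by rw [map_one]; exact ha)
      (by rw [map_one]; exact hb)
    rwa [one_pow, mul_one] at this
  · have hu : UCg Vc h 1 := UCg.of_sub (map_one _) hc
    have h1 := (hu.pow q).sub
    rw [one_pow] at h1
    exact T.norm_insep h 1 Ui.one_mem (by rw [map_one]; exact h1)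

/-- The global input (G2) of block [D]: the norm is (unit constant)·`H ^ e` with `H` congruent to
unit constants on both lower branches. -/
def GoodNorm (O : Type*) [CommRing O] [Algebra O F1] (Nm : F2 →* F1)
    (U : Fin 2 → ValuationSubring F1) (e : ℕ) (h : F2) : Prop :=
  ∃ (c s t : O) (H : F1), IsUnit c ∧ IsUnit s ∧ IsUnit t ∧ Nm h = algebraMap O F1 c * H ^ e ∧
    (U 0).valuation (H - algebraMap O F1 s) < 1 ∧ (U 1).valuation (H - algebraMap O F1 t) < 1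

theorem goodNorm_of_shape {O : Type*} [CommRing O] [Algebra O F1] {Nm : F2 →* F1} {e : ℕ}
    (hC : ConstHyp O U e) {h : F2} (sh : NormShape O Nm U e h)
    (h1 : ∀ j, (U j).valuation (Nm h - 1) < 1) : GoodNorm O Nm U e h := by
  obtain ⟨c, H, hc, hH, hN⟩ := sh
  obtain ⟨cu, rfl⟩ := hc
  have hinv : algebraMap O F1 ((cu⁻¹ : Oˣ) : O) * algebraMap O F1 (cu : O) = 1 := by
    rw [← map_mul, Units.inv_mul, map_one]
  have key : ∀ j, (U j).valuation (H ^ e - algebraMap O F1 ((cu⁻¹ : Oˣ) : O)) < 1 := by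
    intro j
    have e1 : H ^ e - algebraMap O F1 ((cu⁻¹ : Oˣ) : O) =
        algebraMap O F1 ((cu⁻¹ : Oˣ) : O) * (Nm h - 1) := by
      rw [hN]
      linear_combination (-(H ^ e)) * hinv
    rw [e1, map_mul, hC.unit_val _ (cu⁻¹).isUnit j, one_mul]
    exact h1 j
  obtain ⟨s, hs, hs'⟩ := hC.split 0 H _ (cu⁻¹).isUnit (key 0)
  obtain ⟨t, ht, ht'⟩ := hC.split 1 H _ (cu⁻¹).isUnit (key 1)
  exact ⟨cu, s, t, H, cu.isUnit, hs, ht, hN, hs', ht'⟩

/-- **Main normalisation, strong form** = the global inputs (I-G) of block [D]: `h ≡ 1 mod π W` and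
both norms are (unit constant)·(`e`-th power) with constant residues. -/
theorem exists_normalisation_strong (S : ValSetting φ ψ q U V π Pm)
    (Tα : NormTable φ Nα q (U 0) (U 1) (V 0) (V 1) (V 2))
    (Tβ : NormTable ψ Nβ q (U 1) (U 0) (V 2) (V 1) (V 0))
    (Oα : OrdFormula Nα q (U 0) (U 1) (V 0) (V 1) (V 2) π (φ π) Pm (φ π))
    (Oβ : OrdFormula Nβ q (U 1) (U 0) (V 2) (V 1) (V 0) π (φ π) Pm (φ π))
    {O : Type*} [CommRing O] [Algebra O F1] {e : ℕ} (hC : ConstHyp O U e) (hqe : Nat.Coprime q e)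
    {E : ℕ} (hpow : ∀ i (x : F2), (V i).valuation x < 1 → x ^ E * (φ π)⁻¹ ∈ V i)
    (he0 : (e : F2) ≠ 0) (heV : ∀ i, ((e : F2))⁻¹ ∈ V i)
    {f : F2} (hf : f ≠ 0) {ca cb ha hb : F1} (hha : ha ≠ 0) (hhb : hb ≠ 0)
    (hca : ∃ (n : ℤ) (u : O), IsUnit u ∧ ca = π ^ n * algebraMap O F1 u)
    (hcb : ∃ (n : ℤ) (u : O), IsUnit u ∧ cb = π ^ n * algebraMap O F1 u)
    (hNa : Nα f = ca * ha ^ e) (hNb : Nβ f = cb * hb ^ e) :
    ∃ (m : ℤ) (G : F2), G ≠ 0 ∧
      (∀ i, (f ^ ((q + 1) * (q - 1)) * (φ π) ^ m / G ^ e - 1) * (φ π)⁻¹ ∈ V i) ∧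
      GoodNorm O Nα U e (f ^ ((q + 1) * (q - 1)) * (φ π) ^ m / G ^ e) ∧
      GoodNorm O Nβ U e (f ^ ((q + 1) * (q - 1)) * (φ π) ^ m / G ^ e) := by
  obtain ⟨m, G, hG, h1, sa, sb⟩ :=
    exists_normalisation S Tα Tβ Oα Oβ hC hqe hf hha hhb hca hcb hNa hNb
  set h0 : F2 := f ^ ((q + 1) * (q - 1)) * (φ π) ^ m / G ^ e with hh0
  obtain ⟨v, hv0, hv1, hv2⟩ := RadPow.exists_div_pow_sub_one V hpow he0 heV h1
  have hvu : ∀ i, (V i).valuation v = 1 := fun i => by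
    have : v = 1 + (v - 1) := by ring
    rw [this]
    exact Valuation.map_one_add_of_lt _ (hv1 i)
  have ident : f ^ ((q + 1) * (q - 1)) * (φ π) ^ m / (G * v) ^ e = h0 / v ^ e := by
    rw [hh0, mul_pow, div_div]
  have hlt : ∀ i, (V i).valuation (h0 / v ^ e - 1) < 1 := by
    intro i
    have hφπ : (V i).valuation (φ π) < 1 := by
      fin_cases i
      · exact S.φπ_lt0
      · exact (val_lt_one_map φ S.φ1).mpr (S.π_lt 0)
      · exact S.φπ_lt2
    have e1 : h0 / v ^ e - 1 = (h0 / v ^ e - 1) * (φ π)⁻¹ * φ π := by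
      rw [mul_assoc, inv_mul_cancel₀ S.φπ_ne, mul_one]
    rw [e1, map_mul]
    have h2 := (ValuationSubring.valuation_le_one_iff _ _).mpr (hv2 i)
    calc (V i).valuation ((h0 / v ^ e - 1) * (φ π)⁻¹) * (V i).valuation (φ π)
        ≤ 1 * (V i).valuation (φ π) := mul_le_mul_left h2 _
      _ = (V i).valuation (φ π) := one_mul _
      _ < 1 := hφπ
  refine ⟨m, G * v, mul_ne_zero hG hv0, ?_, ?_, ?_⟩
  · intro i
    rw [ident]
    exact hv2 i
  · rw [ident]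
    refine goodNorm_of_shape hC (sa.div_pow hv0 (val_normα_eq_one S Tα hvu)) ?_
    have := Tα.norm_sub_one_lt (hlt 0) (hlt 1) (hlt 2)
    intro j
    fin_cases j
    · exact this.1
    · exact this.2
  · rw [ident]
    refine goodNorm_of_shape hC (sb.div_pow hv0 (val_normβ_eq_one S Tβ hvu)) ?_
    have := Tβ.norm_sub_one_lt (hlt 2) (hlt 1) (hlt 0)
    intro j
    fin_cases j
    · exact this.2
    · exact this.1

end Strong

end Main

end Fermat.Agent.S36.Descent.NormPlumb
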