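/-
S36, block [D], the gluing constant (helper29): **the element `cg` which makes the gluing datum of
`h ^ (p (p + 2))` trivial**, i.e. the inputs `cg`, `hcg`, `hh2` of `LocalRootsInst.localRoots_chart`.

`O` a DVR with uniformiser `π`; level `q M0`: `U 0 = V10`, `U 1 = V01`; level `q² M0`: `V 0 = V20`,
`V 1 = V11`, `V 2 = V02` (pairwise incomparable archimedean valuation rings containing `O`, `π` a
nonunit of all of them).  The global inputs (`NormPlumb.GoodNorm`, twice): `N_α h = c_α H_α ^ e` with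
`H_α ≡ s_α` on `U 0`, `≡ t_α` on `U 1`, `N_β h = c_β H_β ^ e` with `H_β ≡ s_β`, `≡ t_β`, all constants
units of `O`; `N_α h ≡ N_β h ≡ 1` on `U 0`, `U 1` (because `h ≡ 1`).  Then

* `c_α s_α ^ e ≡ c_α t_α ^ e ≡ 1` modulo `π O` (`dvd_mul_pow_sub_one`), hence `π ∣ s_α ^ e - t_α ^ e`, and
  the same for `β`;
* the constants `Xi = (A0, B0, 1)` of `Trivialise.constXi` satisfy `Xi i ^ e ≡ 1` modulo `π O`
  (`constXi_pow_sub_one_dvd`);
* CRT modulo `π` (`exists_cong`, from `SemiLocalW.exists_approx`): `cg ≡ Xi i` modulo `π V i`; then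
  `cg ^ e ≡ 1` and `h ^ m / cg ^ e ≡ 1` modulo `π V i` (`exists_cg`, `cong_pow_div`);
* `exists_glue_of_goodNorm` : everything at once from the two `GoodNorm` packages;
* `exists_glue_chart`       : the same in the vocabulary of a chart `R` with a `ChartHyp` (the units
  pushed to `Rˣ`): verbatim the inputs `S T S' T' cg hcg hh2` of `LocalRootsInst.localRoots_chart` and the
  global root data of `LocalRootsInst.hrel_at`;
* `localRoots_chart_of_goodNorm` : `∃ cg, h₂ ≡ 1 (π V i) ∧ PowCover.LocalRoots π W s h₂ e` on the chart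
  `chartAlg O F₀ {s}`, `h₂ = h ^ (p (p + 2)) / cg ^ e`, from the two `GoodNorm` packages and the per-point
  data.
-/
import Mathlib
import Fermat.Agent.S36.V.SemiLocalW
import Fermat.Agent.S36.R3.GeneratorChart
import Fermat.Agent.S36.Descent.NormPlumb
import Fermat.Agent.S36.Descent.LocalRootsInst

set_option autoImplicit false
set_option linter.unusedSectionVars false

namespace Fermat.Agent.S36.Descent.GlueConst

open Fermat.Agent.S36.Local.Spread Fermat.Agent.S36.Local.LocalRoot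
  Fermat.Agent.S36.Local.ChartSpread Fermat.Agent.S36.D.Trivialise
  Fermat.Agent.P4.TwoValApprox Fermat.Agent.S36.V.SemiLocalW
  Fermat.Agent.S36.Descent.NormPlumb Fermat.Agent.S36.Descent.LocalRootsInst

universe u

/-! ### CRT modulo `ϖ` -/

section CRT

variable {F : Type*} [Field F] {ι : Type*} [Finite ι] (V : ι → ValuationSubring F)

/-- **CRT modulo `ϖ`** for finitely many pairwise incomparable archimedean valuation rings. -/
theorem exists_cong (hA : ∀ i, IsArch (V i)) (hinc : ∀ i j, i ≠ j → ¬ V i ≤ V j) {ϖ : F}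
    (hϖ0 : ϖ ≠ 0) (ξ : ι → F) : ∃ cg : F, ∀ i, Cong (V i) ϖ (cg - ξ i) := by
  obtain ⟨G, hG⟩ := exists_approx V hA hinc ξ (fun _ => ϖ) (fun _ => hϖ0)
  refine ⟨G, fun i => ⟨(G - ξ i) * ϖ⁻¹, ?_, ?_⟩⟩
  · have hpos : 0 < (V i).valuation ϖ := by
      rw [Valuation.pos_iff]; exact hϖ0
    rw [← ValuationSubring.valuation_le_one_iff, map_mul, map_inv₀, ← div_eq_mul_inv,
      div_le_one₀ hpos]
    exact (hG i).le
  · field_simp

end CRT

section CongLemmas

variable {F : Type*} [Field F] {A : ValuationSubring F} {ϖ : F}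

theorem mem_of_cong_sub_one {h : F} (hh1 : Cong A ϖ (h - 1)) (hϖ : ϖ ∈ A) : h ∈ A := by
  obtain ⟨w, hw, hh⟩ := hh1
  have : h = 1 + ϖ * w := by rw [← hh]; ring
  rw [this]
  exact add_mem A.one_mem (mul_mem hϖ hw)

/-- `h ≡ 1`, `cg ^ e ≡ 1` modulo `ϖ A`  ⟹  `h ^ m / cg ^ e ≡ 1` modulo `ϖ A`. -/
theorem cong_pow_div (hϖ : ϖ ∈ A.nonunits) {h c : F} (hh1 : Cong A ϖ (h - 1))
    (hc : Cong A ϖ (c - 1)) (m : ℕ) : Cong A ϖ (h ^ m / c - 1) :=
  Cong.div_sub_one hϖ (hh1.pow_sub_one (mem_of_cong_sub_one hh1 (A.nonunits_subset hϖ)) m) hc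

/-- `x ≡ y` modulo `ϖ A` (both in `A`) ⟹ `x ^ e ≡ y ^ e`. -/
theorem cong_pow_sub_pow {x y : F} (hx : x ∈ A) (hy : y ∈ A) (h : Cong A ϖ (x - y)) (e : ℕ) :
    Cong A ϖ (x ^ e - y ^ e) := by
  obtain ⟨d, hd⟩ := sub_dvd_pow_sub_pow (⟨x, hx⟩ : A) ⟨y, hy⟩ e
  have hd' : x ^ e - y ^ e = (x - y) * (d : F) := by
    have := congrArg (fun z : A => (z : F)) hd
    simpa using this
  rw [hd']
  exact h.mul_right d.2

end CongLemmas

/-! ### The constants -/

section Const

/-- In a commutative ring: `s ^ e = t ^ e`, `s' ^ e = t' ^ e`  ⟹  `Xi i ^ e = 1`. -/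
theorem constXi_pow_eq_one {B : Type*} [CommRing B] {e : ℕ} (p : ℕ) {s t s' t' : Bˣ}
    (hs : s ^ e = t ^ e) (hs' : s' ^ e = t' ^ e) (i : Fin 3) :
    constXi p s t s' t' i ^ e = 1 := by
  fin_cases i
  · show constA p s t s' t' ^ e = 1
    rw [constA, mul_pow, inv_pow, ← pow_mul, ← pow_mul, mul_comm p e, pow_mul, pow_mul,
      mul_pow s s' e, mul_pow t t' e, hs, hs', mul_inv_cancel]
  · show constB p s t s' t' ^ e = 1
    rw [constB, mul_pow, mul_pow, inv_pow, mul_pow, ← pow_mul, ← pow_mul, mul_comm (p + 1) e,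
      pow_mul, pow_mul, hs, hs', mul_inv_cancel]
  · show (1 : Bˣ) ^ e = 1
    exact one_pow e

variable {O : Type*} [CommRing O]

/-- `π ∣ S ^ e - T ^ e`, `π ∣ S' ^ e - T' ^ e`  ⟹  `π ∣ Xi i ^ e - 1`. -/
theorem constXi_pow_sub_one_dvd {π : O} {e : ℕ} (p : ℕ) (S T S' T' : Oˣ)
    (hα : π ∣ (S : O) ^ e - (T : O) ^ e) (hβ : π ∣ (S' : O) ^ e - (T' : O) ^ e) (i : Fin 3) :
    π ∣ ((constXi p S T S' T' i : Oˣ) : O) ^ e - 1 := by
  set r : O →+* O ⧸ Ideal.span {π} := Ideal.Quotient.mk (Ideal.span {π}) with hr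
  have key : ∀ x : O, r x = 0 ↔ π ∣ x := fun x => by
    rw [hr, Ideal.Quotient.eq_zero_iff_mem, Ideal.mem_span_singleton]
  set f : O →* O ⧸ Ideal.span {π} := (r : O →* O ⧸ Ideal.span {π}) with hf
  have hs : Units.map f S ^ e = Units.map f T ^ e := by
    ext
    rw [Units.val_pow_eq_pow_val, Units.val_pow_eq_pow_val, Units.coe_map, Units.coe_map]
    have := (key _).2 hα
    rw [map_sub, map_pow, map_pow, sub_eq_zero] at this
    exact this
  have hs' : Units.map f S' ^ e = Units.map f T' ^ e := by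
    ext
    rw [Units.val_pow_eq_pow_val, Units.val_pow_eq_pow_val, Units.coe_map, Units.coe_map]
    have := (key _).2 hβ
    rw [map_sub, map_pow, map_pow, sub_eq_zero] at this
    exact this
  have h1 := constXi_pow_eq_one p hs hs' i
  rw [constXi_map f p S T S' T' i] at h1
  have h2 := congrArg (fun u : (O ⧸ Ideal.span {π})ˣ => (u : O ⧸ Ideal.span {π})) h1
  simp only [Units.val_pow_eq_pow_val, Units.coe_map, Units.val_one] at h2
  rw [← key, map_sub, map_one, map_pow, sub_eq_zero]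
  exact h2

end Const

/-! ### The discrete valuation ring of constants -/

section Dvr

variable {O : Type*} [CommRing O] [IsDomain O] [IsDiscreteValuationRing O]
variable {F1 : Type*} [Field F1] [Algebra O F1]

/-- If the units of `O` are units of `U` then `O ⊆ U`. -/
theorem algebraMap_mem_of_unit_val (U : ValuationSubring F1)
    (hU : ∀ c : O, IsUnit c → U.valuation (algebraMap O F1 c) = 1) (c : O) :
    algebraMap O F1 c ∈ U := by
  rcases IsLocalRing.isUnit_or_isUnit_one_sub_self c with h | h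
  · rw [← ValuationSubring.valuation_le_one_iff, hU c h]
  · have e1 : algebraMap O F1 c = 1 - algebraMap O F1 (1 - c) := by
      rw [map_sub, map_one]; ring
    rw [e1]
    refine sub_mem U.one_mem ?_
    rw [← ValuationSubring.valuation_le_one_iff, hU _ h]

/-- A constant which is a nonunit of `U` is divisible by the uniformiser. -/
theorem dvd_of_valuation_lt_one {π : O} (hπ : Irreducible π) (U : ValuationSubring F1)
    (hU : ∀ c : O, IsUnit c → U.valuation (algebraMap O F1 c) = 1) {x : O}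
    (hx : U.valuation (algebraMap O F1 x) < 1) : π ∣ x := by
  have hnu : ¬ IsUnit x := fun h => by
    rw [hU x h] at hx
    exact lt_irrefl _ hx
  have hm : x ∈ IsLocalRing.maximalIdeal O := (IsLocalRing.mem_maximalIdeal x).2 hnu
  rw [(IsDiscreteValuationRing.irreducible_iff_uniformizer π).1 hπ, Ideal.mem_span_singleton] at hm
  exact hm

/-- `c H ^ e ≡ 1` and `H ≡ s` on `U`  ⟹  `π ∣ c s ^ e - 1`. -/
theorem dvd_mul_pow_sub_one {π : O} (hπ : Irreducible π) (U : ValuationSubring F1)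
    (hU : ∀ c : O, IsUnit c → U.valuation (algebraMap O F1 c) = 1) {e : ℕ} {c s : O} {H : F1}
    (hN : U.valuation (algebraMap O F1 c * H ^ e - 1) < 1)
    (hs : U.valuation (H - algebraMap O F1 s) < 1) : π ∣ c * s ^ e - 1 := by
  refine dvd_of_valuation_lt_one hπ U hU ?_
  have hsU : algebraMap O F1 s ∈ U := algebraMap_mem_of_unit_val U hU s
  have hcU : algebraMap O F1 c ∈ U := algebraMap_mem_of_unit_val U hU c
  have hs' : H - algebraMap O F1 s ∈ U.nonunits := hs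
  have hHU : H ∈ U := by
    have e1 : H = (H - algebraMap O F1 s) + algebraMap O F1 s := by ring
    rw [e1]
    exact add_mem (U.nonunits_subset hs') hsU
  obtain ⟨d, hd⟩ := sub_dvd_pow_sub_pow (⟨H, hHU⟩ : U) ⟨algebraMap O F1 s, hsU⟩ e
  have hd' : H ^ e - algebraMap O F1 s ^ e = (H - algebraMap O F1 s) * (d : F1) := by
    have := congrArg (fun z : U => (z : F1)) hd
    simpa using this
  have e2 : algebraMap O F1 (c * s ^ e - 1) =
      (algebraMap O F1 c * H ^ e - 1) -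
        algebraMap O F1 c * ((H - algebraMap O F1 s) * (d : F1)) := by
    rw [← hd']
    simp only [map_sub, map_mul, map_pow, map_one]
    ring
  rw [e2]
  refine Valuation.map_sub_lt _ hN ?_
  exact nu_mul U hcU (nu_mul' U hs' d.2)

/-- Both congruences ⟹ `π ∣ s ^ e - t ^ e`. -/
theorem dvd_pow_sub_pow {π : O} (hπ : Irreducible π) (U : Fin 2 → ValuationSubring F1)
    (hU : ∀ c : O, IsUnit c → ∀ j, (U j).valuation (algebraMap O F1 c) = 1) {e : ℕ} {c s t : O}
    (hc : IsUnit c) {H : F1}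
    (hN : ∀ j, (U j).valuation (algebraMap O F1 c * H ^ e - 1) < 1)
    (hs : (U 0).valuation (H - algebraMap O F1 s) < 1)
    (ht : (U 1).valuation (H - algebraMap O F1 t) < 1) : π ∣ s ^ e - t ^ e := by
  have h0 := dvd_mul_pow_sub_one hπ (U 0) (fun c hc => hU c hc 0) (hN 0) hs
  have h1 := dvd_mul_pow_sub_one hπ (U 1) (fun c hc => hU c hc 1) (hN 1) ht
  have h2 : π ∣ c * (s ^ e - t ^ e) := by
    have : c * (s ^ e - t ^ e) = (c * s ^ e - 1) - (c * t ^ e - 1) := by ring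
    rw [this]
    exact dvd_sub h0 h1
  exact (hc.dvd_mul_left).1 h2

end Dvr

/-! ### The gluing constant -/

section Glue

variable {O : Type*} [CommRing O]
variable {F2 : Type*} [Field F2] [Algebra O F2]

/-- **The gluing constant**: `cg ≡ Xi i` and `cg ^ e ≡ 1` modulo `π V i`. -/
theorem exists_cg {ι : Type*} [Finite ι] (V : ι → ValuationSubring F2) (hA : ∀ i, IsArch (V i))
    (hinc : ∀ i j, i ≠ j → ¬ V i ≤ V j)
    (hOV : ∀ i (c : O), algebraMap O F2 c ∈ V i) {π : O} (hϖ0 : algebraMap O F2 π ≠ 0)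
    {e : ℕ} (ξ : ι → O) (hξ : ∀ i, π ∣ ξ i ^ e - 1) :
    ∃ cg : F2, (∀ i, Cong (V i) (algebraMap O F2 π) (cg - algebraMap O F2 (ξ i))) ∧
      ∀ i, Cong (V i) (algebraMap O F2 π) (cg ^ e - 1) := by
  obtain ⟨cg, hcg⟩ := exists_cong V hA hinc hϖ0 (fun i => algebraMap O F2 (ξ i))
  refine ⟨cg, hcg, fun i => ?_⟩
  have hξV : algebraMap O F2 (ξ i) ∈ V i := hOV i _
  have hcgV : cg ∈ V i := by
    obtain ⟨w, hw, h⟩ := hcg i
    have e1 : cg = algebraMap O F2 π * w + algebraMap O F2 (ξ i) := by rw [← h]; ring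
    rw [e1]
    exact add_mem (mul_mem (hOV i π) hw) hξV
  have h1 := cong_pow_sub_pow hcgV hξV (hcg i) e
  have h2 : Cong (V i) (algebraMap O F2 π) (algebraMap O F2 (ξ i) ^ e - 1) := by
    obtain ⟨c, hc⟩ := hξ i
    refine ⟨algebraMap O F2 c, hOV i c, ?_⟩
    rw [← map_mul, ← hc, map_sub, map_pow, map_one]
  have e3 : cg ^ e - 1 = (cg ^ e - algebraMap O F2 (ξ i) ^ e) + (algebraMap O F2 (ξ i) ^ e - 1) := by
    ring
  rw [e3]
  exact h1.add h2

end Glue

/-! ### Everything at once from the two `GoodNorm` packages -/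

section Main

variable {O : Type*} [CommRing O] [IsDomain O] [IsDiscreteValuationRing O]
variable {F1 F2 : Type*} [Field F1] [Field F2] [Algebra O F1] [Algebra O F2]

/-- **The global data of block [D] from the two `GoodNorm` packages**: the unit constants
`(S, T, S', T') = (s_α, t_α, s_β, t_β)`, the global roots of the two norms, and the gluing constant `cg`
with `cg ≡ Xi i` modulo `𝔪_{V i}` and `h ^ (p (p + 2)) / cg ^ e ≡ 1` modulo `π V i`. -/
theorem exists_glue_of_goodNorm {π : O} (hπ : Irreducible π) {Nα Nβ : F2 →* F1}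
    (U : Fin 2 → ValuationSubring F1)
    (hU : ∀ c : O, IsUnit c → ∀ j, (U j).valuation (algebraMap O F1 c) = 1)
    (V : Fin 3 → ValuationSubring F2) (hA : ∀ i, IsArch (V i))
    (hinc : ∀ i j, i ≠ j → ¬ V i ≤ V j)
    (hOV : ∀ i (c : O), algebraMap O F2 c ∈ V i)
    (hϖ : ∀ i, algebraMap O F2 π ∈ (V i).nonunits) (hϖ0 : algebraMap O F2 π ≠ 0)
    {e : ℕ} {h : F2} (gα : GoodNorm O Nα U e h) (gβ : GoodNorm O Nβ U e h)
    (hNα1 : ∀ j, (U j).valuation (Nα h - 1) < 1) (hNβ1 : ∀ j, (U j).valuation (Nβ h - 1) < 1)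
    (hh1 : ∀ i, Cong (V i) (algebraMap O F2 π) (h - 1)) (p : ℕ) :
    ∃ (cα sα tα cβ sβ tβ : Oˣ) (Hα Hβ : F1),
      Nα h = algebraMap O F1 cα * Hα ^ e ∧
      Hα - algebraMap O F1 sα ∈ (U 0).nonunits ∧ Hα - algebraMap O F1 tα ∈ (U 1).nonunits ∧
      Nβ h = algebraMap O F1 cβ * Hβ ^ e ∧
      Hβ - algebraMap O F1 sβ ∈ (U 0).nonunits ∧ Hβ - algebraMap O F1 tβ ∈ (U 1).nonunits ∧
      ∃ cg : F2,
        (∀ i, cg - algebraMap O F2 (constXi p sα tα sβ tβ i : Oˣ) ∈ (V i).nonunits) ∧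
        ∀ i, Cong (V i) (algebraMap O F2 π) (h ^ (p * (p + 2)) / cg ^ e - 1) := by
  obtain ⟨cα, sα, tα, Hα, hcα, hsα, htα, hNα, hsα', htα'⟩ := gα
  obtain ⟨cβ, sβ, tβ, Hβ, hcβ, hsβ, htβ, hNβ, hsβ', htβ'⟩ := gβ
  have dα : π ∣ sα ^ e - tα ^ e :=
    dvd_pow_sub_pow hπ U hU hcα (fun j => by rw [← hNα]; exact hNα1 j) hsα' htα'
  have dβ : π ∣ sβ ^ e - tβ ^ e :=
    dvd_pow_sub_pow hπ U hU hcβ (fun j => by rw [← hNβ]; exact hNβ1 j) hsβ' htβ'
  have hξ : ∀ i, π ∣ ((constXi p hsα.unit htα.unit hsβ.unit htβ.unit i : Oˣ) : O) ^ e - 1 :=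
    constXi_pow_sub_one_dvd p hsα.unit htα.unit hsβ.unit htβ.unit dα dβ
  obtain ⟨cg, hcg, hcge⟩ := exists_cg V hA hinc hOV hϖ0
    (fun i => ((constXi p hsα.unit htα.unit hsβ.unit htβ.unit i : Oˣ) : O)) hξ
  refine ⟨hcα.unit, hsα.unit, htα.unit, hcβ.unit, hsβ.unit, htβ.unit, Hα, Hβ, hNα, hsα', htα',
    hNβ, hsβ', htβ', cg, fun i => cong_mem_nonunits (hϖ i) (hcg i), fun i => ?_⟩
  exact cong_pow_div (hϖ i) (hh1 i) (hcge i) _

end Main

/-! ### The chart form -/

section Chart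

open Fermat.Agent.S36.D.ChartRoots Fermat.Agent.S36.R3.GeneratorChart

variable {O : Type*} [CommRing O] [IsDomain O] [IsDiscreteValuationRing O]
variable {R : Type*} [CommRing R] [IsDomain R] [IsNoetherianRing R] [Algebra O R]
variable {F : Type u} [Field F] [Algebra R F] [IsFractionRing R F] [Algebra O F]
  [IsScalarTower O R F]
variable {F1 : Type*} [Field F1] [Algebra O F1]
variable {V : Fin 3 → ValuationSubring F} {hV : ∀ i (r : R), algebraMap R F r ∈ V i}

/-- The valuation rings of a `ChartHyp` are pairwise incomparable. -/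
theorem not_le_of_chartHyp {ι : Type*} [Fintype ι] {V : ι → ValuationSubring F}
    {hV : ∀ i (r : R), algebraMap R F r ∈ V i} {π : O} {E : ℕ} (H : ChartHyp V hV π E)
    (i j : ι) (hij : i ≠ j) : ¬ V i ≤ V j := by
  intro hle
  refine H.inc j i (Ne.symm hij) fun r hr => ?_
  rw [mem_centre] at hr ⊢
  exact (ValuationSubring.nonunits_le_nonunits.2 hle) hr

/-- The units of `O` pushed to the chart. -/
noncomputable def unitR (S : Oˣ) : Rˣ := Units.map (algebraMap O R : O →* R) S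

theorem algebraMap_constXi_unitR (p : ℕ) (S T S' T' : Oˣ) (i : Fin 3) :
    algebraMap R F ((constXi p (unitR (R := R) S) (unitR T) (unitR S') (unitR T') i : Rˣ) : R) =
      algebraMap O F ((constXi p S T S' T' i : Oˣ) : O) := by
  unfold unitR
  rw [constXi_map, Units.coe_map]
  exact (IsScalarTower.algebraMap_apply O R F _).symm

/-- **The global data of block [D] on a chart**: verbatim the inputs `S T S' T' cg hcg hh2` of
`LocalRootsInst.localRoots_chart` (with `S = unitR sα`, …) together with the global roots of the two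
norms (the inputs of `LocalRootsInst.hrel_at`, constants in `O`). -/
theorem exists_glue_chart {π : O} {E : ℕ} (H : ChartHyp V hV π E) {Nα Nβ : F →* F1}
    (U : Fin 2 → ValuationSubring F1)
    (hU : ∀ c : O, IsUnit c → ∀ j, (U j).valuation (algebraMap O F1 c) = 1)
    {e : ℕ} {h : F} (gα : GoodNorm O Nα U e h) (gβ : GoodNorm O Nβ U e h)
    (hNα1 : ∀ j, (U j).valuation (Nα h - 1) < 1) (hNβ1 : ∀ j, (U j).valuation (Nβ h - 1) < 1)
    (hh1 : ∀ i, Cong (V i) (algebraMap R F (algebraMap O R π)) (h - 1)) (p : ℕ) :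
    ∃ (cα sα tα cβ sβ tβ : Oˣ) (Hα Hβ : F1),
      Nα h = algebraMap O F1 cα * Hα ^ e ∧
      Hα - algebraMap O F1 sα ∈ (U 0).nonunits ∧ Hα - algebraMap O F1 tα ∈ (U 1).nonunits ∧
      Nβ h = algebraMap O F1 cβ * Hβ ^ e ∧
      Hβ - algebraMap O F1 sβ ∈ (U 0).nonunits ∧ Hβ - algebraMap O F1 tβ ∈ (U 1).nonunits ∧
      ∃ cg : F,
        (∀ i, cg - algebraMap R F
          ((constXi p (unitR (R := R) sα) (unitR tα) (unitR sβ) (unitR tβ) i : Rˣ) : R) ∈
            (V i).nonunits) ∧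
        ∀ i, Cong (V i) (algebraMap R F (algebraMap O R π)) (h ^ (p * (p + 2)) / cg ^ e - 1) := by
  have hπF : algebraMap R F (algebraMap O R π) = algebraMap O F π :=
    (IsScalarTower.algebraMap_apply O R F π).symm
  have hOV : ∀ i (c : O), algebraMap O F c ∈ V i := fun i c => by
    rw [IsScalarTower.algebraMap_apply O R F]; exact hV i _
  have hϖ : ∀ i, algebraMap O F π ∈ (V i).nonunits := fun i => by rw [← hπF]; exact H.mem i
  have hϖ0 : algebraMap O F π ≠ 0 := by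
    rw [← hπF]
    exact fun h0 => H.ne ((IsFractionRing.injective R F) (by rw [h0, map_zero]))
  obtain ⟨cα, sα, tα, cβ, sβ, tβ, Hα, Hβ, h1, h2, h3, h4, h5, h6, cg, hcg, hh2⟩ :=
    exists_glue_of_goodNorm H.irr U hU V (isArch_of_chartHyp H) (not_le_of_chartHyp H) hOV hϖ hϖ0
      gα gβ hNα1 hNβ1 (fun i => by rw [← hπF]; exact hh1 i) p
  refine ⟨cα, sα, tα, cβ, sβ, tβ, Hα, Hβ, h1, h2, h3, h4, h5, h6, cg, fun i => ?_, fun i => ?_⟩
  · rw [algebraMap_constXi_unitR]
    exact hcg i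
  · rw [hπF]
    exact hh2 i

end Chart

/-! ### `PowCover.LocalRoots` on the finite chart from the global data -/

section Final

open Fermat.Agent.S36.D.ChartRoots Fermat.Agent.S36.D.RootData Fermat.Agent.N4.Chart
  Fermat.Agent.N4.Cover.Globalize
open Fermat.Agent.P3G.Assembly.PowCover (LocalRoots)

variable {O K₀ : Type*} [CommRing O] [IsDomain O] [IsDiscreteValuationRing O]
  [Field K₀] [CharZero K₀] [Algebra O K₀] [IsFractionRing O K₀]
variable {F₀ : Type u} [Field F₀] [Algebra K₀ F₀] [Algebra O F₀] [IsScalarTower O K₀ F₀]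
variable {F1 : Type*} [Field F1] [Algebra O F1]

/-- `Cong` modulo `π`, computed through a chart or directly. -/
theorem cong_tower_iff {R : Type*} [CommRing R] [Algebra O R] [Algebra R F₀] [IsScalarTower O R F₀]
    {A : ValuationSubring F₀} {π : O} {x : F₀} :
    Cong A (algebraMap R F₀ (algebraMap O R π)) x ↔ Cong A (algebraMap O F₀ π) x := by
  rw [← IsScalarTower.algebraMap_apply O R F₀]

/-- **`PowCover.LocalRoots` on the chart `chartAlg O F₀ {s}` from the global data** (the two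
`GoodNorm` packages of `NormPlumb`) **and the per-point data** (classification, (I-R), and at the triple
points the relations `hrel` = output of `LocalRootsInst.hrel_at`, for whatever constants the global
roots of the norms have).  The gluing constant `cg` is produced here; `h₂ = h ^ (p (p + 2)) / cg ^ e`
still satisfies `h₂ ≡ 1` modulo `π V i` (first conjunct: input of the chart at infinity and of the
cover theorem). -/
theorem localRoots_chart_of_goodNorm (s : F₀) [IsNoetherianRing (chartAlg O F₀ {s})]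
    [IsFractionRing (chartAlg O F₀ {s}) F₀]
    {V : Fin 3 → ValuationSubring F₀}
    {hV : ∀ i (r : chartAlg O F₀ {s}), algebraMap (chartAlg O F₀ {s}) F₀ r ∈ V i}
    {π : O} {E : ℕ} (H : ChartHyp V hV π E) {W : Subring F₀}
    (hW : ∀ w : F₀, (∀ i, w ∈ V i) → w ∈ W)
    (hclass : ∀ (𝔫 : Ideal (chartAlg O F₀ {s})) [𝔫.IsPrime], 𝔫.IsMaximal →
      algebraMap O (chartAlg O F₀ {s}) π ∈ 𝔫 →
      (∃ i₀, centre (V i₀) (hV i₀) ≤ 𝔫 ∧ ∀ j, j ≠ i₀ → ¬ centre (V j) (hV j) ≤ 𝔫) ∨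
        ∀ i, centre (V i) (hV i) ≤ 𝔫)
    (hUFD : ∀ (𝔫 : Ideal (chartAlg O F₀ {s})) [𝔫.IsPrime], 𝔫.IsMaximal →
      algebraMap O (chartAlg O F₀ {s}) π ∈ 𝔫 → UniqueFactorizationMonoid (locAt (F := F₀) 𝔫))
    (hPID : ∀ (𝔫 : Ideal (chartAlg O F₀ {s})) [𝔫.IsPrime], 𝔫.IsMaximal →
      algebraMap O (chartAlg O F₀ {s}) π ∈ 𝔫 →
      ∀ i (hi : centre (V i) (hV i) ≤ 𝔫), IsPrincipalIdealRing (locAt (F := F₀) 𝔫 ⧸
        centre (V i) (fun b => locAt_le 𝔫 (V i) (hV i) hi b)))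
    {e : ℕ} (he : IsUnit ((e : ℕ) : chartAlg O F₀ {s})) {h : F₀}
    (hh1 : ∀ i, Cong (V i) (algebraMap O F₀ π) (h - 1)) (hhor : Horizontal K₀ e h)
    {Nα Nβ : F₀ →* F1} (U : Fin 2 → ValuationSubring F1)
    (hU : ∀ c : O, IsUnit c → ∀ j, (U j).valuation (algebraMap O F1 c) = 1)
    (gα : GoodNorm O Nα U e h) (gβ : GoodNorm O Nβ U e h)
    (hNα1 : ∀ j, (U j).valuation (Nα h - 1) < 1) (hNβ1 : ∀ j, (U j).valuation (Nβ h - 1) < 1)
    (p : ℕ)
    (hrel : ∀ (cα sα tα cβ sβ tβ : Oˣ) (Hα Hβ : F1),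
      Nα h = algebraMap O F1 cα * Hα ^ e →
      Hα - algebraMap O F1 sα ∈ (U 0).nonunits → Hα - algebraMap O F1 tα ∈ (U 1).nonunits →
      Nβ h = algebraMap O F1 cβ * Hβ ^ e →
      Hβ - algebraMap O F1 sβ ∈ (U 0).nonunits → Hβ - algebraMap O F1 tβ ∈ (U 1).nonunits →
      ∀ (𝔫 : Ideal (chartAlg O F₀ {s})) [𝔫.IsPrime], 𝔫.IsMaximal →
      algebraMap O (chartAlg O F₀ {s}) π ∈ 𝔫 →
      (∀ i, centre (V i) (hV i) ≤ 𝔫) → ∀ D : RootDatum (locAt (F := F₀) 𝔫) V e h,
      ¬ IsUnit (algebraMap (chartAlg O F₀ {s}) (locAt (F := F₀) 𝔫)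
          (unitR (R := chartAlg O F₀ {s}) tα) * D.y 0 * D.y 1 ^ p -
        algebraMap (chartAlg O F₀ {s}) (locAt (F := F₀) 𝔫)
          (unitR (R := chartAlg O F₀ {s}) sα) * D.y 2 ^ (p + 1)) ∧
      ¬ IsUnit (algebraMap (chartAlg O F₀ {s}) (locAt (F := F₀) 𝔫)
          (unitR (R := chartAlg O F₀ {s}) sβ) * D.y 2 * D.y 1 ^ p -
        algebraMap (chartAlg O F₀ {s}) (locAt (F := F₀) 𝔫)
          (unitR (R := chartAlg O F₀ {s}) tβ) * D.y 0 ^ (p + 1))) :
    ∃ cg : F₀, (∀ i, Cong (V i) (algebraMap O F₀ π) (h ^ (p * (p + 2)) / cg ^ e - 1)) ∧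
      LocalRoots π W s (h ^ (p * (p + 2)) / cg ^ e) e := by
  obtain ⟨cα, sα, tα, cβ, sβ, tβ, Hα, Hβ, h1, h2, h3, h4, h5, h6, cg, hcg, hh2⟩ :=
    exists_glue_chart H U hU gα gβ hNα1 hNβ1 (fun i => cong_tower_iff.2 (hh1 i)) p
  refine ⟨cg, fun i => cong_tower_iff.1 (hh2 i), ?_⟩
  exact localRoots_chart (K₀ := K₀) s H hW hclass hUFD hPID he
    (fun i => cong_mem_nonunits (H.mem i) (cong_tower_iff.2 (hh1 i))) hhor
    (unitR sα) (unitR tα) (unitR sβ) (unitR tβ)
    (hrel cα sα tα cβ sβ tβ Hα Hβ h1 h2 h3 h4 h5 h6) cg hcg hh2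

end Final

end Fermat.Agent.S36.Descent.GlueConst
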