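/-
S36 SPINE (helper13): **the geometric core at one unramified level.**

`level_core` : at a fixed level (`O` a discrete valuation ring with uniformiser `ϖ`, `K₀ = Frac O`,
`F1 ⊆ F2` along `φ, ψ`, the valuation rings `U 0, U 1 = V10, V01` and `V 0, V 1, V 2 = V20, V11, V02`),
from

* the valuation setting and the norm tables of `NormPlumb` (blocks [V], [N]),
* the horizontal hypothesis on `f` and the two norm equations,
* the interface hypothesis `hLR` (blocks [L], [D], [R1]–[R3], [ONE], [CUSP], [PTS] assembled: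
  local roots on both charts for every `h` with the global properties (I-G)),

one gets `h = c₀ • f ^ C / G ^ e` with `h ≡ 1` modulo `ϖ W` and `PowCover.LocalRoots` on both charts,
`C = (q + 1) (q - 1) ((q - 1) (q + 1))`.
-/
import Mathlib
import Fermat.Agent.P3G.Assembly.PowCover
import Fermat.Agent.S36.Descent.NormPlumb
import Fermat.Agent.S36.Descent.GlueConst
import Fermat.Agent.S36.Local.Spread

set_option autoImplicit false
set_option linter.unusedSectionVars false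

namespace Fermat.Agent.S36.Descent.LevelCore

open Fermat.Agent.S36.Descent.NormPlumb Fermat.Agent.S36.Local.Spread
  Fermat.Agent.N4.Cover.Globalize
open Fermat.Agent.P3G.Assembly.PowCover (LocalRoots)

universe u

/-! ### Horizontal bookkeeping -/

/-- A nonzero constant times a power of `f`, divided by an `e`-th power, is horizontally an `e`-th
power if `f` is. -/
theorem horizontal_const_mul_pow_div {K₀ : Type*} [Field K₀] {F : Type u} [Field F] [Algebra K₀ F]
    {e : ℕ} {f : F} (hhor : Horizontal K₀ e f) {c : K₀} (hc : c ≠ 0) (m : ℕ) (G : F) :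
    Horizontal K₀ e (algebraMap K₀ F c * f ^ m / G ^ e) := by
  intro V _ _ _ _ _ hK
  obtain ⟨u, g, hg⟩ := hhor V hK
  obtain ⟨v, hv⟩ := hK c
  obtain ⟨v', hv'⟩ := hK c⁻¹
  have hinj := IsFractionRing.injective V F
  have hvv' : v * v' = 1 := by
    apply hinj
    rw [map_mul, hv, hv', ← map_mul, mul_inv_cancel₀ hc, map_one, map_one]
  have hvu : IsUnit v := IsUnit.of_mul_eq_one v' hvv'
  refine ⟨hvu.unit * u ^ m, g ^ m / G, ?_⟩
  rw [hg, Units.val_mul, IsUnit.unit_spec, Units.val_pow_eq_pow_val, map_mul, map_pow, hv, div_pow,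
    mul_pow, ← pow_mul, ← pow_mul, mul_comm m e]
  ring

/-! ### The core at one level -/

section Core

variable {O K₀ : Type*} [CommRing O] [IsDomain O] [IsDiscreteValuationRing O]
  [Field K₀] [CharZero K₀] [Algebra O K₀] [IsFractionRing O K₀]
variable {F1 : Type*} [Field F1] [Algebra K₀ F1] [Algebra O F1] [IsScalarTower O K₀ F1]
variable {F2 : Type u} [Field F2] [Algebra K₀ F2] [Algebra O F2] [IsScalarTower O K₀ F2]

/-- The exponent of the spine: `(q + 1) (q - 1) · (q - 1) (q + 1)`. -/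
def spineExp (q : ℕ) : ℕ := (q + 1) * (q - 1) * ((q - 1) * (q - 1 + 2))

theorem spineExp_ne_zero {q : ℕ} (hq : 2 ≤ q) : spineExp q ≠ 0 := by
  unfold spineExp
  have h1 : q - 1 ≠ 0 := by omega
  positivity

/-- **The interface hypothesis** of the spine (blocks [L], [D], [R1]–[R3], [ONE], [CUSP], [PTS]
assembled on both charts): for every `h` with the global properties (I-G) there is a gluing constant
`cg` such that `h₂ = h ^ (p (p + 2)) / cg ^ e` is `≡ 1` modulo `ϖ V i` and has local roots on both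
charts.  (`p = q - 1`; discharged from `GlueConst.localRoots_chart_of_goodNorm`,
`ChartTransfer.localRoots_inv` and `LocalRootsInst.localRoots_chart_onlyOne`.) -/
def RootsInterface (O : Type*) (K₀ : Type*) [CommRing O] [IsDomain O] [IsDiscreteValuationRing O]
    [Field K₀] [CharZero K₀] [Algebra O K₀] [IsFractionRing O K₀]
    {F1 : Type*} [Field F1] [Algebra O F1]
    {F2 : Type u} [Field F2] [Algebra K₀ F2] [Algebra O F2] [IsScalarTower O K₀ F2]
    (Nα Nβ : F2 →* F1) (U : Fin 2 → ValuationSubring F1) (V : Fin 3 → ValuationSubring F2)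
    (ϖ : O) (W : Subring F2) (s : F2) (p e : ℕ) : Prop :=
  ∀ h : F2, (∀ i, Cong (V i) (algebraMap O F2 ϖ) (h - 1)) → Horizontal K₀ e h →
    GoodNorm O Nα U e h → GoodNorm O Nβ U e h →
    (∀ j, (U j).valuation (Nα h - 1) < 1) → (∀ j, (U j).valuation (Nβ h - 1) < 1) →
    ∃ cg : F2, (∀ i, Cong (V i) (algebraMap O F2 ϖ) (h ^ (p * (p + 2)) / cg ^ e - 1)) ∧
      LocalRoots ϖ W s (h ^ (p * (p + 2)) / cg ^ e) e ∧
      LocalRoots ϖ W s⁻¹ (h ^ (p * (p + 2)) / cg ^ e) e

/-- **The geometric core at one level.** -/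
theorem level_core {φ ψ : F1 →ₐ[K₀] F2} {Nα Nβ : F2 →* F1} {q : ℕ}
    {U : Fin 2 → ValuationSubring F1} {V : Fin 3 → ValuationSubring F2} {ϖ : O}
    (hϖ : Irreducible ϖ) {Pm : F2}
    (S : ValSetting (φ : F1 →+* F2) (ψ : F1 →+* F2) q U V (algebraMap O F1 ϖ) Pm)
    (Tα : NormTable (φ : F1 →+* F2) Nα q (U 0) (U 1) (V 0) (V 1) (V 2))
    (Tβ : NormTable (ψ : F1 →+* F2) Nβ q (U 1) (U 0) (V 2) (V 1) (V 0))
    (Oα : OrdFormula Nα q (U 0) (U 1) (V 0) (V 1) (V 2) (algebraMap O F1 ϖ)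
      ((φ : F1 →+* F2) (algebraMap O F1 ϖ)) Pm ((φ : F1 →+* F2) (algebraMap O F1 ϖ)))
    (Oβ : OrdFormula Nβ q (U 1) (U 0) (V 2) (V 1) (V 0) (algebraMap O F1 ϖ)
      ((φ : F1 →+* F2) (algebraMap O F1 ϖ)) Pm ((φ : F1 →+* F2) (algebraMap O F1 ϖ)))
    {e : ℕ} (hC : ConstHyp O U e) (hqe : Nat.Coprime q e) {E : ℕ}
    (hpow : ∀ i (x : F2), (V i).valuation x < 1 → x ^ E * (algebraMap O F2 ϖ)⁻¹ ∈ V i)
    (he0 : (e : F2) ≠ 0) (heV : ∀ i, ((e : F2))⁻¹ ∈ V i)
    {W : Subring F2} (hW : ∀ w : F2, (∀ i, w ∈ V i) → w ∈ W) (s : F2)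
    (hLR : RootsInterface O K₀ Nα Nβ U V ϖ W s (q - 1) e)
    {f : F2} (hf : f ≠ 0) (hhor : Horizontal K₀ e f) {ca cb : K₀} (hca : ca ≠ 0) (hcb : cb ≠ 0)
    {ha hb : F1} (hNa : Nα f = algebraMap K₀ F1 ca * ha ^ e)
    (hNb : Nβ f = algebraMap K₀ F1 cb * hb ^ e) :
    ∃ (c₀ : K₀) (G : F2), c₀ ≠ 0 ∧ G ≠ 0 ∧
      (∃ w ∈ W, algebraMap K₀ F2 c₀ * f ^ spineExp q / G ^ e - 1 = algebraMap O F2 ϖ * w) ∧
      LocalRoots ϖ W s (algebraMap K₀ F2 c₀ * f ^ spineExp q / G ^ e) e ∧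
      LocalRoots ϖ W s⁻¹ (algebraMap K₀ F2 c₀ * f ^ spineExp q / G ^ e) e := by
  classical
  have he : e ≠ 0 := by
    rintro rfl
    rw [Nat.coprime_zero_right] at hqe
    have := S.q_two
    omega
  -- `φ π = ϖ` in `F2`
  have hφπ : (φ : F1 →+* F2) (algebraMap O F1 ϖ) = algebraMap O F2 ϖ := by
    rw [IsScalarTower.algebraMap_apply O K₀ F1, IsScalarTower.algebraMap_apply O K₀ F2]
    exact φ.commutes _
  have hϖ2 : algebraMap O F2 ϖ ≠ 0 := by rw [← hφπ]; exact S.φπ_ne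
  -- the roots of the norms are nonzero
  have hha : ha ≠ 0 := by
    rintro rfl
    rw [zero_pow he, mul_zero] at hNa
    exact map_ne_zero_of_ne Nα hf hNa
  have hhb : hb ≠ 0 := by
    rintro rfl
    rw [zero_pow he, mul_zero] at hNb
    exact map_ne_zero_of_ne Nβ hf hNb
  -- the constants
  have hconst : ∀ c : K₀, c ≠ 0 → ∃ (n : ℤ) (u : O), IsUnit u ∧
      algebraMap K₀ F1 c = algebraMap O F1 ϖ ^ n * algebraMap O F1 u := by
    intro c hc
    obtain ⟨n, u, hu⟩ :=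
      IsDiscreteValuationRing.exists_units_eq_smul_zpow_of_irreducible (K := K₀) hϖ hc
    refine ⟨n, u, u.isUnit, ?_⟩
    rw [hu, Units.smul_def, Algebra.smul_def, map_mul, map_zpow₀,
      ← IsScalarTower.algebraMap_apply O K₀ F1, ← IsScalarTower.algebraMap_apply O K₀ F1, mul_comm]
  obtain ⟨m, G, hG, hG1, gα, gβ⟩ := exists_normalisation_strong S Tα Tβ Oα Oβ hC hqe
    (by rw [hφπ]; exact hpow) he0 heV hf hha hhb (hconst ca hca) (hconst cb hcb) hNa hNb
  rw [hφπ] at hG1 gα gβ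
  set h0 : F2 := f ^ ((q + 1) * (q - 1)) * algebraMap O F2 ϖ ^ m / G ^ e with hh0
  -- `h0 ≡ 1` modulo `ϖ V i`
  have hcong : ∀ i, Cong (V i) (algebraMap O F2 ϖ) (h0 - 1) := fun i =>
    ⟨(h0 - 1) * (algebraMap O F2 ϖ)⁻¹, hG1 i, by field_simp⟩
  have hϖlt : ∀ i, (V i).valuation (algebraMap O F2 ϖ) < 1 := by
    intro i
    rw [← hφπ]
    fin_cases i
    · exact S.φπ_lt0
    · exact (val_lt_one_map (φ : F1 →+* F2) S.φ1).mpr (S.π_lt 0)
    · exact S.φπ_lt2
  have hlt : ∀ i, (V i).valuation (h0 - 1) < 1 := by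
    intro i
    obtain ⟨w, hw, hw'⟩ := hcong i
    rw [hw', map_mul]
    have h2 := (ValuationSubring.valuation_le_one_iff _ _).mpr hw
    calc (V i).valuation (algebraMap O F2 ϖ) * (V i).valuation w
        ≤ (V i).valuation (algebraMap O F2 ϖ) * 1 := mul_le_mul_right h2 _
      _ = (V i).valuation (algebraMap O F2 ϖ) := mul_one _
      _ < 1 := hϖlt i
  have hNα1 : ∀ j, (U j).valuation (Nα h0 - 1) < 1 := by
    have := Tα.norm_sub_one_lt (hlt 0) (hlt 1) (hlt 2)
    intro j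
    fin_cases j
    · exact this.1
    · exact this.2
  have hNβ1 : ∀ j, (U j).valuation (Nβ h0 - 1) < 1 := by
    have := Tβ.norm_sub_one_lt (hlt 2) (hlt 1) (hlt 0)
    intro j
    fin_cases j
    · exact this.2
    · exact this.1
  -- horizontal
  have hϖK : algebraMap O K₀ ϖ ≠ 0 := by
    intro h0'
    apply hϖ2
    rw [IsScalarTower.algebraMap_apply O K₀ F2, h0', map_zero]
  have hh0' : h0 = algebraMap K₀ F2 (algebraMap O K₀ ϖ ^ m) * f ^ ((q + 1) * (q - 1)) / G ^ e := by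
    rw [hh0, map_zpow₀, ← IsScalarTower.algebraMap_apply O K₀ F2, mul_comm]
  have hhor0 : Horizontal K₀ e h0 := by
    rw [hh0']
    exact horizontal_const_mul_pow_div hhor (zpow_ne_zero m hϖK) _ G
  obtain ⟨cg, hh2, hfin, hinf⟩ := hLR h0 hcong hhor0 gα gβ hNα1 hNβ1
  -- `cg ≠ 0`
  have hcg0 : cg ≠ 0 := by
    rintro rfl
    obtain ⟨w, hw, hw'⟩ := hh2 0
    rw [zero_pow he, div_zero, zero_sub] at hw'
    have h1 : (V 0).valuation (-1 : F2) < 1 := by
      rw [hw', map_mul]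
      have h2 := (ValuationSubring.valuation_le_one_iff _ _).mpr hw
      calc (V 0).valuation (algebraMap O F2 ϖ) * (V 0).valuation w
          ≤ (V 0).valuation (algebraMap O F2 ϖ) * 1 := mul_le_mul_right h2 _
        _ = (V 0).valuation (algebraMap O F2 ϖ) := mul_one _
        _ < 1 := hϖlt 0
    rw [Valuation.map_neg, map_one] at h1
    exact lt_irrefl _ h1
  set M : ℕ := (q - 1) * (q - 1 + 2) with hM
  have ident : algebraMap K₀ F2 ((algebraMap O K₀ ϖ ^ m) ^ M) * f ^ spineExp q /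
      (G ^ M * cg) ^ e = h0 ^ M / cg ^ e := by
    rw [hh0', spineExp, ← hM, map_pow, pow_mul f, mul_pow, div_pow, mul_pow, ← pow_mul G,
      ← pow_mul G, mul_comm e M]
    field_simp
  refine ⟨(algebraMap O K₀ ϖ ^ m) ^ M, G ^ M * cg, pow_ne_zero _ (zpow_ne_zero m hϖK),
    mul_ne_zero (pow_ne_zero _ hG) hcg0, ?_, ?_, ?_⟩
  · rw [ident]
    refine ⟨(h0 ^ M / cg ^ e - 1) * (algebraMap O F2 ϖ)⁻¹, hW _ (fun i => ?_), by field_simp⟩
    obtain ⟨w, hw, hw'⟩ := hh2 i
    rw [hw', mul_comm (algebraMap O F2 ϖ) w, mul_assoc, mul_inv_cancel₀ hϖ2, mul_one]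
    exact hw
  · rw [ident]; exact hfin
  · rw [ident]; exact hinf

end Core

end Fermat.Agent.S36.Descent.LevelCore
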