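/-
S36 SPINE (helper13): **the spine at unramified levels** — `Main.NewRootStepAt (M0 * q) q`.

`rootStep_at_level` : at a fixed unramified level `K` (`O = baseRing A K`, uniformiser `ϖ = q`), from

* (N) the valuation setting, the norm tables and the order formulas of `NormPlumb`
  (`Descent/SpineNorm`),
* (R) the interface hypothesis `LevelCore.RootsInterface` (`Descent/SpineRoots`),
* (C) the cover bundle: `FamVal ϖ W V E`, `W` semilocal Gauss for both charts, one reduced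
  component (`Descent/SpineCover`),

one gets the conclusion of `Main.NewRootStepAt` at this level, with `C = LevelCore.spineExp q`.

`newRootStepAt_of_levels` : the passage to `Main.NewRootStepAt (M0 * q) q`.
-/
import Mathlib
import Fermat.Agent.S36.Descent.LevelCore
import Fermat.Agent.S36.Descent.Final

set_option autoImplicit false
set_option linter.unusedSectionVars false
set_option linter.style.haveILetI false

open ModularCurve AlgebraicCurve
open Fermat.Agent.N4.Setting Fermat.Agent.N4.Chart Fermat.Agent.N4.S18Glue Fermat.Agent.N4.BigDVR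
  Fermat.Agent.N4F.C Fermat.Agent.N4F.C.Levels Fermat.Agent.N4F.C.Galois
open Fermat.Agent.P3G.Gamma Fermat.Agent.P3G.GammaDict
open Fermat.Agent.P3G.Cover.Lift Fermat.Agent.P3G.Assembly.PowCover
open Fermat.Agent.S36.C.PowCoverFam
open Fermat.Agent.P4.Push Fermat.Agent.P4.FrobLevelStep
open Fermat.Agent.N4F.E.DegreeLevelRaise
open Fermat.Agent.S36.Descent.UnramLevel Fermat.Agent.S36.Descent.Main
  Fermat.Agent.S36.Descent.Adapter Fermat.Agent.S36.Descent.NormPlumb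
  Fermat.Agent.S36.Descent.LevelCore
open Fermat.Agent.N4.Cover.Globalize (Horizontal)

noncomputable section

namespace Fermat.Agent.S36.Descent.Spine

local notation "Qbar" => AlgebraicClosure ℚ

section PerLevel

variable {A : ValuationSubring Qbar} {q : ℕ} [NeZero q] (hq : q.Prime) (hA : A.LiesOverPrime q)
  {K : IntermediateField ℚ Qbar} (hK : IsUnramLevel A q K) (M0 : ℕ) [NeZero M0]

/-- `α₂ : F_K(M0 q) → F_K(M0 q²)` as a ring homomorphism. -/
abbrev phiA (K : IntermediateField ℚ Qbar) (M0 q : ℕ) [NeZero M0] [NeZero q] :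
    FF (Lvl K) (M0 * q) →+* FF (Lvl K) (M0 * q * q) :=
  ((alphaF (Lvl K) (M0 * q) q : FF (Lvl K) (M0 * q) →ₐ[Lvl K] FF (Lvl K) (M0 * q * q)) :
    FF (Lvl K) (M0 * q) →+* FF (Lvl K) (M0 * q * q))

/-- `β₂ : F_K(M0 q) → F_K(M0 q²)` as a ring homomorphism. -/
abbrev phiB (K : IntermediateField ℚ Qbar) (M0 q : ℕ) [NeZero M0] [NeZero q] :
    FF (Lvl K) (M0 * q) →+* FF (Lvl K) (M0 * q * q) :=
  ((betaF (Lvl K) (M0 * q) q : FF (Lvl K) (M0 * q) →ₐ[Lvl K] FF (Lvl K) (M0 * q * q)) :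
    FF (Lvl K) (M0 * q) →+* FF (Lvl K) (M0 * q * q))

include hq hA hK in
set_option maxHeartbeats 1600000 in
/-- **The spine at one unramified level.** -/
theorem rootStep_at_level [IsDiscreteValuationRing ↥(baseRing A K)]
    [IsFractionRing ↥(baseRing A K) (Lvl K)]
    {p : ℕ} (hp : p.Prime) (hpq : p ≠ q) (k : ℕ)
    (U : Fin 2 → ValuationSubring (FF (Lvl K) (M0 * q)))
    (V : Fin 3 → ValuationSubring (FF (Lvl K) (M0 * q * q)))
    (Pm : FF (Lvl K) (M0 * q * q))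
    (W : Subring (FF (Lvl K) (M0 * q * q))) [IsIntegrallyClosed W]
    [IsFractionRing W (FF (Lvl K) (M0 * q * q))] (E : ℕ)
    -- (N)
    (S : ValSetting (phiA K M0 q) (phiB K M0 q) q U V
      (algebraMap ↥(baseRing A K) (FF (Lvl K) (M0 * q)) ((q : ℕ) : ↥(baseRing A K))) Pm)
    (Tα : NormTable (phiA K M0 q) (normAlphaK K (M0 * q) q) q (U 0) (U 1) (V 0) (V 1) (V 2))
    (Tβ : NormTable (phiB K M0 q) (normBetaK K (M0 * q) q) q (U 1) (U 0) (V 2) (V 1) (V 0))
    (Oα : OrdFormula (normAlphaK K (M0 * q) q) q (U 0) (U 1) (V 0) (V 1) (V 2)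
      (algebraMap ↥(baseRing A K) (FF (Lvl K) (M0 * q)) ((q : ℕ) : ↥(baseRing A K)))
      (phiA K M0 q (algebraMap ↥(baseRing A K) (FF (Lvl K) (M0 * q)) ((q : ℕ) : ↥(baseRing A K))))
      Pm
      (phiA K M0 q (algebraMap ↥(baseRing A K) (FF (Lvl K) (M0 * q)) ((q : ℕ) : ↥(baseRing A K)))))
    (Oβ : OrdFormula (normBetaK K (M0 * q) q) q (U 1) (U 0) (V 2) (V 1) (V 0)
      (algebraMap ↥(baseRing A K) (FF (Lvl K) (M0 * q)) ((q : ℕ) : ↥(baseRing A K)))
      (phiA K M0 q (algebraMap ↥(baseRing A K) (FF (Lvl K) (M0 * q)) ((q : ℕ) : ↥(baseRing A K))))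
      Pm
      (phiA K M0 q (algebraMap ↥(baseRing A K) (FF (Lvl K) (M0 * q)) ((q : ℕ) : ↥(baseRing A K)))))
    (hC : ConstHyp ↥(baseRing A K) U (p ^ k))
    -- (R)
    (hLR : RootsInterface ↥(baseRing A K) (Lvl K) (normAlphaK K (M0 * q) q)
      (normBetaK K (M0 * q) q) U V ((q : ℕ) : ↥(baseRing A K)) W (jF (Lvl K) (M0 * q * q))
      (q - 1) (p ^ k))
    -- (C)
    (hT : FamVal ((q : ℕ) : ↥(baseRing A K)) W V E)
    (hWp : IsSemiGaussRing W
      (algebraMap ↥(baseRing A K) (Rfin (Lvl K) (M0 * q * q) (baseRing A K))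
        ((q : ℕ) : ↥(baseRing A K))))
    (hWm : IsSemiGaussRing W
      (algebraMap ↥(baseRing A K) (Rinf (Lvl K) (M0 * q * q) (baseRing A K))
        ((q : ℕ) : ↥(baseRing A K))))
    (i₀ : Fin 3) (hi₀ : ∀ x ∈ (V i₀).nonunits,
      x * (algebraMap ↥(baseRing A K) (FF (Lvl K) (M0 * q * q)) ((q : ℕ) : ↥(baseRing A K)))⁻¹ ∈
        V i₀)
    -- the data
    (f : FF (Lvl K) (M0 * q * q)) (ha hb : FF (Lvl K) (M0 * q)) (ca cb : Lvl K)
    (hf : f ≠ 0) (hca : ca ≠ 0) (hcb : cb ≠ 0)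
    (hdiv : ∀ P : Place Qb (Fb (M0 * q * q)),
      ((p ^ k : ℕ) : ℤ) ∣ P.ord (levK (M0 * q * q) K f))
    (hNa : normAlphaK K (M0 * q) q f =
      algebraMap (Lvl K) (FF (Lvl K) (M0 * q)) ca * ha ^ (p ^ k))
    (hNb : normBetaK K (M0 * q) q f =
      algebraMap (Lvl K) (FF (Lvl K) (M0 * q)) cb * hb ^ (p ^ k)) :
    ∃ (c₀ : Lvl K) (G h : FF (Lvl K) (M0 * q * q)), c₀ ≠ 0 ∧ G ≠ 0 ∧
      algebraMap (Lvl K) (FF (Lvl K) (M0 * q * q)) c₀ * f ^ spineExp q = h * G ^ (p ^ k) ∧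
      (∃ V₀ : ValuationSubring (FF (Lvl K) (M0 * q * q)),
        (∀ c : Lvl K, algebraMap (Lvl K) Qbar c ∈ A →
          algebraMap (Lvl K) (FF (Lvl K) (M0 * q * q)) c ∈ V₀) ∧
        ((q : ℕ) : FF (Lvl K) (M0 * q * q)) ∈ V₀.nonunits ∧
        (∀ x ∈ V₀.nonunits, x * ((q : ℕ) : FF (Lvl K) (M0 * q * q))⁻¹ ∈ V₀) ∧
        V₀.valuation h = 1) ∧
      ∀ n < k, ∀ kn : FF (Lvl K) (M0 * q * q), kn ^ (p ^ n) = h →
        ∃ w : Fb (M0 * q * q), w ^ p = levK (M0 * q * q) K kn := by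
  classical
  have hϖ : Irreducible ((q : ℕ) : ↥(baseRing A K)) := hK.irred
  have hqe : Nat.Coprime q (p ^ k) :=
    Nat.Coprime.pow_right k ((Nat.coprime_primes hq hp).mpr (Ne.symm hpq))
  -- horizontal
  have hhor : Horizontal (Lvl K) (p ^ k) f :=
    horizontal_of_ord (Lvl K) (M0 * q * q) f hf hdiv
  -- `p ^ k` is a unit of `O_K`
  have hqA : ((q : ℕ) : Qbar) ∈ A.nonunits := hA
  have hpkA : ((p ^ k : ℕ) : Qbar) ∉ A.nonunits :=
    natCast_not_mem_nonunits_of_not_dvd A hq hqA fun hdvd =>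
      hpq ((Nat.prime_dvd_prime_iff_eq hq hp).mp (hq.dvd_of_dvd_pow hdvd)).symm
  have hpkO : IsUnit ((p ^ k : ℕ) : ↥(baseRing A K)) := isUnit_natCast_trS A (Lvl K) hpkA
  have hOW : ∀ c : ↥(baseRing A K),
      algebraMap ↥(baseRing A K) (FF (Lvl K) (M0 * q * q)) c ∈ W := fun c =>
    hWp.le (algebraMap ↥(baseRing A K) (Rfin (Lvl K) (M0 * q * q) (baseRing A K)) c)
  have he0 : ((p ^ k : ℕ) : FF (Lvl K) (M0 * q * q)) ≠ 0 :=
    Nat.cast_ne_zero.mpr (pow_ne_zero k hp.ne_zero)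
  have heV : ∀ i, (((p ^ k : ℕ) : FF (Lvl K) (M0 * q * q)))⁻¹ ∈ V i := by
    intro i
    obtain ⟨u, hu⟩ := hpkO
    have h1 : algebraMap ↥(baseRing A K) (FF (Lvl K) (M0 * q * q))
        ((u⁻¹ : (↥(baseRing A K))ˣ) : ↥(baseRing A K)) =
        (((p ^ k : ℕ) : FF (Lvl K) (M0 * q * q)))⁻¹ := by
      rw [eq_comm, inv_eq_iff_eq_inv, eq_comm, inv_eq_of_mul_eq_one_left]
      rw [← map_natCast (algebraMap ↥(baseRing A K) (FF (Lvl K) (M0 * q * q))), ← hu, ← map_mul,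
        Units.mul_inv, map_one]
    rw [← h1]
    exact hT.mem (hOW _) i
  have hW : ∀ w : FF (Lvl K) (M0 * q * q), (∀ i, w ∈ V i) → w ∈ W := fun w hw =>
    (hT.mem_iff w).mpr hw
  have hpow : ∀ i (x : FF (Lvl K) (M0 * q * q)), (V i).valuation x < 1 →
      x ^ E * (algebraMap ↥(baseRing A K) (FF (Lvl K) (M0 * q * q))
        ((q : ℕ) : ↥(baseRing A K)))⁻¹ ∈ V i := fun i x hx => hT.pow_unif i x hx
  obtain ⟨c₀, G, hc₀, hG, hh, hlocp, hlocm⟩ :=
    level_core (φ := alphaF (Lvl K) (M0 * q) q) (ψ := betaF (Lvl K) (M0 * q) q)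
      hϖ S Tα Tβ Oα Oβ hC hqe hpow he0 heV hW (jF (Lvl K) (M0 * q * q)) hLR hf hhor hca hcb
      hNa hNb
  refine ⟨c₀, G, _, hc₀, hG, ?_,
    unitClause_of_levelGeom hK (M0 * q * q) hϖ W V hT hWp hh i₀ hi₀,
    stepClause_of_levelGeom hq hA hK (M0 * q * q) hp hpq k hϖ W V hT hWp hWm hh hlocp hlocm⟩
  have hGe : G ^ (p ^ k) ≠ 0 := pow_ne_zero _ hG
  field_simp

end PerLevel

/-! ### The data at one level and the passage to `NewRootStepAt` -/

/-- **The data of the spine at one unramified level** for the exponent `e`: two valuation rings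
`U 0, U 1` of level `M0 q`, three valuation rings `V 0, V 1, V 2` of level `M0 q²` with
`W = ⋂ V i`, and the three bundles (N), (R), (C). -/
def LevelData (A : ValuationSubring Qbar) (q : ℕ) [NeZero q] (K : IntermediateField ℚ Qbar)
    (hK : IsUnramLevel A q K) (M0 : ℕ) [NeZero M0] (e : ℕ) : Prop :=
  haveI := hK.dvr
  haveI : IsFractionRing ↥(baseRing A K) (Lvl K) := isFractionRing_trSubring A K
  ∃ (U : Fin 2 → ValuationSubring (FF (Lvl K) (M0 * q)))
    (V : Fin 3 → ValuationSubring (FF (Lvl K) (M0 * q * q)))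
    (Pm : FF (Lvl K) (M0 * q * q))
    (W : Subring (FF (Lvl K) (M0 * q * q))) (_ : IsIntegrallyClosed W)
    (_ : IsFractionRing W (FF (Lvl K) (M0 * q * q))) (E : ℕ) (i₀ : Fin 3),
    -- (N)
    ValSetting (phiA K M0 q) (phiB K M0 q) q U V
      (algebraMap ↥(baseRing A K) (FF (Lvl K) (M0 * q)) ((q : ℕ) : ↥(baseRing A K))) Pm ∧
    NormTable (phiA K M0 q) (normAlphaK K (M0 * q) q) q (U 0) (U 1) (V 0) (V 1) (V 2) ∧
    NormTable (phiB K M0 q) (normBetaK K (M0 * q) q) q (U 1) (U 0) (V 2) (V 1) (V 0) ∧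
    OrdFormula (normAlphaK K (M0 * q) q) q (U 0) (U 1) (V 0) (V 1) (V 2)
      (algebraMap ↥(baseRing A K) (FF (Lvl K) (M0 * q)) ((q : ℕ) : ↥(baseRing A K)))
      (phiA K M0 q (algebraMap ↥(baseRing A K) (FF (Lvl K) (M0 * q)) ((q : ℕ) : ↥(baseRing A K))))
      Pm
      (phiA K M0 q
        (algebraMap ↥(baseRing A K) (FF (Lvl K) (M0 * q)) ((q : ℕ) : ↥(baseRing A K)))) ∧
    OrdFormula (normBetaK K (M0 * q) q) q (U 1) (U 0) (V 2) (V 1) (V 0)
      (algebraMap ↥(baseRing A K) (FF (Lvl K) (M0 * q)) ((q : ℕ) : ↥(baseRing A K)))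
      (phiA K M0 q (algebraMap ↥(baseRing A K) (FF (Lvl K) (M0 * q)) ((q : ℕ) : ↥(baseRing A K))))
      Pm
      (phiA K M0 q
        (algebraMap ↥(baseRing A K) (FF (Lvl K) (M0 * q)) ((q : ℕ) : ↥(baseRing A K)))) ∧
    ConstHyp ↥(baseRing A K) U e ∧
    -- (R)
    RootsInterface ↥(baseRing A K) (Lvl K) (normAlphaK K (M0 * q) q)
      (normBetaK K (M0 * q) q) U V ((q : ℕ) : ↥(baseRing A K)) W (jF (Lvl K) (M0 * q * q))
      (q - 1) e ∧
    -- (C)
    FamVal ((q : ℕ) : ↥(baseRing A K)) W V E ∧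
    IsSemiGaussRing W
      (algebraMap ↥(baseRing A K) (Rfin (Lvl K) (M0 * q * q) (baseRing A K))
        ((q : ℕ) : ↥(baseRing A K))) ∧
    IsSemiGaussRing W
      (algebraMap ↥(baseRing A K) (Rinf (Lvl K) (M0 * q * q) (baseRing A K))
        ((q : ℕ) : ↥(baseRing A K))) ∧
    ∀ x ∈ (V i₀).nonunits,
      x * (algebraMap ↥(baseRing A K) (FF (Lvl K) (M0 * q * q)) ((q : ℕ) : ↥(baseRing A K)))⁻¹ ∈
        V i₀

/-- **The spine**: `Main.NewRootStepAt (M0 q) q` from the data at every unramified level. -/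
theorem newRootStepAt_of_levels {q : ℕ} [NeZero q] (hq : q.Prime) (M0 : ℕ) [NeZero M0]
    (hdata : ∀ A : ValuationSubring Qbar, A.LiesOverPrime q → ∀ (K : IntermediateField ℚ Qbar)
      (hK : IsUnramLevel A q K) (p : ℕ), p.Prime → p ≠ q → ∀ k : ℕ,
        LevelData A q K hK M0 (p ^ k)) :
    NewRootStepAt (M0 * q) q := by
  intro A hA p hp hpq
  refine ⟨spineExp q, spineExp_ne_zero hq.two_le, ?_⟩
  intro k K hK f ha hb ca cb hf hca hcb hdiv hNa hNb
  haveI := hK.dvr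
  haveI : IsFractionRing ↥(baseRing A K) (Lvl K) := isFractionRing_trSubring A K
  obtain ⟨U, V, Pm, W, iW1, iW2, E, i₀, S, Tα, Tβ, Oα, Oβ, hC, hLR, hT, hWp, hWm, hi₀⟩ :=
    hdata A hA K hK p hp hpq k
  exact rootStep_at_level hq hA hK M0 hp hpq k U V Pm W E S Tα Tβ Oα Oβ hC hLR hT hWp hWm i₀ hi₀
    f ha hb ca cb hf hca hcb hdiv hNa hNb

/-- **The spine in the shape consumed by `Final.inertiaTorsionBound_of_spine`.** -/
theorem newRootStepAt_of_data
    (hdata : ∀ (M0 q : ℕ) [NeZero M0] [NeZero q], q.Prime → ¬ q ∣ M0 →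
      Fermat.Agent.S36.Descent.Final.LevelCond M0 q →
      ∀ A : ValuationSubring Qbar, A.LiesOverPrime q → ∀ (K : IntermediateField ℚ Qbar)
        (hK : IsUnramLevel A q K) (p : ℕ), p.Prime → p ≠ q → ∀ k : ℕ,
          LevelData A q K hK M0 (p ^ k))
    (N q : ℕ) [NeZero N] [NeZero q] (hq : q.Prime) (hqN : q ∣ N) (hq2 : ¬ q ^ 2 ∣ N)
    (hL : Fermat.Agent.S36.Descent.Final.LevelCond N q) : NewRootStepAt N q := by
  obtain ⟨M0, hM0⟩ := hqN
  rw [mul_comm] at hM0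
  subst hM0
  haveI : NeZero M0 := ⟨fun h => by
    have := NeZero.ne (M0 * q)
    rw [h, zero_mul] at this
    exact this rfl⟩
  have hqM0 : ¬ q ∣ M0 := by
    rintro ⟨m, rfl⟩
    apply hq2
    exact ⟨m, by ring⟩
  have hL0 : Fermat.Agent.S36.Descent.Final.LevelCond M0 q := by
    rcases hL with ⟨h2, h4⟩ | ⟨h2, h9⟩
    · left
      refine ⟨h2, ?_⟩
      have hcop : Nat.Coprime 4 q := by
        have h4' : (4 : ℕ) = 2 ^ 2 := by norm_num
        rw [h4']
        exact Nat.Coprime.pow_left 2 ((Nat.coprime_primes Nat.prime_two hq).mpr (Ne.symm h2))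
      exact hcop.dvd_of_dvd_mul_right h4
    · right
      refine ⟨h2, ?_⟩
      subst h2
      have hcop : Nat.Coprime 9 2 := by norm_num
      exact hcop.dvd_of_dvd_mul_right h9
  exact newRootStepAt_of_levels hq M0 (hdata M0 q hq hqM0 hL0)

/-- **The geometric input of S36** (`Top.Final.InertiaTorsionBound`) from the data of the spine at
every unramified level and the removal of the auxiliary level. -/
theorem inertiaTorsionBound_of_data
    (hdata : ∀ (M0 q : ℕ) [NeZero M0] [NeZero q], q.Prime → ¬ q ∣ M0 →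
      Fermat.Agent.S36.Descent.Final.LevelCond M0 q →
      ∀ A : ValuationSubring Qbar, A.LiesOverPrime q → ∀ (K : IntermediateField ℚ Qbar)
        (hK : IsUnramLevel A q K) (p : ℕ), p.Prime → p ≠ q → ∀ k : ℕ,
          LevelData A q K hK M0 (p ^ k))
    (haux : ∀ (N q lam r : ℕ) [NeZero N] [NeZero q] [NeZero r] (A : ValuationSubring Qbar),
      Nat.Coprime r q → Fermat.Agent.S36.Descent.Final.BoundAt (N * r) q lam A →
        Fermat.Agent.S36.Descent.Final.BoundAt N q lam A) :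
    Fermat.Agent.S36.Top.Final.InertiaTorsionBound :=
  Fermat.Agent.S36.Descent.Final.inertiaTorsionBound_of_spine
    (fun N q _ _ hq hqN hq2 hL => newRootStepAt_of_data hdata N q hq hqN hq2 hL) haux

end Fermat.Agent.S36.Descent.Spine
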