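/-
S36, block [Descent] (helper19): **THE GEOMETRIC INPUT OF S36 FROM THE SPINE, auxiliary level removed.**

`Descent/Final.inertiaTorsionBound_of_spine` with its hypothesis `haux` discharged by
`Descent/AuxLevel.torsionBoundAt_of_mul` (helper27; needs `lam ≠ 0`, `q` prime, `q ∣ N`, all available
at the call site):

* `inertiaTorsionBound_of_spine'` : `Top.Final.InertiaTorsionBound` from the spine
  `Main.NewRootStepAt N q` at the levels `N` with `q ∥ N` and `LevelCond N q`;
* `inertiaTorsionBound_of_levelData` : the same from the data `Spine.LevelData` of the spine at every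
  unramified level (`Spine.newRootStepAt_of_data`).
-/
import Mathlib
import Fermat.Agent.S36.Descent.Final
import Fermat.Agent.S36.Descent.AuxLevel
import Fermat.Agent.S36.Descent.Spine

set_option autoImplicit false
set_option linter.unusedSectionVars false
set_option linter.style.haveILetI false

open ModularCurve AlgebraicCurve
open Fermat.Agent.P4.Push
open Fermat.Agent.S36.Descent.Main Fermat.Agent.S36.Descent.Adapter
  Fermat.Agent.S36.Descent.Final Fermat.Agent.S36.Descent.UnramLevel

noncomputable section

namespace Fermat.Agent.S36.Descent.Final2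

local notation "Qbar" => AlgebraicClosure ℚ

/-- `Final.BoundAt` is `AuxLevel.TorsionBoundAt`. -/
theorem boundAt_iff_torsionBoundAt (N q lam : ℕ) [NeZero N] [NeZero q]
    (A : ValuationSubring Qbar) :
    BoundAt N q lam A ↔ Fermat.Agent.S36.Descent.AuxLevel.TorsionBoundAt N q lam A :=
  Iff.rfl

/-- **The geometric input of S36 from the spine** (the auxiliary level removed by
`AuxLevel.torsionBoundAt_of_mul`). -/
theorem inertiaTorsionBound_of_spine'
    (hspine : ∀ (N q : ℕ) [NeZero N] [NeZero q], q.Prime → q ∣ N → ¬ q ^ 2 ∣ N →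
      LevelCond N q → NewRootStepAt N q) :
    Fermat.Agent.S36.Top.Final.InertiaTorsionBound := by
  intro N q _ _ hq hqN hq2 lam hlam hqlam
  obtain ⟨A, hA⟩ := Fermat.Agent.S54.exists_valuationSubring_liesOverPrime q hq
  refine ⟨A, hA, ?_⟩
  have hcop := coprime_auxMul hq
  have hqN' : q ∣ N * auxMul q := Dvd.dvd.mul_right hqN _
  have hq2' : ¬ q ^ 2 ∣ N * auxMul q := by
    intro hdvd
    exact hq2 ((Nat.Coprime.pow_left 2 hcop.symm).dvd_of_dvd_mul_right hdvd)
  have hstep := hspine (N * auxMul q) q hq hqN' hq2' (levelCond_mul_auxMul N q)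
  have hbound : BoundAt (N * auxMul q) q lam A :=
    torsionBound_of_rootStep' hq hstep A hA lam hlam.out (Ne.symm hqlam)
  exact Fermat.Agent.S36.Descent.AuxLevel.torsionBoundAt_of_mul hlam.out.ne_zero hq hqN
    (auxMul q) hcop hbound

/-- **The geometric input of S36 from the data of the spine at every unramified level.** -/
theorem inertiaTorsionBound_of_levelData
    (hdata : ∀ (M0 q : ℕ) [NeZero M0] [NeZero q], q.Prime → ¬ q ∣ M0 → LevelCond M0 q →
      ∀ A : ValuationSubring Qbar, A.LiesOverPrime q → ∀ (K : IntermediateField ℚ Qbar)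
        (hK : IsUnramLevel A q K) (p : ℕ), p.Prime → p ≠ q → ∀ k : ℕ,
          Fermat.Agent.S36.Descent.Spine.LevelData A q K hK M0 (p ^ k)) :
    Fermat.Agent.S36.Top.Final.InertiaTorsionBound :=
  inertiaTorsionBound_of_spine' fun N q _ _ hq hqN hq2 hL =>
    Fermat.Agent.S36.Descent.Spine.newRootStepAt_of_data hdata N q hq hqN hq2 hL

end Fermat.Agent.S36.Descent.Final2
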