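import Mathlib
import Fermat.Agent.S36.Descent.NormPlumb
import Fermat.Agent.P3G.SecondValuation

/-!
# S36 [Desc-K]: the constants hypothesis `NormPlumb.ConstHyp` from places

* `constHyp_of_places` (abstract): `O` a local ring with algebraically closed residue field `κ`,
  `U : Fin 2 → ValuationSubring F1` valuation subrings containing the constants, with places
  `ev j : ↥(U j) →+* L` (`L` a domain and a `κ`-algebra, kernel = nonunits, `ev j c = c̄` on constants)
  ⟹ `ConstHyp O U e` for every `e ≠ 0`: unit constants are `e`-th powers modulo the maximal ideals,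
  and an `e`-th root of a unit constant modulo `𝔪_{U j}` is a unit constant modulo `𝔪_{U j}`.
* `constHyp_level`: the instance `U = ![gaussVS K (M₀ q) O, sv.V]` (places `theta`, `sv.ev` with
  values in `κ((Q))`).
-/

set_option autoImplicit false
set_option linter.unusedSectionVars false
set_option linter.style.haveILetI false

namespace Fermat.Agent.S36.Descent.ConstHypInst

open IsLocalRing Fermat.Agent.S36.Descent.NormPlumb

section Abstract

variable {F1 : Type*} [Field F1] {O : Type*} [CommRing O] [IsLocalRing O] [Algebra O F1]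
  {L : Type*} [CommRing L] [IsDomain L] [Algebra (ResidueField O) L]

/-- a unit of `O` from a nonzero residue -/
theorem isUnit_of_residue_ne_zero {c : O} (h : residue O c ≠ 0) : IsUnit c := by
  by_contra hc
  exact h ((residue_eq_zero_iff c).mpr ((mem_maximalIdeal c).mpr hc))

theorem residue_ne_zero_of_isUnit {c : O} (h : IsUnit c) : residue O c ≠ 0 := by
  intro h0
  exact ((mem_maximalIdeal c).mp ((residue_eq_zero_iff c).mp h0)) h

/-- **`ConstHyp` from places.** -/
theorem constHyp_of_places [IsAlgClosed (ResidueField O)] (U : Fin 2 → ValuationSubring F1)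
    {e : ℕ} (he : e ≠ 0)
    (hO : ∀ (c : O) (j : Fin 2), algebraMap O F1 c ∈ U j)
    (ev : ∀ j : Fin 2, ↥(U j) →+* L)
    (hker : ∀ (j : Fin 2) (y : ↥(U j)), ev j y = 0 ↔ (y : F1) ∈ (U j).nonunits)
    (hconst : ∀ (j : Fin 2) (c : O),
      ev j ⟨algebraMap O F1 c, hO c j⟩ = algebraMap (ResidueField O) L (residue O c)) :
    ConstHyp O U e := by
  have hinj : Function.Injective (algebraMap (ResidueField O) L) :=
    (algebraMap (ResidueField O) L).injective
  -- the ring homs `O → U j`
  let ι : ∀ j : Fin 2, O →+* ↥(U j) := fun j =>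
    (algebraMap O F1).codRestrict (U j).toSubring (fun c => hO c j)
  have hι : ∀ j c, ((ι j c : ↥(U j)) : F1) = algebraMap O F1 c := fun _ _ => rfl
  have hunit : ∀ c : O, IsUnit c → ∀ j, (U j).valuation (algebraMap O F1 c) = 1 := by
    intro c hc j
    have h1 : IsUnit (ι j c) := hc.map (ι j)
    have h2 := (U j).valuation_unit h1.unit
    rw [IsUnit.unit_spec, hι] at h2
    exact h2
  refine ⟨hunit, ?_, ?_⟩
  · -- root
    intro c hc
    obtain ⟨dbar, hd⟩ := IsAlgClosed.exists_pow_nat_eq (residue O c) (Nat.pos_of_ne_zero he)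
    obtain ⟨d, rfl⟩ := residue_surjective dbar
    have hd0 : residue O d ≠ 0 := by
      intro h0
      rw [h0, zero_pow he] at hd
      exact residue_ne_zero_of_isUnit hc hd.symm
    refine ⟨d, isUnit_of_residue_ne_zero hd0, fun j => ?_⟩
    have h1 : ev j (ι j c - ι j d ^ e) = 0 := by
      rw [map_sub, map_pow]
      show ev j ⟨algebraMap O F1 c, hO c j⟩ - ev j ⟨algebraMap O F1 d, hO d j⟩ ^ e = 0
      rw [hconst, hconst, ← map_pow, hd, sub_self]
    have h2 := (hker j _).mp h1
    exact (ValuationSubring.mem_nonunits_iff (A := U j)).mp h2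
  · -- split
    intro j H c hc hH
    have hvc := hunit c hc j
    -- `H ∈ U j`
    have hHmem : H ∈ U j := by
      rw [← ValuationSubring.valuation_le_one_iff]
      by_contra hgt
      rw [not_le] at hgt
      have h1 : (1 : _) < (U j).valuation (H ^ e) := by
        rw [map_pow]
        exact one_lt_pow₀ hgt he
      have h2 : (U j).valuation (H ^ e - algebraMap O F1 c) = (U j).valuation (H ^ e) := by
        rw [sub_eq_add_neg]
        apply Valuation.map_add_eq_of_lt_left
        rw [Valuation.map_neg, hvc]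
        exact h1
      rw [h2] at hH
      exact lt_irrefl _ (hH.trans h1)
    set hb : L := ev j ⟨H, hHmem⟩ with hbdef
    -- `hb ^ e = c̄`
    have hpow : hb ^ e = algebraMap (ResidueField O) L (residue O c) := by
      have h1 : ev j (⟨H, hHmem⟩ ^ e - ι j c) = 0 := by
        rw [hker]
        exact (ValuationSubring.mem_nonunits_iff (A := U j)).mpr hH
      rw [map_sub, map_pow, sub_eq_zero] at h1
      rw [hbdef, h1]
      exact hconst j c
    -- `hb` is integral over `κ`, hence a constant
    have hint : IsIntegral (ResidueField O) hb := by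
      refine ⟨Polynomial.X ^ e - Polynomial.C (residue O c),
        Polynomial.monic_X_pow_sub_C _ he, ?_⟩
      rw [Polynomial.eval₂_sub, Polynomial.eval₂_pow, Polynomial.eval₂_X, Polynomial.eval₂_C, hpow,
        sub_self]
    have hdeg : (minpoly (ResidueField O) hb).degree = 1 :=
      IsAlgClosed.degree_eq_one_of_irreducible (ResidueField O) (minpoly.irreducible hint)
    obtain ⟨sbar, hs⟩ := minpoly.mem_range_of_degree_eq_one (ResidueField O) hb hdeg
    obtain ⟨s, rfl⟩ := residue_surjective sbar
    have hs0 : residue O s ≠ 0 := by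
      intro h0
      rw [h0, map_zero] at hs
      rw [← hs, zero_pow he] at hpow
      exact residue_ne_zero_of_isUnit hc (hinj (by rw [← hpow, map_zero]))
    refine ⟨s, isUnit_of_residue_ne_zero hs0, ?_⟩
    have h1 : ev j (⟨H, hHmem⟩ - ι j s) = 0 := by
      rw [map_sub, sub_eq_zero]
      show hb = ev j ⟨algebraMap O F1 s, hO s j⟩
      rw [hconst, hs]
    exact (ValuationSubring.mem_nonunits_iff (A := U j)).mp ((hker j _).mp h1)

end Abstract

/-! ### The instance at a level -/

section Level

open ModularCurve Fermat.Agent.N4.Setting Fermat.Agent.N4.FibreEmbedding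
open Fermat.Agent.N4F.E.DegreeLevelRaise Fermat.Agent.N4F.E.GaussDVR
open Fermat.Agent.P3G.SecondValuation

variable (K : Type) [Field K] [CharZero K] (M0 q : ℕ) [NeZero M0] [Fact q.Prime]
  (O : Subring K) [IsDiscreteValuationRing ↥O] [IsFractionRing ↥O K]

/-- The place of the Gauss valuation subring. -/
noncomputable def evGauss (N : ℕ) [NeZero N] :
    ↥(gaussVS K N O) →+* LaurentSeries (ResidueField ↥O) :=
  (theta K N O).comp
    (((gaussVS K N O).subtype).codRestrict (gaussSubalgebra K N O) (fun x => x.2))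

theorem evGauss_apply (N : ℕ) [NeZero N] (x : ↥(gaussVS K N O)) :
    evGauss K O N x = theta K N O ⟨(x : FF K N), x.2⟩ := rfl

theorem evGauss_eq_zero_iff (N : ℕ) [NeZero N] (x : ↥(gaussVS K N O)) :
    evGauss K O N x = 0 ↔ (x : FF K N) ∈ (gaussVS K N O).nonunits := by
  rw [evGauss_apply]
  exact (mem_nonunits_gaussVS_iff K N O x.2).symm

theorem algebraMap_mem_gaussVS (N : ℕ) [NeZero N] (c : ↥O) :
    algebraMap ↥O (FF K N) c ∈ gaussVS K N O :=
  (algebraMap ↥O ↥(gaussSubalgebra K N O) c).2

theorem evGauss_algebraMap (N : ℕ) [NeZero N] (c : ↥O) :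
    evGauss K O N ⟨algebraMap ↥O (FF K N) c, algebraMap_mem_gaussVS K O N c⟩ =
      HahnSeries.C (residue ↥O c) :=
  theta_algebraMap K N O c

variable {K M0 q O}

theorem algebraMap_mem_secondVal (sv : SecondVal K M0 q O) (c : ↥O) :
    algebraMap ↥O (FF K (M0 * q)) c ∈ sv.V := by
  have h := sv.beta_mem _ (algebraMap ↥O ↥(gaussSubalgebra K M0 O) c).2
  have e : betaF K M0 q ((algebraMap ↥O ↥(gaussSubalgebra K M0 O) c : ↥(gaussSubalgebra K M0 O)) :
      FF K M0) = algebraMap ↥O (FF K (M0 * q)) c := by
    show betaF K M0 q (algebraMap K (FF K M0) (c : K)) = algebraMap K (FF K (M0 * q)) (c : K)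
    exact (betaF K M0 q).commutes (c : K)
  rw [e] at h
  exact h

theorem ev_algebraMap_secondVal (sv : SecondVal K M0 q O) (c : ↥O) :
    sv.ev ⟨algebraMap ↥O (FF K (M0 * q)) c, algebraMap_mem_secondVal sv c⟩ =
      HahnSeries.C (residue ↥O c) := by
  have e : betaF K M0 q ((algebraMap ↥O ↥(gaussSubalgebra K M0 O) c : ↥(gaussSubalgebra K M0 O)) :
      FF K M0) = algebraMap ↥O (FF K (M0 * q)) c := by
    show betaF K M0 q (algebraMap K (FF K M0) (c : K)) = algebraMap K (FF K (M0 * q)) (c : K)
    exact (betaF K M0 q).commutes (c : K)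
  have h := sv.ev_beta _ (algebraMap ↥O ↥(gaussSubalgebra K M0 O) c).2
  rw [show (⟨((algebraMap ↥O ↥(gaussSubalgebra K M0 O) c : ↥(gaussSubalgebra K M0 O)) : FF K M0),
      (algebraMap ↥O ↥(gaussSubalgebra K M0 O) c).2⟩ : ↥(gaussSubalgebra K M0 O)) =
      algebraMap ↥O ↥(gaussSubalgebra K M0 O) c from rfl, theta_algebraMap] at h
  rw [← h]
  congr 1
  exact Subtype.ext e.symm

/-- The two base valuation subrings `V10`, `V01`. -/
noncomputable def baseFam (sv : SecondVal K M0 q O) : Fin 2 → ValuationSubring (FF K (M0 * q)) :=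
  ![gaussVS K (M0 * q) O, sv.V]

/-- Their places. -/
noncomputable def basePlace (sv : SecondVal K M0 q O) :
    ∀ j : Fin 2, ↥(baseFam sv j) →+* LaurentSeries (ResidueField ↥O)
  | ⟨0, _⟩ => evGauss K O (M0 * q)
  | ⟨1, _⟩ => sv.ev

/-- **`ConstHyp` at a level**: `U = ![V10, V01]`, residue field algebraically closed. -/
theorem constHyp_level [IsAlgClosed (ResidueField ↥O)] (sv : SecondVal K M0 q O) {e : ℕ}
    (he : e ≠ 0) : ConstHyp ↥O (baseFam sv) e := by
  have hO : ∀ (c : ↥O) (j : Fin 2), algebraMap ↥O (FF K (M0 * q)) c ∈ baseFam sv j := by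
    intro c j
    fin_cases j
    · exact algebraMap_mem_gaussVS K O (M0 * q) c
    · exact algebraMap_mem_secondVal sv c
  refine constHyp_of_places (L := LaurentSeries (ResidueField ↥O)) (baseFam sv) he hO
    (basePlace sv) ?_ ?_
  · intro j y
    fin_cases j
    · exact evGauss_eq_zero_iff K O (M0 * q) y
    · exact sv.ev_eq_zero_iff y
  · intro j c
    rw [HahnSeries.algebraMap_apply', PowerSeries.algebraMap_apply, Algebra.algebraMap_self_apply,
      HahnSeries.ofPowerSeries_C]
    fin_cases j
    · exact evGauss_algebraMap K O (M0 * q) c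
    · exact ev_algebraMap_secondVal sv c

/-- The same for any family `U` with `U 0 = V10`, `U 1 = V01`. -/
theorem constHyp_level_of_eq [IsAlgClosed (ResidueField ↥O)] (sv : SecondVal K M0 q O)
    (U : Fin 2 → ValuationSubring (FF K (M0 * q))) (h0 : U 0 = gaussVS K (M0 * q) O)
    (h1 : U 1 = sv.V) {e : ℕ} (he : e ≠ 0) : ConstHyp ↥O U e := by
  have hU : U = baseFam sv := by
    funext j
    fin_cases j
    · exact h0
    · exact h1
  rw [hU]
  exact constHyp_level sv he

end Level

end Fermat.Agent.S36.Descent.ConstHypInst
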