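/-
S36, block [D] → Spine (helper29): **the hypothesis `hrel` of `LocalRootsBoth.localRoots_both_of_goodNorm`
/ `GlueConst.localRoots_chart_of_goodNorm` / `SpineRoots.localRoots_both` at a triple point, from the two
`NormGlue.SplitInsep` packages in the shape produced by `R2/TripleHom.splitInsep`**.

Charts `R1` (level `q M0`) and `R2` (level `q² M0`), normal noetherian domains over the DVR `O`, with
fraction fields `F1`, `F2`; the two degeneracy maps `a, b : R1 → R2` over `φα, φβ : F1 → F2`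
(`TripleHom.ChartMap`), `O`-linear.  At a maximal ideal `𝔫'` of `R2` on all three components `V i`, with
contractions `𝔫α = 𝔫' ∩_a R1`, `𝔫β = 𝔫' ∩_b R1` (crossing points: both `U k` pass through them):

  `Sα : SplitInsep φα Nα (inclHom a φα _ 𝔫α 𝔫' _) (p + 1) (U 0) (U 1) (V 0) (V 1) (V 2)`,
  `Sβ : SplitInsep φβ Nβ (inclHom b φβ _ 𝔫β 𝔫' _) (p + 1) (U 1) (U 0) (V 2) (V 1) (V 0)`

and the global roots of the norms with unit constants of `O` give the two cross-ratio relations for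
every root datum, with the constants `unitR tα`, … pushed to `R2ˣ` — verbatim `hrel` at `𝔫'`.
-/
import Mathlib
import Fermat.Agent.S36.Descent.GlueConst
import Fermat.Agent.S36.R2.TripleHom

set_option autoImplicit false
set_option linter.unusedSectionVars false

namespace Fermat.Agent.S36.Descent.SpineRel

open Fermat.Agent.S36.Local.LocalRoot Fermat.Agent.S36.Local.ChartSpread
  Fermat.Agent.S36.D.RootData Fermat.Agent.S36.D.NormGlue Fermat.Agent.N4.Cover.Globalize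
  Fermat.Agent.S36.Descent.LocalRootsInst Fermat.Agent.S36.Descent.GlueConst
  Fermat.Agent.S36.R2.TripleHom

universe u

variable {O : Type*} [CommRing O]
variable {R1 : Type*} [CommRing R1] [IsDomain R1] [IsNoetherianRing R1] [IsIntegrallyClosed R1]
  [Algebra O R1]
variable {R2 : Type*} [CommRing R2] [IsDomain R2] [IsNoetherianRing R2] [IsIntegrallyClosed R2]
  [Algebra O R2]
variable {F1 : Type*} [Field F1] [Algebra R1 F1] [IsFractionRing R1 F1] [Algebra O F1]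
  [IsScalarTower O R1 F1]
variable {F2 : Type u} [Field F2] [Algebra R2 F2] [IsFractionRing R2 F2]

/-- The image in `F1` of a constant, through the local ring at a prime of `R1`. -/
theorem algebraMap_locAt_const (𝔫 : Ideal R1) [𝔫.IsPrime] (c : O) :
    algebraMap (locAt (F := F1) 𝔫) F1 (algebraMap R1 (locAt (F := F1) 𝔫) (algebraMap O R1 c)) =
      algebraMap O F1 c := by
  rw [← IsScalarTower.algebraMap_apply R1 (locAt (F := F1) 𝔫) F1,
    ← IsScalarTower.algebraMap_apply O R1 F1]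

/-- `inclHom` on constants. -/
theorem inclHom_const {a : R1 →+* R2} {φ : F1 →+* F2} (hm : ChartMap a φ)
    (haO : ∀ c : O, a (algebraMap O R1 c) = algebraMap O R2 c)
    (𝔫 : Ideal R1) [𝔫.IsMaximal] (𝔫' : Ideal R2) [𝔫'.IsMaximal] (hle : 𝔫'.comap a ≤ 𝔫) (S : Oˣ) :
    algebraMap R2 (locAt (F := F2) 𝔫') (unitR (R := R2) S) =
      inclHom a φ hm 𝔫 𝔫' hle (algebraMap R1 (locAt (F := F1) 𝔫) (algebraMap O R1 S)) := by
  apply Subtype.ext
  have h1 : ((inclHom a φ hm 𝔫 𝔫' hle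
      (algebraMap R1 (locAt (F := F1) 𝔫) (algebraMap O R1 S)) : locAt (F := F2) 𝔫') : F2) =
      φ (algebraMap (locAt (F := F1) 𝔫) F1
        (algebraMap R1 (locAt (F := F1) 𝔫) (algebraMap O R1 S))) :=
    coe_inclHom hm 𝔫' hle _
  rw [h1, ← IsScalarTower.algebraMap_apply R1 (locAt (F := F1) 𝔫) F1, ← hm.compat, haO]
  rfl

/-- **`hrel` at a triple point** from the two `SplitInsep` packages of `TripleHom.splitInsep`. -/
theorem hrel_of_tripleHom {a b : R1 →+* R2} {φα φβ : F1 →+* F2}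
    (hmα : ChartMap a φα) (hmβ : ChartMap b φβ)
    (haO : ∀ c : O, a (algebraMap O R1 c) = algebraMap O R2 c)
    (hbO : ∀ c : O, b (algebraMap O R1 c) = algebraMap O R2 c)
    {Nα Nβ : F2 →* F1} {p : ℕ}
    {U : Fin 2 → ValuationSubring F1} (hU : ∀ k (r : R1), algebraMap R1 F1 r ∈ U k)
    {V : Fin 3 → ValuationSubring F2} (hV : ∀ i (r : R2), algebraMap R2 F2 r ∈ V i)
    (𝔫' : Ideal R2) [𝔫'.IsMaximal] [(𝔫'.comap a).IsMaximal] [(𝔫'.comap b).IsMaximal]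
    (htriple : ∀ i, centre (V i) (hV i) ≤ 𝔫')
    (hUα : ∀ k, centre (U k) (hU k) ≤ 𝔫'.comap a)
    (hUβ : ∀ k, centre (U k) (hU k) ≤ 𝔫'.comap b)
    (Sα : SplitInsep φα Nα (inclHom a φα hmα (𝔫'.comap a) 𝔫' le_rfl) (p + 1)
      (U 0) (U 1) (V 0) (V 1) (V 2))
    (Sβ : SplitInsep φβ Nβ (inclHom b φβ hmβ (𝔫'.comap b) 𝔫' le_rfl) (p + 1)
      (U 1) (U 0) (V 2) (V 1) (V 0))
    {e : ℕ} (he : 0 < e) {h : F2} (hh0 : h ≠ 0)
    (cα sα tα cβ sβ tβ : Oˣ) (Hα Hβ : F1)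
    (hNα : Nα h = algebraMap O F1 cα * Hα ^ e)
    (hsα : Hα - algebraMap O F1 sα ∈ (U 0).nonunits) (htα : Hα - algebraMap O F1 tα ∈ (U 1).nonunits)
    (hNβ : Nβ h = algebraMap O F1 cβ * Hβ ^ e)
    (hsβ : Hβ - algebraMap O F1 sβ ∈ (U 0).nonunits)
    (htβ : Hβ - algebraMap O F1 tβ ∈ (U 1).nonunits) :
    ∀ D : RootDatum (locAt (F := F2) 𝔫') V e h,
      ¬ IsUnit (algebraMap R2 (locAt (F := F2) 𝔫') (unitR (R := R2) tα) * D.y 0 * D.y 1 ^ p -
        algebraMap R2 (locAt (F := F2) 𝔫') (unitR (R := R2) sα) * D.y 2 ^ (p + 1)) ∧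
      ¬ IsUnit (algebraMap R2 (locAt (F := F2) 𝔫') (unitR (R := R2) sβ) * D.y 2 * D.y 1 ^ p -
        algebraMap R2 (locAt (F := F2) 𝔫') (unitR (R := R2) tβ) * D.y 0 ^ (p + 1)) := by
  -- instances on the two lower local rings
  have iLα : IsLocalRing (locAt (F := F1) (𝔫'.comap a)) := isLocalRing_locAt _
  have iLβ : IsLocalRing (locAt (F := F1) (𝔫'.comap b)) := isLocalRing_locAt _
  have iCα : IsIntegrallyClosed (locAt (F := F1) (𝔫'.comap a)) :=
    isIntegrallyClosed_of_isLocalization _ (𝔫'.comap a).primeCompl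
      (𝔫'.comap a).primeCompl_le_nonZeroDivisors
  have iCβ : IsIntegrallyClosed (locAt (F := F1) (𝔫'.comap b)) :=
    isIntegrallyClosed_of_isLocalization _ (𝔫'.comap b).primeCompl
      (𝔫'.comap b).primeCompl_le_nonZeroDivisors
  have iFα : IsFractionRing (locAt (F := F1) (𝔫'.comap a)) F1 :=
    IsFractionRing.isFractionRing_of_isDomain_of_isLocalization (𝔫'.comap a).primeCompl
      (locAt (F := F1) (𝔫'.comap a)) F1
  have iFβ : IsFractionRing (locAt (F := F1) (𝔫'.comap b)) F1 :=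
    IsFractionRing.isFractionRing_of_isDomain_of_isLocalization (𝔫'.comap b).primeCompl
      (locAt (F := F1) (𝔫'.comap b)) F1
  have iHα : IsLocalHom (inclHom a φα hmα (𝔫'.comap a) 𝔫' le_rfl) :=
    isLocalHom_inclHom hmα 𝔫' le_rfl
  have iHβ : IsLocalHom (inclHom b φβ hmβ (𝔫'.comap b) 𝔫' le_rfl) :=
    isLocalHom_inclHom hmβ 𝔫' le_rfl
  -- the constants in the lower local rings
  let κα : O → locAt (F := F1) (𝔫'.comap a) := fun c =>
    algebraMap R1 (locAt (F := F1) (𝔫'.comap a)) (algebraMap O R1 c)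
  let κβ : O → locAt (F := F1) (𝔫'.comap b) := fun c =>
    algebraMap R1 (locAt (F := F1) (𝔫'.comap b)) (algebraMap O R1 c)
  have hκα : ∀ c : O, algebraMap (locAt (F := F1) (𝔫'.comap a)) F1 (κα c) = algebraMap O F1 c :=
    fun c => algebraMap_locAt_const _ c
  have hκβ : ∀ c : O, algebraMap (locAt (F := F1) (𝔫'.comap b)) F1 (κβ c) = algebraMap O F1 c :=
    fun c => algebraMap_locAt_const _ c
  have huα : IsUnit (κα (cα : O)) :=
    (cα.isUnit.map (algebraMap O R1)).map (algebraMap R1 (locAt (F := F1) (𝔫'.comap a)))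
  have huβ : IsUnit (κβ (cβ : O)) :=
    (cβ.isUnit.map (algebraMap O R1)).map (algebraMap R1 (locAt (F := F1) (𝔫'.comap b)))
  exact hrel_at 𝔫' Sα Sβ
    (fun x => locAt_le (𝔫'.comap a) (U 0) (hU 0) (hUα 0) x)
    (fun x => locAt_le (𝔫'.comap a) (U 1) (hU 1) (hUα 1) x)
    (fun x => locAt_le (𝔫'.comap b) (U 0) (hU 0) (hUβ 0) x)
    (fun x => locAt_le (𝔫'.comap b) (U 1) (hU 1) (hUβ 1) x)
    (fun i x => locAt_le 𝔫' (V i) (hV i) (htriple i) x) he hh0
    (cα := κα cα) (sα := κα sα) (tα := κα tα) (cβ := κβ cβ) (sβ := κβ sβ) (tβ := κβ tβ)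
    huα huβ
    (by rw [hκα]; exact hNα) (by rw [hκα]; exact hsα) (by rw [hκα]; exact htα)
    (by rw [hκβ]; exact hNβ) (by rw [hκβ]; exact hsβ) (by rw [hκβ]; exact htβ)
    (unitR sα) (unitR tα) (unitR sβ) (unitR tβ)
    (inclHom_const hmα haO _ 𝔫' le_rfl sα) (inclHom_const hmα haO _ 𝔫' le_rfl tα)
    (inclHom_const hmβ hbO _ 𝔫' le_rfl sβ) (inclHom_const hmβ hbO _ 𝔫' le_rfl tβ)

/-! ### The chart form: verbatim the argument `hrel` -/

section Chart

open Fermat.Agent.N4.Chart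

variable {O : Type*} [CommRing O]
variable {R1 : Type*} [CommRing R1] [IsDomain R1] [IsNoetherianRing R1] [IsIntegrallyClosed R1]
  [Algebra O R1]
variable {F1 : Type*} [Field F1] [Algebra R1 F1] [IsFractionRing R1 F1] [Algebra O F1]
  [IsScalarTower O R1 F1]
variable {F₀ : Type u} [Field F₀] [Algebra O F₀]

/-- **The argument `hrel`** of `LocalRootsBoth.localRoots_both_of_goodNorm`,
`GlueConst.localRoots_chart_of_goodNorm` and `SpineRoots.localRoots_both` for the chart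
`chartAlg O F₀ {s}`: at every triple point the contractions along `a` and `b` are crossing points
(`hcrossα`, `hcrossβ`) and carry the two `SplitInsep` packages (`hS`, e.g. from
`TripleHom.splitInsep`). -/
theorem hrel_chart (s : F₀) [IsNoetherianRing (chartAlg O F₀ {s})]
    [IsFractionRing (chartAlg O F₀ {s}) F₀] [IsIntegrallyClosed (chartAlg O F₀ {s})]
    {a b : R1 →+* chartAlg O F₀ {s}} {φα φβ : F1 →+* F₀}
    (hmα : ChartMap a φα) (hmβ : ChartMap b φβ)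
    (haO : ∀ c : O, a (algebraMap O R1 c) = algebraMap O (chartAlg O F₀ {s}) c)
    (hbO : ∀ c : O, b (algebraMap O R1 c) = algebraMap O (chartAlg O F₀ {s}) c)
    {Nα Nβ : F₀ →* F1} {p : ℕ} {π : O}
    {U : Fin 2 → ValuationSubring F1} (hU : ∀ k (r : R1), algebraMap R1 F1 r ∈ U k)
    {V : Fin 3 → ValuationSubring F₀}
    (hV : ∀ i (r : chartAlg O F₀ {s}), algebraMap (chartAlg O F₀ {s}) F₀ r ∈ V i)
    {e : ℕ} (he : 0 < e) {h : F₀} (hh0 : h ≠ 0)
    (hcrossα : ∀ (𝔫 : Ideal (chartAlg O F₀ {s})), 𝔫.IsMaximal →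
      algebraMap O (chartAlg O F₀ {s}) π ∈ 𝔫 → (∀ i, centre (V i) (hV i) ≤ 𝔫) →
      ∀ k, centre (U k) (hU k) ≤ 𝔫.comap a)
    (hcrossβ : ∀ (𝔫 : Ideal (chartAlg O F₀ {s})), 𝔫.IsMaximal →
      algebraMap O (chartAlg O F₀ {s}) π ∈ 𝔫 → (∀ i, centre (V i) (hV i) ≤ 𝔫) →
      ∀ k, centre (U k) (hU k) ≤ 𝔫.comap b)
    (hS : ∀ (𝔫 : Ideal (chartAlg O F₀ {s})) [𝔫.IsMaximal] [(𝔫.comap a).IsMaximal]
      [(𝔫.comap b).IsMaximal], algebraMap O (chartAlg O F₀ {s}) π ∈ 𝔫 →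
      (∀ i, centre (V i) (hV i) ≤ 𝔫) →
      SplitInsep φα Nα (inclHom a φα hmα (𝔫.comap a) 𝔫 le_rfl) (p + 1)
        (U 0) (U 1) (V 0) (V 1) (V 2) ∧
      SplitInsep φβ Nβ (inclHom b φβ hmβ (𝔫.comap b) 𝔫 le_rfl) (p + 1)
        (U 1) (U 0) (V 2) (V 1) (V 0)) :
    ∀ (cα sα tα cβ sβ tβ : Oˣ) (Hα Hβ : F1),
      Nα h = algebraMap O F1 cα * Hα ^ e →
      Hα - algebraMap O F1 sα ∈ (U 0).nonunits → Hα - algebraMap O F1 tα ∈ (U 1).nonunits →
      Nβ h = algebraMap O F1 cβ * Hβ ^ e →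
      Hβ - algebraMap O F1 sβ ∈ (U 0).nonunits → Hβ - algebraMap O F1 tβ ∈ (U 1).nonunits →
      ∀ (𝔫 : Ideal (chartAlg O F₀ {s})) [𝔫.IsPrime], 𝔫.IsMaximal →
      algebraMap O (chartAlg O F₀ {s}) π ∈ 𝔫 →
      (∀ i, centre (V i) (hV i) ≤ 𝔫) → ∀ D : RootDatum (locAt (F := F₀) 𝔫) V e h,
      ¬ IsUnit (algebraMap (chartAlg O F₀ {s}) (locAt (F := F₀) 𝔫)
          (unitR (R := chartAlg O F₀ {s}) tα) * D.y 0 * D.y 1 ^ p -
        algebraMap (chartAlg O F₀ {s}) (locAt (F := F₀) 𝔫)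
          (unitR (R := chartAlg O F₀ {s}) sα) * D.y 2 ^ (p + 1)) ∧
      ¬ IsUnit (algebraMap (chartAlg O F₀ {s}) (locAt (F := F₀) 𝔫)
          (unitR (R := chartAlg O F₀ {s}) sβ) * D.y 2 * D.y 1 ^ p -
        algebraMap (chartAlg O F₀ {s}) (locAt (F := F₀) 𝔫)
          (unitR (R := chartAlg O F₀ {s}) tβ) * D.y 0 ^ (p + 1)) := by
  intro cα sα tα cβ sβ tβ Hα Hβ h1 h2 h3 h4 h5 h6 𝔫 _ h𝔫 hπ ht
  have := h𝔫
  have : (𝔫.comap a).IsMaximal :=
    Ideal.isMaximal_comap_of_isIntegral_of_isMaximal' a hmα.integral 𝔫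
  have : (𝔫.comap b).IsMaximal :=
    Ideal.isMaximal_comap_of_isIntegral_of_isMaximal' b hmβ.integral 𝔫
  obtain ⟨Sα, Sβ⟩ := hS 𝔫 hπ ht
  exact hrel_of_tripleHom hmα hmβ haO hbO hU hV 𝔫 ht (hcrossα 𝔫 h𝔫 hπ ht) (hcrossβ 𝔫 h𝔫 hπ ht)
    Sα Sβ he hh0 cα sα tα cβ sβ tβ Hα Hβ h1 h2 h3 h4 h5 h6

end Chart

end Fermat.Agent.S36.Descent.SpineRel
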