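/-
S36, spine (helper8, co-typed with helper13's `LevelCore`): **the (C)-side bundle at the top level
`M0 q²`** for the family `V = ![V20, V11, V02]` (`V20 = gaussVS`), `W = ⋂ V i`:

* `structure CoverSide ϖ V E` : `Irreducible ϖ`, `FamVal ϖ W V E`, the two semilocal Gauss rings
  (finite chart / chart at infinity), `IsFractionRing W F₂`, `IsIntegrallyClosed W`, and the clause
  "`ϖ` is a uniformiser of some `V i₀`" (`i₀ = 0`, the Gauss valuation);
* `coverSide_three` : the bundle from the `S36/V/ThreeVal` field shapes (`only_three`, the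
  uniformiser `Π` of `V11` with `ϖ = w Π ^ e₁₁`, `e = 1` at `V02`), `E = e₁₁ = q − 1`;
* `CoverSide.no_kummer` : the cover contradiction from the bundle and the local roots.
-/
import Mathlib
import Fermat.Agent.S36.C.ThreeValCover

set_option autoImplicit false
set_option linter.unusedSectionVars false
set_option linter.style.haveILetI false

open Polynomial IsLocalRing

open ModularCurve Fermat.Agent.S28.Gauss Fermat.Agent.N4.Setting Fermat.Agent.N4.FibreEmbedding
open Fermat.Agent.N4F.E.DegreeLevelRaise Fermat.Agent.N4F.E.GaussDVR AlgebraicCurve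
open Fermat.Agent.N4.Chart Fermat.Agent.N4F.E Fermat.Agent.N4F.E.AlphaSide
open Fermat.Agent.N4.Cover.Globalize Fermat.Agent.P3G.FibreSat
open Fermat.Agent.P3G.Cover.Lift Fermat.Agent.P3G.Cover.OfValuations
open Fermat.Agent.P3G.Assembly.PowCover Fermat.Agent.S36.C.SemiGaussTower
open Fermat.Agent.S36.C.SemiGaussTop Fermat.Agent.S36.C.ThreeValCover
open Fermat.Agent.S36.C.PowCoverFam Fermat.Agent.S36.C IntermediateField

noncomputable section

namespace Fermat.Agent.S36.Descent.SpineCover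

section Bundle

variable (K : Type) [Field K] [CharZero K] (M0 q : ℕ) [NeZero M0] [NeZero q]
  (O : Subring K) [IsDiscreteValuationRing ↥O] [IsFractionRing ↥O K]

/-- **The (C)-side bundle** at the top level `M0 q²`. -/
structure CoverSide {ι' : Type*} (ϖ : ↥O) (V : ι' → ValuationSubring (FF K (M0 * q * q)))
    (E : ℕ) : Prop where
  irr : Irreducible ϖ
  famVal : FamVal ϖ (iInfSubring V) V E
  semiFin : IsSemiGaussRing (iInfSubring V) (algebraMap ↥O ↥(Rfin K (M0 * q * q) O) ϖ)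
  semiInf : IsSemiGaussRing (iInfSubring V) (algebraMap ↥O ↥(Rinf K (M0 * q * q) O) ϖ)
  fr : IsFractionRing ↥(iInfSubring V) (FF K (M0 * q * q))
  ic : IsIntegrallyClosed ↥(iInfSubring V)
  unif : ∃ i₀, ∀ x ∈ (V i₀).nonunits,
    x * (algebraMap ↥O (FF K (M0 * q * q)) ϖ)⁻¹ ∈ V i₀

variable {K M0 q O}

/-- **The bundle for `V = ![V20, V11, V02]`** from the `ThreeVal` field shapes. -/
theorem coverSide_three (ι : K →+* ℂ)
    (hprime : (fibreIdeal K M0 O (Rfin K M0 O)).IsPrime)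
    (hprimeInf : (fibreIdeal K M0 O (Rinf K M0 O)).IsPrime)
    {ϖ : ↥O} (hϖ : Irreducible ϖ)
    {V11 V02 : ValuationSubring (FF K (M0 * q * q))}
    (hG11 : ∀ g ∈ gaussSubalgebra K M0 O, phi2 K M0 q g ∈ V11)
    (hG02 : ∀ g ∈ gaussSubalgebra K M0 O, phi2 K M0 q g ∈ V02)
    (only_three : ∀ B : ValuationSubring (FF K (M0 * q * q)),
      (∀ g ∈ gaussSubalgebra K M0 O, alphaF K (M0 * q) q (alphaF K M0 q g) ∈ B) →
      (∀ ϖ' : ↥O, Irreducible ϖ' → algebraMap K (FF K (M0 * q * q)) (ϖ' : K) ∈ B.nonunits) →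
      B = gaussVS K (M0 * q * q) O ∨ B = V11 ∨ B = V02)
    (Pi : FF K (M0 * q * q)) (e11 : ℕ) (he11 : 1 ≤ e11)
    (Pi_mem_nonunits : Pi ∈ V11.nonunits)
    (unif_V11 : ∀ y ∈ V11.nonunits, y * Pi⁻¹ ∈ V11)
    (ram_V11 : ∃ w : FF K (M0 * q * q), w ∈ V11 ∧ w⁻¹ ∈ V11 ∧
      algebraMap ↥O (FF K (M0 * q * q)) ϖ = w * Pi ^ e11)
    (hϖ02 : algebraMap ↥O (FF K (M0 * q * q)) ϖ ∈ V02.nonunits)
    (ram_one_V02 : ∀ y ∈ V02.nonunits, y * (algebraMap ↥O (FF K (M0 * q * q)) ϖ)⁻¹ ∈ V02) :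
    CoverSide K M0 q O ϖ (fam3 K M0 q O V11 V02) e11 := by
  set πF : FF K (M0 * q * q) := algebraMap ↥O (FF K (M0 * q * q)) ϖ with hπF
  have hπ20 := unif_mem_nonunits_gaussVS K M0 q O hϖ
  have hϖ11 : πF ∈ V11.nonunits := by
    obtain ⟨w, hw, -, hπw⟩ := ram_V11
    rw [hπw]
    exact FamValOfUnif.mul_mem_nonunits V11 hw
      (FamValOfUnif.pow_mem_nonunits V11 Pi_mem_nonunits he11)
  have hG : ∀ i, ∀ g ∈ gaussSubalgebra K M0 O, phi2 K M0 q g ∈ fam3 K M0 q O V11 V02 i :=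
    (forall_fam3 K M0 q O (P := fun B => ∀ g ∈ gaussSubalgebra K M0 O, phi2 K M0 q g ∈ B)).2
      ⟨fun g hg => phi2_mem_gaussVS K M0 q O hg, hG11, hG02⟩
  have hle := Rfin_le_of_gauss K M0 q O (fam3 K M0 q O V11 V02) hG
  have hj : Transcendental K (jF K (M0 * q * q)) :=
    Fermat.Agent.N4.FFAlgebraic.transcendental_jF K (M0 * q * q)
  haveI : FiniteDimensional K⟮jF K (M0 * q * q)⟯ (FF K (M0 * q * q)) :=
    Fermat.Agent.N4.ModPolySetting.finiteDimensional_FF K (M0 * q * q)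
  haveI : IsFractionRing (chartAlg ↥O (FF K (M0 * q * q)) {jF K (M0 * q * q)})
      (FF K (M0 * q * q)) :=
    Fermat.Agent.N4.Cover.Main.isFractionRing_chartAlg (O := ↥O) (K₀ := K)
      (jF K (M0 * q * q)) hj
  refine ⟨hϖ, ?_, ?_, ?_, ?_, ?_, ⟨0, fun x hx => mul_inv_mem_gaussVS K O hϖ hx⟩⟩
  · refine FamValOfUnif.famVal_of_uniformisers (fam3 K M0 q O V11 V02) ϖ e11
      ![πF, Pi, πF] ![1, e11, 1] ?_ ?_ ?_ ?_
      (algebraMap_ne_zero K (M0 * q * q) O hϖ.ne_zero)
    · intro i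
      fin_cases i
      · exact ⟨le_refl 1, he11⟩
      · exact ⟨he11, le_refl _⟩
      · exact ⟨le_refl 1, he11⟩
    · intro i
      fin_cases i
      · exact hπ20
      · exact Pi_mem_nonunits
      · exact hϖ02
    · intro i
      fin_cases i
      · intro x hx
        exact mul_inv_mem_gaussVS K O hϖ hx
      · exact unif_V11
      · exact ram_one_V02
    · intro i
      fin_cases i
      · refine ⟨1, (gaussVS K (M0 * q * q) O).one_mem,
          by rw [inv_one]; exact (gaussVS K (M0 * q * q) O).one_mem, ?_⟩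
        show πF = 1 * πF ^ 1
        rw [one_mul, pow_one]
      · exact ram_V11
      · refine ⟨1, V02.one_mem, by rw [inv_one]; exact V02.one_mem, ?_⟩
        show πF = 1 * πF ^ 1
        rw [one_mul, pow_one]
  · exact isSemiGaussRing_three_fin K M0 q O ι hprime hϖ hG11 hG02 hϖ11 hϖ02 only_three
  · exact isSemiGaussRing_three_inf K M0 q O ι hprimeInf hϖ hG11 hG02 hϖ11 hϖ02 only_three
  · exact isFractionRing_iInfSubring
      (R := chartAlg ↥O (FF K (M0 * q * q)) {jF K (M0 * q * q)}) (fam3 K M0 q O V11 V02) hle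
  · exact isIntegrallyClosed_iInfSubring
      (R := chartAlg ↥O (FF K (M0 * q * q)) {jF K (M0 * q * q)}) (fam3 K M0 q O V11 V02) hle

end Bundle

/-! ### The cover contradiction from the bundle -/

section NoKummer

open Fermat.Agent.N4.S18Glue

local notation "Qbar" => AlgebraicClosure ℚ

variable {K : Type} [Field K] [CharZero K] [Algebra K Qbar] [Algebra.IsAlgebraic K Qbar]
  {M0 q : ℕ} [NeZero M0] [NeZero q]
  {O : Subring K} [IsDiscreteValuationRing ↥O] [IsFractionRing ↥O K]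

/-- **The cover contradiction from the (C)-side bundle and the local roots.** -/
theorem CoverSide.no_kummer {ι' : Type*} [Finite ι'] [Nonempty ι'] {ϖ : ↥O}
    {V : ι' → ValuationSubring (FF K (M0 * q * q))} {E : ℕ} (C : CoverSide K M0 q O ϖ V E)
    {p : ℕ} (hp : p.Prime) (hpO : IsUnit ((p : ℕ) : ↥O)) (n : ℕ) {ζ : ↥O}
    (hζ : IsPrimitiveRoot ζ (p ^ (n + 1)))
    {h k : FF K (M0 * q * q)} (hk : k ^ (p ^ n) = h)
    (hh : ∃ w ∈ iInfSubring V, h - 1 = algebraMap ↥O (FF K (M0 * q * q)) ϖ * w)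
    (hlocp : LocalRoots ϖ (iInfSubring V) (jF K (M0 * q * q)) h (p ^ (n + 1)))
    (hlocm : LocalRoots ϖ (iInfSubring V) (jF K (M0 * q * q))⁻¹ h (p ^ (n + 1)))
    (hnp : ∀ w : ↥(modularFunctionFieldBar (M0 * q * q)), w ^ p ≠ phiK K (M0 * q * q) k) :
    False := by
  haveI := C.fr
  haveI := C.ic
  exact Fermat.Agent.S36.C.AtBasePowFam.no_kummer_pow_at_base_fam K (M0 * q * q) O C.irr
    (iInfSubring V) V C.famVal C.semiFin C.semiInf hp hpO n hζ hk hh hlocp hlocm hnp

end NoKummer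

end Fermat.Agent.S36.Descent.SpineCover
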