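/-
S36 SPINE (helper13): **`Spine.LevelData` from a `ThreeVal`.**

* `coverSide_of_threeVal` : the (C)-side bundle `SpineCover.CoverSide` for `V = fam3 T.V11 T.V02`,
  `ϖ = q`, `E = q - 1`, from the fields of `T : ThreeVal K M0 q O sv`.
-/
import Mathlib
import Fermat.Agent.S36.Descent.Spine
import Fermat.Agent.S36.Descent.SpineCover
import Fermat.Agent.S36.Descent.ConstHypInst
import Fermat.Agent.S36.V.ThreeVal
import Fermat.Agent.S36.V.MidValBeta
import Fermat.Agent.S36.Descent.LevelFacts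
import Fermat.Agent.S36.NormOrd

set_option autoImplicit false
set_option linter.unusedSectionVars false
set_option linter.style.haveILetI false

open ModularCurve Fermat.Agent.S28.Gauss Fermat.Agent.N4.Chart Fermat.Agent.N4.Setting
  Fermat.Agent.N4.FibreEmbedding Fermat.Agent.N4F.E.GaussDVR Fermat.Agent.N4F.E.DegreeLevelRaise
  Fermat.Agent.P3G.SecondValuation Fermat.Agent.S36.V.MidVal Fermat.Agent.S36.V.ThreeVal
open Fermat.Agent.S36.C.ThreeValCover Fermat.Agent.S36.C.SemiGaussTop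
  Fermat.Agent.S36.Descent.SpineCover Fermat.Agent.S36.Descent.ConstHypInst

noncomputable section

namespace Fermat.Agent.S36.Descent.SpineFinal

section Cover

variable {K : Type} [Field K] [CharZero K] {M0 q : ℕ} [NeZero M0] [NeZero q] [hq : Fact q.Prime]
  {O : Subring K} [IsDiscreteValuationRing ↥O] [IsFractionRing ↥O K]
  {sv : SecondVal K M0 q O}

/-- `q` lies in the maximal ideal of the second valuation. -/
theorem natCast_mem_nonunits_secondVal (sv : SecondVal K M0 q O)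
    (hirr : Irreducible ((q : ℕ) : ↥O)) :
    algebraMap ↥O (FF K (M0 * q)) ((q : ℕ) : ↥O) ∈ sv.V.nonunits := by
  rw [← sv.ev_eq_zero_iff ⟨_, algebraMap_mem_secondVal sv _⟩, ev_algebraMap_secondVal,
    (IsLocalRing.residue_eq_zero_iff _).mpr, map_zero]
  rw [IsLocalRing.mem_maximalIdeal, mem_nonunits_iff]
  exact hirr.not_isUnit

/-- **The (C)-side bundle from a `ThreeVal`.** -/
theorem coverSide_of_threeVal (ι : K →+* ℂ)
    (hprime : (fibreIdeal K M0 O (Rfin K M0 O)).IsPrime)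
    (hprimeInf : (fibreIdeal K M0 O (Rinf K M0 O)).IsPrime)
    (hirr : Irreducible ((q : ℕ) : ↥O)) (T : ThreeVal K M0 q O sv) :
    CoverSide K M0 q O ((q : ℕ) : ↥O) (fam3 K M0 q O T.V11 T.V02) (q - 1) := by
  have hq2 : 2 ≤ q := hq.out.two_le
  have hcast : algebraMap ↥O (FF K (M0 * q * q)) ((q : ℕ) : ↥O) = ((q : ℕ) : FF K (M0 * q * q)) :=
    map_natCast _ q
  -- `α₂ x ∈ V11 ↔ x ∈ V10`, `α₂ x ∈ V02 ↔ x ∈ V01`
  have h11 : ∀ x : FF K (M0 * q), alphaF K (M0 * q) q x ∈ T.V11 ↔ x ∈ gaussVS K (M0 * q) O := by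
    intro x
    rw [← T.comap_alpha_V11]
    rfl
  have h02 : ∀ x : FF K (M0 * q), alphaF K (M0 * q) q x ∈ T.V02 ↔ x ∈ sv.V := by
    intro x
    rw [← T.comap_alpha_V02]
    rfl
  refine coverSide_three ι hprime hprimeInf hirr ?_ ?_ T.only_three (PiElt K M0 q) (q - 1)
    (by omega) T.Pi_mem_nonunits T.unif_V11 ?_ ?_ ?_
  · intro g hg
    rw [phi2_apply, h11, mem_gaussVS_iff]
    exact alphaF_mem K O M0 q hg
  · intro g hg
    rw [phi2_apply, h02]
    exact sv.alpha_mem g hg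
  · obtain ⟨w, hw, hw', hqw⟩ := T.ram_V11
    exact ⟨w, hw, hw', by rw [hcast]; exact hqw⟩
  · have h := natCast_mem_nonunits_secondVal sv hirr
    have e : alphaF K (M0 * q) q (algebraMap ↥O (FF K (M0 * q)) ((q : ℕ) : ↥O)) =
        algebraMap ↥O (FF K (M0 * q * q)) ((q : ℕ) : ↥O) := by
      rw [map_natCast, map_natCast, map_natCast]
    rw [← e]
    rw [← T.comap_alpha_V02] at h
    exact (Fermat.Agent.S36.V.MidValBeta.mem_nonunits_comap_iff _ _ _).mp h
  · intro y hy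
    have h := T.ram_one_V02 _ hirr y hy
    have e : algebraMap ↥O (FF K (M0 * q * q)) ((q : ℕ) : ↥O) =
        algebraMap K (FF K (M0 * q * q)) ((((q : ℕ) : ↥O) : ↥O) : K) :=
      IsScalarTower.algebraMap_apply ↥O K (FF K (M0 * q * q)) _
    rw [e]
    exact h

end Cover

/-! ### `LevelData` from the three bundles over a `ThreeVal` -/

section Level

open Fermat.Agent.N4F.C Fermat.Agent.N4F.C.Levels Fermat.Agent.N4.BigDVR
open Fermat.Agent.S36.Descent.UnramLevel Fermat.Agent.S36.Descent.NormPlumb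
  Fermat.Agent.S36.Descent.LevelCore Fermat.Agent.S36.Descent.Spine
open Fermat.Agent.P4.FrobLevelStep Fermat.Agent.P3G.Cover.OfValuations

local notation "Qbar" => AlgebraicClosure ℚ

variable {A : ValuationSubring Qbar} {q : ℕ} [NeZero q] [hq : Fact q.Prime]
  (hA : A.LiesOverPrime q) {K : IntermediateField ℚ Qbar} (hK : IsUnramLevel A q K)
  (M0 : ℕ) [NeZero M0] (hqM0 : ¬ q ∣ M0)

include hA hqM0 in
/-- **`LevelData` from the bundles (N), (R) over a `ThreeVal`**; the bundle (C) is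
`coverSide_of_threeVal`, the constants are `ConstHypInst.constHyp_level`. -/
theorem levelData_of_threeVal [IsDiscreteValuationRing ↥(baseRing A K)]
    [IsFractionRing ↥(baseRing A K) (Lvl K)]
    (sv : SecondVal (Lvl K) M0 q (baseRing A K))
    (T : ThreeVal (Lvl K) M0 q (baseRing A K) sv) {e : ℕ} (he : e ≠ 0)
    (S : ValSetting (phiA K M0 q) (phiB K M0 q) q (baseFam sv)
      (fam3 (Lvl K) M0 q (baseRing A K) T.V11 T.V02)
      (algebraMap ↥(baseRing A K) (FF (Lvl K) (M0 * q)) ((q : ℕ) : ↥(baseRing A K)))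
      (PiElt (Lvl K) M0 q))
    (Tα : NormTable (phiA K M0 q) (normAlphaK K (M0 * q) q) q (baseFam sv 0) (baseFam sv 1)
      (fam3 (Lvl K) M0 q (baseRing A K) T.V11 T.V02 0)
      (fam3 (Lvl K) M0 q (baseRing A K) T.V11 T.V02 1)
      (fam3 (Lvl K) M0 q (baseRing A K) T.V11 T.V02 2))
    (Tβ : NormTable (phiB K M0 q) (normBetaK K (M0 * q) q) q (baseFam sv 1) (baseFam sv 0)
      (fam3 (Lvl K) M0 q (baseRing A K) T.V11 T.V02 2)
      (fam3 (Lvl K) M0 q (baseRing A K) T.V11 T.V02 1)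
      (fam3 (Lvl K) M0 q (baseRing A K) T.V11 T.V02 0))
    (Oα : OrdFormula (normAlphaK K (M0 * q) q) q (baseFam sv 0) (baseFam sv 1)
      (fam3 (Lvl K) M0 q (baseRing A K) T.V11 T.V02 0)
      (fam3 (Lvl K) M0 q (baseRing A K) T.V11 T.V02 1)
      (fam3 (Lvl K) M0 q (baseRing A K) T.V11 T.V02 2)
      (algebraMap ↥(baseRing A K) (FF (Lvl K) (M0 * q)) ((q : ℕ) : ↥(baseRing A K)))
      (phiA K M0 q (algebraMap ↥(baseRing A K) (FF (Lvl K) (M0 * q)) ((q : ℕ) : ↥(baseRing A K))))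
      (PiElt (Lvl K) M0 q)
      (phiA K M0 q
        (algebraMap ↥(baseRing A K) (FF (Lvl K) (M0 * q)) ((q : ℕ) : ↥(baseRing A K)))))
    (Oβ : OrdFormula (normBetaK K (M0 * q) q) q (baseFam sv 1) (baseFam sv 0)
      (fam3 (Lvl K) M0 q (baseRing A K) T.V11 T.V02 2)
      (fam3 (Lvl K) M0 q (baseRing A K) T.V11 T.V02 1)
      (fam3 (Lvl K) M0 q (baseRing A K) T.V11 T.V02 0)
      (algebraMap ↥(baseRing A K) (FF (Lvl K) (M0 * q)) ((q : ℕ) : ↥(baseRing A K)))
      (phiA K M0 q (algebraMap ↥(baseRing A K) (FF (Lvl K) (M0 * q)) ((q : ℕ) : ↥(baseRing A K))))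
      (PiElt (Lvl K) M0 q)
      (phiA K M0 q
        (algebraMap ↥(baseRing A K) (FF (Lvl K) (M0 * q)) ((q : ℕ) : ↥(baseRing A K)))))
    (hLR : RootsInterface ↥(baseRing A K) (Lvl K) (normAlphaK K (M0 * q) q)
      (normBetaK K (M0 * q) q) (baseFam sv) (fam3 (Lvl K) M0 q (baseRing A K) T.V11 T.V02)
      ((q : ℕ) : ↥(baseRing A K))
      (iInfSubring (fam3 (Lvl K) M0 q (baseRing A K) T.V11 T.V02))
      (jF (Lvl K) (M0 * q * q)) (q - 1) e) :
    LevelData A q K hK M0 e := by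
  haveI : IsAlgClosed (IsLocalRing.ResidueField ↥(baseRing A K)) := hK.algClosed
  have hnu : ¬ IsUnit ((q : ℕ) : ↥(baseRing A K)) := hK.irred.not_isUnit
  have hroots := hK.roots
  have hC := coverSide_of_threeVal (Fermat.Agent.P3G.GammaV2.lvlToComplex K)
    (LevelFacts.isPrime_fin hA K hroots hnu M0 hqM0)
    (LevelFacts.isPrime_inf hA K hroots hnu M0 hqM0) hK.irred T
  obtain ⟨i₀, hi₀⟩ := hC.unif
  exact ⟨baseFam sv, fam3 (Lvl K) M0 q (baseRing A K) T.V11 T.V02, PiElt (Lvl K) M0 q,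
    iInfSubring (fam3 (Lvl K) M0 q (baseRing A K) T.V11 T.V02), hC.ic, hC.fr, q - 1, i₀,
    S, Tα, Tβ, Oα, Oβ, constHyp_level sv he, hLR, hC.famVal, hC.semiFin, hC.semiInf, hi₀⟩

include hA hqM0 in
/-- **`LevelData` from the valuation setting, the two norm tables and the roots interface over a
`ThreeVal`** (the order formulas are `NormOrd.ordFormula_alpha/beta`). -/
theorem levelData_of_tables [IsDiscreteValuationRing ↥(baseRing A K)]
    [IsFractionRing ↥(baseRing A K) (Lvl K)]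
    (sv : SecondVal (Lvl K) M0 q (baseRing A K))
    (T : ThreeVal (Lvl K) M0 q (baseRing A K) sv) {e : ℕ} (he : e ≠ 0)
    (S : ValSetting (phiA K M0 q) (phiB K M0 q) q (baseFam sv)
      (fam3 (Lvl K) M0 q (baseRing A K) T.V11 T.V02)
      (algebraMap ↥(baseRing A K) (FF (Lvl K) (M0 * q)) ((q : ℕ) : ↥(baseRing A K)))
      (PiElt (Lvl K) M0 q))
    (Tα : NormTable (phiA K M0 q) (normAlphaK K (M0 * q) q) q (baseFam sv 0) (baseFam sv 1)
      (fam3 (Lvl K) M0 q (baseRing A K) T.V11 T.V02 0)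
      (fam3 (Lvl K) M0 q (baseRing A K) T.V11 T.V02 1)
      (fam3 (Lvl K) M0 q (baseRing A K) T.V11 T.V02 2))
    (Tβ : NormTable (phiB K M0 q) (normBetaK K (M0 * q) q) q (baseFam sv 1) (baseFam sv 0)
      (fam3 (Lvl K) M0 q (baseRing A K) T.V11 T.V02 2)
      (fam3 (Lvl K) M0 q (baseRing A K) T.V11 T.V02 1)
      (fam3 (Lvl K) M0 q (baseRing A K) T.V11 T.V02 0))
    (hLR : RootsInterface ↥(baseRing A K) (Lvl K) (normAlphaK K (M0 * q) q)
      (normBetaK K (M0 * q) q) (baseFam sv) (fam3 (Lvl K) M0 q (baseRing A K) T.V11 T.V02)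
      ((q : ℕ) : ↥(baseRing A K))
      (iInfSubring (fam3 (Lvl K) M0 q (baseRing A K) T.V11 T.V02))
      (jF (Lvl K) (M0 * q * q)) (q - 1) e) :
    LevelData A q K hK M0 e :=
  levelData_of_threeVal hA hK M0 hqM0 sv T he S Tα Tβ
    (Fermat.Agent.S36.NormOrd.ordFormula_alpha S Tα)
    (Fermat.Agent.S36.NormOrd.ordFormula_beta S Tβ) hLR

end Level

end Fermat.Agent.S36.Descent.SpineFinal
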