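/-
S36, blocks [L]+[D], last assembly file (helper29): **`PowCover.LocalRoots` on BOTH charts for the same
`h₂ = h ^ (p (p + 2)) / cg ^ e`, from the global data (`NormPlumb.GoodNorm`, twice) and the per-point
data in BUNDLED form** — the interface `hLR` of `Descent/LevelCore`.

Per-point data, bundled (`V : Fin 3 → ValuationSubring F`, chart `R`, prime `𝔫`):

* `OnePoint V hV 𝔫`    : exactly one component `i₀` passes through `𝔫`, `locAt 𝔫` is factorial and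
                         `locAt 𝔫 / P_{i₀}` is a PID  (blocks [ONE], [R3], [CUSP]);
                         `onePoint_of_onlyOne` : from `Points/Classify.OnlyOne` + the (I-R) pair in the
                         shape of `Cusp/AllCusps.cusp_point`, `One/OneChart.one_branch_of_onlyOne`;
* `TriplePoint V hV 𝔫` : all three components pass through `𝔫`, `locAt 𝔫` is factorial and the three
                         `locAt 𝔫 / P_i` are PIDs  (block [R2] + [BRANCH]);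
                         `triplePoint_of_triple` : from `Points/Classify.Triple`.

Main theorems:

* `localRoot_of_point`            : the local root of `h₂` at a point with `OnePoint ∨ TriplePoint`;
* `localRoots_fin_of_goodNorm`    : = `GlueConst.localRoots_chart_of_goodNorm` with bundled point data;
* `localRoots_both_of_goodNorm`   : `∃ cg, h₂ ≡ 1 (π V i) ∧ LocalRoots π W s h₂ e ∧ LocalRoots π W s⁻¹ h₂ e`
  (finite chart: all closed points; chart at infinity: `Alg/ChartTransfer.localRoots_inv` + the cusp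
  points, each a `OnePoint`).
-/
import Mathlib
import Fermat.Agent.S36.Descent.GlueConst
import Fermat.Agent.S36.Alg.ChartTransfer
import Fermat.Agent.S36.Points.Classify

set_option autoImplicit false
set_option linter.unusedSectionVars false

namespace Fermat.Agent.S36.Descent.LocalRootsBoth

open Fermat.Agent.S36.Local.LocalRoot Fermat.Agent.S36.Local.Spread
  Fermat.Agent.S36.Local.ChartSpread Fermat.Agent.S36.D.RootData Fermat.Agent.S36.D.Trivialise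
  Fermat.Agent.S36.D.ChartRoots Fermat.Agent.N4.Cover.Globalize Fermat.Agent.N4.Chart
  Fermat.Agent.S36.Descent.NormPlumb Fermat.Agent.S36.Descent.LocalRootsInst
  Fermat.Agent.S36.Descent.GlueConst

universe u

/-! ### Bundled point data -/

section Points

variable {R : Type*} [CommRing R] [IsDomain R]
variable {F : Type u} [Field F] [Algebra R F] [IsFractionRing R F]
variable {ι : Type*} (V : ι → ValuationSubring F) (hV : ∀ i (r : R), algebraMap R F r ∈ V i)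

/-- (I-R) at a point on exactly one component. -/
def OnePoint (𝔫 : Ideal R) [𝔫.IsPrime] : Prop :=
  ∃ (i₀ : ι) (hi₀ : centre (V i₀) (hV i₀) ≤ 𝔫), (∀ j, j ≠ i₀ → ¬ centre (V j) (hV j) ≤ 𝔫) ∧
    UniqueFactorizationMonoid (locAt (F := F) 𝔫) ∧
    IsPrincipalIdealRing (locAt (F := F) 𝔫 ⧸
      centre (V i₀) (fun b => locAt_le 𝔫 (V i₀) (hV i₀) hi₀ b))

/-- (I-R) at a point on all components. -/
def TriplePoint (𝔫 : Ideal R) [𝔫.IsPrime] : Prop :=
  ∃ ht : ∀ i, centre (V i) (hV i) ≤ 𝔫,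
    UniqueFactorizationMonoid (locAt (F := F) 𝔫) ∧
    ∀ i, IsPrincipalIdealRing (locAt (F := F) 𝔫 ⧸
      centre (V i) (fun b => locAt_le 𝔫 (V i) (hV i) (ht i) b))

variable {V hV}

theorem vCentre_eq_centre (A : ValuationSubring F) (hA : ∀ r : R, algebraMap R F r ∈ A) :
    Fermat.Agent.P3G.Krull.vCentre A hA = centre A hA := by
  ext r
  rw [Fermat.Agent.P3G.Krull.mem_vCentre_iff, mem_centre]

/-- From `Points/Classify.OnlyOne` and the (I-R) pair (any proof of `locAt 𝔫 ⊆ V i₀`). -/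
theorem onePoint_of_onlyOne {V : Fin 3 → ValuationSubring F}
    {hV : ∀ i (r : R), algebraMap R F r ∈ V i} (𝔫 : Ideal R) [𝔫.IsPrime]
    (h : ∃ (i₀ : Fin 3) (_ : Fermat.Agent.S36.Points.Classify.OnlyOne V hV i₀ 𝔫)
      (hmem : ∀ b : locAt (F := F) 𝔫, algebraMap (locAt (F := F) 𝔫) F b ∈ V i₀),
      UniqueFactorizationMonoid (locAt (F := F) 𝔫) ∧
        IsPrincipalIdealRing (locAt (F := F) 𝔫 ⧸ centre (V i₀) hmem)) :
    OnePoint V hV 𝔫 := by
  obtain ⟨i₀, h1, hmem, hU, hP⟩ := h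
  have hi₀ : centre (V i₀) (hV i₀) ≤ 𝔫 := by
    rw [← vCentre_eq_centre]; exact h1.1
  refine ⟨i₀, hi₀, fun j hj hle => h1.2 j hj ?_, hU, hP⟩
  rw [vCentre_eq_centre]; exact hle

/-- From `Points/Classify.Triple`. -/
theorem triplePoint_of_triple {V : Fin 3 → ValuationSubring F}
    {hV : ∀ i (r : R), algebraMap R F r ∈ V i} (𝔫 : Ideal R) [𝔫.IsPrime]
    (ht : Fermat.Agent.S36.Points.Classify.Triple V hV 𝔫)
    (hU : UniqueFactorizationMonoid (locAt (F := F) 𝔫))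
    (hP : ∀ i (hmem : ∀ b : locAt (F := F) 𝔫, algebraMap (locAt (F := F) 𝔫) F b ∈ V i),
      IsPrincipalIdealRing (locAt (F := F) 𝔫 ⧸ centre (V i) hmem)) :
    TriplePoint V hV 𝔫 := by
  have ht' : ∀ i, centre (V i) (hV i) ≤ 𝔫 := fun i => by
    rw [← vCentre_eq_centre]; exact ht i
  exact ⟨ht', hU, fun i => hP i _⟩

end Points

/-! ### The local root at a bundled point -/

section Point

variable {O K₀ : Type*} [CommRing O] [IsDomain O] [IsDiscreteValuationRing O]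
  [Field K₀] [Algebra O K₀] [IsFractionRing O K₀]
variable {R : Type*} [CommRing R] [IsDomain R] [IsNoetherianRing R] [Algebra O R]
variable {F : Type u} [Field F] [Algebra R F] [IsFractionRing R F] [Algebra O F] [Algebra K₀ F]
  [IsScalarTower O R F] [IsScalarTower O K₀ F]

/-- The local root of `h ^ m / cg ^ e` at a `OnePoint` (any finite family). -/
theorem localRoot_of_onePoint {ι : Type*} [Fintype ι] {V : ι → ValuationSubring F}
    {hV : ∀ i (r : R), algebraMap R F r ∈ V i} {π : O} {E : ℕ} (H : ChartHyp V hV π E)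
    (𝔫 : Ideal R) [𝔫.IsPrime] (hpt : OnePoint V hV 𝔫)
    {e : ℕ} (he : IsUnit ((e : ℕ) : R)) {h : F} (hhor : Horizontal K₀ e h) (m : ℕ) (cg : F)
    (hh2 : ∀ i, Cong (V i) (algebraMap R F (algebraMap O R π)) (h ^ m / cg ^ e - 1)) :
    ∃ τ : F, τ ≠ 0 ∧
      (∃ a r : R, a ∉ 𝔫 ∧ r ∉ 𝔫 ∧
        h ^ m / cg ^ e * algebraMap R F a = τ ^ e * algebraMap R F r) ∧
      ∃ w : F, (∀ i, w ∈ V i) ∧ τ - 1 = algebraMap R F (algebraMap O R π) * w := by
  obtain ⟨i₀, hi₀, honly, hU, hP⟩ := hpt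
  exact localRoot_onlyOne (K₀ := K₀) H 𝔫 i₀ hi₀ honly hU hP he hhor m cg hh2

variable {V : Fin 3 → ValuationSubring F} {hV : ∀ i (r : R), algebraMap R F r ∈ V i}

/-- The local root of `h₂` at a point with `OnePoint ∨ TriplePoint`. -/
theorem localRoot_of_point {π : O} {E : ℕ} (H : ChartHyp V hV π E)
    (𝔫 : Ideal R) [𝔫.IsPrime] (hpt : OnePoint V hV 𝔫 ∨ TriplePoint V hV 𝔫)
    {e : ℕ} (he : IsUnit ((e : ℕ) : R)) {h : F}
    (hh1 : ∀ i, h - 1 ∈ (V i).nonunits) (hhor : Horizontal K₀ e h)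
    {p : ℕ} (S T S' T' : Rˣ)
    (hrel : (∀ i, centre (V i) (hV i) ≤ 𝔫) → ∀ D : RootDatum (locAt (F := F) 𝔫) V e h,
      ¬ IsUnit (algebraMap R (locAt (F := F) 𝔫) T * D.y 0 * D.y 1 ^ p -
        algebraMap R (locAt (F := F) 𝔫) S * D.y 2 ^ (p + 1)) ∧
      ¬ IsUnit (algebraMap R (locAt (F := F) 𝔫) S' * D.y 2 * D.y 1 ^ p -
        algebraMap R (locAt (F := F) 𝔫) T' * D.y 0 ^ (p + 1)))
    (cg : F)
    (hcg : ∀ i, cg - algebraMap R F (constXi p S T S' T' i : Rˣ) ∈ (V i).nonunits)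
    (hh2 : ∀ i, Cong (V i) (algebraMap R F (algebraMap O R π))
      (h ^ (p * (p + 2)) / cg ^ e - 1)) :
    ∃ τ : F, τ ≠ 0 ∧
      (∃ a r : R, a ∉ 𝔫 ∧ r ∉ 𝔫 ∧
        h ^ (p * (p + 2)) / cg ^ e * algebraMap R F a = τ ^ e * algebraMap R F r) ∧
      ∃ w : F, (∀ i, w ∈ V i) ∧ τ - 1 = algebraMap R F (algebraMap O R π) * w := by
  rcases hpt with h1 | ⟨ht, hU, hP⟩
  · exact localRoot_of_onePoint (K₀ := K₀) H 𝔫 h1 he hhor _ cg hh2
  · exact localRoot_triple (K₀ := K₀) H 𝔫 ht hU hP he hh1 hhor S T S' T' (hrel ht) cg hcg hh2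

end Point

/-! ### Both charts -/

section Both

open Fermat.Agent.P3G.Assembly.PowCover (LocalRoots)
open Fermat.Agent.S36.Alg.ChartTransfer (gen localRoots_inv)

variable {O K₀ : Type*} [CommRing O] [IsDomain O] [IsDiscreteValuationRing O]
  [Field K₀] [CharZero K₀] [Algebra O K₀] [IsFractionRing O K₀]
variable {F₀ : Type u} [Field F₀] [Algebra K₀ F₀] [Algebra O F₀] [IsScalarTower O K₀ F₀]
variable {F1 : Type*} [Field F1] [Algebra O F1]

/-- **`PowCover.LocalRoots` on the finite chart**, bundled point data. -/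
theorem localRoots_fin_of_goodNorm (s : F₀) [IsNoetherianRing (chartAlg O F₀ {s})]
    [IsFractionRing (chartAlg O F₀ {s}) F₀]
    {V : Fin 3 → ValuationSubring F₀}
    {hV : ∀ i (r : chartAlg O F₀ {s}), algebraMap (chartAlg O F₀ {s}) F₀ r ∈ V i}
    {π : O} {E : ℕ} (H : ChartHyp V hV π E) {W : Subring F₀}
    (hW : ∀ w : F₀, (∀ i, w ∈ V i) → w ∈ W)
    (hpt : ∀ (𝔫 : Ideal (chartAlg O F₀ {s})) [𝔫.IsPrime], 𝔫.IsMaximal →
      algebraMap O (chartAlg O F₀ {s}) π ∈ 𝔫 → OnePoint V hV 𝔫 ∨ TriplePoint V hV 𝔫)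
    {e : ℕ} (he : IsUnit ((e : ℕ) : O)) {h : F₀}
    (hh1 : ∀ i, Cong (V i) (algebraMap O F₀ π) (h - 1)) (hhor : Horizontal K₀ e h)
    {Nα Nβ : F₀ →* F1} (U : Fin 2 → ValuationSubring F1)
    (hU : ∀ c : O, IsUnit c → ∀ j, (U j).valuation (algebraMap O F1 c) = 1)
    (gα : GoodNorm O Nα U e h) (gβ : GoodNorm O Nβ U e h)
    (hNα1 : ∀ j, (U j).valuation (Nα h - 1) < 1) (hNβ1 : ∀ j, (U j).valuation (Nβ h - 1) < 1)
    (p : ℕ)
    (hrel : ∀ (cα sα tα cβ sβ tβ : Oˣ) (Hα Hβ : F1),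
      Nα h = algebraMap O F1 cα * Hα ^ e →
      Hα - algebraMap O F1 sα ∈ (U 0).nonunits → Hα - algebraMap O F1 tα ∈ (U 1).nonunits →
      Nβ h = algebraMap O F1 cβ * Hβ ^ e →
      Hβ - algebraMap O F1 sβ ∈ (U 0).nonunits → Hβ - algebraMap O F1 tβ ∈ (U 1).nonunits →
      ∀ (𝔫 : Ideal (chartAlg O F₀ {s})) [𝔫.IsPrime], 𝔫.IsMaximal →
      algebraMap O (chartAlg O F₀ {s}) π ∈ 𝔫 →
      (∀ i, centre (V i) (hV i) ≤ 𝔫) → ∀ D : RootDatum (locAt (F := F₀) 𝔫) V e h,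
      ¬ IsUnit (algebraMap (chartAlg O F₀ {s}) (locAt (F := F₀) 𝔫)
          (unitR (R := chartAlg O F₀ {s}) tα) * D.y 0 * D.y 1 ^ p -
        algebraMap (chartAlg O F₀ {s}) (locAt (F := F₀) 𝔫)
          (unitR (R := chartAlg O F₀ {s}) sα) * D.y 2 ^ (p + 1)) ∧
      ¬ IsUnit (algebraMap (chartAlg O F₀ {s}) (locAt (F := F₀) 𝔫)
          (unitR (R := chartAlg O F₀ {s}) sβ) * D.y 2 * D.y 1 ^ p -
        algebraMap (chartAlg O F₀ {s}) (locAt (F := F₀) 𝔫)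
          (unitR (R := chartAlg O F₀ {s}) tβ) * D.y 0 ^ (p + 1))) :
    ∃ cg : F₀, (∀ i, Cong (V i) (algebraMap O F₀ π) (h ^ (p * (p + 2)) / cg ^ e - 1)) ∧
      LocalRoots π W s (h ^ (p * (p + 2)) / cg ^ e) e := by
  have heR : IsUnit ((e : ℕ) : chartAlg O F₀ {s}) := by
    have := he.map (algebraMap O (chartAlg O F₀ {s}))
    rwa [map_natCast] at this
  obtain ⟨cα, sα, tα, cβ, sβ, tβ, Hα, Hβ, h1, h2, h3, h4, h5, h6, cg, hcg, hh2⟩ :=
    exists_glue_chart H U hU gα gβ hNα1 hNβ1 (fun i => cong_tower_iff.2 (hh1 i)) p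
  refine ⟨cg, fun i => cong_tower_iff.1 (hh2 i), ?_⟩
  intro 𝔫 h𝔫 hπ
  have : 𝔫.IsPrime := h𝔫.isPrime
  obtain ⟨τ, hτ0, har, w, hw, hτ⟩ := localRoot_of_point (K₀ := K₀) H 𝔫 (hpt 𝔫 h𝔫 hπ) heR
    (fun i => cong_mem_nonunits (H.mem i) (cong_tower_iff.2 (hh1 i))) hhor
    (unitR sα) (unitR tα) (unitR sβ) (unitR tβ)
    (hrel cα sα tα cβ sβ tβ Hα Hβ h1 h2 h3 h4 h5 h6 𝔫 h𝔫 hπ) cg hcg hh2
  refine ⟨τ, hτ0, har, w, hW w hw, ?_⟩
  rw [hτ, ← IsScalarTower.algebraMap_apply O (chartAlg O F₀ {s}) F₀]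

/-- **`PowCover.LocalRoots` on BOTH charts for the same `h₂ = h ^ (p (p + 2)) / cg ^ e`**: the
finite chart `s` from all its closed points (`OnePoint ∨ TriplePoint`, `hrel` at the triple points),
the chart at infinity `s⁻¹` by chart transfer and its cusp points (each a `OnePoint`). -/
theorem localRoots_both_of_goodNorm (s : F₀) (hs : s ≠ 0)
    [IsNoetherianRing (chartAlg O F₀ {s})] [IsFractionRing (chartAlg O F₀ {s}) F₀]
    [IsNoetherianRing (chartAlg O F₀ {s⁻¹})] [IsFractionRing (chartAlg O F₀ {s⁻¹}) F₀]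
    {V : Fin 3 → ValuationSubring F₀}
    {hVp : ∀ i (r : chartAlg O F₀ {s}), algebraMap (chartAlg O F₀ {s}) F₀ r ∈ V i}
    {hVm : ∀ i (r : chartAlg O F₀ {s⁻¹}), algebraMap (chartAlg O F₀ {s⁻¹}) F₀ r ∈ V i}
    {π : O} {E E' : ℕ} (Hp : ChartHyp V hVp π E) (Hm : ChartHyp V hVm π E') {W : Subring F₀}
    (hW : ∀ w : F₀, (∀ i, w ∈ V i) → w ∈ W)
    (hpt : ∀ (𝔫 : Ideal (chartAlg O F₀ {s})) [𝔫.IsPrime], 𝔫.IsMaximal →
      algebraMap O (chartAlg O F₀ {s}) π ∈ 𝔫 → OnePoint V hVp 𝔫 ∨ TriplePoint V hVp 𝔫)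
    (hcusp : ∀ (𝔫 : Ideal (chartAlg O F₀ {s⁻¹})) [𝔫.IsPrime], 𝔫.IsMaximal →
      algebraMap O (chartAlg O F₀ {s⁻¹}) π ∈ 𝔫 → gen (O := O) s⁻¹ ∈ 𝔫 → OnePoint V hVm 𝔫)
    {e : ℕ} (he : IsUnit ((e : ℕ) : O)) {h : F₀}
    (hh1 : ∀ i, Cong (V i) (algebraMap O F₀ π) (h - 1)) (hhor : Horizontal K₀ e h)
    {Nα Nβ : F₀ →* F1} (U : Fin 2 → ValuationSubring F1)
    (hU : ∀ c : O, IsUnit c → ∀ j, (U j).valuation (algebraMap O F1 c) = 1)
    (gα : GoodNorm O Nα U e h) (gβ : GoodNorm O Nβ U e h)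
    (hNα1 : ∀ j, (U j).valuation (Nα h - 1) < 1) (hNβ1 : ∀ j, (U j).valuation (Nβ h - 1) < 1)
    (p : ℕ)
    (hrel : ∀ (cα sα tα cβ sβ tβ : Oˣ) (Hα Hβ : F1),
      Nα h = algebraMap O F1 cα * Hα ^ e →
      Hα - algebraMap O F1 sα ∈ (U 0).nonunits → Hα - algebraMap O F1 tα ∈ (U 1).nonunits →
      Nβ h = algebraMap O F1 cβ * Hβ ^ e →
      Hβ - algebraMap O F1 sβ ∈ (U 0).nonunits → Hβ - algebraMap O F1 tβ ∈ (U 1).nonunits →
      ∀ (𝔫 : Ideal (chartAlg O F₀ {s})) [𝔫.IsPrime], 𝔫.IsMaximal →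
      algebraMap O (chartAlg O F₀ {s}) π ∈ 𝔫 →
      (∀ i, centre (V i) (hVp i) ≤ 𝔫) → ∀ D : RootDatum (locAt (F := F₀) 𝔫) V e h,
      ¬ IsUnit (algebraMap (chartAlg O F₀ {s}) (locAt (F := F₀) 𝔫)
          (unitR (R := chartAlg O F₀ {s}) tα) * D.y 0 * D.y 1 ^ p -
        algebraMap (chartAlg O F₀ {s}) (locAt (F := F₀) 𝔫)
          (unitR (R := chartAlg O F₀ {s}) sα) * D.y 2 ^ (p + 1)) ∧
      ¬ IsUnit (algebraMap (chartAlg O F₀ {s}) (locAt (F := F₀) 𝔫)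
          (unitR (R := chartAlg O F₀ {s}) sβ) * D.y 2 * D.y 1 ^ p -
        algebraMap (chartAlg O F₀ {s}) (locAt (F := F₀) 𝔫)
          (unitR (R := chartAlg O F₀ {s}) tβ) * D.y 0 ^ (p + 1))) :
    ∃ cg : F₀, (∀ i, Cong (V i) (algebraMap O F₀ π) (h ^ (p * (p + 2)) / cg ^ e - 1)) ∧
      LocalRoots π W s (h ^ (p * (p + 2)) / cg ^ e) e ∧
      LocalRoots π W s⁻¹ (h ^ (p * (p + 2)) / cg ^ e) e := by
  obtain ⟨cg, hh2, hfin⟩ := localRoots_fin_of_goodNorm (K₀ := K₀) s Hp hW hpt he hh1 hhor U hU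
    gα gβ hNα1 hNβ1 p hrel
  refine ⟨cg, hh2, hfin, localRoots_inv hs hfin ?_⟩
  intro 𝔫 h𝔫 hπ hg
  have : 𝔫.IsPrime := h𝔫.isPrime
  have heR : IsUnit ((e : ℕ) : chartAlg O F₀ {s⁻¹}) := by
    have := he.map (algebraMap O (chartAlg O F₀ {s⁻¹}))
    rwa [map_natCast] at this
  obtain ⟨τ, hτ0, har, w, hw, hτ⟩ := localRoot_of_onePoint (K₀ := K₀) Hm 𝔫 (hcusp 𝔫 h𝔫 hπ hg) heR
    hhor (p * (p + 2)) cg (fun i => cong_tower_iff.2 (hh2 i))
  refine ⟨τ, hτ0, har, w, hW w hw, ?_⟩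
  rw [hτ, ← IsScalarTower.algebraMap_apply O (chartAlg O F₀ {s⁻¹}) F₀]

end Both

end Fermat.Agent.S36.Descent.LocalRootsBoth
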