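/-
S36 SPINE, norm side (helper19): **`LevelCore.level_core` with its valuation/norm inputs discharged
from a `ThreeVal`**.

At a fixed level `(K, O)` (`O ⊆ K` a discrete valuation ring, `K = Frac O`, residue field
algebraically closed of characteristic `q`, `q` a uniformiser of `O`), `q ∤ M₀`,
`sv : SecondVal K M₀ q O`, `T : ThreeVal K M₀ q O sv`:

* `hpow_of_famVal`, `hpow_threeVal` : `𝔪_{V i} ^ (q - 1) ⊆ q V i` for `V = ![V20, V11, V02]`;
* `natCast_ne_zero_FF`, `natCast_inv_mem` : `he0`, `heV` of `level_core`;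
* `level_core_threeVal` : `level_core` for `U = ![V10, V01]`, `V = ![V20, V11, V02]`,
  `φ ψ = α₂ β₂`, `Nα Nβ = normAlong α₂ / β₂`, `ϖ = q`, `Pm = Π`, `E = q - 1`, with the order formulas
  (`NormOrd`), the constants hypothesis (`ConstHypInst.constHyp_level`), `hpow`, `he0`, `heV`
  discharged; inputs: the valuation setting `S` and the two norm tables `Tα`, `Tβ`.
-/
import Mathlib
import Fermat.Agent.S36.Descent.LevelCore
import Fermat.Agent.S36.Descent.ConstHypInst
import Fermat.Agent.S36.NormOrd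
import Fermat.Agent.S36.V.ThreeVal
import Fermat.Agent.S36.C.ThreeValCover
import Fermat.Agent.P4.FrobStep

set_option autoImplicit false
set_option linter.unusedSectionVars false
set_option linter.style.haveILetI false

open ModularCurve Fermat.Agent.S28.Gauss Fermat.Agent.N4.Setting Fermat.Agent.N4.FibreEmbedding
open Fermat.Agent.N4F.E.DegreeLevelRaise Fermat.Agent.N4F.E.GaussDVR
open Fermat.Agent.P3G.SecondValuation Fermat.Agent.S36.V.MidVal Fermat.Agent.S36.V.ThreeVal
open Fermat.Agent.S36.C.ThreeValCover Fermat.Agent.S36.C.PowCoverFam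
open Fermat.Agent.S36.Descent.NormPlumb Fermat.Agent.S36.Descent.LevelCore
open Fermat.Agent.S36.Descent.ConstHypInst Fermat.Agent.S36.Local.Spread
open Fermat.Agent.N4.Cover.Globalize Fermat.Agent.P4.FrobStep Fermat.Agent.P3G.FibreSat
open Fermat.Agent.P3G.Assembly.PowCover (LocalRoots)
open IsLocalRing

noncomputable section

namespace Fermat.Agent.S36.Descent.SpineNorm

/-! ### `hpow` from a `FamVal` -/

section Fam

universe u

variable {O : Type*} [CommRing O] {F₀ : Type u} [Field F₀] [Algebra O F₀]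

/-- The hypothesis `hpow` of `level_core` is the field `pow_unif` of a `FamVal`. -/
theorem hpow_of_famVal {π : O} {W : Subring F₀} {ι : Type*} {V : ι → ValuationSubring F₀} {E : ℕ}
    (hT : FamVal π W V E) (i : ι) (x : F₀) (hx : (V i).valuation x < 1) :
    x ^ E * (algebraMap O F₀ π)⁻¹ ∈ V i :=
  hT.pow_unif i x ((ValuationSubring.mem_nonunits_iff (V i)).mpr hx)

end Fam

section Level

variable {K : Type} [Field K] [CharZero K] {M0 q : ℕ} [NeZero M0] [hq : Fact q.Prime]
  {O : Subring K} [IsDiscreteValuationRing ↥O] [IsFractionRing ↥O K]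
  {sv : SecondVal K M0 q O}

local notation "F1" => FF K (M0 * q)
local notation "F2" => FF K (M0 * q * q)

/-- a natural number is nonzero in the function field. -/
theorem natCast_ne_zero_FF (N : ℕ) [NeZero N] {e : ℕ} (he : e ≠ 0) : ((e : ℕ) : FF K N) ≠ 0 := by
  have h : ((e : ℕ) : FF K N) = algebraMap K (FF K N) ((e : ℕ) : K) := (map_natCast _ e).symm
  rw [h, Ne, map_eq_zero]
  exact_mod_cast he


/-- constants of `O` lie in `V20`, `V11`, `V02`. -/
theorem algebraMap_mem_fam3 (T : ThreeVal K M0 q O sv) (c : ↥O) (i : Fin 3) :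
    algebraMap ↥O F2 c ∈ fam3 K M0 q O T.V11 T.V02 i := by
  have hα : a2 K M0 q (algebraMap ↥O F1 c) = algebraMap ↥O F2 c :=
    (alphaF K (M0 * q) q).commutes (c : K)
  have hβ : b2 K M0 q (algebraMap ↥O F1 c) = algebraMap ↥O F2 c :=
    (betaF K (M0 * q) q).commutes (c : K)
  fin_cases i
  · exact (gaussSubalgebra K (M0 * q * q) O).algebraMap_mem c
  · show algebraMap ↥O F2 c ∈ T.V11
    rw [← hα, ← ValuationSubring.mem_comap, T.comap_alpha_V11]
    exact algebraMap_mem_gaussVS K O (M0 * q) c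
  · show algebraMap ↥O F2 c ∈ T.V02
    rw [← hβ, ← ValuationSubring.mem_comap, T.comap_beta_V02]
    exact algebraMap_mem_secondVal sv c

/-- a constant of the maximal ideal of `O` is a nonunit of `V01`. -/
theorem algebraMap_mem_nonunits_secondVal (sv : SecondVal K M0 q O) {c : ↥O}
    (hc : c ∈ maximalIdeal ↥O) : algebraMap ↥O F1 c ∈ sv.V.nonunits := by
  rw [← sv.ev_eq_zero_iff ⟨_, algebraMap_mem_secondVal sv c⟩, ev_algebraMap_secondVal,
    (residue_eq_zero_iff c).2 hc, map_zero]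

/-- a constant of the maximal ideal of `O` is a nonunit of `V02`. -/
theorem algebraMap_mem_nonunits_V02 (T : ThreeVal K M0 q O sv) {c : ↥O}
    (hc : c ∈ maximalIdeal ↥O) : algebraMap ↥O F2 c ∈ T.V02.nonunits := by
  have hβ : b2 K M0 q (algebraMap ↥O F1 c) = algebraMap ↥O F2 c :=
    (betaF K (M0 * q) q).commutes (c : K)
  rw [← hβ, ValuationSubring.mem_nonunits_iff]
  exact (val_lt_one_map (b2 K M0 q)
    (fun a => by rw [← ValuationSubring.mem_comap, T.comap_beta_V02])).mpr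
    ((ValuationSubring.mem_nonunits_iff _).1 (algebraMap_mem_nonunits_secondVal sv hc))

/-- `heV` of `level_core`: the inverse of a natural number which is a unit of `O` lies in `V i`. -/
theorem natCast_inv_mem (T : ThreeVal K M0 q O sv) {e : ℕ} (he : IsUnit ((e : ℕ) : ↥O))
    (i : Fin 3) : (((e : ℕ) : F2))⁻¹ ∈ fam3 K M0 q O T.V11 T.V02 i := by
  obtain ⟨u, hu⟩ := he.exists_right_inv
  have h1 : ((e : ℕ) : F2) * algebraMap ↥O F2 u = 1 := by
    rw [← map_natCast (algebraMap ↥O F2) e, ← map_mul, hu, map_one]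
  have h2 : (((e : ℕ) : F2))⁻¹ = algebraMap ↥O F2 u := by
    exact inv_eq_of_mul_eq_one_right h1
  rw [h2]
  exact algebraMap_mem_fam3 T u i

/-- `hpow` of `level_core` from a `ThreeVal`: `𝔪_{V i} ^ (q - 1) ⊆ q V i`. -/
theorem hpow_threeVal (T : ThreeVal K M0 q O sv) (hirr : Irreducible ((q : ℕ) : ↥O))
    (i : Fin 3) (x : F2) (hx : (fam3 K M0 q O T.V11 T.V02 i).valuation x < 1) :
    x ^ (q - 1) * (algebraMap ↥O F2 ((q : ℕ) : ↥O))⁻¹ ∈ fam3 K M0 q O T.V11 T.V02 i := by
  have hq1 : 1 ≤ q - 1 := by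
    have := hq.out.two_le
    omega
  have hπF : algebraMap ↥O F2 ((q : ℕ) : ↥O) = ((q : ℕ) : F2) := map_natCast _ q
  refine hpow_of_famVal (Fermat.Agent.S36.C.FamValOfUnif.famVal_of_uniformisers
    (fam3 K M0 q O T.V11 T.V02) ((q : ℕ) : ↥O) (q - 1)
    ![algebraMap ↥O F2 ((q : ℕ) : ↥O), PiElt K M0 q, algebraMap ↥O F2 ((q : ℕ) : ↥O)]
    ![1, q - 1, 1] ?_ ?_ ?_ ?_ (algebraMap_ne_zero K (M0 * q * q) O hirr.ne_zero)) i x hx
  · intro i
    fin_cases i
    · exact ⟨le_refl 1, hq1⟩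
    · exact ⟨hq1, le_refl _⟩
    · exact ⟨le_refl 1, hq1⟩
  · intro i
    fin_cases i
    · exact unif_mem_nonunits_gaussVS K M0 q O hirr
    · exact T.Pi_mem_nonunits
    · exact algebraMap_mem_nonunits_V02 T
        (by rw [hirr.maximalIdeal_eq]; exact Ideal.mem_span_singleton_self _)
  · intro i
    fin_cases i
    · intro x hx
      exact mul_inv_mem_gaussVS K O hirr hx
    · exact T.unif_V11
    · intro x hx
      have h := T.ram_one_V02 _ hirr x hx
      exact h
  · intro i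
    fin_cases i
    · refine ⟨1, (gaussVS K (M0 * q * q) O).one_mem,
        by rw [inv_one]; exact (gaussVS K (M0 * q * q) O).one_mem, ?_⟩
      show algebraMap ↥O F2 ((q : ℕ) : ↥O) = 1 * algebraMap ↥O F2 ((q : ℕ) : ↥O) ^ 1
      rw [one_mul, pow_one]
    · obtain ⟨w, hw, hwi, hqw⟩ := T.ram_V11
      exact ⟨w, hw, hwi, by rw [hπF]; exact hqw⟩
    · refine ⟨1, T.V02.one_mem, by rw [inv_one]; exact T.V02.one_mem, ?_⟩
      show algebraMap ↥O F2 ((q : ℕ) : ↥O) = 1 * algebraMap ↥O F2 ((q : ℕ) : ↥O) ^ 1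
      rw [one_mul, pow_one]

/-- **`LevelCore.level_core` at a `ThreeVal`**: the order formulas, the constants hypothesis, `hpow`,
`he0`, `heV` discharged; inputs: the valuation setting and the two norm tables. -/
theorem level_core_of_tables [IsAlgClosed (ResidueField ↥O)] (T : ThreeVal K M0 q O sv)
    (hirr : Irreducible ((q : ℕ) : ↥O))
    (S : ValSetting (a2 K M0 q) (b2 K M0 q) q (baseFam sv) (fam3 K M0 q O T.V11 T.V02)
      (algebraMap ↥O F1 ((q : ℕ) : ↥O)) (PiElt K M0 q))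
    (Tα : NormTable (a2 K M0 q) (normAlong (alphaF K (M0 * q) q)) q (gaussVS K (M0 * q) O) sv.V
      (gaussVS K (M0 * q * q) O) T.V11 T.V02)
    (Tβ : NormTable (b2 K M0 q) (normAlong (betaF K (M0 * q) q)) q sv.V (gaussVS K (M0 * q) O)
      T.V02 T.V11 (gaussVS K (M0 * q * q) O))
    {e : ℕ} (he : IsUnit ((e : ℕ) : ↥O)) (hqe : Nat.Coprime q e)
    {W : Subring F2} (hW : ∀ w : F2, (∀ i, w ∈ fam3 K M0 q O T.V11 T.V02 i) → w ∈ W) (s : F2)
    (hLR : RootsInterface ↥O K (normAlong (alphaF K (M0 * q) q))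
      (normAlong (betaF K (M0 * q) q)) (baseFam sv) (fam3 K M0 q O T.V11 T.V02)
      ((q : ℕ) : ↥O) W s (q - 1) e)
    {f : F2} (hf : f ≠ 0) (hhor : Horizontal K e f) {ca cb : K} (hca : ca ≠ 0) (hcb : cb ≠ 0)
    {ha hb : F1} (hNa : normAlong (alphaF K (M0 * q) q) f = algebraMap K F1 ca * ha ^ e)
    (hNb : normAlong (betaF K (M0 * q) q) f = algebraMap K F1 cb * hb ^ e) :
    ∃ (c₀ : K) (G : F2), c₀ ≠ 0 ∧ G ≠ 0 ∧
      (∃ w ∈ W, algebraMap K F2 c₀ * f ^ spineExp q / G ^ e - 1 =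
        algebraMap ↥O F2 ((q : ℕ) : ↥O) * w) ∧
      LocalRoots ((q : ℕ) : ↥O) W s (algebraMap K F2 c₀ * f ^ spineExp q / G ^ e) e ∧
      LocalRoots ((q : ℕ) : ↥O) W s⁻¹ (algebraMap K F2 c₀ * f ^ spineExp q / G ^ e) e := by
  have he0 : e ≠ 0 := by
    rintro rfl
    rw [Nat.cast_zero] at he
    exact not_isUnit_zero he
  exact level_core (φ := alphaF K (M0 * q) q) (ψ := betaF K (M0 * q) q) hirr S Tα Tβ
    (Fermat.Agent.S36.NormOrd.ordFormula_alpha S Tα)
    (Fermat.Agent.S36.NormOrd.ordFormula_beta S Tβ)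
    (constHyp_level sv he0) hqe (hpow_threeVal T hirr)
    (natCast_ne_zero_FF (M0 * q * q) he0) (natCast_inv_mem T he) hW s hLR hf hhor hca hcb hNa hNb

end Level

end Fermat.Agent.S36.Descent.SpineNorm
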