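/-
S36, Spine, the point dispatcher (helper29): **the hypothesis `hpt` of
`LocalRootsBoth.localRoots_both_of_goodNorm`** (`OnePoint ∨ TriplePoint` at every closed point `𝔫 ∋ π`
of the finite chart) **from the classification and the per-block (I-R) theorems**, and the hypothesis
`hcusp` at the cusps of the chart at infinity.

Generic chart `R`, `V : Fin 3 → ValuationSubring F` (`V 0 = V20`, `V 1 = V11`, `V 2 = V02`):

* `hclass`  : the dichotomy of `Points/ClassifyChart.dispatch` / `Points/ClassifyInst.hclass_fin`;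
* `hPID`    : (R-b) at every branch through every point — block [BRANCH]
              (`One/BranchDedekind.isPrincipalIdealRing_quotient_centre`), any membership proof;
* `hUFD0`, `hUFD2` : (R-a) at the points on `C20` only, resp. `C02` only — block [ONE];
* `hUFD1`   : (R-a) at the points on `C11` only — block [R3] (`q` odd; it consumes (R-b)) or [ONE]
              (`q = 2`);
* `hUFD3`   : (R-a) at the triple points — block [R2] (`R2/TripleFinal.ufd`).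

`hpt_of_blocks` assembles them; `hpt_of_cases` is the same with the (I-R) pairs already bundled per
case (for blocks which prove (R-a) and (R-b) together, e.g. `R2/TripleFinal.hPID_up/hPID_split`);
`onePoint_of_pair` is the one-point adapter (for `hcusp`).
-/
import Mathlib
import Fermat.Agent.S36.Descent.LocalRootsBoth

set_option autoImplicit false
set_option linter.unusedSectionVars false

namespace Fermat.Agent.S36.Descent.SpinePoints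

open Fermat.Agent.S36.Local.LocalRoot Fermat.Agent.S36.Local.ChartSpread
  Fermat.Agent.N4.Cover.Globalize Fermat.Agent.S36.Descent.LocalRootsBoth

universe u

variable {R : Type*} [CommRing R] [IsDomain R]
variable {F : Type u} [Field F] [Algebra R F] [IsFractionRing R F]

/-- A point on one component with its (I-R) pair (any membership proof) is a `OnePoint`. -/
theorem onePoint_of_pair {ι : Type*} {V : ι → ValuationSubring F}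
    {hV : ∀ i (r : R), algebraMap R F r ∈ V i} (𝔫 : Ideal R) [𝔫.IsPrime] (i₀ : ι)
    (hi₀ : centre (V i₀) (hV i₀) ≤ 𝔫) (honly : ∀ j, j ≠ i₀ → ¬ centre (V j) (hV j) ≤ 𝔫)
    (hU : UniqueFactorizationMonoid (locAt (F := F) 𝔫))
    (hP : ∀ hmem : ∀ b : locAt (F := F) 𝔫, algebraMap (locAt (F := F) 𝔫) F b ∈ V i₀,
      IsPrincipalIdealRing (locAt (F := F) 𝔫 ⧸ centre (V i₀) hmem)) :
    OnePoint V hV 𝔫 :=
  ⟨i₀, hi₀, honly, hU, hP _⟩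

variable {V : Fin 3 → ValuationSubring F} {hV : ∀ i (r : R), algebraMap R F r ∈ V i}

/-- **The dispatcher, bundled cases.** -/
theorem hpt_of_cases {P : Ideal R → Prop}
    (hclass : ∀ (𝔫 : Ideal R) [𝔫.IsPrime], 𝔫.IsMaximal → P 𝔫 →
      (∃ i₀, centre (V i₀) (hV i₀) ≤ 𝔫 ∧ ∀ j, j ≠ i₀ → ¬ centre (V j) (hV j) ≤ 𝔫) ∨
        ∀ i, centre (V i) (hV i) ≤ 𝔫)
    (hone : ∀ (𝔫 : Ideal R) [𝔫.IsPrime], 𝔫.IsMaximal → P 𝔫 →
      ∀ (i₀ : Fin 3) (hi₀ : centre (V i₀) (hV i₀) ≤ 𝔫),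
      (∀ j, j ≠ i₀ → ¬ centre (V j) (hV j) ≤ 𝔫) →
      UniqueFactorizationMonoid (locAt (F := F) 𝔫) ∧
        IsPrincipalIdealRing (locAt (F := F) 𝔫 ⧸
          centre (V i₀) (fun b => locAt_le 𝔫 (V i₀) (hV i₀) hi₀ b)))
    (htriple : ∀ (𝔫 : Ideal R) [𝔫.IsPrime], 𝔫.IsMaximal → P 𝔫 →
      ∀ ht : ∀ i, centre (V i) (hV i) ≤ 𝔫,
      UniqueFactorizationMonoid (locAt (F := F) 𝔫) ∧
        ∀ i, IsPrincipalIdealRing (locAt (F := F) 𝔫 ⧸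
          centre (V i) (fun b => locAt_le 𝔫 (V i) (hV i) (ht i) b))) :
    ∀ (𝔫 : Ideal R) [𝔫.IsPrime], 𝔫.IsMaximal → P 𝔫 → OnePoint V hV 𝔫 ∨ TriplePoint V hV 𝔫 := by
  intro 𝔫 _ h𝔫 hP
  rcases hclass 𝔫 h𝔫 hP with ⟨i₀, hi₀, honly⟩ | ht
  · obtain ⟨hU, hPID⟩ := hone 𝔫 h𝔫 hP i₀ hi₀ honly
    exact Or.inl ⟨i₀, hi₀, honly, hU, hPID⟩
  · obtain ⟨hU, hPID⟩ := htriple 𝔫 h𝔫 hP ht
    exact Or.inr ⟨ht, hU, hPID⟩

/-- **The dispatcher**: (R-b) from [BRANCH] everywhere, (R-a) from [ONE] (`C20`-only, `C02`-only),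
[R3] or [ONE] (`C11`-only; may use (R-b)), [R2] (triple points). -/
theorem hpt_of_blocks {P : Ideal R → Prop}
    (hclass : ∀ (𝔫 : Ideal R) [𝔫.IsPrime], 𝔫.IsMaximal → P 𝔫 →
      (∃ i₀, centre (V i₀) (hV i₀) ≤ 𝔫 ∧ ∀ j, j ≠ i₀ → ¬ centre (V j) (hV j) ≤ 𝔫) ∨
        ∀ i, centre (V i) (hV i) ≤ 𝔫)
    (hPID : ∀ (𝔫 : Ideal R) [𝔫.IsPrime], 𝔫.IsMaximal → P 𝔫 →
      ∀ i (hi : centre (V i) (hV i) ≤ 𝔫), IsPrincipalIdealRing (locAt (F := F) 𝔫 ⧸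
        centre (V i) (fun b => locAt_le 𝔫 (V i) (hV i) hi b)))
    (hUFD0 : ∀ (𝔫 : Ideal R) [𝔫.IsPrime], 𝔫.IsMaximal → P 𝔫 →
      centre (V 0) (hV 0) ≤ 𝔫 → (∀ j, j ≠ 0 → ¬ centre (V j) (hV j) ≤ 𝔫) →
      UniqueFactorizationMonoid (locAt (F := F) 𝔫))
    (hUFD1 : ∀ (𝔫 : Ideal R) [𝔫.IsPrime], 𝔫.IsMaximal → P 𝔫 →
      ∀ hi : centre (V 1) (hV 1) ≤ 𝔫, (∀ j, j ≠ 1 → ¬ centre (V j) (hV j) ≤ 𝔫) →
      IsPrincipalIdealRing (locAt (F := F) 𝔫 ⧸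
        centre (V 1) (fun b => locAt_le 𝔫 (V 1) (hV 1) hi b)) →
      UniqueFactorizationMonoid (locAt (F := F) 𝔫))
    (hUFD2 : ∀ (𝔫 : Ideal R) [𝔫.IsPrime], 𝔫.IsMaximal → P 𝔫 →
      centre (V 2) (hV 2) ≤ 𝔫 → (∀ j, j ≠ 2 → ¬ centre (V j) (hV j) ≤ 𝔫) →
      UniqueFactorizationMonoid (locAt (F := F) 𝔫))
    (hUFD3 : ∀ (𝔫 : Ideal R) [𝔫.IsPrime], 𝔫.IsMaximal → P 𝔫 →
      (∀ i, centre (V i) (hV i) ≤ 𝔫) → UniqueFactorizationMonoid (locAt (F := F) 𝔫)) :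
    ∀ (𝔫 : Ideal R) [𝔫.IsPrime], 𝔫.IsMaximal → P 𝔫 → OnePoint V hV 𝔫 ∨ TriplePoint V hV 𝔫 := by
  refine hpt_of_cases hclass ?_ ?_
  · intro 𝔫 _ h𝔫 hP i₀ hi₀ honly
    refine ⟨?_, hPID 𝔫 h𝔫 hP i₀ hi₀⟩
    fin_cases i₀
    · exact hUFD0 𝔫 h𝔫 hP hi₀ honly
    · exact hUFD1 𝔫 h𝔫 hP hi₀ honly (hPID 𝔫 h𝔫 hP 1 hi₀)
    · exact hUFD2 𝔫 h𝔫 hP hi₀ honly
  · intro 𝔫 _ h𝔫 hP ht
    exact ⟨hUFD3 𝔫 h𝔫 hP ht, fun i => hPID 𝔫 h𝔫 hP i (ht i)⟩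

end Fermat.Agent.S36.Descent.SpinePoints
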