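/-
S36, Spine, the point dispatcher on the concrete finite chart (helper29): **the hypothesis `hpt` of
`Descent/SpineRootsTop.rootsInterface_top`** (`OnePoint ∨ TriplePoint` at every closed point `𝔫 ∋ π`
of `Rfin K (M0 q q) O`, for the family `fam3 K M0 q O T.V11 T.V02`) **from `T : ThreeVal`, the chart
hypothesis `Hp`, the two `InsepData` packages and the branches being Dedekind domains which are not
fields** (`hD`, `hnf`: block [BRANCH], `One/BranchTop`).

`hpt_top = SpinePoints.hpt_of_blocks` with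

* `hclass` := `Points/ClassifyTop.hclass_top'` (helper11; [R1], [R2] discharged);
* `hPID`   := `One/BranchDedekind.isPrincipalIdealRing_quotient_centre` (helper6) from `hD`;
* `hUFD0`, `hUFD2` := `One/OneTop.hUFD0/hUFD2` (helper21) from `hD 0`, `hnf 0`, `hD 2`, `hnf 2`;
* `hUFD1`  := `One/OneTopMid.hUFD1` (helper21; [R3] for `q` odd, [ONE] for `q = 2`) from `hD 1`,
              `hnf 1`, `hπ`;
* `hUFD3`  := `Points/TripleUfdTop.hUFD3_top` (helper11; [R2]).

`hPID_of_dedekind` is the (R-b) input alone (any chart). `hpt_top'` = `hpt_top` with `hD`, `hnf`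
DISCHARGED by `One/BranchTop.isDedekindDomain_fin/not_isField_fin` (helper6): its only inputs are
`T`, `Hp`, `hπ`, the two `InsepData` packages and the level facts at the base level `M0`.
-/
import Mathlib
import Fermat.Agent.S36.Descent.SpinePoints
import Fermat.Agent.S36.Points.TripleUfdTop
import Fermat.Agent.S36.One.OneTopMid
import Fermat.Agent.S36.One.BranchDedekind
import Fermat.Agent.S36.One.BranchTop

set_option autoImplicit false
set_option linter.unusedSectionVars false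
set_option linter.unusedVariables false
set_option linter.style.haveILetI false

open ModularCurve Fermat.Agent.S28.Gauss Fermat.Agent.N4.Chart Fermat.Agent.N4.Setting
  Fermat.Agent.N4.FibreEmbedding Fermat.Agent.N4F.E.GaussDVR Fermat.Agent.N4F.E.DegreeLevelRaise
  Fermat.Agent.P3G.SecondValuation Fermat.Agent.P3G.LevelIntegrality
  Fermat.Agent.S36.V.ThreeVal Fermat.Agent.S36.C.ThreeValCover
  Fermat.Agent.S36.Local.LocalRoot Fermat.Agent.S36.Local.ChartSpread Fermat.Agent.S36.D.ChartRoots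
  Fermat.Agent.N4.Cover.Globalize Fermat.Agent.P3G.Krull
  Fermat.Agent.S36.R2.TripleHom Fermat.Agent.S36.R2.TripleGlue Fermat.Agent.S36.R2.ChartMaps
  Fermat.Agent.S36.Descent.LocalRootsBoth

noncomputable section

namespace Fermat.Agent.S36.Descent.SpinePointsTop

universe u

/-! ### (R-b) at every branch through every point, from the branch being Dedekind (any chart) -/

section Branch

variable {R : Type*} [CommRing R] [IsDomain R] [IsNoetherianRing R]
variable {F : Type u} [Field F] [Algebra R F] [IsFractionRing R F]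
variable {ι : Type*} {V : ι → ValuationSubring F} {hV : ∀ i (r : R), algebraMap R F r ∈ V i}

/-- **`hPID` of `SpinePoints.hpt_of_blocks`** (any chart, any family, any point predicate): (R-b)
at every branch through every point, from the branches being Dedekind domains. -/
theorem hPID_of_dedekind {P : Ideal R → Prop}
    (hD : ∀ i, IsDedekindDomain (R ⧸ vCentre (V i) (hV i))) :
    ∀ (𝔫 : Ideal R) [𝔫.IsPrime], 𝔫.IsMaximal → P 𝔫 →
      ∀ i (hi : centre (V i) (hV i) ≤ 𝔫), IsPrincipalIdealRing (locAt (F := F) 𝔫 ⧸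
        centre (V i) (fun b => locAt_le 𝔫 (V i) (hV i) hi b)) := by
  intro 𝔫 _ _ _ i hi
  have hle : vCentre (V i) (hV i) ≤ 𝔫 := by
    rwa [Fermat.Agent.S36.One.OneTop.vCentre_eq_centre]
  exact Fermat.Agent.S36.One.BranchDedekind.isPrincipalIdealRing_quotient_centre (V i) (hV i) 𝔫 hle
    (hD i)

end Branch

/-! ### The dispatcher on `Rfin K (M0 q q) O` -/

variable {K : Type} [Field K] [CharZero K] {M0 q : ℕ} [NeZero M0] [hq : Fact q.Prime]
  {O : Subring K} [IsDiscreteValuationRing ↥O] [IsFractionRing ↥O K]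
  [CharP (IsLocalRing.ResidueField ↥O) q]
  {sv : SecondVal K M0 q O} (T : ThreeVal K M0 q O sv)

/-- **`hpt` of `SpineRootsTop.rootsInterface_top`**: every closed point `𝔫 ∋ π` of the finite chart
of level `q² M₀` is a `OnePoint` or a `TriplePoint` of the family `fam3 K M0 q O T.V11 T.V02`. -/
theorem hpt_top [PerfectRing (IsLocalRing.ResidueField ↥O) q]
    [IsNoetherianRing ↥(Rfin K (M0 * q * q) O)]
    [IsFractionRing ↥(Rfin K (M0 * q * q) O) (FF K (M0 * q * q))]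
    (hN : IsUnit ((M0 : ℕ) : ↥O)) (ι : K →+* ℂ) (hqM0 : ¬ q ∣ M0)
    (hprime : (fibreIdeal K M0 O (Rfin K M0 O)).IsPrime)
    (hsmooth : IsDedekindDomain (↥(Rfin K M0 O) ⧸ fibreIdeal K M0 O (Rfin K M0 O)))
    (hA2 : ∀ x : ↥(gaussSubalgebra K M0 O),
      theta K M0 O x ∈ modularFunctionFieldFullC (IsLocalRing.ResidueField ↥O) M0)
    {θ₂ : ↥(gaussVS K (M0 * q * q) O) →+* LaurentSeries (IsLocalRing.ResidueField ↥O)}
    (hIα : InsepData K M0 q O (alphaF K (M0 * q) q) sv.V T.V02 T.ev02)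
    (hIβ : InsepData K M0 q O (betaF K (M0 * q) q) (gaussVS K (M0 * q) O)
      (gaussVS K (M0 * q * q) O) θ₂)
    {ϖ : ↥O} (hϖ : Irreducible ϖ) (hunr : Associated (((q : ℕ) : ↥O)) ϖ)
    (hodd : q ≠ 2 → 2 * 2 ∣ M0) (heven : q = 2 → 9 ∣ M0)
    {hVp : ∀ i (r : ↥(Rfin K (M0 * q * q) O)),
      algebraMap ↥(Rfin K (M0 * q * q) O) (FF K (M0 * q * q)) r ∈ fam3 K M0 q O T.V11 T.V02 i}
    {π : ↥O} {E : ℕ} (Hp : ChartHyp (fam3 K M0 q O T.V11 T.V02) hVp π E)
    (hπ : algebraMap ↥(Rfin K (M0 * q * q) O) (FF K (M0 * q * q))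
      (algebraMap ↥O ↥(Rfin K (M0 * q * q) O) π) = ((q : ℕ) : FF K (M0 * q * q)))
    (hD : ∀ i, IsDedekindDomain
      (↥(Rfin K (M0 * q * q) O) ⧸ vCentre (fam3 K M0 q O T.V11 T.V02 i) (hVp i)))
    (hnf : ∀ i, ¬ IsField
      (↥(Rfin K (M0 * q * q) O) ⧸ vCentre (fam3 K M0 q O T.V11 T.V02 i) (hVp i))) :
    ∀ (𝔫 : Ideal ↥(Rfin K (M0 * q * q) O)) [𝔫.IsPrime], 𝔫.IsMaximal →
      algebraMap ↥O ↥(Rfin K (M0 * q * q) O) π ∈ 𝔫 →
      OnePoint (fam3 K M0 q O T.V11 T.V02) hVp 𝔫 ∨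
        TriplePoint (fam3 K M0 q O T.V11 T.V02) hVp 𝔫 := by
  haveI : NeZero q := ⟨hq.out.ne_zero⟩
  exact Fermat.Agent.S36.Descent.SpinePoints.hpt_of_blocks
    (P := fun 𝔫 => algebraMap ↥O ↥(Rfin K (M0 * q * q) O) π ∈ 𝔫)
    (Fermat.Agent.S36.Points.ClassifyTop.hclass_top' T hN ι hqM0 hprime hsmooth hA2 hIα hIβ hϖ hunr
      hodd heven Hp)
    (hPID_of_dedekind hD)
    (Fermat.Agent.S36.One.OneTop.hUFD0 Hp rfl (hD 0) (hnf 0))
    (Fermat.Agent.S36.One.OneTopMid.hUFD1 T Hp rfl hπ hodd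
      (Fermat.Agent.S36.R3.GeneratorFinal.hRa_Rfin K M0 q O)
      (Fermat.Agent.S36.R3.GeneratorFinal.hRb_Rfin K M0 q O) (hD 1) (hnf 1))
    (Fermat.Agent.S36.One.OneTop.hUFD2 T Hp rfl (hD 2) (hnf 2))
    (Fermat.Agent.S36.Points.TripleUfdTop.hUFD3_top T hN ι hqM0 hprime hsmooth hA2 hIα hϖ hunr
      hodd heven)

/-- **`hpt` of `SpineRootsTop.rootsInterface_top`, block [BRANCH] discharged** (`hD`, `hnf` from
`One/BranchTop`). -/
theorem hpt_top' [PerfectRing (IsLocalRing.ResidueField ↥O) q]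
    [IsNoetherianRing ↥(Rfin K (M0 * q * q) O)]
    [IsFractionRing ↥(Rfin K (M0 * q * q) O) (FF K (M0 * q * q))]
    (hN : IsUnit ((M0 : ℕ) : ↥O)) (ι : K →+* ℂ) (hqM0 : ¬ q ∣ M0)
    (hprime : (fibreIdeal K M0 O (Rfin K M0 O)).IsPrime)
    (hsmooth : IsDedekindDomain (↥(Rfin K M0 O) ⧸ fibreIdeal K M0 O (Rfin K M0 O)))
    (hA2 : ∀ x : ↥(gaussSubalgebra K M0 O),
      theta K M0 O x ∈ modularFunctionFieldFullC (IsLocalRing.ResidueField ↥O) M0)
    {θ₂ : ↥(gaussVS K (M0 * q * q) O) →+* LaurentSeries (IsLocalRing.ResidueField ↥O)}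
    (hIα : InsepData K M0 q O (alphaF K (M0 * q) q) sv.V T.V02 T.ev02)
    (hIβ : InsepData K M0 q O (betaF K (M0 * q) q) (gaussVS K (M0 * q) O)
      (gaussVS K (M0 * q * q) O) θ₂)
    {ϖ : ↥O} (hϖ : Irreducible ϖ) (hunr : Associated (((q : ℕ) : ↥O)) ϖ)
    (hodd : q ≠ 2 → 2 * 2 ∣ M0) (heven : q = 2 → 9 ∣ M0)
    {hVp : ∀ i (r : ↥(Rfin K (M0 * q * q) O)),
      algebraMap ↥(Rfin K (M0 * q * q) O) (FF K (M0 * q * q)) r ∈ fam3 K M0 q O T.V11 T.V02 i}
    {π : ↥O} {E : ℕ} (Hp : ChartHyp (fam3 K M0 q O T.V11 T.V02) hVp π E)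
    (hπ : algebraMap ↥(Rfin K (M0 * q * q) O) (FF K (M0 * q * q))
      (algebraMap ↥O ↥(Rfin K (M0 * q * q) O) π) = ((q : ℕ) : FF K (M0 * q * q))) :
    ∀ (𝔫 : Ideal ↥(Rfin K (M0 * q * q) O)) [𝔫.IsPrime], 𝔫.IsMaximal →
      algebraMap ↥O ↥(Rfin K (M0 * q * q) O) π ∈ 𝔫 →
      OnePoint (fam3 K M0 q O T.V11 T.V02) hVp 𝔫 ∨
        TriplePoint (fam3 K M0 q O T.V11 T.V02) hVp 𝔫 :=
  hpt_top T hN ι hqM0 hprime hsmooth hA2 hIα hIβ hϖ hunr hodd heven Hp hπ
    (Fermat.Agent.S36.One.BranchTop.isDedekindDomain_fin K M0 q O T ι hqM0 hN hA2 hprime hsmooth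
      hVp)
    (Fermat.Agent.S36.One.BranchTop.not_isField_fin K M0 q O T ι hqM0 hN hA2 hprime hsmooth hVp)

end Fermat.Agent.S36.Descent.SpinePointsTop
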