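/-
S36, spine (helper8): **the interface `LevelCore.RootsInterface` at the concrete charts of the top
level `M0 q²`**, for the family `V = fam3 = ![V20, V11, V02]`, `W = ⋂ V i`, `s = j`.

ONE application of helper29's `LocalRootsBoth.localRoots_both_of_goodNorm` on
`Rfin K (M0 q q) O = chartAlg ↥O (FF K N) {jF K N}` and `Rinf K (M0 q q) O = chartAlg … {(jF K N)⁻¹}`,
from the NAMED block hypotheses in their landed shapes:

* `Hp`, `Hm`   : `ChartRoots.ChartHyp` on the two charts (block CH-I);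
* `hpt`        : `OnePoint ∨ TriplePoint` at the closed points of the special fibre of `Rfin`
                 (`Descent/SpinePoints`: [PTS] + [ONE] + [R2] + [R3] + [BRANCH]);
* `hcusp`      : `OnePoint` at the cusps of `Rinf` ([CUSP]);
* `hrel`       : the two residue relations at the triple points (block [I-T] via
                 `LocalRootsInst.hrel_at`), for every `h` with the global properties;
* `hU`, `he`   : units of `O` are units of `U j`; `e` is a unit of `O`.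

`rootsInterface_top` : instance arguments for the two charts left to the caller (they are `Prop`s:
any proofs do; `chartInstances` gives the four of them at every level);
`valuation_unit_baseFam` : the hypothesis `hU` for `U = ConstHypInst.baseFam sv = ![V10, V01]`.
-/
import Mathlib
import Fermat.Agent.S36.Descent.LevelCore
import Fermat.Agent.S36.Descent.LocalRootsBoth
import Fermat.Agent.S36.C.ThreeValCover
import Fermat.Agent.N4F.C.ChartDataLevel
import Fermat.Agent.S36.Descent.ConstHypInst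

set_option autoImplicit false
set_option linter.unusedSectionVars false
set_option linter.style.haveILetI false

open ModularCurve Fermat.Agent.N4.Setting Fermat.Agent.N4.Chart
open Fermat.Agent.N4.Cover.Globalize
open Fermat.Agent.P3G.Cover.OfValuations
open Fermat.Agent.S36.C.ThreeValCover
open Fermat.Agent.S36.Local.Spread Fermat.Agent.S36.Local.LocalRoot Fermat.Agent.S36.D.RootData
open Fermat.Agent.S36.D.ChartRoots
open Fermat.Agent.S36.Descent.NormPlumb Fermat.Agent.S36.Descent.GlueConst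
open Fermat.Agent.S36.Descent.LocalRootsBoth Fermat.Agent.S36.Descent.LevelCore
open Fermat.Agent.S36.Alg.ChartTransfer (gen)

noncomputable section

namespace Fermat.Agent.S36.Descent.SpineRootsTop

variable {K : Type} [Field K] [CharZero K] {M0 q : ℕ} [NeZero M0] [NeZero q]
  {O : Subring K} [IsDiscreteValuationRing ↥O] [IsFractionRing ↥O K]

/-- `jF ≠ 0`. -/
theorem jF_ne_zero (N : ℕ) [NeZero N] : jF K N ≠ 0 := by
  intro h
  have := Fermat.Agent.N4.FFAlgebraic.transcendental_jF K N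
  rw [h] at this
  exact this (isAlgebraic_zero)

/-- `W = ⋂ V i` contains everything lying in all the `V i`. -/
theorem mem_iInf_of_forall {F : Type*} [Field F] {ι' : Type*} (V : ι' → ValuationSubring F)
    (w : F) (hw : ∀ i, w ∈ V i) : w ∈ iInfSubring V :=
  (mem_iInfSubring V w).2 hw

/-- **`RootsInterface` at the top level**, instances of the two charts as arguments. -/
theorem rootsInterface_top
    [IsNoetherianRing ↥(Rfin K (M0 * q * q) O)]
    [IsFractionRing ↥(Rfin K (M0 * q * q) O) (FF K (M0 * q * q))]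
    [IsNoetherianRing ↥(Rinf K (M0 * q * q) O)]
    [IsFractionRing ↥(Rinf K (M0 * q * q) O) (FF K (M0 * q * q))]
    {F1 : Type*} [Field F1] [Algebra ↥O F1]
    {V11 V02 : ValuationSubring (FF K (M0 * q * q))}
    {hVp : ∀ i (r : ↥(Rfin K (M0 * q * q) O)),
      algebraMap ↥(Rfin K (M0 * q * q) O) (FF K (M0 * q * q)) r ∈ fam3 K M0 q O V11 V02 i}
    {hVm : ∀ i (r : ↥(Rinf K (M0 * q * q) O)),
      algebraMap ↥(Rinf K (M0 * q * q) O) (FF K (M0 * q * q)) r ∈ fam3 K M0 q O V11 V02 i}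
    {ϖ : ↥O} {E E' : ℕ}
    (Hp : ChartHyp (fam3 K M0 q O V11 V02) hVp ϖ E)
    (Hm : ChartHyp (fam3 K M0 q O V11 V02) hVm ϖ E')
    (hpt : ∀ (𝔫 : Ideal ↥(Rfin K (M0 * q * q) O)) [𝔫.IsPrime], 𝔫.IsMaximal →
      algebraMap ↥O ↥(Rfin K (M0 * q * q) O) ϖ ∈ 𝔫 →
      OnePoint (fam3 K M0 q O V11 V02) hVp 𝔫 ∨ TriplePoint (fam3 K M0 q O V11 V02) hVp 𝔫)
    (hcusp : ∀ (𝔫 : Ideal ↥(Rinf K (M0 * q * q) O)) [𝔫.IsPrime], 𝔫.IsMaximal →
      algebraMap ↥O ↥(Rinf K (M0 * q * q) O) ϖ ∈ 𝔫 →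
      gen (O := ↥O) (jF K (M0 * q * q))⁻¹ ∈ 𝔫 → OnePoint (fam3 K M0 q O V11 V02) hVm 𝔫)
    {e : ℕ} (he : IsUnit ((e : ℕ) : ↥O))
    {Nα Nβ : FF K (M0 * q * q) →* F1} (U : Fin 2 → ValuationSubring F1)
    (hU : ∀ c : ↥O, IsUnit c → ∀ j, (U j).valuation (algebraMap ↥O F1 c) = 1)
    (p : ℕ)
    (hrel : ∀ h : FF K (M0 * q * q),
      (∀ i, Cong (fam3 K M0 q O V11 V02 i) (algebraMap ↥O (FF K (M0 * q * q)) ϖ) (h - 1)) →
      Horizontal K e h →
      ∀ (cα sα tα cβ sβ tβ : (↥O)ˣ) (Hα Hβ : F1),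
      Nα h = algebraMap ↥O F1 cα * Hα ^ e →
      Hα - algebraMap ↥O F1 sα ∈ (U 0).nonunits → Hα - algebraMap ↥O F1 tα ∈ (U 1).nonunits →
      Nβ h = algebraMap ↥O F1 cβ * Hβ ^ e →
      Hβ - algebraMap ↥O F1 sβ ∈ (U 0).nonunits → Hβ - algebraMap ↥O F1 tβ ∈ (U 1).nonunits →
      ∀ (𝔫 : Ideal ↥(Rfin K (M0 * q * q) O)) [𝔫.IsPrime], 𝔫.IsMaximal →
      algebraMap ↥O ↥(Rfin K (M0 * q * q) O) ϖ ∈ 𝔫 →
      (∀ i, centre (fam3 K M0 q O V11 V02 i) (hVp i) ≤ 𝔫) →
      ∀ D : RootDatum (locAt (F := FF K (M0 * q * q)) 𝔫) (fam3 K M0 q O V11 V02) e h,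
      ¬ IsUnit (algebraMap ↥(Rfin K (M0 * q * q) O) (locAt (F := FF K (M0 * q * q)) 𝔫)
          (unitR (R := ↥(Rfin K (M0 * q * q) O)) tα) * D.y 0 * D.y 1 ^ p -
        algebraMap ↥(Rfin K (M0 * q * q) O) (locAt (F := FF K (M0 * q * q)) 𝔫)
          (unitR (R := ↥(Rfin K (M0 * q * q) O)) sα) * D.y 2 ^ (p + 1)) ∧
      ¬ IsUnit (algebraMap ↥(Rfin K (M0 * q * q) O) (locAt (F := FF K (M0 * q * q)) 𝔫)
          (unitR (R := ↥(Rfin K (M0 * q * q) O)) sβ) * D.y 2 * D.y 1 ^ p -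
        algebraMap ↥(Rfin K (M0 * q * q) O) (locAt (F := FF K (M0 * q * q)) 𝔫)
          (unitR (R := ↥(Rfin K (M0 * q * q) O)) tβ) * D.y 0 ^ (p + 1))) :
    RootsInterface ↥O K Nα Nβ U (fam3 K M0 q O V11 V02) ϖ
      (iInfSubring (fam3 K M0 q O V11 V02)) (jF K (M0 * q * q)) p e := by
  intro h hh1 hhor gα gβ hNα1 hNβ1
  exact localRoots_both_of_goodNorm (K₀ := K) (jF K (M0 * q * q)) (jF_ne_zero (M0 * q * q))
    Hp Hm (mem_iInf_of_forall _) hpt hcusp he hh1 hhor U hU gα gβ hNα1 hNβ1 p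
    (hrel h hh1 hhor)

/-- The four chart instances at a level `N` (from `N4F/C/ChartDataLevel`). -/
theorem chartInstances (K : Type) [Field K] [CharZero K] (N : ℕ) [NeZero N]
    (O : Subring K) [IsDiscreteValuationRing ↥O] [IsFractionRing ↥O K] :
    IsNoetherianRing ↥(Rfin K N O) ∧ IsFractionRing ↥(Rfin K N O) (FF K N) ∧
      IsNoetherianRing ↥(Rinf K N O) ∧ IsFractionRing ↥(Rinf K N O) (FF K N) :=
  ⟨Fermat.Agent.N4F.C.ChartDataLevel.isNoetherianRing_Rfin K N O,
    Fermat.Agent.N4F.C.ChartDataLevel.isFractionRing_Rfin K N O,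
    Fermat.Agent.N4F.C.ChartDataLevel.isNoetherianRing_Rinf K N O,
    Fermat.Agent.N4F.C.ChartDataLevel.isFractionRing_Rinf K N O⟩

section BaseFam

open Fermat.Agent.P3G.SecondValuation Fermat.Agent.S36.Descent.ConstHypInst

variable {K : Type} [Field K] [CharZero K] {M0 q : ℕ} [NeZero M0] [Fact q.Prime]
  {O : Subring K} [IsDiscreteValuationRing ↥O] [IsFractionRing ↥O K]

/-- Constants of `O` lie in `V10` and `V01`. -/
theorem algebraMap_mem_baseFam (sv : SecondVal K M0 q O) (c : ↥O) (j : Fin 2) :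
    algebraMap ↥O (FF K (M0 * q)) c ∈ baseFam sv j := by
  fin_cases j
  · exact algebraMap_mem_gaussVS K O (M0 * q) c
  · exact algebraMap_mem_secondVal sv c

/-- **`hU`**: units of `O` have valuation one in `V10` and `V01`. -/
theorem valuation_unit_baseFam (sv : SecondVal K M0 q O) (c : ↥O) (hc : IsUnit c) (j : Fin 2) :
    (baseFam sv j).valuation (algebraMap ↥O (FF K (M0 * q)) c) = 1 := by
  obtain ⟨u, rfl⟩ := hc
  have h1 : (baseFam sv j).valuation (algebraMap ↥O (FF K (M0 * q)) (u : ↥O)) ≤ 1 :=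
    ((baseFam sv j).valuation_le_one_iff _).2 (algebraMap_mem_baseFam sv _ j)
  have h2 : (baseFam sv j).valuation (algebraMap ↥O (FF K (M0 * q)) ((u⁻¹ : (↥O)ˣ) : ↥O)) ≤ 1 :=
    ((baseFam sv j).valuation_le_one_iff _).2 (algebraMap_mem_baseFam sv _ j)
  have h3 : (baseFam sv j).valuation (algebraMap ↥O (FF K (M0 * q)) (u : ↥O)) *
      (baseFam sv j).valuation (algebraMap ↥O (FF K (M0 * q)) ((u⁻¹ : (↥O)ˣ) : ↥O)) = 1 := by
    rw [← map_mul, ← map_mul, Units.mul_inv, map_one, map_one]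
  refine le_antisymm h1 ?_
  calc (1 : _) = (baseFam sv j).valuation (algebraMap ↥O (FF K (M0 * q)) (u : ↥O)) *
        (baseFam sv j).valuation (algebraMap ↥O (FF K (M0 * q)) ((u⁻¹ : (↥O)ˣ) : ↥O)) := h3.symm
    _ ≤ (baseFam sv j).valuation (algebraMap ↥O (FF K (M0 * q)) (u : ↥O)) * 1 :=
        mul_le_mul_right h2 _
    _ = _ := mul_one _

end BaseFam

end Fermat.Agent.S36.Descent.SpineRootsTop
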