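/-
S36 SPINE, roots side (helper19): **the interface `LevelCore.RootsInterface` over a `ThreeVal`,
generic in the base `(K, O)`.**

`rootsInterface_of_blocks` : `SpineRootsTop.rootsInterface_top` at `U = baseFam sv = ![V10, V01]`,
`ϖ = q`, `Nα Nβ = normAlong α₂ / β₂`, `p = q - 1`, from the five block outputs in their landed shapes:
`Hp`, `Hm` (CH-I), `hpt` ([PTS] + [ONE] + [R2] + [R3] + [BRANCH]), `hcusp` ([CUSP]), `hrel` ([I-T]).
-/
import Mathlib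
import Fermat.Agent.S36.Descent.SpineRootsTop
import Fermat.Agent.S36.Descent.SpineFinal
import Fermat.Agent.S36.Descent.SpinePointsTop
import Fermat.Agent.S36.D.ChartHypGen
import Fermat.Agent.S36.D.SplitInstBeta
import Fermat.Agent.S36.R2.TripleThreeVal
import Fermat.Agent.S36.Cusp.InstFinal
import Fermat.Agent.S36.V.ThreeVal
import Fermat.Agent.P4.FrobStep

set_option autoImplicit false
set_option linter.unusedSectionVars false
set_option linter.style.haveILetI false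

open ModularCurve Fermat.Agent.N4.Setting Fermat.Agent.N4.Chart
open Fermat.Agent.N4.Cover.Globalize
open Fermat.Agent.N4F.E.DegreeLevelRaise
open Fermat.Agent.P3G.Cover.OfValuations Fermat.Agent.P3G.SecondValuation
open Fermat.Agent.S36.C.ThreeValCover Fermat.Agent.S36.V.ThreeVal
open Fermat.Agent.S36.Local.Spread Fermat.Agent.S36.Local.LocalRoot Fermat.Agent.S36.D.RootData
open Fermat.Agent.S36.D.ChartRoots
open Fermat.Agent.S36.Descent.NormPlumb Fermat.Agent.S36.Descent.GlueConst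
open Fermat.Agent.S36.Descent.LocalRootsBoth Fermat.Agent.S36.Descent.LevelCore
open Fermat.Agent.S36.Descent.ConstHypInst Fermat.Agent.S36.Descent.SpineRootsTop
open Fermat.Agent.S36.Alg.ChartTransfer (gen)
open Fermat.Agent.P4.FrobStep

noncomputable section

namespace Fermat.Agent.S36.Descent.SpineRootsFinal

variable {K : Type} [Field K] [CharZero K] {M0 q : ℕ} [NeZero M0] [hq : Fact q.Prime]
  {O : Subring K} [IsDiscreteValuationRing ↥O] [IsFractionRing ↥O K]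
  {sv : SecondVal K M0 q O}

set_option maxHeartbeats 1600000 in
set_option synthInstance.maxHeartbeats 400000 in
/-- **`RootsInterface` over a `ThreeVal` from the five block outputs.** -/
theorem rootsInterface_of_blocks (T : ThreeVal K M0 q O sv)
    [IsNoetherianRing ↥(Rfin K (M0 * q * q) O)]
    [IsFractionRing ↥(Rfin K (M0 * q * q) O) (FF K (M0 * q * q))]
    [IsNoetherianRing ↥(Rinf K (M0 * q * q) O)]
    [IsFractionRing ↥(Rinf K (M0 * q * q) O) (FF K (M0 * q * q))]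
    {hVp : ∀ i (r : ↥(Rfin K (M0 * q * q) O)),
      algebraMap ↥(Rfin K (M0 * q * q) O) (FF K (M0 * q * q)) r ∈
        fam3 K M0 q O T.V11 T.V02 i}
    {hVm : ∀ i (r : ↥(Rinf K (M0 * q * q) O)),
      algebraMap ↥(Rinf K (M0 * q * q) O) (FF K (M0 * q * q)) r ∈
        fam3 K M0 q O T.V11 T.V02 i}
    {E E' : ℕ}
    (Hp : ChartHyp (fam3 K M0 q O T.V11 T.V02) hVp ((q : ℕ) : ↥O) E)
    (Hm : ChartHyp (fam3 K M0 q O T.V11 T.V02) hVm ((q : ℕ) : ↥O) E')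
    (hpt : ∀ (𝔫 : Ideal ↥(Rfin K (M0 * q * q) O)) [𝔫.IsPrime], 𝔫.IsMaximal →
      algebraMap ↥O ↥(Rfin K (M0 * q * q) O) ((q : ℕ) : ↥O) ∈ 𝔫 →
      OnePoint (fam3 K M0 q O T.V11 T.V02) hVp 𝔫 ∨
        TriplePoint (fam3 K M0 q O T.V11 T.V02) hVp 𝔫)
    (hcusp : ∀ (𝔫 : Ideal ↥(Rinf K (M0 * q * q) O)) [𝔫.IsPrime], 𝔫.IsMaximal →
      algebraMap ↥O ↥(Rinf K (M0 * q * q) O) ((q : ℕ) : ↥O) ∈ 𝔫 →
      gen (O := ↥O) (jF K (M0 * q * q))⁻¹ ∈ 𝔫 → OnePoint (fam3 K M0 q O T.V11 T.V02) hVm 𝔫)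
    {e : ℕ} (he : IsUnit ((e : ℕ) : ↥O))
    (hrel : ∀ h : FF K (M0 * q * q),
      (∀ i, Cong (fam3 K M0 q O T.V11 T.V02 i)
        (algebraMap ↥O (FF K (M0 * q * q)) ((q : ℕ) : ↥O)) (h - 1)) →
      Horizontal K e h →
      ∀ (cα sα tα cβ sβ tβ : (↥O)ˣ) (Hα Hβ : FF K (M0 * q)),
      normAlong (alphaF K (M0 * q) q) h = algebraMap ↥O (FF K (M0 * q)) cα * Hα ^ e →
      Hα - algebraMap ↥O (FF K (M0 * q)) sα ∈ (baseFam sv 0).nonunits →
      Hα - algebraMap ↥O (FF K (M0 * q)) tα ∈ (baseFam sv 1).nonunits →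
      normAlong (betaF K (M0 * q) q) h = algebraMap ↥O (FF K (M0 * q)) cβ * Hβ ^ e →
      Hβ - algebraMap ↥O (FF K (M0 * q)) sβ ∈ (baseFam sv 0).nonunits →
      Hβ - algebraMap ↥O (FF K (M0 * q)) tβ ∈ (baseFam sv 1).nonunits →
      ∀ (𝔫 : Ideal ↥(Rfin K (M0 * q * q) O)) [𝔫.IsPrime], 𝔫.IsMaximal →
      algebraMap ↥O ↥(Rfin K (M0 * q * q) O) ((q : ℕ) : ↥O) ∈ 𝔫 →
      (∀ i, centre (fam3 K M0 q O T.V11 T.V02 i) (hVp i) ≤ 𝔫) →
      ∀ D : RootDatum (locAt (F := FF K (M0 * q * q)) 𝔫) (fam3 K M0 q O T.V11 T.V02) e h,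
      ¬ IsUnit (algebraMap ↥(Rfin K (M0 * q * q) O) (locAt (F := FF K (M0 * q * q)) 𝔫)
          (unitR (R := ↥(Rfin K (M0 * q * q) O)) tα) * D.y 0 * D.y 1 ^ (q - 1) -
        algebraMap ↥(Rfin K (M0 * q * q) O) (locAt (F := FF K (M0 * q * q)) 𝔫)
          (unitR (R := ↥(Rfin K (M0 * q * q) O)) sα) * D.y 2 ^ (q - 1 + 1)) ∧
      ¬ IsUnit (algebraMap ↥(Rfin K (M0 * q * q) O) (locAt (F := FF K (M0 * q * q)) 𝔫)
          (unitR (R := ↥(Rfin K (M0 * q * q) O)) sβ) * D.y 2 * D.y 1 ^ (q - 1) -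
        algebraMap ↥(Rfin K (M0 * q * q) O) (locAt (F := FF K (M0 * q * q)) 𝔫)
          (unitR (R := ↥(Rfin K (M0 * q * q) O)) tβ) * D.y 0 ^ (q - 1 + 1))) :
    RootsInterface ↥O K (normAlong (alphaF K (M0 * q) q)) (normAlong (betaF K (M0 * q) q))
      (baseFam sv) (fam3 K M0 q O T.V11 T.V02) ((q : ℕ) : ↥O)
      (iInfSubring (fam3 K M0 q O T.V11 T.V02)) (jF K (M0 * q * q)) (q - 1) e := by
  exact rootsInterface_top Hp Hm hpt hcusp he (baseFam sv) (valuation_unit_baseFam sv) (q - 1) hrel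

section Final

open Fermat.Agent.S28.Gauss Fermat.Agent.N4.FibreEmbedding Fermat.Agent.S36.D.ChartHypGen

variable [CharP (IsLocalRing.ResidueField ↥O) q] [PerfectRing (IsLocalRing.ResidueField ↥O) q]

set_option maxHeartbeats 1600000 in
set_option synthInstance.maxHeartbeats 400000 in
/-- **`RootsInterface` over a `ThreeVal`**: the blocks CH-I, [PTS]/[ONE]/[R1]/[R2]/[R3]/[BRANCH] and
[CUSP] discharged; the only block input left is `hrel` ([I-T]).  The other hypotheses are the base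
facts at level `M₀` (`Descent/LevelFacts`). -/
theorem rootsInterface_of_hrel (T : ThreeVal K M0 q O sv)
    [IsNoetherianRing ↥(Rfin K (M0 * q * q) O)]
    [IsFractionRing ↥(Rfin K (M0 * q * q) O) (FF K (M0 * q * q))]
    [IsNoetherianRing ↥(Rinf K (M0 * q * q) O)]
    [IsFractionRing ↥(Rinf K (M0 * q * q) O) (FF K (M0 * q * q))]
    (ι : K →+* ℂ) (hqM0 : ¬ q ∣ M0) (hirr : Irreducible ((q : ℕ) : ↥O))
    (hN : IsUnit ((M0 : ℕ) : ↥O))
    (hprime : (fibreIdeal K M0 O (Rfin K M0 O)).IsPrime)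
    (hprimeInf : (fibreIdeal K M0 O (Rinf K M0 O)).IsPrime)
    (hsmooth : IsDedekindDomain (↥(Rfin K M0 O) ⧸ fibreIdeal K M0 O (Rfin K M0 O)))
    (hDedInf : IsDedekindDomain (↥(Rinf K M0 O) ⧸ fibreIdeal K M0 O (Rinf K M0 O)))
    (hA2 : ∀ x : ↥(gaussSubalgebra K M0 O),
      theta K M0 O x ∈ modularFunctionFieldFullC (IsLocalRing.ResidueField ↥O) M0)
    (hodd : q ≠ 2 → 2 * 2 ∣ M0) (heven : q = 2 → 9 ∣ M0)
    {e : ℕ} (he : IsUnit ((e : ℕ) : ↥O))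
    (hrel : ∀ h : FF K (M0 * q * q),
      (∀ i, Cong (fam3 K M0 q O T.V11 T.V02 i)
        (algebraMap ↥O (FF K (M0 * q * q)) ((q : ℕ) : ↥O)) (h - 1)) →
      Horizontal K e h →
      ∀ (cα sα tα cβ sβ tβ : (↥O)ˣ) (Hα Hβ : FF K (M0 * q)),
      normAlong (alphaF K (M0 * q) q) h = algebraMap ↥O (FF K (M0 * q)) cα * Hα ^ e →
      Hα - algebraMap ↥O (FF K (M0 * q)) sα ∈ (baseFam sv 0).nonunits →
      Hα - algebraMap ↥O (FF K (M0 * q)) tα ∈ (baseFam sv 1).nonunits →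
      normAlong (betaF K (M0 * q) q) h = algebraMap ↥O (FF K (M0 * q)) cβ * Hβ ^ e →
      Hβ - algebraMap ↥O (FF K (M0 * q)) sβ ∈ (baseFam sv 0).nonunits →
      Hβ - algebraMap ↥O (FF K (M0 * q)) tβ ∈ (baseFam sv 1).nonunits →
      ∀ (𝔫 : Ideal ↥(Rfin K (M0 * q * q) O)) [𝔫.IsPrime], 𝔫.IsMaximal →
      algebraMap ↥O ↥(Rfin K (M0 * q * q) O) ((q : ℕ) : ↥O) ∈ 𝔫 →
      (∀ i, centre (fam3 K M0 q O T.V11 T.V02 i) (hVp_of_threeVal T i) ≤ 𝔫) →
      ∀ D : RootDatum (locAt (F := FF K (M0 * q * q)) 𝔫) (fam3 K M0 q O T.V11 T.V02) e h,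
      ¬ IsUnit (algebraMap ↥(Rfin K (M0 * q * q) O) (locAt (F := FF K (M0 * q * q)) 𝔫)
          (unitR (R := ↥(Rfin K (M0 * q * q) O)) tα) * D.y 0 * D.y 1 ^ (q - 1) -
        algebraMap ↥(Rfin K (M0 * q * q) O) (locAt (F := FF K (M0 * q * q)) 𝔫)
          (unitR (R := ↥(Rfin K (M0 * q * q) O)) sα) * D.y 2 ^ (q - 1 + 1)) ∧
      ¬ IsUnit (algebraMap ↥(Rfin K (M0 * q * q) O) (locAt (F := FF K (M0 * q * q)) 𝔫)
          (unitR (R := ↥(Rfin K (M0 * q * q) O)) sβ) * D.y 2 * D.y 1 ^ (q - 1) -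
        algebraMap ↥(Rfin K (M0 * q * q) O) (locAt (F := FF K (M0 * q * q)) 𝔫)
          (unitR (R := ↥(Rfin K (M0 * q * q) O)) tβ) * D.y 0 ^ (q - 1 + 1))) :
    RootsInterface ↥O K (normAlong (alphaF K (M0 * q) q)) (normAlong (betaF K (M0 * q) q))
      (baseFam sv) (fam3 K M0 q O T.V11 T.V02) ((q : ℕ) : ↥O)
      (iInfSubring (fam3 K M0 q O T.V11 T.V02)) (jF K (M0 * q * q)) (q - 1) e := by
  have C := Fermat.Agent.S36.Descent.SpineFinal.coverSide_of_threeVal ι hprime hprimeInf hirr T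
  have Hp := chartHyp_fin_of_threeVal T C (hVp_of_threeVal T)
  have Hm := chartHyp_inf_of_threeVal T C (hVm_of_threeVal T)
  have hπ : algebraMap ↥(Rfin K (M0 * q * q) O) (FF K (M0 * q * q))
      (algebraMap ↥O ↥(Rfin K (M0 * q * q) O) ((q : ℕ) : ↥O)) = ((q : ℕ) : FF K (M0 * q * q)) := by
    rw [map_natCast, map_natCast]
  have hpt := Fermat.Agent.S36.Descent.SpinePointsTop.hpt_top' T hN ι hqM0 hprime hsmooth hA2
    (Fermat.Agent.S36.R2.TripleThreeVal.insepData_alpha T)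
    (Fermat.Agent.S36.R2.TripleThreeVal.insepData_beta T ι hqM0) hirr (Associated.refl _)
    hodd heven Hp hπ
  have hcusp := Fermat.Agent.S36.Cusp.InstFinal.hcusp_final T ι hqM0 hN hA2 hprimeInf hDedInf Hm
  exact rootsInterface_of_blocks T Hp Hm hpt hcusp he hrel

end Final

end Fermat.Agent.S36.Descent.SpineRootsFinal
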