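import Mathlib
import Fermat.Agent.S36.Descent.NormPlumb
import Fermat.Agent.S36.V.ThreeVal
import Fermat.Agent.S36.V.CountAlong
import Fermat.Agent.S36.C.ThreeValCover
import Fermat.Agent.S36.Descent.ConstHypInst

/-!
# S36 [Desc-K]/SpineNorm: the `NormPlumb.ValSetting` term from the fields of a `ThreeVal`

`valSetting_of_threeVal`: for `T : ThreeVal K M0 q O sv`, `ϖ` a uniformiser of `O` associated to `q`
(`O` unramified), `U = ![V10, V01]`, `V = ![V20, T.V11, T.V02]`, `π = ϖ`, `Pm = Π = PiElt`.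
-/

set_option autoImplicit false
set_option linter.unusedSectionVars false
set_option linter.style.haveILetI false

namespace Fermat.Agent.S36.Descent.ValSettingInst

open ModularCurve IsLocalRing
open Fermat.Agent.S28.Gauss Fermat.Agent.N4.Setting Fermat.Agent.N4.FibreEmbedding
open Fermat.Agent.N4F.E.DegreeLevelRaise Fermat.Agent.N4F.E.GaussDVR
open Fermat.Agent.P3G Fermat.Agent.P3G.SecondValuation Fermat.Agent.P4.TwoValApprox
open Fermat.Agent.S36.V.MidVal Fermat.Agent.S36.V.ThreeVal Fermat.Agent.S36.V.CountAlong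
open Fermat.Agent.S36.Descent.NormPlumb Fermat.Agent.S36.V.SemiLocalW

/-! ### General valuation lemmas -/

section General

variable {F1 F2 : Type*} [Field F1] [Field F2] (φ : F1 →+* F2)
  {U : ValuationSubring F1} {V : ValuationSubring F2} (hφ : ∀ a, φ a ∈ V ↔ a ∈ U)

include hφ in
/-- Orders are preserved along an embedding with `V.comap φ = U`. -/
theorem hasOrd_map {π c : F1} (hπ : π ≠ 0) {n : ℤ} (h : HasOrd U π c n) :
    HasOrd V (φ π) (φ c) n := by
  unfold HasOrd at *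
  have hvπ : U.valuation π ≠ 0 := (Valuation.ne_zero_iff _).mpr hπ
  have h1 : U.valuation (c * (π ^ n)⁻¹) = 1 := by
    rw [map_mul, map_inv₀, map_zpow₀, h]
    exact mul_inv_cancel₀ (zpow_ne_zero n hvπ)
  have h2 := (val_eq_one_map φ hφ).mpr h1
  rw [map_mul, map_inv₀, map_zpow₀, map_mul, map_inv₀, map_zpow₀] at h2
  have hvφπ : V.valuation (φ π) ≠ 0 := (Valuation.ne_zero_iff _).mpr ((map_ne_zero φ).mpr hπ)
  exact (mul_inv_eq_one₀ (zpow_ne_zero n hvφπ)).mp h2

theorem comap_eq_iff {U : ValuationSubring F1} {V : ValuationSubring F2} (h : V.comap φ = U)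
    (a : F1) : φ a ∈ V ↔ a ∈ U := by
  rw [← h, ValuationSubring.mem_comap]

theorem ne_top_of_mem_nonunits {F : Type*} [Field F] (V : ValuationSubring F) {x : F} (hx0 : x ≠ 0)
    (hx : x ∈ V.nonunits) : V ≠ ⊤ := by
  intro h
  have h1 : x⁻¹ ∈ V := by rw [h]; exact ValuationSubring.mem_top _
  exact (LocVS.mem_nonunits_iff_inv_notMem V hx0).mp hx h1

end General

/-! ### The Gauss valuation is discrete -/

section Gauss

variable (K : Type) [Field K] [CharZero K] (N : ℕ) [NeZero N]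
  (O : Subring K) [IsDiscreteValuationRing ↥O] [IsFractionRing ↥O K]

theorem valuation_eq_one_of_theta_ne_zero (u : gaussSubalgebra K N O) (hu : theta K N O u ≠ 0) :
    (gaussVS K N O).valuation (u : FF K N) = 1 := by
  rw [val_eq_one_iff]
  refine ⟨?_, u.2, inv_mem_of_theta_ne_zero K N O u hu⟩
  intro h0
  apply hu
  have : u = 0 := Subtype.ext h0
  rw [this, map_zero]

/-- hdisc for the Gauss valuation subring. -/
theorem gauss_disc {ϖ : ↥O} (hϖ : Irreducible ϖ) {x : FF K N} (hx : x ≠ 0) :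
    ∃ n : ℤ, (gaussVS K N O).valuation x =
      (gaussVS K N O).valuation (algebraMap K (FF K N) (ϖ : K)) ^ n := by
  have key : ∀ y : gaussSubalgebra K N O, y ≠ 0 → ∃ n : ℕ,
      (gaussVS K N O).valuation (y : FF K N) =
        (gaussVS K N O).valuation (algebraMap K (FF K N) (ϖ : K)) ^ n := by
    intro y hy
    obtain ⟨n, u, hu, rfl⟩ := exists_eq_pow_mul K N O hϖ y hy
    refine ⟨n, ?_⟩
    have h2 : ((unif K N O ϖ ^ n * u : gaussSubalgebra K N O) : FF K N) =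
        algebraMap K (FF K N) (ϖ : K) ^ n * (u : FF K N) := rfl
    rw [h2, map_mul, map_pow, valuation_eq_one_of_theta_ne_zero K N O u hu, mul_one]
  by_cases hmem : x ∈ gaussSubalgebra K N O
  · obtain ⟨n, hn⟩ := key ⟨x, hmem⟩ (fun h => hx (congrArg Subtype.val h))
    exact ⟨n, by rw [hn, zpow_natCast]⟩
  · rcases mem_or_inv_mem K N O x hx with h | ⟨h, -⟩
    · exact absurd h hmem
    · obtain ⟨n, hn⟩ := key ⟨x⁻¹, h⟩ (fun h0 => inv_ne_zero hx (congrArg Subtype.val h0))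
      refine ⟨-n, ?_⟩
      have hn' : (gaussVS K N O).valuation x⁻¹ =
          (gaussVS K N O).valuation (algebraMap K (FF K N) (ϖ : K)) ^ n := hn
      rw [map_inv₀] at hn'
      rw [zpow_neg, zpow_natCast, ← hn', inv_inv]

end Gauss

/-! ### The setting -/

section Main

variable {K : Type} [Field K] [CharZero K] {M0 q : ℕ} [NeZero M0] [hq : Fact q.Prime]
  {O : Subring K} [IsDiscreteValuationRing ↥O] [IsFractionRing ↥O K] {sv : SecondVal K M0 q O}

/-- Units of `O` have valuation one at every valuation subring containing the constants of `O`. -/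
theorem valuation_algebraMap_unit {F : Type*} [Field F] [Algebra K F] (W : ValuationSubring F)
    (hW : ∀ c : ↥O, algebraMap K F (c : K) ∈ W) (u : (↥O)ˣ) :
    W.valuation (algebraMap K F (((u : (↥O)ˣ) : ↥O) : K)) = 1 := by
  have hu0 : (((u : (↥O)ˣ) : ↥O) : K) ≠ 0 := fun h => u.ne_zero (Subtype.ext h)
  have hinv : (((u⁻¹ : (↥O)ˣ) : ↥O) : K) = (((u : (↥O)ˣ) : ↥O) : K)⁻¹ := by
    have h1 : (((u : (↥O)ˣ) : ↥O) : K) * (((u⁻¹ : (↥O)ˣ) : ↥O) : K) = 1 := by
      have h := congrArg Subtype.val u.mul_inv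
      rwa [MulMemClass.coe_mul, OneMemClass.coe_one] at h
    exact eq_inv_of_mul_eq_one_right h1
  rw [val_eq_one_iff]
  refine ⟨(map_ne_zero _).mpr hu0, hW _, ?_⟩
  rw [← map_inv₀, ← hinv]
  exact hW _

theorem algebraMap_mem_V11 (T : ThreeVal K M0 q O sv) (c : ↥O) :
    algebraMap K (FF K (M0 * q * q)) (c : K) ∈ T.V11 := by
  have h1 : algebraMap K (FF K (M0 * q)) (c : K) ∈ gaussVS K (M0 * q) O :=
    (algebraMap ↥O ↥(gaussSubalgebra K (M0 * q) O) c).2
  have h2 := (comap_eq_iff (a2 K M0 q) T.comap_alpha_V11 _).mpr h1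
  have e : a2 K M0 q (algebraMap K (FF K (M0 * q)) (c : K)) =
      algebraMap K (FF K (M0 * q * q)) (c : K) := (alphaF K (M0 * q) q).commutes (c : K)
  rwa [e] at h2

theorem natCast_ne_zero_F2 : ((q : ℕ) : FF K (M0 * q * q)) ≠ 0 := by
  have h : algebraMap K (FF K (M0 * q * q)) ((q : ℕ) : K) ≠ 0 :=
    (map_ne_zero _).mpr (Nat.cast_ne_zero.mpr hq.out.ne_zero)
  rwa [map_natCast] at h

/-- `v11(q) = v11(Π)^(q-1)`. -/
theorem valuation_natCast_V11 (T : ThreeVal K M0 q O sv) :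
    T.V11.valuation ((q : ℕ) : FF K (M0 * q * q)) = T.V11.valuation (PiElt K M0 q) ^ (q - 1) := by
  obtain ⟨w, hw, hw', hqw⟩ := T.ram_V11
  have hw0 : w ≠ 0 := by
    rintro rfl
    rw [zero_mul] at hqw
    exact natCast_ne_zero_F2 hqw
  have h1 : T.V11.valuation w = 1 := (val_eq_one_iff _).mpr ⟨hw0, hw, hw'⟩
  rw [hqw, map_mul, h1, one_mul, map_pow]

/-- `v11(ϖ) = v11(Π)^(q-1)` for a uniformiser `ϖ ~ q`. -/
theorem valuation_unif_V11 (T : ThreeVal K M0 q O sv) {ϖ : ↥O}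
    (hunr : Associated (((q : ℕ) : ↥O)) ϖ) :
    T.V11.valuation (algebraMap K (FF K (M0 * q * q)) (ϖ : K)) =
      T.V11.valuation (PiElt K M0 q) ^ (q - 1) := by
  obtain ⟨u, hu⟩ := hunr
  have e : (ϖ : K) = ((q : ℕ) : K) * (((u : (↥O)ˣ) : ↥O) : K) := by
    have := congrArg Subtype.val hu
    simpa using this.symm
  rw [e, map_mul, map_natCast, map_mul, valuation_algebraMap_unit T.V11 (algebraMap_mem_V11 T) u,
    mul_one, valuation_natCast_V11 T]

theorem PiElt_ne_zero_of_threeVal (T : ThreeVal K M0 q O sv) : PiElt K M0 q ≠ 0 := by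
  intro h0
  apply T.Pi_unit_V02.2
  rw [h0]
  exact LocVS.zero_mem_nonunits _

theorem unif_mem_nonunits_V11 (T : ThreeVal K M0 q O sv) {ϖ : ↥O}
    (hunr : Associated (((q : ℕ) : ↥O)) ϖ) :
    algebraMap K (FF K (M0 * q * q)) (ϖ : K) ∈ T.V11.nonunits := by
  rw [ValuationSubring.mem_nonunits_iff, valuation_unif_V11 T hunr]
  have h1 : T.V11.valuation (PiElt K M0 q) < 1 :=
    (ValuationSubring.mem_nonunits_iff _).mp T.Pi_mem_nonunits
  exact pow_lt_one₀ zero_le h1 (Nat.sub_ne_zero_of_lt hq.out.one_lt)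

/-- The `α`-table over the Gauss base for an abstract `ThreeVal`. -/
theorem twoAlong_alpha_threeVal (ι : K →+* ℂ) (T : ThreeVal K M0 q O sv) {ϖ : ↥O}
    (hϖ : Irreducible ϖ) (hunr : Associated (((q : ℕ) : ↥O)) ϖ) :
    ∃ w : FF K (M0 * q * q),
      TwoAlong (alphaF K (M0 * q) q).toRingHom (gaussVS K (M0 * q) O) (gaussVS K (M0 * q * q) O)
        T.V11 (algebraMap K (FF K (M0 * q)) (ϖ : K)) (q - 1) (PiElt K M0 q) w := by
  obtain ⟨w, hw, -, hqw⟩ := T.ram_V11
  obtain ⟨u, hu⟩ := hunr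
  have e : (ϖ : K) = ((q : ℕ) : K) * (((u : (↥O)ˣ) : ↥O) : K) := by
    have := congrArg Subtype.val hu
    simpa using this.symm
  refine ⟨algebraMap K (FF K (M0 * q * q)) (((u : (↥O)ˣ) : ↥O) : K) * w, ?_⟩
  refine twoAlong_alpha K (M0 * q) q O ι (Dvd.intro_left M0 rfl) hϖ T.V11 ?_
    (unif_mem_nonunits_V11 T ⟨u, hu⟩) T.V11_ne_V20 T.Pi_mem_nonunits
    (T.V11.mul_mem _ _ (algebraMap_mem_V11 T _) hw) ?_
  · intro x hx
    exact (comap_eq_iff (a2 K M0 q) T.comap_alpha_V11 x).mpr hx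
  · rw [e, map_mul, map_natCast, hqw]
    ring

/-- **The valuation setting of a `ThreeVal`.** -/
theorem valSetting_of_threeVal (ι : K →+* ℂ) (hqM0 : ¬ q ∣ M0) {ϖ : ↥O} (hϖ : Irreducible ϖ)
    (hunr : Associated (((q : ℕ) : ↥O)) ϖ) (T : ThreeVal K M0 q O sv) :
    ValSetting (a2 K M0 q) (b2 K M0 q) q
      (![gaussVS K (M0 * q) O, sv.V] : Fin 2 → ValuationSubring (FF K (M0 * q)))
      (![gaussVS K (M0 * q * q) O, T.V11, T.V02] : Fin 3 → ValuationSubring (FF K (M0 * q * q)))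
      (algebraMap ↥O (FF K (M0 * q)) ϖ) (PiElt K M0 q) := by
  haveI := isDiscreteValuationRing_gaussVS K (M0 * q) O
  have hπ1 : algebraMap ↥O (FF K (M0 * q)) ϖ = algebraMap K (FF K (M0 * q)) (ϖ : K) := rfl
  have ea : a2 K M0 q (algebraMap ↥O (FF K (M0 * q)) ϖ) =
      algebraMap K (FF K (M0 * q * q)) (ϖ : K) := (alphaF K (M0 * q) q).commutes (ϖ : K)
  have eb : b2 K M0 q (algebraMap ↥O (FF K (M0 * q)) ϖ) =
      algebraMap K (FF K (M0 * q * q)) (ϖ : K) := (betaF K (M0 * q) q).commutes (ϖ : K)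
  have hπ10 : algebraMap K (FF K (M0 * q)) (ϖ : K) ≠ 0 := algebraMap_unif_ne_zero K (M0 * q) O hϖ
  have hπ20 : algebraMap K (FF K (M0 * q * q)) (ϖ : K) ≠ 0 :=
    algebraMap_unif_ne_zero K (M0 * q * q) O hϖ
  have hPi0 := PiElt_ne_zero_of_threeVal T
  -- the comap table
  have hφ0 : ∀ a, a2 K M0 q a ∈ gaussVS K (M0 * q * q) O ↔ a ∈ gaussVS K (M0 * q) O :=
    fun a => alphaF_mem_iff K O (M0 * q) q a
  have hφ1 := comap_eq_iff (a2 K M0 q) T.comap_alpha_V11
  have hφ2 := comap_eq_iff (a2 K M0 q) T.comap_alpha_V02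
  have hψ0 : ∀ a, b2 K M0 q a ∈ gaussVS K (M0 * q * q) O ↔ a ∈ gaussVS K (M0 * q) O :=
    fun a => betaF_mem_iff K O (M0 * q) q a
  have hψ1 := comap_eq_iff (b2 K M0 q) T.comap_beta_V11
  have hψ2 := comap_eq_iff (b2 K M0 q) T.comap_beta_V02
  -- nonunits
  have hπU0 : algebraMap K (FF K (M0 * q)) (ϖ : K) ∈ (gaussVS K (M0 * q) O).nonunits :=
    algebraMap_unif_mem_nonunits K (M0 * q) O hϖ
  have hπU1 : algebraMap K (FF K (M0 * q)) (ϖ : K) ∈ sv.V.nonunits :=
    secondVal_unif_mem_nonunits sv hϖ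
  have hπV0 : algebraMap K (FF K (M0 * q * q)) (ϖ : K) ∈ (gaussVS K (M0 * q * q) O).nonunits :=
    algebraMap_unif_mem_nonunits K (M0 * q * q) O hϖ
  have hπV2 : algebraMap K (FF K (M0 * q * q)) (ϖ : K) ∈ T.V02.nonunits := by
    have h1 := (val_lt_one_map (b2 K M0 q) hψ2).mpr ((ValuationSubring.mem_nonunits_iff _).mp hπU1)
    rw [← hπ1, eb] at h1
    exact (ValuationSubring.mem_nonunits_iff _).mpr h1
  -- discreteness
  have hdU0 : ∀ b : FF K (M0 * q), b ≠ 0 → ∃ n : ℤ,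
      HasOrd (gaussVS K (M0 * q) O) (algebraMap K (FF K (M0 * q)) (ϖ : K)) b n :=
    fun b hb => gauss_disc K (M0 * q) O hϖ hb
  have hdU1 : ∀ b : FF K (M0 * q), b ≠ 0 → ∃ n : ℤ,
      HasOrd sv.V (algebraMap K (FF K (M0 * q)) (ϖ : K)) b n :=
    fun b hb => secondVal_disc ι hqM0 sv hϖ hb
  have hd0 : ∀ b : FF K (M0 * q * q), b ≠ 0 → ∃ n : ℤ,
      HasOrd (gaussVS K (M0 * q * q) O) (algebraMap K (FF K (M0 * q * q)) (ϖ : K)) b n :=
    fun b hb => gauss_disc K (M0 * q * q) O hϖ hb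
  have hd1 : ∀ b : FF K (M0 * q * q), b ≠ 0 → ∃ n : ℤ, HasOrd T.V11 (PiElt K M0 q) b n := by
    intro b hb
    obtain ⟨w, hTA⟩ := twoAlong_alpha_threeVal ι T hϖ hunr
    exact hTA.discB hb
  have hd2 : ∀ b : FF K (M0 * q * q), b ≠ 0 → ∃ n : ℤ,
      HasOrd T.V02 (algebraMap K (FF K (M0 * q * q)) (ϖ : K)) b n := by
    intro b hb
    refine DiscreteVal.exists_zpow_eq (b2 K M0 q) T.V02 hπ20 hπV2 (T.ram_one_V02 ϖ hϖ) ?_ ?_ hb
    · intro c hc
      obtain ⟨n, hn⟩ := hdU1 c hc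
      have h1 := hasOrd_map (b2 K M0 q) hψ2 hπ10 hn
      rw [← hπ1, eb] at h1
      exact ⟨n, h1⟩
    · intro x
      letI : Algebra (FF K (M0 * q)) (FF K (M0 * q * q)) := (b2 K M0 q).toAlgebra
      have hfr : Module.finrank (FF K (M0 * q)) (FF K (M0 * q * q)) = q :=
        finrank_of_algebraMap_eq_betaF_of_dvd K (M0 * q) q ι (Dvd.intro_left M0 rfl) rfl
      haveI : FiniteDimensional (FF K (M0 * q)) (FF K (M0 * q * q)) :=
        Module.finite_of_finrank_pos (by rw [hfr]; exact hq.out.pos)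
      obtain ⟨p, hp, hpx⟩ := Algebra.IsAlgebraic.isAlgebraic (R := FF K (M0 * q)) x
      exact ⟨p, hp, by rwa [Polynomial.aeval_def] at hpx⟩
  -- archimedean
  have hA0 : IsArch (gaussVS K (M0 * q * q) O) := isArch_of_disc _ hπ20 hπV0 hd0
  have hA1 : IsArch T.V11 := isArch_of_disc _ hPi0 T.Pi_mem_nonunits hd1
  have hA2 : IsArch T.V02 := isArch_of_disc _ hπ20 hπV2 hd2
  have harch : ∀ i, IsArch ((![gaussVS K (M0 * q * q) O, T.V11, T.V02] :
      Fin 3 → ValuationSubring (FF K (M0 * q * q))) i) := by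
    intro i
    fin_cases i
    · exact hA0
    · exact hA1
    · exact hA2
  have htop : ∀ i, (![gaussVS K (M0 * q * q) O, T.V11, T.V02] :
      Fin 3 → ValuationSubring (FF K (M0 * q * q))) i ≠ ⊤ := by
    intro i
    fin_cases i
    · exact ne_top_of_mem_nonunits _ hπ20 hπV0
    · exact ne_top_of_mem_nonunits _ hPi0 T.Pi_mem_nonunits
    · exact ne_top_of_mem_nonunits _ hπ20 hπV2
  have hne : ∀ i j, i ≠ j → (![gaussVS K (M0 * q * q) O, T.V11, T.V02] :
      Fin 3 → ValuationSubring (FF K (M0 * q * q))) i ≠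
      (![gaussVS K (M0 * q * q) O, T.V11, T.V02] :
      Fin 3 → ValuationSubring (FF K (M0 * q * q))) j := by
    intro i j hij
    fin_cases i <;> fin_cases j
    · exact absurd rfl hij
    · exact T.V11_ne_V20.symm
    · exact T.V02_ne_V20.symm
    · exact T.V11_ne_V20
    · exact absurd rfl hij
    · exact T.V11_ne_V02
    · exact T.V02_ne_V20
    · exact T.V11_ne_V02.symm
    · exact absurd rfl hij
  refine
    { q_two := hq.out.two_le
      π_ne := hπ10
      π_lt := ?_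
      Pm_ne := hPi0
      Pm_lt := (ValuationSubring.mem_nonunits_iff _).mp T.Pi_mem_nonunits
      Pm_pow := ?_
      φψ := ea.trans eb.symm
      discU := ?_
      disc0 := ?_
      disc1 := hd1
      disc2 := ?_
      arch := harch
      inc := incomparable_of_isArch _ harch htop hne
      φ0 := hφ0
      φ1 := hφ1
      φ2 := hφ2
      ψ0 := hψ0
      ψ1 := hψ1
      ψ2 := hψ2 }
  · intro j
    fin_cases j
    · exact (ValuationSubring.mem_nonunits_iff _).mp hπU0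
    · exact (ValuationSubring.mem_nonunits_iff _).mp hπU1
  · show HasOrd T.V11 (PiElt K M0 q) (a2 K M0 q (algebraMap ↥O (FF K (M0 * q)) ϖ)) ((q : ℤ) - 1)
    unfold HasOrd
    rw [ea, valuation_unif_V11 T hunr, ← zpow_natCast, Nat.cast_sub hq.out.one_le, Nat.cast_one]
  · intro j
    fin_cases j
    · exact hdU0
    · exact hdU1
  · show ∀ b : FF K (M0 * q * q), b ≠ 0 → ∃ n : ℤ, HasOrd (gaussVS K (M0 * q * q) O)
      (a2 K M0 q (algebraMap ↥O (FF K (M0 * q)) ϖ)) b n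
    rw [ea]
    exact hd0
  · show ∀ b : FF K (M0 * q * q), b ≠ 0 → ∃ n : ℤ, HasOrd T.V02
      (a2 K M0 q (algebraMap ↥O (FF K (M0 * q)) ϖ)) b n
    rw [ea]
    exact hd2

/-- **Consumer form** (`Spine.LevelData`): `O` unramified, `π = q`, `U = baseFam sv`,
`V = fam3 K M0 q O T.V11 T.V02`. -/
theorem valSetting (ι : K →+* ℂ) (hqM0 : ¬ q ∣ M0) (hirr : Irreducible (((q : ℕ) : ↥O)))
    (T : ThreeVal K M0 q O sv) :
    ValSetting (a2 K M0 q) (b2 K M0 q) q (Fermat.Agent.S36.Descent.ConstHypInst.baseFam sv)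
      (Fermat.Agent.S36.C.ThreeValCover.fam3 K M0 q O T.V11 T.V02)
      (algebraMap ↥O (FF K (M0 * q)) (((q : ℕ) : ↥O))) (PiElt K M0 q) :=
  valSetting_of_threeVal ι hqM0 hirr (Associated.refl _) T

end Main

end Fermat.Agent.S36.Descent.ValSettingInst
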