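/-
S36 SPINE (helper13): **the data of the spine at every unramified level** — the final plug.

* `rootsInterface_of_threeVal` (generic in `(K, O)`): `LevelCore.RootsInterface` over a `ThreeVal`
  from the base facts at level `M₀` — `SpineRootsFinal.rootsInterface_of_hrel` fed with
  `SplitInstTop.hrel_top_of_crossing` ([I-T]), `ClassifyTop.hcr_top` ([R1]),
  `TripleThreeVal.insepData_beta/splitHomData_beta` and the two norm tables of `NormThreeVal`;
* `levelData` : `Spine.LevelData A q K hK M0 (p ^ k)` at every unramified level `K`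
  (`hdata` of `Spine.newRootStepAt_of_data` / `Final2.inertiaTorsionBound_of_levelData`).
-/
import Mathlib
import Fermat.Agent.S36.Descent.SpineFinal
import Fermat.Agent.S36.Descent.SpineRootsFinal
import Fermat.Agent.S36.Descent.ValSettingInst
import Fermat.Agent.S36.NormThreeVal
import Fermat.Agent.S36.V.ThreeValExistsB
import Fermat.Agent.S36.D.SplitInstTop
import Fermat.Agent.S36.Points.ClassifyTop

set_option autoImplicit false
set_option linter.unusedSectionVars false
set_option linter.style.haveILetI false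

open ModularCurve Fermat.Agent.S28.Gauss Fermat.Agent.N4.Chart Fermat.Agent.N4.Setting
  Fermat.Agent.N4.FibreEmbedding Fermat.Agent.N4F.E.GaussDVR Fermat.Agent.N4F.E.DegreeLevelRaise
  Fermat.Agent.P3G.SecondValuation Fermat.Agent.S36.V.MidVal Fermat.Agent.S36.V.ThreeVal
open Fermat.Agent.S36.C.ThreeValCover Fermat.Agent.S36.Descent.ConstHypInst
open Fermat.Agent.N4F.C Fermat.Agent.N4F.C.Levels
open Fermat.Agent.S36.Descent.UnramLevel Fermat.Agent.S36.Descent.NormPlumb
  Fermat.Agent.S36.Descent.LevelCore Fermat.Agent.S36.Descent.Spine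
  Fermat.Agent.S36.Descent.SpineFinal Fermat.Agent.S36.Descent.SpineRootsTop
open Fermat.Agent.P4.FrobLevelStep Fermat.Agent.P3G.Cover.OfValuations
open Fermat.Agent.P4.FrobStep (normAlong)

noncomputable section

namespace Fermat.Agent.S36.Descent.SpineTop

local notation "Qbar" => AlgebraicClosure ℚ

/-! ### The roots interface over a `ThreeVal`, generic in `(K, O)` -/

section Generic

variable {K : Type} [Field K] [CharZero K] {M0 q : ℕ} [NeZero M0] [NeZero q] [hq : Fact q.Prime]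
  {O : Subring K} [IsDiscreteValuationRing ↥O] [IsFractionRing ↥O K]
  [CharP (IsLocalRing.ResidueField ↥O) q] [PerfectRing (IsLocalRing.ResidueField ↥O) q]
  {sv : SecondVal K M0 q O}

/-- **`RootsInterface` over a `ThreeVal`**, every block discharged; the hypotheses are the base
facts at level `M₀` (`Descent/LevelFacts`) and the auxiliary level structure. -/
theorem rootsInterface_of_threeVal (T : ThreeVal K M0 q O sv) (ι : K →+* ℂ) (hqM0 : ¬ q ∣ M0)
    (hirr : Irreducible ((q : ℕ) : ↥O)) (hN : IsUnit ((M0 : ℕ) : ↥O))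
    (hprime : (fibreIdeal K M0 O (Rfin K M0 O)).IsPrime)
    (hprimeInf : (fibreIdeal K M0 O (Rinf K M0 O)).IsPrime)
    (hsmooth : IsDedekindDomain (↥(Rfin K M0 O) ⧸ fibreIdeal K M0 O (Rfin K M0 O)))
    (hDedInf : IsDedekindDomain (↥(Rinf K M0 O) ⧸ fibreIdeal K M0 O (Rinf K M0 O)))
    (hA2 : ∀ x : ↥(gaussSubalgebra K M0 O),
      theta K M0 O x ∈ modularFunctionFieldFullC (IsLocalRing.ResidueField ↥O) M0)
    (hodd : q ≠ 2 → 2 * 2 ∣ M0) (heven : q = 2 → 9 ∣ M0)
    {e : ℕ} (he : IsUnit ((e : ℕ) : ↥O)) :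
    RootsInterface ↥O K (normAlong (alphaF K (M0 * q) q)) (normAlong (betaF K (M0 * q) q))
      (baseFam sv) (fam3 K M0 q O T.V11 T.V02) ((q : ℕ) : ↥O)
      (iInfSubring (fam3 K M0 q O T.V11 T.V02)) (jF K (M0 * q * q)) (q - 1) e := by
  obtain ⟨i1, i2, i3, i4⟩ := chartInstances K (M0 * q * q) O
  have hqO : ((q : ℕ) : ↥O) ∈ IsLocalRing.maximalIdeal ↥O :=
    (IsLocalRing.mem_maximalIdeal _).mpr hirr.not_isUnit
  have hp : q - 1 + 1 = q := Nat.sub_add_cancel hq.out.one_le
  refine Fermat.Agent.S36.Descent.SpineRootsFinal.rootsInterface_of_hrel T ι hqM0 hirr hN hprime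
    hprimeInf hsmooth hDedInf hA2 hodd heven he ?_
  exact Fermat.Agent.S36.D.SplitInstTop.hrel_top_of_crossing T hN hprime hsmooth hA2 hirr
    (Fermat.Agent.S36.Points.ClassifyTop.hcr_top hN ι hqM0 hprime hsmooth hA2 sv hirr
      (Associated.refl _) hodd heven)
    (Fermat.Agent.S36.R2.TripleThreeVal.insepData_beta T ι hqM0)
    (Fermat.Agent.S36.R2.TripleThreeVal.splitHomData_beta T)
    (Fermat.Agent.S36.D.SplitInstTop.normHom_eq_normAlong (alphaF K (M0 * q) q)).symm
    (Fermat.Agent.S36.D.SplitInstTop.normHom_eq_normAlong (betaF K (M0 * q) q)).symm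
    (Fermat.Agent.S36.NormThreeVal.normTable_alpha ι T hirr hqO hqM0)
    (Fermat.Agent.S36.NormThreeVal.normTable_beta ι T hirr hqO hqM0) he hp

end Generic

/-! ### The data at every unramified level -/

/-- **The data of the spine at every unramified level.** -/
theorem levelData (M0 q : ℕ) [NeZero M0] [NeZero q] (hq : q.Prime) (hqM0 : ¬ q ∣ M0)
    (hL : Fermat.Agent.S36.Descent.Final.LevelCond M0 q) (A : ValuationSubring Qbar)
    (hA : A.LiesOverPrime q) (K : IntermediateField ℚ Qbar) (hK : IsUnramLevel A q K)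
    (p : ℕ) (hp : p.Prime) (hpq : p ≠ q) (k : ℕ) : LevelData A q K hK M0 (p ^ k) := by
  haveI : Fact q.Prime := ⟨hq⟩
  haveI := hK.dvr
  haveI : IsFractionRing ↥(baseRing A K) (Lvl K) :=
    Fermat.Agent.N4.BigDVR.isFractionRing_trSubring A K
  haveI : IsAlgClosed (IsLocalRing.ResidueField ↥(baseRing A K)) := hK.algClosed
  have hnu : ¬ IsUnit ((q : ℕ) : ↥(baseRing A K)) := hK.irred.not_isUnit
  have hroots := hK.roots
  haveI := LevelFacts.charP K hnu M0 hqM0
  haveI : PerfectRing (IsLocalRing.ResidueField ↥(baseRing A K)) q := inferInstance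
  have hprime := LevelFacts.isPrime_fin hA K hroots hnu M0 hqM0
  have hprimeInf := LevelFacts.isPrime_inf hA K hroots hnu M0 hqM0
  have hsmooth := LevelFacts.isDedekindDomain_fin hA K hroots hnu M0 hqM0
  have hDedInf := LevelFacts.isDedekindDomain_inf hA K hroots hnu M0 hqM0
  have hA2 := LevelFacts.theta_mem hA K hroots hnu M0 hqM0
  have hN : IsUnit ((M0 : ℕ) : ↥(baseRing A K)) := LevelFacts.isUnit_level hA K M0 hqM0
  obtain ⟨sv⟩ := nonempty_secondVal (Lvl K) M0 q (baseRing A K)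
    (Fermat.Agent.P3G.GammaV2.lvlToComplex K) hqM0 hprime hA2
  obtain ⟨T⟩ := Fermat.Agent.S36.V.ThreeValExistsB.nonempty_threeVal (Lvl K)
    (Fermat.Agent.P3G.GammaV2.lvlToComplex K) M0 q (baseRing A K) hqM0 hprime hK.irred sv
  have hqO : ((q : ℕ) : ↥(baseRing A K)) ∈ IsLocalRing.maximalIdeal ↥(baseRing A K) :=
    (IsLocalRing.mem_maximalIdeal _).mpr hnu
  have S := Fermat.Agent.S36.Descent.ValSettingInst.valSetting
    (Fermat.Agent.P3G.GammaV2.lvlToComplex K) hqM0 hK.irred T
  have Tα := Fermat.Agent.S36.NormThreeVal.normTable_alpha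
    (Fermat.Agent.P3G.GammaV2.lvlToComplex K) T hK.irred hqO hqM0
  have Tβ := Fermat.Agent.S36.NormThreeVal.normTable_beta
    (Fermat.Agent.P3G.GammaV2.lvlToComplex K) T hK.irred hqO hqM0
  have hodd : q ≠ 2 → 2 * 2 ∣ M0 := by
    intro h2
    rcases hL with ⟨-, h4⟩ | ⟨h, -⟩
    · exact h4
    · exact absurd h h2
  have heven : q = 2 → 9 ∣ M0 := by
    intro h2
    rcases hL with ⟨h, -⟩ | ⟨-, h9⟩
    · exact absurd h2 h
    · exact h9
  have hqA : ((q : ℕ) : Qbar) ∈ A.nonunits := hA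
  have hpkA : ((p ^ k : ℕ) : Qbar) ∉ A.nonunits :=
    Fermat.Agent.N4.S18Glue.natCast_not_mem_nonunits_of_not_dvd A hq hqA fun hdvd =>
      hpq ((Nat.prime_dvd_prime_iff_eq hq hp).mp (hq.dvd_of_dvd_pow hdvd)).symm
  have hpkO : IsUnit ((p ^ k : ℕ) : ↥(baseRing A K)) :=
    Fermat.Agent.N4.S18Glue.isUnit_natCast_trS A (Lvl K) hpkA
  have hLR := rootsInterface_of_threeVal T (Fermat.Agent.P3G.GammaV2.lvlToComplex K) hqM0
    hK.irred hN hprime hprimeInf hsmooth hDedInf hA2 hodd heven hpkO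
  exact levelData_of_tables hA hK M0 hqM0 sv T (pow_ne_zero k hp.ne_zero) S Tα Tβ hLR

end Fermat.Agent.S36.Descent.SpineTop
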