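/-
S36, [Descent] ∘ (DS-X) (helper27): **`Top.Final.InertiaTorsionBound` from the spine ALONE.**

helper19's `Descent/Final.inertiaTorsionBound_of_spine` takes the removal of the auxiliary level as
a hypothesis `haux` for all `(N, q, lam, r)`; `AuxLevel.torsionBoundAt_of_mul` proves it for `q`
prime, `q ∣ N`, `lam ≠ 0` — which is all that the proof uses.  Here the two are composed:

* `inertiaTorsionBound_of_spine_only (hspine) : Top.Final.InertiaTorsionBound`;
* `s36_of_spine (hspine) … : <frozen S36 conclusion>`.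
-/
import Mathlib
import Fermat.Agent.S36.Descent.Final
import Fermat.Agent.S36.Descent.AuxLevel
import Fermat.Agent.S36.New.NewFinalQ

set_option autoImplicit false
set_option linter.unusedSectionVars false
set_option linter.unusedVariables false
set_option linter.style.haveILetI false

open ModularCurve AlgebraicCurve Polynomial
open Fermat.Agent.P4.Push
open Fermat.Agent.S36.Descent.Main Fermat.Agent.S36.Descent.Adapter
  Fermat.Agent.S36.Descent.Final Fermat.Agent.S36.Descent.AuxLevel

noncomputable section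

namespace Fermat.Agent.S36.Descent.FinalX

local notation "Qbar" => AlgebraicClosure ℚ

/-- **The geometric input of S36 from the spine alone** (the auxiliary level is removed by
`AuxLevel.torsionBoundAt_of_mul`). -/
theorem inertiaTorsionBound_of_spine_only
    (hspine : ∀ (N q : ℕ) [NeZero N] [NeZero q], q.Prime → q ∣ N → ¬ q ^ 2 ∣ N →
      LevelCond N q → NewRootStepAt N q) :
    Fermat.Agent.S36.Top.Final.InertiaTorsionBound := by
  intro N q _ _ hq hqN hq2 lam hlam hqlam
  obtain ⟨A, hA⟩ := Fermat.Agent.S54.exists_valuationSubring_liesOverPrime q hq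
  refine ⟨A, hA, ?_⟩
  have hcop := coprime_auxMul hq
  have hqN' : q ∣ N * auxMul q := Dvd.dvd.mul_right hqN _
  have hq2' : ¬ q ^ 2 ∣ N * auxMul q := by
    intro hdvd
    exact hq2 ((Nat.Coprime.pow_left 2 hcop.symm).dvd_of_dvd_mul_right hdvd)
  have hstep := hspine (N * auxMul q) q hq hqN' hq2' (levelCond_mul_auxMul N q)
  have hbound : BoundAt (N * auxMul q) q lam A :=
    torsionBound_of_rootStep' hq hstep A hA lam hlam.out (Ne.symm hqlam)
  exact torsionBoundAt_of_mul hlam.out.ne_zero hq hqN (auxMul q) hcop hbound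

/-- **Frozen S36 from the spine.** -/
theorem s36_of_spine
    (hspine : ∀ (N q : ℕ) [NeZero N] [NeZero q], q.Prime → q ∣ N → ¬ q ^ 2 ∣ N →
      LevelCond N q → NewRootStepAt N q)
    {M : ℕ} [NeZero M] {g : CuspForm (CongruenceSubgroup.Gamma0 M) 2} (hg : g.IsNewform)
    (lam : ℕ) [Fact lam.Prime]
    (S : Finset ℕ)
    (O' : Type) [CommRing O'] [IsDomain O'] [IsDiscreteValuationRing O']
    [IsAdicComplete (IsLocalRing.maximalIdeal O') O'] [Finite (IsLocalRing.ResidueField O')]
    [CharZero O'] (hlamO' : (lam : O') ∈ IsLocalRing.maximalIdeal O')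
    (chig : CuspForm.heckeAlgebra M 2 (↑S : Set ℕ) →+* ℂ)
    (hchig : ∀ (ℓ : ℕ) (hℓ : ℓ.Prime) (hℓM : ¬ ℓ ∣ M) (hℓS : ℓ ∉ (↑S : Set ℕ)),
      chig (CuspForm.heckeAlgebra.T hℓ hℓM hℓS) = ModularFormClass.qCoeff g ℓ)
    (iota : chig.range →+* O')
    (hlamS : lam ∈ S) (hMS : ∀ q : ℕ, q.Prime → q ∣ M → q ∈ S) :
    ∃ (O'' : Type) (_ : CommRing O'') (_ : IsDomain O'') (_ : IsDiscreteValuationRing O'')
      (_ : IsAdicComplete (IsLocalRing.maximalIdeal O'') O'') (_ : Finite (IsLocalRing.ResidueField O''))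
      (_ : CharZero O'') (_ : Algebra O' O'') (_ : Module.Finite O' O'') (_ : IsLocalHom (algebraMap O' O'')),
      Function.Injective (algebraMap O' O'') ∧
      ∃ ρ : GaloisRepAdic O'',
        (∀ (ℓ : ℕ) (hℓ : ℓ.Prime) (hℓM : ¬ ℓ ∣ M) (hℓS : ℓ ∉ (↑S : Set ℕ)),
          ∀ A : ValuationSubring (AlgebraicClosure ℚ), A.LiesOverPrime ℓ →
            ∀ σ : AlgebraicClosure ℚ ≃ₐ[ℚ] AlgebraicClosure ℚ, A.IsFrobeniusAt σ ℓ →
              LinearMap.charpoly (ρ.ρ σ) =
                X ^ 2 - C (algebraMap O' O'' ((iota.comp chig.rangeRestrict) (CuspForm.heckeAlgebra.T hℓ hℓM hℓS))) * X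
                  + C ((ℓ : O''))) ∧
        (∀ q : ℕ, q.Prime → q ≠ lam → M.factorization q = 2 → ¬ ρ.IsUnipotentOnInertiaAt q) :=
  Fermat.Agent.S36.New.NewFinalQ.s36_of_inertiaTorsionBound
    (inertiaTorsionBound_of_spine_only hspine) hg lam S O' hlamO' chig hchig iota hlamS hMS

end Fermat.Agent.S36.Descent.FinalX
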