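import Mathlib
import Fermat.Agent.N4F.E.NormDescentBar
import Fermat.Agent.P4.FrobLevelStep
import Fermat.Agent.P4.Push

/-!
# S36 / Descent: the level maps commute with the norms along `α` and `β` — EVERY `N`, `m`

`NormDescentModular.norm_alpha/_beta` (and `NormDescentBar.lev_norm_alpha/_beta`,
`FrobLevelStep.levK_normAlphaK/_normBetaK`) assume `ℓ` prime and `ℓ ∤ N`.  Neither is needed: both
degrees are `ψ(N m) / ψ(N)` (`DegreeLevelRaise.psi_mul_finrank_*`), and `lev` hits the generators.

* `norm_alpha_gen`, `norm_beta_gen` : abstract coefficientwise base change `K → L`;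
* `lev_norm_alpha_gen`, `lev_norm_beta_gen` : the instance over `Q̄` for `lev K M`;
* `levK_normAlphaK_gen`, `levK_normBetaK_gen` : the `Lvl K` forms (`FrobStep.normAlpha/normBeta`), and
  `levK_normAlphaK_push`, `levK_normBetaK_push` for `P4/Push.normAlpha/normBeta`.
-/

set_option autoImplicit false
set_option linter.style.haveILetI false
set_option linter.unusedSectionVars false
set_option linter.dupNamespace false

open ModularCurve AlgebraicCurve IntermediateField

noncomputable section

namespace Fermat.Agent.S36.Descent.NormCompatQ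

open Fermat.Agent.N4.Setting Fermat.Agent.N4.BaseDescent
open Fermat.Agent.N4F.E.DegreeLevelRaise Fermat.Agent.N4F.E.NormDescent
open Fermat.Agent.N4F.E.NormDescentModular (adjoin_eq_top_of_coe)
open Fermat.Agent.N4F.A.LevelMapsL (FFL)

section main

variable {K : Type} [Field K] [CharZero K] {L : Type} [Field L] [Algebra ℚ L]
  (f : K →+* L) (ι : L →+* ℂ) (N m : ℕ) [NeZero N] [NeZero m]
  (lev₁ : FF K N →+* FFL L N) (lev₂ : FF K (N * m) →+* FFL L (N * m))
  (h₁ : ∀ x, ((lev₁ x : FFL L N) : LaurentSeries L) = coeffMap f (x : LaurentSeries K))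
  (h₂ : ∀ x, ((lev₂ x : FFL L (N * m)) : LaurentSeries L) = coeffMap f (x : LaurentSeries K))

include h₁ h₂ in
/-- `lev ∘ α = ᾱ ∘ lev`. -/
theorem lev_alphaF_gen (x : FF K N) : lev₂ (alphaF K N m x) = heckeAlphaBar L N m (lev₁ x) := by
  apply Subtype.ext
  rw [h₂, coe_alphaF, coe_heckeAlphaBar, h₁]

include h₁ h₂ in
/-- `lev ∘ β = β̄ ∘ lev`. -/
theorem lev_betaF_gen (x : FF K N) : lev₂ (betaF K N m x) = heckeBetaBar L N m (lev₁ x) := by
  apply Subtype.ext
  rw [h₂, coe_betaF, coe_heckeBetaBar, h₁, coeffMap_qExpand]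

include h₂ in
/-- `lev` hits the generators of `L · F_{N m}`. -/
theorem adjoin_range_lev_gen : adjoin L (Set.range lev₂) = ⊤ := by
  refine adjoin_eq_top_of_coe (FFL L (N * m)) _
    (Fermat.Agent.S24.FFBasics.laurentBaseChange_full L (N * m)) _ ?_
  rintro _ ⟨d, hd, hdM, rfl⟩
  refine ⟨lev₂ (jdF K (N * m) hdM), ⟨_, rfl⟩, ?_⟩
  rw [h₂, coe_jdF, coeffMap_qExpand, coeffMap_jqModC]

include ι f in
theorem finiteAlong_alphaF_gen : FiniteAlong K (alphaF K N m) := by
  letI := algebraAlong (alphaF K N m)
  have h : 0 < Module.finrank (FF K N) (FF K (N * m)) := by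
    rw [finrank_eq_finrank_fieldRange (alphaF K N m) rfl]
    exact finrank_alphaF_pos K N m (ι.comp f)
  exact Module.finite_of_finrank_pos h

include ι f in
theorem finiteAlong_betaF_gen : FiniteAlong K (betaF K N m) := by
  letI := algebraAlong (betaF K N m)
  have h : 0 < Module.finrank (FF K N) (FF K (N * m)) := by
    rw [finrank_eq_finrank_fieldRange (betaF K N m) rfl]
    exact finrank_betaF_pos K N m (ι.comp f)
  exact Module.finite_of_finrank_pos h

include ι f in
theorem finrankAlong_alpha_eq :
    finrankAlong L (heckeAlphaBar L N m) = finrankAlong K (alphaF K N m) := by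
  have h1 := psi_mul_finrank_heckeAlphaBar L N m ι
  have h2 := psi_mul_finrank_alphaF K N m (ι.comp f)
  have h3 : finrankAlong L (heckeAlphaBar L N m) =
      Module.finrank (heckeAlphaBar L N m).fieldRange
        (laurentBaseChange L (modularFunctionFieldFull (N * m))) := by
    letI := algebraAlong (heckeAlphaBar L N m)
    exact finrank_eq_finrank_fieldRange (heckeAlphaBar L N m) rfl
  have h4 : finrankAlong K (alphaF K N m) =
      Module.finrank (alphaF K N m).fieldRange (FF K (N * m)) := by
    letI := algebraAlong (alphaF K N m)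
    exact finrank_eq_finrank_fieldRange (alphaF K N m) rfl
  rw [h3, h4]
  exact Nat.eq_of_mul_eq_mul_left (Fermat.Agent.N4.ModPolyShape.dedekindPsi_pos N)
    (h1.trans h2.symm)

include ι f in
theorem finrankAlong_beta_eq :
    finrankAlong L (heckeBetaBar L N m) = finrankAlong K (betaF K N m) := by
  have h1 := psi_mul_finrank_heckeBetaBar L N m ι
  have h2 := psi_mul_finrank_betaF K N m (ι.comp f)
  have h3 : finrankAlong L (heckeBetaBar L N m) =
      Module.finrank (heckeBetaBar L N m).fieldRange
        (laurentBaseChange L (modularFunctionFieldFull (N * m))) := by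
    letI := algebraAlong (heckeBetaBar L N m)
    exact finrank_eq_finrank_fieldRange (heckeBetaBar L N m) rfl
  have h4 : finrankAlong K (betaF K N m) =
      Module.finrank (betaF K N m).fieldRange (FF K (N * m)) := by
    letI := algebraAlong (betaF K N m)
    exact finrank_eq_finrank_fieldRange (betaF K N m) rfl
  rw [h3, h4]
  exact Nat.eq_of_mul_eq_mul_left (Fermat.Agent.N4.ModPolyShape.dedekindPsi_pos N)
    (h1.trans h2.symm)

include ι h₂ in
theorem span_range_lev_alpha_gen :
    letI := algebraAlong (heckeAlphaBar L N m)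
    Submodule.span (FFL L N) (Set.range lev₂) = ⊤ := by
  letI := algebraAlong (heckeAlphaBar L N m)
  haveI := isScalarTower_along (heckeAlphaBar L N m)
  haveI : Module.Finite (FFL L N) (FFL L (N * m)) :=
    Fermat.Agent.N4F.A.LevelMapsL.finiteAlong_heckeAlphaBar ι N m
  exact span_eq_top_of_adjoin' (K' := L) lev₂ (adjoin_range_lev_gen f N m lev₂ h₂)

include ι h₂ in
theorem span_range_lev_beta_gen :
    letI := algebraAlong (heckeBetaBar L N m)
    Submodule.span (FFL L N) (Set.range lev₂) = ⊤ := by
  letI := algebraAlong (heckeBetaBar L N m)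
  haveI := isScalarTower_along (heckeBetaBar L N m)
  haveI : Module.Finite (FFL L N) (FFL L (N * m)) :=
    Fermat.Agent.N4F.A.LevelMapsL.finiteAlong_heckeBetaBar ι N m
  exact span_eq_top_of_adjoin' (K' := L) lev₂ (adjoin_range_lev_gen f N m lev₂ h₂)

include ι h₁ h₂ in
/-- **Norm descent along `α`, every `N`, `m`.** -/
theorem norm_alpha_gen (x : FF K (N * m)) :
    lev₁ (letI := algebraAlong (alphaF K N m); Algebra.norm (FF K N) x)
      = (letI := algebraAlong (heckeAlphaBar L N m); Algebra.norm (FFL L N) (lev₂ x)) :=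
  norm_map_along (alphaF K N m) (heckeAlphaBar L N m) lev₁ lev₂
    (lev_alphaF_gen f N m lev₁ lev₂ h₁ h₂) (finiteAlong_alphaF_gen f ι N m)
    (span_range_lev_alpha_gen f ι N m lev₂ h₂) (finrankAlong_alpha_eq f ι N m) x

include ι h₁ h₂ in
/-- **Norm descent along `β`, every `N`, `m`.** -/
theorem norm_beta_gen (x : FF K (N * m)) :
    lev₁ (letI := algebraAlong (betaF K N m); Algebra.norm (FF K N) x)
      = (letI := algebraAlong (heckeBetaBar L N m); Algebra.norm (FFL L N) (lev₂ x)) :=
  norm_map_along (betaF K N m) (heckeBetaBar L N m) lev₁ lev₂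
    (lev_betaF_gen f N m lev₁ lev₂ h₁ h₂) (finiteAlong_betaF_gen f ι N m)
    (span_range_lev_beta_gen f ι N m lev₂ h₂) (finrankAlong_beta_eq f ι N m) x

end main

/-! ### Over `Q̄` -/

section Bar

open Fermat.Agent.N4F.C.Levels (lev coe_lev)

local notation "Qb" => AlgebraicClosure ℚ

variable (K : Type) [Field K] [CharZero K] [Algebra K Qb] (N m : ℕ) [NeZero N] [NeZero m]
  [Algebra K ↥(modularFunctionFieldBar N)] [IsScalarTower K Qb ↥(modularFunctionFieldBar N)]
  [Algebra K ↥(modularFunctionFieldBar (N * m))]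
  [IsScalarTower K Qb ↥(modularFunctionFieldBar (N * m))]

/-- **`lev (N_α y) = N_ᾱ (lev y)`** for every `y ∈ FF K (N m)`, every `N`, `m`. -/
theorem lev_norm_alpha_gen (y : FF K (N * m)) :
    lev K N (letI := algebraAlong (alphaF K N m); Algebra.norm (FF K N) y)
      = (letI := algebraAlong (heckeAlphaBar Qb N m)
         Algebra.norm ↥(modularFunctionFieldBar N) (lev K (N * m) y)) := by
  have h := norm_alpha_gen (algebraMap K Qb) iotaQbar N m (lev K N : FF K N →+* _)
      (lev K (N * m) : FF K (N * m) →+* _) (fun _ => rfl) (fun _ => rfl) y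
  simp only [RingHom.coe_coe] at h
  exact h

/-- **`lev (N_β y) = N_β̄ (lev y)`** for every `y ∈ FF K (N m)`, every `N`, `m`. -/
theorem lev_norm_beta_gen (y : FF K (N * m)) :
    lev K N (letI := algebraAlong (betaF K N m); Algebra.norm (FF K N) y)
      = (letI := algebraAlong (heckeBetaBar Qb N m)
         Algebra.norm ↥(modularFunctionFieldBar N) (lev K (N * m) y)) := by
  have h := norm_beta_gen (algebraMap K Qb) iotaQbar N m (lev K N : FF K N →+* _)
      (lev K (N * m) : FF K (N * m) →+* _) (fun _ => rfl) (fun _ => rfl) y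
  simp only [RingHom.coe_coe] at h
  exact h

end Bar

/-! ### At a level `Lvl K` -/

section LvlK

open Fermat.Agent.N4F.C.Levels Fermat.Agent.P4.FrobLevelStep

local notation "Qbar" => AlgebraicClosure ℚ

variable (K : IntermediateField ℚ Qbar) (N q : ℕ) [NeZero N] [NeZero q]

/-- The level map carries the norm along `α` at level `K` to the norm along `α` over `Q̄`
(no hypothesis on `q`, `N`). -/
theorem levK_normAlphaK_gen (y : FF (Lvl K) (N * q)) :
    levK N K (normAlphaK K N q y) = Fermat.Agent.P4.FrobStep.normAlpha N q (levK (N * q) K y) :=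
  lev_norm_alpha_gen (Lvl K) N q y

/-- The level map carries the norm along `β` at level `K` to the norm along `β` over `Q̄`
(no hypothesis on `q`, `N`). -/
theorem levK_normBetaK_gen (y : FF (Lvl K) (N * q)) :
    levK N K (normBetaK K N q y) = Fermat.Agent.P4.FrobStep.normBeta N q (levK (N * q) K y) :=
  lev_norm_beta_gen (Lvl K) N q y

/-- The same against `P4/Push.normAlpha`. -/
theorem levK_normAlphaK_push (y : FF (Lvl K) (N * q)) :
    levK N K (normAlphaK K N q y) = Fermat.Agent.P4.Push.normAlpha N q (levK (N * q) K y) :=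
  lev_norm_alpha_gen (Lvl K) N q y

/-- The same against `P4/Push.normBeta`. -/
theorem levK_normBetaK_push (y : FF (Lvl K) (N * q)) :
    levK N K (normBetaK K N q y) = Fermat.Agent.P4.Push.normBeta N q (levK (N * q) K y) :=
  lev_norm_beta_gen (Lvl K) N q y

end LvlK

end Fermat.Agent.S36.Descent.NormCompatQ
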