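/-
S36 / [Descent] tool for DS-X (helper16): **spanning by a ramification-index argument.**

Let `L ⊆ k((Q))` be a subfield all of whose nonzero elements have `Q`-adic order divisible by `n`, and
let `x ∈ k((Q))` have order prime to `n`.  Then `1, x, …, x^(n-1)` are linearly independent over `L`
(their `L`-multiples have pairwise distinct orders).  Consequently, if `a' : F' → F₁'` is an
extension of degree `n` of fields embedded in `k((Q))` such that `a' F'` has orders in `nℤ`, and
`lev₁ : F₁ → F₁'` is a ring homomorphism whose image contains an element of order prime to `n`, then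
the `F'`-span of `lev₁ F₁` is all of `F₁'` — the hypothesis `hspan` of
`N4F/E/NormDescent.norm_map_along` (co-cartesian squares of function fields of modular curves:
`β_q F_{Nr} · F_{Nq} = F_{Nrq}` by the order at the cusp `∞`; the `α`-square by the order at the cusp
`0`, i.e. after the Fricke involution).

Mathlib + the prelude's `algebraAlong / finrankAlong / FiniteAlong` only.
-/
import Mathlib
import Fermat.Prelude.Def_AlgebraicCurve_Correspondence
import Fermat.Prelude.Def_ModularCurve_HeckeOperator

set_option autoImplicit false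
set_option linter.unusedSectionVars false
set_option linter.style.haveILetI false

open AlgebraicCurve

noncomputable section

namespace Fermat.Agent.S36.Descent.SpanIndex

section Laurent

variable {k : Type*} [Field k]

/-- The order of a product of a nonzero series with a power. -/
theorem order_mul_pow {a x : LaurentSeries k} (ha : a ≠ 0) (i : ℕ) (hxi : x ^ i ≠ 0) :
    (a * x ^ i).order = a.order + (i : ℤ) * x.order := by
  rw [HahnSeries.order_mul ha hxi, HahnSeries.order_pow, nsmul_eq_mul]

/-- **Distinct orders ⟹ the sum does not vanish.**  If `c : Fin n → k((Q))` and the orders of the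
nonzero `c i` are pairwise distinct, then `∑ c i = 0` forces all `c i = 0`. -/
theorem eq_zero_of_sum_eq_zero_of_order_injOn {ι : Type*} [Fintype ι] [DecidableEq ι]
    (c : ι → LaurentSeries k)
    (hinj : ∀ i j, c i ≠ 0 → c j ≠ 0 → (c i).order = (c j).order → i = j)
    (hsum : ∑ i, c i = 0) : ∀ i, c i = 0 := by
  classical
  by_contra hne
  simp only [not_forall] at hne
  set S : Finset ι := Finset.univ.filter fun i => c i ≠ 0 with hS
  have hSne : S.Nonempty := by
    obtain ⟨i, hi⟩ := hne
    exact ⟨i, by rw [hS, Finset.mem_filter]; exact ⟨Finset.mem_univ _, hi⟩⟩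
  obtain ⟨i₀, hi₀S, hmin⟩ := Finset.exists_min_image S (fun i => (c i).order) hSne
  have hi₀ : c i₀ ≠ 0 := by
    rw [hS, Finset.mem_filter] at hi₀S
    exact hi₀S.2
  have hcoeff : (∑ i, c i).coeff (c i₀).order = (c i₀).coeff (c i₀).order := by
    rw [HahnSeries.coeff_sum]
    refine Finset.sum_eq_single i₀ ?_ ?_
    · intro i _ hii₀
      by_cases hci : c i = 0
      · rw [hci, HahnSeries.coeff_zero]
      · have hiS : i ∈ S := by rw [hS, Finset.mem_filter]; exact ⟨Finset.mem_univ _, hci⟩
        have hle := hmin i hiS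
        have hneq : (c i₀).order ≠ (c i).order := fun h => hii₀ (hinj i₀ i hi₀ hci h).symm
        exact HahnSeries.coeff_eq_zero_of_lt_order (lt_of_le_of_ne hle hneq)
    · intro h
      exact absurd (Finset.mem_univ _) h
  rw [hsum, HahnSeries.coeff_zero] at hcoeff
  have h1 : (c i₀).leadingCoeff ≠ 0 := HahnSeries.leadingCoeff_ne_zero.mpr hi₀
  rw [HahnSeries.leadingCoeff_eq] at h1
  exact h1 hcoeff.symm

/-- **Linear independence of `1, x, …, x^(n-1)` over a subfield with orders in `nℤ`**, for `x` of
order prime to `n`. -/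
theorem linearIndependent_pow_of_order (L : Subfield (LaurentSeries k)) (n : ℕ)
    (hL : ∀ a ∈ L, a ≠ 0 → (n : ℤ) ∣ a.order) (x : LaurentSeries k)
    (hx : Int.gcd x.order n = 1) :
    LinearIndependent L (fun i : Fin n => x ^ (i : ℕ)) := by
  classical
  -- `x ^ i ≠ 0` for `i < n`
  have hxi : ∀ i : Fin n, x ^ (i : ℕ) ≠ 0 := by
    intro i
    by_cases hx0 : x = 0
    · have hn : n = 1 := by
        rw [hx0, HahnSeries.order_zero, Int.gcd_zero_left, Int.natAbs_natCast] at hx
        exact hx
      have hi : (i : ℕ) = 0 := by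
        have := i.2
        omega
      rw [hi, pow_zero]
      exact one_ne_zero
    · exact pow_ne_zero _ hx0
  rw [Fintype.linearIndependent_iff]
  intro g hg
  have hsum : ∑ i : Fin n, ((g i : LaurentSeries k) * x ^ (i : ℕ)) = 0 := by
    rw [← hg]
    refine Finset.sum_congr rfl fun i _ => ?_
    rfl
  have key := eq_zero_of_sum_eq_zero_of_order_injOn
    (fun i : Fin n => (g i : LaurentSeries k) * x ^ (i : ℕ)) ?_ hsum
  · intro i
    have h := key i
    rcases mul_eq_zero.mp h with h | h
    · exact Subtype.ext h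
    · exact absurd h (hxi i)
  · intro i j hi hj hij
    have hgi : (g i : LaurentSeries k) ≠ 0 := left_ne_zero_of_mul hi
    have hgj : (g j : LaurentSeries k) ≠ 0 := left_ne_zero_of_mul hj
    rw [order_mul_pow hgi _ (hxi i), order_mul_pow hgj _ (hxi j)] at hij
    obtain ⟨u, hu⟩ := hL _ (g i).2 hgi
    obtain ⟨v, hv⟩ := hL _ (g j).2 hgj
    -- `n ∣ (i - j) * ord x`
    have hdvd : (n : ℤ) ∣ ((i : ℕ) - (j : ℕ) : ℤ) * x.order := by
      refine ⟨v - u, ?_⟩
      rw [hu, hv] at hij
      linear_combination hij
    have hcop : IsCoprime (n : ℤ) x.order := by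
      rw [Int.isCoprime_iff_gcd_eq_one, Int.gcd_comm]
      exact hx
    have hdvd' : (n : ℤ) ∣ ((i : ℕ) - (j : ℕ) : ℤ) := hcop.dvd_of_dvd_mul_right hdvd
    have hi' := i.2
    have hj' := j.2
    apply Fin.ext
    obtain ⟨t, ht⟩ := hdvd'
    have hlt : |((i : ℕ) : ℤ) - ((j : ℕ) : ℤ)| < n := by
      rw [abs_lt]
      constructor <;> omega
    rw [ht, abs_mul] at hlt
    have ht0 : t = 0 := by
      by_contra ht0
      have h1 : (1 : ℤ) ≤ |t| := Int.one_le_abs ht0
      have h2 : |(n : ℤ)| = n := abs_of_nonneg (Int.natCast_nonneg n)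
      rw [h2] at hlt
      nlinarith [Int.natCast_nonneg n]
    rw [ht0, mul_zero] at ht
    omega

end Laurent

section Along

variable {k : Type*} [Field k]
variable {K' F' F₁' : Type*} [Field K'] [Field F'] [Field F₁'] [Algebra K' F'] [Algebra K' F₁']

/-- **Linear independence along an embedding.**  `a' : F' → F₁'`, `emb : F₁' → k((Q))`; the
orders of `emb (a' y)` are divisible by `n`, and `x : F₁'` has order prime to `n`.  Then
`1, x, …, x^(n-1)` are linearly independent over `F'` (acting through `a'`). -/
theorem linearIndependent_pow_along (a' : F' →ₐ[K'] F₁') (emb : F₁' →+* LaurentSeries k) (n : ℕ)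
    (hL : ∀ y : F', y ≠ 0 → (n : ℤ) ∣ (emb (a' y)).order) (x : F₁')
    (hx : Int.gcd (emb x).order n = 1) :
    letI := algebraAlong a'
    LinearIndependent F' (fun i : Fin n => x ^ (i : ℕ)) := by
  letI := algebraAlong a'
  classical
  -- the subfield `emb (a' F')`
  let L : Subfield (LaurentSeries k) := (emb.comp (a' : F' →+* F₁')).fieldRange
  have hLord : ∀ b ∈ L, b ≠ 0 → (n : ℤ) ∣ b.order := by
    rintro b ⟨y, rfl⟩ hb
    have hy : y ≠ 0 := by
      rintro rfl
      exact hb (map_zero _)
    exact hL y hy
  have hlin := linearIndependent_pow_of_order L n hLord (emb x) hx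
  rw [Fintype.linearIndependent_iff] at hlin ⊢
  intro g hg i
  have h1 := hlin (fun i => ⟨emb (a' (g i)), ⟨g i, rfl⟩⟩) ?_ i
  · have h2 : emb (a' (g i)) = 0 := congrArg Subtype.val h1
    exact (map_eq_zero _).mp ((map_eq_zero emb).mp h2)
  · have h3 := congrArg emb hg
    rw [map_sum, map_zero] at h3
    rw [← h3]
    refine Finset.sum_congr rfl fun i _ => ?_
    show emb (a' (g i)) * emb x ^ (i : ℕ) = emb (g i • x ^ (i : ℕ))
    rw [Algebra.smul_def, map_mul, map_pow]
    rfl

/-- **Degree bound**: under the hypotheses of `linearIndependent_pow_along`, `n ≤ [F₁' : a' F']`. -/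
theorem le_finrankAlong (a' : F' →ₐ[K'] F₁') (hfin : FiniteAlong K' a')
    (emb : F₁' →+* LaurentSeries k) (n : ℕ)
    (hL : ∀ y : F', y ≠ 0 → (n : ℤ) ∣ (emb (a' y)).order) (x : F₁')
    (hx : Int.gcd (emb x).order n = 1) : n ≤ finrankAlong K' a' := by
  letI := algebraAlong a'
  haveI : Module.Finite F' F₁' := hfin
  have hlin := linearIndependent_pow_along a' emb n hL x hx
  have h := hlin.fintype_card_le_finrank
  rwa [Fintype.card_fin] at h

/-- **Spanning**: if moreover `[F₁' : a' F'] = n`, the powers `x^i`, `i < n`, span `F₁'` over `F'`. -/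
theorem span_pow_eq_top (a' : F' →ₐ[K'] F₁') (hfin : FiniteAlong K' a')
    (emb : F₁' →+* LaurentSeries k) (n : ℕ) (hdeg : finrankAlong K' a' = n)
    (hL : ∀ y : F', y ≠ 0 → (n : ℤ) ∣ (emb (a' y)).order) (x : F₁')
    (hx : Int.gcd (emb x).order n = 1) :
    letI := algebraAlong a'
    Submodule.span F' (Set.range fun i : Fin n => x ^ (i : ℕ)) = ⊤ := by
  letI := algebraAlong a'
  haveI : Module.Finite F' F₁' := hfin
  have hlin := linearIndependent_pow_along a' emb n hL x hx
  refine hlin.span_eq_top_of_card_eq_finrank' ?_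
  rw [Fintype.card_fin]
  exact hdeg.symm

/-- **The `hspan` hypothesis of `NormDescent.norm_map_along`**: the `F'`-span of the image of
`lev₁ : F₁ → F₁'` is everything as soon as the image contains an element of order prime to
`n = [F₁' : a' F']` while `a' F'` has orders in `nℤ`. -/
theorem span_range_eq_top {F₁ : Type*} [Field F₁] (a' : F' →ₐ[K'] F₁') (hfin : FiniteAlong K' a')
    (lev₁ : F₁ →+* F₁') (emb : F₁' →+* LaurentSeries k) (n : ℕ) (hdeg : finrankAlong K' a' = n)
    (hL : ∀ y : F', y ≠ 0 → (n : ℤ) ∣ (emb (a' y)).order) (x : F₁)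
    (hx : Int.gcd (emb (lev₁ x)).order n = 1) :
    letI := algebraAlong a'
    Submodule.span F' (Set.range lev₁) = ⊤ := by
  letI := algebraAlong a'
  have h := span_pow_eq_top a' hfin emb n hdeg hL (lev₁ x) hx
  rw [eq_top_iff, ← h]
  apply Submodule.span_mono
  rintro _ ⟨i, rfl⟩
  exact ⟨x ^ (i : ℕ), map_pow lev₁ x _⟩

end Along

/-! ### The `β`-square of modular function fields -/

section Beta

open ModularCurve

/-- **The order of `f(Q^p)`** is `p` times the order of `f`. -/
theorem order_qExpand {R : Type*} [CommRing R] (p : ℕ) [NeZero p] (f : LaurentSeries R) :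
    (qExpand R p f).order = (p : ℤ) * f.order := by
  by_cases hf : f = 0
  · rw [hf, map_zero, HahnSeries.order_zero, mul_zero]
  have hc : f.coeff f.order ≠ 0 := by
    rw [← HahnSeries.leadingCoeff_eq]
    exact HahnSeries.leadingCoeff_ne_zero.mpr hf
  have hcoeff' : (qExpand R p f).coeff ((p : ℤ) * f.order) ≠ 0 := by
    rw [qExpand_coeff_mul]
    exact hc
  have hne : qExpand R p f ≠ 0 := HahnSeries.ne_zero_of_coeff_ne_zero hcoeff'
  have hbelow : ∀ k : ℤ, k < (p : ℤ) * f.order → (qExpand R p f).coeff k = 0 := by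
    intro k hk
    by_cases hdvd : (p : ℤ) ∣ k
    · obtain ⟨j, rfl⟩ := hdvd
      rw [qExpand_coeff_mul]
      refine HahnSeries.coeff_eq_zero_of_lt_order ?_
      have hp : (0 : ℤ) < (p : ℤ) := by exact_mod_cast Nat.pos_of_ne_zero (NeZero.ne p)
      exact lt_of_mul_lt_mul_left hk hp.le
    · exact qExpand_coeff_of_not_dvd p f hdvd
  refine le_antisymm (HahnSeries.order_le_of_coeff_ne_zero hcoeff') ?_
  by_contra hlt
  rw [not_le] at hlt
  exact hne (HahnSeries.coeff_order_eq_zero.mp (hbelow _ hlt))

variable {L : Type*} [Field L] [Algebra ℚ L] (M q : ℕ) [NeZero M] [NeZero q]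

/-- The image of `β_q` has `Q`-adic orders in `qℤ`. -/
theorem dvd_order_heckeBetaBar (y : laurentBaseChange L (modularFunctionFieldFull M)) :
    (q : ℤ) ∣ ((heckeBetaBar L M q y : laurentBaseChange L (modularFunctionFieldFull (M * q))) :
      LaurentSeries L).order := by
  have h : ((heckeBetaBar L M q y : laurentBaseChange L (modularFunctionFieldFull (M * q))) :
      LaurentSeries L) = qExpand L q (y : LaurentSeries L) := rfl
  rw [h, order_qExpand]
  exact dvd_mul_right _ _

/-- **`hspan` for the `β`-square**: if `β_q : F_M → F_{M q}` has degree `q`, then the `F_M`-span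
(through `β_q`) of the image of any ring homomorphism `lev₁ : F₁ → F_{M q}` containing an element of
`Q`-adic order prime to `q` (e.g. `j`, of order `-1`) is all of `F_{M q}`. -/
theorem span_range_eq_top_heckeBetaBar {F₁ : Type*} [Field F₁]
    (hfin : FiniteAlong L (heckeBetaBar L M q)) (hdeg : finrankAlong L (heckeBetaBar L M q) = q)
    (lev₁ : F₁ →+* laurentBaseChange L (modularFunctionFieldFull (M * q))) (x : F₁)
    (hx : Int.gcd ((lev₁ x : laurentBaseChange L (modularFunctionFieldFull (M * q))) :
      LaurentSeries L).order q = 1) :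
    letI := algebraAlong (heckeBetaBar L M q)
    Submodule.span (laurentBaseChange L (modularFunctionFieldFull M)) (Set.range lev₁) = ⊤ :=
  span_range_eq_top (heckeBetaBar L M q) hfin lev₁
    (algebraMap (laurentBaseChange L (modularFunctionFieldFull (M * q))) (LaurentSeries L)) q hdeg
    (fun y _ => dvd_order_heckeBetaBar M q y) x hx

end Beta

end Fermat.Agent.S36.Descent.SpanIndex
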