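/-
S36, block [Descent], support for DS-X (helper7): **THE TWO LEVEL-CHANGE SQUARES ARE LINEARLY
DISJOINT, HENCE THE NORMS ALONG `α_q` AND `β_q` COMMUTE WITH RAISING THE LEVEL BY `r`, `(r, q) = 1`.**

For `q` prime, `q ∣ N`, all four fields below live in `Q̄((Q))`:

      F_N   ──α_q / β_q──▶  F_{N q}
       │ lev                  │ lev₁           (both = inclusions of subfields of `Q̄((Q))`)
       ▼                      ▼
      F_{N r} ─α_q / β_q─▶  F_{N r q}

Both horizontal extensions have degree `q` (`ψ(M q) = q ψ(M)` for `q ∣ M`), which is PRIME, so the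
square is linearly disjoint as soon as `F_{N q} ⊄` (image of `F_{N r}`):

* `β`-square: `β_q (F_{N r}) ⊆ Q̄((Q^q))` while `j = Q⁻¹ + ⋯ ∈ F_{N q}`;
* `α`-square: conjugate by the Fricke involution `W_{N r q}` (helper24's `V/FrickeK.wK`):
  `W (α_q F_{N r}) = β_q (W F_{N r}) ⊆ Q̄((Q^q))` while `W (j(Q^{N q})) = j(Q^r) = Q^{-r} + ⋯` and `q ∤ r`.

Main results (`lev`, `lev₁` ARBITRARY ring homomorphisms which are the identity on `Q`-expansions):

* `dedekindPsi_mul_prime_of_dvd`, `finrankAlong_alpha_of_dvd`, `finrankAlong_beta_of_dvd` (degree `q`);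
* `span_eq_top_of_prime_finrank` (generic prime-degree lemma);
* `span_beta_square`, `span_alpha_square` (the two `hspan` of `NormDescent.norm_map_along`);
* **`normAlpha_levelRaise`, `normBeta_levelRaise`** :
  `lev (N_α f) = N_α (lev₁ f)`, `lev (N_β f) = N_β (lev₁ f)` with `N_α = P4.Push.normAlpha` etc.
-/
import Mathlib
import Fermat.Agent.S36.New.PushAlphaQ
import Fermat.Agent.S36.New.PushBetaQ
import Fermat.Agent.S36.V.FrickeK
import Fermat.Agent.N4F.C.Levels
import Fermat.Agent.N4F.E.NormDescent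
import Fermat.Agent.M2.P1Psi
import Fermat.Agent.P4.Push

set_option autoImplicit false
set_option linter.style.haveILetI false
set_option linter.unusedSectionVars false

open ModularCurve AlgebraicCurve Module
open Fermat.Agent.N4.Setting Fermat.Agent.N4F.E.DegreeLevelRaise

noncomputable section

namespace Fermat.Agent.S36.Descent.SpanSquare

open Fermat.Agent.N4F.C (Qb Fb jb coe_jb)

/-! ## `ψ(N q) = q ψ(N)` for `q ∣ N` -/

theorem dedekindPsi_mul_prime_of_dvd {N q : ℕ} (hN : N ≠ 0) (hq : q.Prime) (hqN : q ∣ N) :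
    dedekindPsi (N * q) = q * dedekindPsi N := by
  obtain ⟨e, m, hm, rfl⟩ := Nat.exists_eq_pow_mul_and_not_dvd hN q hq.ne_one
  have he : e ≠ 0 := by
    rintro rfl
    rw [pow_zero, one_mul] at hqN
    exact hm hqN
  obtain ⟨k, rfl⟩ := Nat.exists_eq_succ_of_ne_zero he
  have hcop : ∀ j : ℕ, Nat.Coprime (q ^ j) m := fun j =>
    Nat.Coprime.pow_left j ((Nat.Prime.coprime_iff_not_dvd hq).mpr hm)
  have h1 : q ^ (k + 1) * m * q = q ^ (k + 1 + 1) * m := by ring
  rw [h1, Fermat.Agent.M2.P1.dedekindPsi_mul (hcop _), Fermat.Agent.M2.P1.dedekindPsi_mul (hcop _),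
    Fermat.Agent.M2.P1.dedekindPsi_prime_pow q (k + 1) hq,
    Fermat.Agent.M2.P1.dedekindPsi_prime_pow q k hq]
  ring

/-! ## A generic lemma: prime degree -/

/-- In an extension of PRIME degree, the image of a ring homomorphism which is not contained in the
base field spans the extension. -/
theorem span_eq_top_of_prime_finrank {F' F₁' F₁ : Type*} [Field F'] [Field F₁'] [Field F₁]
    [Algebra F' F₁'] (hp : (finrank F' F₁').Prime) (lev₁ : F₁ →+* F₁')
    (x : F₁) (hx : lev₁ x ∉ Set.range (algebraMap F' F₁')) :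
    Submodule.span F' (Set.range lev₁) = ⊤ := by
  haveI : FiniteDimensional F' F₁' := Module.finite_of_finrank_pos hp.pos
  haveI : IsSimpleOrder (IntermediateField F' F₁') :=
    IntermediateField.isSimpleOrder_of_finrank_prime F' F₁' hp
  apply Fermat.Agent.N4F.E.NormDescent.span_eq_top_of_adjoin
  rcases eq_bot_or_eq_top (IntermediateField.adjoin F' (Set.range lev₁)) with h | h
  · exfalso
    apply hx
    have hmem : lev₁ x ∈ IntermediateField.adjoin F' (Set.range lev₁) :=
      IntermediateField.subset_adjoin F' _ ⟨x, rfl⟩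
    rw [h, IntermediateField.mem_bot] at hmem
    exact hmem
  · exact h

/-! ## Degrees -/

/-- An embedding `Q̄ → ℂ` (only used to quote the degree formulas and the Fricke involution). -/
def iotaC : Qb →+* ℂ := iotaQbar

section Degree

variable (M q : ℕ) [NeZero M] [NeZero q]

/-- `[F_{M q} : α F_M] = q` for `q ∣ M` prime. -/
theorem finrankAlong_alpha_of_dvd (hq : q.Prime) (hqM : q ∣ M) :
    finrankAlong Qb (heckeAlphaBar Qb M q) = q := by
  have h := Fermat.Agent.S36.New.PushAlphaQ.finrankAlong_alpha_mul M q Qb iotaC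
  rw [dedekindPsi_mul_prime_of_dvd (NeZero.ne M) hq hqM, mul_comm] at h
  exact Nat.eq_of_mul_eq_mul_right (Fermat.Agent.N4.ModPolyShape.dedekindPsi_pos M) h

/-- `[F_{M q} : β F_M] = q` for `q ∣ M` prime. -/
theorem finrankAlong_beta_of_dvd (hq : q.Prime) (hqM : q ∣ M) :
    finrankAlong Qb (heckeBetaBar Qb M q) = q := by
  have h := Fermat.Agent.S36.New.PushBetaQ.finrankAlong_beta_mul M q Qb iotaC
  rw [dedekindPsi_mul_prime_of_dvd (NeZero.ne M) hq hqM, mul_comm] at h
  exact Nat.eq_of_mul_eq_mul_right (Fermat.Agent.N4.ModPolyShape.dedekindPsi_pos M) h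

end Degree


/-! ## The `β`-square -/

section Squares

variable (N q r : ℕ) [NeZero N] [NeZero q] [NeZero r]

/-- An element of `F_{M q}` with a non-zero coefficient at an exponent prime to `q` is not in the
image of `β_q`. -/
theorem not_mem_range_heckeBetaBar (M : ℕ) [NeZero M] (y : Fb (M * q)) (k : ℤ)
    (hk : ¬ (q : ℤ) ∣ k) (hy : (y : LaurentSeries Qb).coeff k ≠ 0) :
    y ∉ Set.range (heckeBetaBar Qb M q) := by
  rintro ⟨c, rfl⟩
  apply hy
  rw [coe_heckeBetaBar]
  exact qExpand_coeff_of_not_dvd q _ hk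

/-- **The `β`-square is linearly disjoint**: `F_{N q}` spans `F_{N r q}` over `β_q (F_{N r})`. -/
theorem span_beta_square (hq : q.Prime) (hqN : q ∣ N) (lev₁ : Fb (N * q) →+* Fb (N * r * q))
    (hlev₁ : ∀ x, ((lev₁ x : Fb (N * r * q)) : LaurentSeries Qb) = (x : LaurentSeries Qb)) :
    letI := algebraAlong (heckeBetaBar Qb (N * r) q)
    Submodule.span (Fb (N * r)) (Set.range lev₁) = ⊤ := by
  letI := algebraAlong (heckeBetaBar Qb (N * r) q)
  have hdeg : finrank (Fb (N * r)) (Fb (N * r * q)) = q :=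
    finrankAlong_beta_of_dvd (N * r) q hq (hqN.mul_right r)
  have hp : (finrank (Fb (N * r)) (Fb (N * r * q))).Prime := by rw [hdeg]; exact hq
  refine span_eq_top_of_prime_finrank hp lev₁ (jb (N * q)) ?_
  have h1 : (q : ℤ) ≠ 1 := by exact_mod_cast hq.ne_one
  refine not_mem_range_heckeBetaBar q (N * r) (lev₁ (jb (N * q))) (-1) ?_ ?_
  · intro h
    have h2 := Int.isUnit_iff.mp (isUnit_of_dvd_unit h (by norm_num : IsUnit (-1 : ℤ)))
    have h3 : (0 : ℤ) ≤ q := Int.natCast_nonneg q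
    omega
  · rw [hlev₁, coe_jb, coeff_jqModC_neg_one]
    exact one_ne_zero


/-! ## The `α`-square -/

/-- `j(Q^{N q})` as an element of `F_{N q}`. -/
def jTop (M : ℕ) [NeZero M] : Fb M :=
  ⟨qExpand Qb M (jqModC Qb), by
    rw [Fermat.Agent.N4F.C.Levels.bar_eq_full]
    exact jqModCd_mem_full Qb M (dvd_refl M)⟩

@[simp] theorem coe_jTop (M : ℕ) [NeZero M] :
    ((jTop M : Fb M) : LaurentSeries Qb) = qExpand Qb M (jqModC Qb) := rfl

/-- `j(Q^{N q})` is not in `F_{N r}` (inside `F_{N r q}`), for `(r, q) = 1`, `q` prime: apply the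
Fricke involution of level `N r q`. -/
theorem jTop_not_mem_range_alpha (hq : q.Prime) (hrq : Nat.Coprime r q) (y : Fb (N * r * q))
    (hy : (y : LaurentSeries Qb) = qExpand Qb (N * q) (jqModC Qb)) :
    y ∉ Set.range (heckeAlphaBar Qb (N * r) q) := by
  rintro ⟨c, rfl⟩
  rw [coe_heckeAlphaBar] at hy
  -- move to `FF Q̄`
  have hc : (c : LaurentSeries Qb) ∈ modularFunctionFieldFullC Qb (N * r) := by
    rw [← Fermat.Agent.N4F.C.Levels.bar_eq_full]
    exact c.2
  let c' : FF Qb (N * r) := ⟨(c : LaurentSeries Qb), hc⟩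
  have hd : N * q ∣ N * r * q := ⟨r, by ring⟩
  have hr : r ∣ N * r * q := ⟨N * q, by ring⟩
  have h1 : alphaF Qb (N * r) q c' = jdF Qb (N * r * q) hd := by
    apply Subtype.ext
    rw [coe_alphaF, coe_jdF]
    exact hy
  have h2 := Fermat.Agent.S36.V.FrickeK.wK_alphaF Qb iotaC (N * r) q c'
  rw [h1] at h2
  haveI := Fermat.Agent.S16.Bridge.neZero_div (N * r * q) hd
  rw [Fermat.Agent.S36.V.FrickeK.wK_jdF Qb iotaC (N * r * q) hd] at h2
  have hdiv : N * r * q / (N * q) = r := by
    apply Nat.div_eq_of_eq_mul_left (Nat.pos_of_ne_zero (NeZero.ne (N * q)))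
    ring
  rw [Fermat.Agent.S36.V.FrickeK.jdF_congr Qb (N * r * q) (Nat.div_dvd_of_dvd hd) hr hdiv] at h2
  have h3 := congrArg (fun z : FF Qb (N * r * q) => (z : LaurentSeries Qb).coeff ((r : ℤ) * (-1))) h2
  rw [coe_jdF, qExpand_coeff_mul, coeff_jqModC_neg_one, coe_betaF,
    qExpand_coeff_of_not_dvd q _ ?_] at h3
  · exact one_ne_zero h3
  · intro h
    have h4 : (q : ℤ) ∣ (r : ℤ) := by
      have := (dvd_neg (a := (q : ℤ)) (b := (r : ℤ))).mp (by simpa using h)
      exact this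
    have h5 : q ∣ r := by exact_mod_cast h4
    have h6 : q ∣ 1 := by
      have := Nat.dvd_gcd h5 (dvd_refl q)
      rwa [hrq] at this
    exact hq.one_lt.ne' (Nat.dvd_one.mp h6)

/-- **The `α`-square is linearly disjoint**: `F_{N q}` spans `F_{N r q}` over `F_{N r}`. -/
theorem span_alpha_square (hq : q.Prime) (hqN : q ∣ N) (hrq : Nat.Coprime r q)
    (lev₁ : Fb (N * q) →+* Fb (N * r * q))
    (hlev₁ : ∀ x, ((lev₁ x : Fb (N * r * q)) : LaurentSeries Qb) = (x : LaurentSeries Qb)) :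
    letI := algebraAlong (heckeAlphaBar Qb (N * r) q)
    Submodule.span (Fb (N * r)) (Set.range lev₁) = ⊤ := by
  letI := algebraAlong (heckeAlphaBar Qb (N * r) q)
  have hdeg : finrank (Fb (N * r)) (Fb (N * r * q)) = q :=
    finrankAlong_alpha_of_dvd (N * r) q hq (hqN.mul_right r)
  have hp : (finrank (Fb (N * r)) (Fb (N * r * q))).Prime := by rw [hdeg]; exact hq
  refine span_eq_top_of_prime_finrank hp lev₁ (jTop (N * q)) ?_
  exact jTop_not_mem_range_alpha N q r hq hrq (lev₁ (jTop (N * q))) (by rw [hlev₁, coe_jTop])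

/-! ## The norms commute with raising the level by `r` -/

/-- **`lev (N_α f) = N_α (lev₁ f)`**: the norm along `α_q` commutes with the inclusions
`F_N ⊆ F_{N r}`, `F_{N q} ⊆ F_{N r q}` (`q` prime, `q ∣ N`, `(r, q) = 1`). -/
theorem normAlpha_levelRaise (hq : q.Prime) (hqN : q ∣ N) (hrq : Nat.Coprime r q)
    (lev : Fb N →+* Fb (N * r))
    (hlev : ∀ x, ((lev x : Fb (N * r)) : LaurentSeries Qb) = (x : LaurentSeries Qb))
    (lev₁ : Fb (N * q) →+* Fb (N * r * q))
    (hlev₁ : ∀ x, ((lev₁ x : Fb (N * r * q)) : LaurentSeries Qb) = (x : LaurentSeries Qb))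
    (f : Fb (N * q)) :
    lev (Fermat.Agent.P4.Push.normAlpha N q f) =
      Fermat.Agent.P4.Push.normAlpha (N * r) q (lev₁ f) := by
  refine Fermat.Agent.N4F.E.NormDescent.norm_map_along (heckeAlphaBar Qb N q)
    (heckeAlphaBar Qb (N * r) q) lev lev₁ ?_
    (Fermat.Agent.S36.New.PushAlphaQ.finiteAlong_alpha N q Qb iotaC)
    (span_alpha_square N q r hq hqN hrq lev₁ hlev₁) ?_ f
  · intro x
    apply Subtype.ext
    rw [hlev₁, coe_heckeAlphaBar, coe_heckeAlphaBar, hlev]
  · rw [finrankAlong_alpha_of_dvd (N * r) q hq (hqN.mul_right r),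
      finrankAlong_alpha_of_dvd N q hq hqN]

/-- **`lev (N_β f) = N_β (lev₁ f)`**: the norm along `β_q` commutes with the inclusions
`F_N ⊆ F_{N r}`, `F_{N q} ⊆ F_{N r q}` (`q` prime, `q ∣ N`; no condition on `r`). -/
theorem normBeta_levelRaise (hq : q.Prime) (hqN : q ∣ N)
    (lev : Fb N →+* Fb (N * r))
    (hlev : ∀ x, ((lev x : Fb (N * r)) : LaurentSeries Qb) = (x : LaurentSeries Qb))
    (lev₁ : Fb (N * q) →+* Fb (N * r * q))
    (hlev₁ : ∀ x, ((lev₁ x : Fb (N * r * q)) : LaurentSeries Qb) = (x : LaurentSeries Qb))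
    (f : Fb (N * q)) :
    lev (Fermat.Agent.P4.Push.normBeta N q f) =
      Fermat.Agent.P4.Push.normBeta (N * r) q (lev₁ f) := by
  refine Fermat.Agent.N4F.E.NormDescent.norm_map_along (heckeBetaBar Qb N q)
    (heckeBetaBar Qb (N * r) q) lev lev₁ ?_
    (Fermat.Agent.S36.New.PushBetaQ.finiteAlong_beta N q Qb iotaC)
    (span_beta_square N q r hq hqN lev₁ hlev₁) ?_ f
  · intro x
    apply Subtype.ext
    rw [hlev₁, coe_heckeBetaBar, coe_heckeBetaBar, hlev]
  · rw [finrankAlong_beta_of_dvd (N * r) q hq (hqN.mul_right r),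
      finrankAlong_beta_of_dvd N q hq hqN]

/-- The canonical inclusion `F_M ⊆ F_{M'}` for `M ∣ M'`, as a `Q̄`-algebra homomorphism. -/
def inclBar {M M' : ℕ} [NeZero M] [NeZero M'] (h : M ∣ M') : Fb M →ₐ[Qb] Fb M' :=
  IntermediateField.inclusion (by
    rw [Fermat.Agent.N4F.C.Levels.bar_eq_full, Fermat.Agent.N4F.C.Levels.bar_eq_full]
    exact full_degeneracyC_le Qb h)

@[simp] theorem coe_inclBar {M M' : ℕ} [NeZero M] [NeZero M'] (h : M ∣ M') (x : Fb M) :
    ((inclBar h x : Fb M') : LaurentSeries Qb) = (x : LaurentSeries Qb) :=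
  IntermediateField.coe_inclusion _ x

end Squares

end Fermat.Agent.S36.Descent.SpanSquare
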