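/-
S36, spine (helper8): **the (C)-side bundle `SpineCover.CoverSide` from `T : ThreeVal K M0 q O sv`**,
for `O` unramified at `q` (`(q : O)` irreducible): `ϖ = q`, `V = fam3 K M0 q O T.V11 T.V02`,
`E = q − 1`.

* `phi2_mem_V11`, `phi2_mem_V02`     : `α₂ α₁ (G_{M0}) ⊆ V11, V02` (from the comap table of `T`);
* `natCast_mem_nonunits_secondVal`   : `q ∈ 𝔪_{V01}`;  `natCast_mem_nonunits_V02` : `q ∈ 𝔪_{V02}`;
* `coverSide_of_threeVal`            : the bundle — all (C) conjuncts of `Spine.LevelData`: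
  `.famVal`, `.semiFin`, `.semiInf`, `.unif`, `.ic`, `.fr` (and `.no_kummer`).
-/
import Mathlib
import Fermat.Agent.S36.Descent.SpineCover
import Fermat.Agent.S36.Descent.ConstHypInst
import Fermat.Agent.S36.V.ThreeVal

set_option autoImplicit false
set_option linter.unusedSectionVars false
set_option linter.style.haveILetI false

open ModularCurve Fermat.Agent.S28.Gauss Fermat.Agent.N4.Setting Fermat.Agent.N4.FibreEmbedding
open Fermat.Agent.N4F.E.DegreeLevelRaise Fermat.Agent.N4F.E.GaussDVR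
open Fermat.Agent.N4.Chart Fermat.Agent.N4F.E
open Fermat.Agent.P3G.SecondValuation Fermat.Agent.P3G.Cover.OfValuations
open Fermat.Agent.S36.C.SemiGaussTop Fermat.Agent.S36.C.ThreeValCover
open Fermat.Agent.S36.V.ThreeVal Fermat.Agent.S36.V.MidVal
open Fermat.Agent.S36.Descent.SpineCover Fermat.Agent.S36.Descent.ConstHypInst

noncomputable section

namespace Fermat.Agent.S36.Descent.SpineCoverInst

variable {K : Type} [Field K] [CharZero K] {M0 q : ℕ} [NeZero M0] [Fact q.Prime]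
  {O : Subring K} [IsDiscreteValuationRing ↥O] [IsFractionRing ↥O K]
  {sv : SecondVal K M0 q O}

/-- nonunits of a comap. -/
theorem mem_nonunits_comap {F₁ F₂ : Type*} [Field F₁] [Field F₂] (φ : F₁ →+* F₂)
    (V : ValuationSubring F₂) {x : F₁} (hx : x ∈ (V.comap φ).nonunits) : φ x ∈ V.nonunits := by
  rw [ValuationSubring.mem_nonunits_iff_exists_mem_maximalIdeal] at hx ⊢
  obtain ⟨hx1, hx2⟩ := hx
  refine ⟨hx1, ?_⟩
  rw [IsLocalRing.mem_maximalIdeal, mem_nonunits_iff] at hx2 ⊢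
  intro hu
  apply hx2
  obtain ⟨u, hu⟩ := hu
  have hne : x ≠ 0 := by
    rintro rfl
    have h0 : ((u : ↥V) : F₂) = 0 := by rw [hu]; exact map_zero φ
    exact u.ne_zero (Subtype.ext h0)
  have hinv : φ x⁻¹ ∈ V := by
    rw [map_inv₀]
    have h1 : ((u⁻¹ : (↥V)ˣ) : F₂) = (φ x)⁻¹ := by
      have h2 : (((u⁻¹ : (↥V)ˣ) : ↥V) : F₂) * φ x = 1 := by
        have h3 : ((u⁻¹ : (↥V)ˣ) : ↥V) * (u : ↥V) = 1 := Units.inv_mul u
        have h4 := congrArg (fun z : ↥V => (z : F₂)) h3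
        simpa [hu] using h4
      exact eq_inv_of_mul_eq_one_left h2
    rw [← h1]
    exact ((u⁻¹ : (↥V)ˣ) : ↥V).2
  refine ⟨⟨⟨x, hx1⟩, ⟨x⁻¹, hinv⟩, ?_, ?_⟩, rfl⟩
  · exact Subtype.ext (mul_inv_cancel₀ hne)
  · exact Subtype.ext (inv_mul_cancel₀ hne)

/-- `α₂ (G_{M0 q}) ⊆ V11`. -/
theorem alpha_mem_V11 (T : ThreeVal K M0 q O sv) {x : FF K (M0 * q)}
    (hx : x ∈ gaussSubalgebra K (M0 * q) O) : alphaF K (M0 * q) q x ∈ T.V11 := by
  have h : x ∈ T.V11.comap (a2 K M0 q) := by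
    rw [T.comap_alpha_V11]
    exact hx
  exact ValuationSubring.mem_comap.mp h

/-- `α₂ (V01) ⊆ V02`. -/
theorem alpha_mem_V02 (T : ThreeVal K M0 q O sv) {x : FF K (M0 * q)}
    (hx : x ∈ sv.V) : alphaF K (M0 * q) q x ∈ T.V02 := by
  have h : x ∈ T.V02.comap (a2 K M0 q) := by
    rw [T.comap_alpha_V02]
    exact hx
  exact ValuationSubring.mem_comap.mp h

/-- `α₂ α₁ (G_{M0}) ⊆ V11`. -/
theorem phi2_mem_V11 (T : ThreeVal K M0 q O sv) {g : FF K M0} (hg : g ∈ gaussSubalgebra K M0 O) :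
    phi2 K M0 q g ∈ T.V11 := by
  rw [phi2_apply]
  exact alpha_mem_V11 T (alphaF_mem K O M0 q hg)

/-- `α₂ α₁ (G_{M0}) ⊆ V02`. -/
theorem phi2_mem_V02 (T : ThreeVal K M0 q O sv) {g : FF K M0} (hg : g ∈ gaussSubalgebra K M0 O) :
    phi2 K M0 q g ∈ T.V02 := by
  rw [phi2_apply]
  exact alpha_mem_V02 T (sv.alpha_mem g hg)

/-- A uniformiser of `O` lies in `𝔪_{V01}`. -/
theorem algebraMap_mem_nonunits_secondVal (sv : SecondVal K M0 q O) {ϖ : ↥O}
    (hϖ : Irreducible ϖ) : algebraMap ↥O (FF K (M0 * q)) ϖ ∈ sv.V.nonunits := by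
  have h := ev_algebraMap_secondVal sv ϖ
  have hres : IsLocalRing.residue ↥O ϖ = 0 := by
    rw [IsLocalRing.residue_eq_zero_iff]
    exact (IsLocalRing.mem_maximalIdeal ϖ).2 hϖ.not_isUnit
  rw [hres, map_zero] at h
  exact (sv.ev_eq_zero_iff _).1 h

/-- A uniformiser of `O` lies in `𝔪_{V02}`. -/
theorem algebraMap_mem_nonunits_V02 (T : ThreeVal K M0 q O sv) {ϖ : ↥O} (hϖ : Irreducible ϖ) :
    algebraMap ↥O (FF K (M0 * q * q)) ϖ ∈ T.V02.nonunits := by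
  have h1 : algebraMap ↥O (FF K (M0 * q)) ϖ ∈ (T.V02.comap (a2 K M0 q)).nonunits := by
    rw [T.comap_alpha_V02]
    exact algebraMap_mem_nonunits_secondVal sv hϖ
  have h2 := mem_nonunits_comap (a2 K M0 q) T.V02 h1
  have h3 : a2 K M0 q (algebraMap ↥O (FF K (M0 * q)) ϖ) =
      algebraMap ↥O (FF K (M0 * q * q)) ϖ :=
    (alphaF K (M0 * q) q).commutes (ϖ : K)
  rw [h3] at h2
  exact h2

/-- `e = 1` at `V02`, in the `algebraMap ↥O` form. -/
theorem ram_one_V02_algebraMap (T : ThreeVal K M0 q O sv) {ϖ : ↥O} (hϖ : Irreducible ϖ) :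
    ∀ y ∈ T.V02.nonunits, y * (algebraMap ↥O (FF K (M0 * q * q)) ϖ)⁻¹ ∈ T.V02 :=
  T.ram_one_V02 ϖ hϖ

/-- **The (C)-side bundle from `ThreeVal`**, `O` unramified at `q`. -/
theorem coverSide_of_threeVal (ι : K →+* ℂ)
    (hprime : (fibreIdeal K M0 O (Rfin K M0 O)).IsPrime)
    (hprimeInf : (fibreIdeal K M0 O (Rinf K M0 O)).IsPrime)
    (hirr : Irreducible ((q : ℕ) : ↥O)) (T : ThreeVal K M0 q O sv) :
    CoverSide K M0 q O ((q : ℕ) : ↥O) (fam3 K M0 q O T.V11 T.V02) (q - 1) := by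
  have hq1 : 1 ≤ q - 1 := by
    have := (Fact.out : q.Prime).two_le
    omega
  have hcast : algebraMap ↥O (FF K (M0 * q * q)) ((q : ℕ) : ↥O) = ((q : ℕ) : FF K (M0 * q * q)) :=
    map_natCast _ q
  have hram : ∃ w : FF K (M0 * q * q), w ∈ T.V11 ∧ w⁻¹ ∈ T.V11 ∧
      algebraMap ↥O (FF K (M0 * q * q)) ((q : ℕ) : ↥O) = w * PiElt K M0 q ^ (q - 1) := by
    obtain ⟨w, hw, hw', h⟩ := T.ram_V11
    exact ⟨w, hw, hw', hcast.trans h⟩
  have hone := ram_one_V02_algebraMap T hirr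
  have h11 : ∀ g ∈ gaussSubalgebra K M0 O, phi2 K M0 q g ∈ T.V11 := fun g hg => phi2_mem_V11 T hg
  have h02 : ∀ g ∈ gaussSubalgebra K M0 O, phi2 K M0 q g ∈ T.V02 := fun g hg => phi2_mem_V02 T hg
  have hπ02 := algebraMap_mem_nonunits_V02 T hirr
  exact coverSide_three ι hprime hprimeInf hirr h11 h02 T.only_three (PiElt K M0 q) (q - 1) hq1
    T.Pi_mem_nonunits T.unif_V11 hram hπ02 hone

end Fermat.Agent.S36.Descent.SpineCoverInst
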