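/-
S36, spine, the `Rinf` half of the generic composition `hLR` (helper7): **the argument `hcusp` of
`Descent/SpineRootsTop.rootsInterface_top` from `T : ThreeVal K M0 q O sv`**, generic in `(K, O)`.

At every closed point `𝔫 ∋ π, 1/j` of the chart at infinity `Rinf K (M0 q q) O` (a CUSP of the special
fibre) exactly one of the three components `V20, V11, V02` passes, `locAt 𝔫` is factorial and the branch
is smooth: `LocalRootsBoth.OnePoint (fam3 K M0 q O T.V11 T.V02) hVm 𝔫`.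

ONE application of helper17's `Cusp/Plug.{hone_cusp, hUFD_cusp, hPID_cusp}` with

* the modular equations `Φ_q(jj, jj') = 0 = Φ_q(jj', jj'')` (`Cusp/ModEqFF`);
* the six residue relations, `hram` and the Wilson residue `hres` (`Cusp/RelThreeVal`, from `T`);
* `hunif20`, `hunif02` (`Transport.ram_one_gaussVS`, `T.ram_one_V02`);
* `Hm : ChartHyp (fam3 …) hVm π E'` on `Rinf` (block CH-I) and `hπq : π ↦ q`;
* `hD hnf : ∀ i` : the three branches `Rinf ⧸ vCentre (V i)` are Dedekind domains, not fields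
  (block [BRANCH]: helper6 `One/BranchTop` for `i = 0, 1`, helper21 `One/BranchTopInf02` for `i = 2`).

`hcusp_of_threeVal` : general uniformiser `π` with `hπq`;  `hcusp_of_threeVal_natCast` : `π = (q : O)`,
the shape consumed at the level (`ϖ := ((q:ℕ):↥O)`).
-/
import Mathlib
import Fermat.Agent.S36.Cusp.Plug
import Fermat.Agent.S36.Cusp.RelThreeVal
import Fermat.Agent.S36.Descent.SpinePoints
import Fermat.Agent.S36.Descent.SpineRootsTop
import Fermat.Agent.S36.One.OneTop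
import Fermat.Agent.N4.FibreCharts

set_option autoImplicit false
set_option linter.unusedSectionVars false
set_option linter.unusedVariables false
set_option linter.style.haveILetI false

open ModularCurve Fermat.Agent.N4.Setting Fermat.Agent.N4.Chart
open Fermat.Agent.N4.Cover.Globalize Fermat.Agent.P3G.Krull
open Fermat.Agent.P3G.SecondValuation Fermat.Agent.S36.V.ThreeVal
open Fermat.Agent.S36.C.ThreeValCover
open Fermat.Agent.S36.Local.LocalRoot Fermat.Agent.S36.D.ChartRoots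
open Fermat.Agent.S36.Descent.LocalRootsBoth
open Fermat.Agent.S36.Cusp.ModEqFF
open Fermat.Agent.S36.Alg.ChartTransfer (gen)

noncomputable section

namespace Fermat.Agent.S36.Descent.SpineCuspFinal

variable {K : Type} [Field K] [CharZero K] {M0 q : ℕ} [NeZero M0] [hq : Fact q.Prime]
  {O : Subring K} [IsDiscreteValuationRing ↥O] [IsFractionRing ↥O K]
  [CharP (IsLocalRing.ResidueField ↥O) q]
  {sv : SecondVal K M0 q O} (T : ThreeVal K M0 q O sv)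
  [IsNoetherianRing ↥(Rinf K (M0 * q * q) O)]
  [IsFractionRing ↥(Rinf K (M0 * q * q) O) (FF K (M0 * q * q))]

/-- **`hcusp` of `SpineRootsTop.rootsInterface_top`, generic in `(K, O)`.** -/
theorem hcusp_of_threeVal
    {hVm : ∀ i (r : ↥(Rinf K (M0 * q * q) O)),
      algebraMap ↥(Rinf K (M0 * q * q) O) (FF K (M0 * q * q)) r ∈ fam3 K M0 q O T.V11 T.V02 i}
    {π : ↥O} {E' : ℕ} (Hm : ChartHyp (fam3 K M0 q O T.V11 T.V02) hVm π E')
    (hπq : algebraMap ↥(Rinf K (M0 * q * q) O) (FF K (M0 * q * q))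
      (algebraMap ↥O ↥(Rinf K (M0 * q * q) O) π) = ((q : ℕ) : FF K (M0 * q * q)))
    (hD : ∀ i, IsDedekindDomain (↥(Rinf K (M0 * q * q) O) ⧸
      vCentre (fam3 K M0 q O T.V11 T.V02 i) (hVm i)))
    (hnf : ∀ i, ¬ IsField (↥(Rinf K (M0 * q * q) O) ⧸
      vCentre (fam3 K M0 q O T.V11 T.V02 i) (hVm i))) :
    ∀ (𝔫 : Ideal ↥(Rinf K (M0 * q * q) O)) [𝔫.IsPrime], 𝔫.IsMaximal →
      algebraMap ↥O ↥(Rinf K (M0 * q * q) O) π ∈ 𝔫 →
      gen (O := ↥O) (jF K (M0 * q * q))⁻¹ ∈ 𝔫 → OnePoint (fam3 K M0 q O T.V11 T.V02) hVm 𝔫 := by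
  intro 𝔫 _ h𝔫 hπ𝔫 ha𝔫
  -- the chart coordinate is `1/jj`
  have haj : algebraMap ↥(Rinf K (M0 * q * q) O) (FF K (M0 * q * q))
      (gen (O := ↥O) (jF K (M0 * q * q))⁻¹) = (jj K M0 q)⁻¹ := by
    rw [jj_eq]; rfl
  -- the Wilson residue
  obtain ⟨S, T', hST, hres⟩ := Fermat.Agent.S36.Cusp.RelThreeVal.exists_hres_threeVal T
    (gen (O := ↥O) (jF K (M0 * q * q))⁻¹) haj
  -- uniformisers of `V20`, `V02`
  have hunif20 : ∀ x : FF K (M0 * q * q), x ∈ (fam3 K M0 q O T.V11 T.V02 0).nonunits →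
      x * (algebraMap ↥(Rinf K (M0 * q * q) O) (FF K (M0 * q * q))
        (algebraMap ↥O ↥(Rinf K (M0 * q * q) O) π))⁻¹ ∈ fam3 K M0 q O T.V11 T.V02 0 := by
    intro x hx
    rw [Fermat.Agent.S36.One.OneTop.algebraMap_pi]
    exact Fermat.Agent.S36.V.Transport.ram_one_gaussVS K O (M0 * q * q) Hm.irr x hx
  have hunif02 : ∀ x : FF K (M0 * q * q), x ∈ (fam3 K M0 q O T.V11 T.V02 2).nonunits →
      x * (algebraMap ↥(Rinf K (M0 * q * q) O) (FF K (M0 * q * q))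
        (algebraMap ↥O ↥(Rinf K (M0 * q * q) O) π))⁻¹ ∈ fam3 K M0 q O T.V11 T.V02 2 := by
    intro x hx
    rw [Fermat.Agent.S36.One.OneTop.algebraMap_pi]
    exact T.ram_one_V02 π Hm.irr x hx
  have hram : ∀ x : FF K (M0 * q * q), x ∈ (fam3 K M0 q O T.V11 T.V02 1).nonunits →
      x ^ (q - 1) * ((q : ℕ) : FF K (M0 * q * q))⁻¹ ∈ fam3 K M0 q O T.V11 T.V02 1 :=
    fun x hx => Fermat.Agent.S36.Cusp.RelThreeVal.hram T x hx
  -- the three per-point statements of `Cusp/Plug`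
  obtain ⟨i₀, hi₀, honly⟩ := Fermat.Agent.S36.Cusp.Plug.hone_cusp Hm q hπq
    (jj_ne_zero K M0 q) (jj'_ne_zero K M0 q) (jj''_ne_zero K M0 q)
    (evZ_jj_jj' K M0 q) (evZ_jj'_jj'' K M0 q) (gen (O := ↥O) (jF K (M0 * q * q))⁻¹) haj
    (Fermat.Agent.S36.Cusp.RelThreeVal.h20a K M0 q O)
    (Fermat.Agent.S36.Cusp.RelThreeVal.h20c K M0 q O)
    (Fermat.Agent.S36.Cusp.RelThreeVal.h11a T) (Fermat.Agent.S36.Cusp.RelThreeVal.h11c T)
    (Fermat.Agent.S36.Cusp.RelThreeVal.h02c T) (Fermat.Agent.S36.Cusp.RelThreeVal.h02a T)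
    𝔫 h𝔫 hπ𝔫 ha𝔫
  have hU := Fermat.Agent.S36.Cusp.Plug.hUFD_cusp Hm q hπq
    (jj_ne_zero K M0 q) (jj'_ne_zero K M0 q) (jj''_ne_zero K M0 q)
    (evZ_jj_jj' K M0 q) (evZ_jj'_jj'' K M0 q) (gen (O := ↥O) (jF K (M0 * q * q))⁻¹) haj
    (Fermat.Agent.S36.Cusp.RelThreeVal.h20a K M0 q O)
    (Fermat.Agent.S36.Cusp.RelThreeVal.h20c K M0 q O)
    (Fermat.Agent.S36.Cusp.RelThreeVal.h11a T) (Fermat.Agent.S36.Cusp.RelThreeVal.h11c T)
    (Fermat.Agent.S36.Cusp.RelThreeVal.h02c T) (Fermat.Agent.S36.Cusp.RelThreeVal.h02a T)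
    hunif20 hunif02 hram S T' hST hres hD hnf 𝔫 h𝔫 hπ𝔫 ha𝔫
  have hP := Fermat.Agent.S36.Cusp.Plug.hPID_cusp Hm q hπq
    (jj_ne_zero K M0 q) (jj'_ne_zero K M0 q) (jj''_ne_zero K M0 q)
    (evZ_jj_jj' K M0 q) (evZ_jj'_jj'' K M0 q) (gen (O := ↥O) (jF K (M0 * q * q))⁻¹) haj
    (Fermat.Agent.S36.Cusp.RelThreeVal.h20a K M0 q O)
    (Fermat.Agent.S36.Cusp.RelThreeVal.h20c K M0 q O)
    (Fermat.Agent.S36.Cusp.RelThreeVal.h11a T) (Fermat.Agent.S36.Cusp.RelThreeVal.h11c T)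
    (Fermat.Agent.S36.Cusp.RelThreeVal.h02c T) (Fermat.Agent.S36.Cusp.RelThreeVal.h02a T)
    hunif20 hunif02 hram S T' hST hres hD hnf 𝔫 h𝔫 hπ𝔫 ha𝔫 i₀ hi₀
  exact ⟨i₀, hi₀, honly, hU, hP⟩

/-- **`hcusp` at `π = (q : O)`** (the uniformiser used at the level: `ϖ := ((q:ℕ):↥O)`). -/
theorem hcusp_of_threeVal_natCast
    {hVm : ∀ i (r : ↥(Rinf K (M0 * q * q) O)),
      algebraMap ↥(Rinf K (M0 * q * q) O) (FF K (M0 * q * q)) r ∈ fam3 K M0 q O T.V11 T.V02 i}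
    {E' : ℕ} (Hm : ChartHyp (fam3 K M0 q O T.V11 T.V02) hVm ((q : ℕ) : ↥O) E')
    (hD : ∀ i, IsDedekindDomain (↥(Rinf K (M0 * q * q) O) ⧸
      vCentre (fam3 K M0 q O T.V11 T.V02 i) (hVm i)))
    (hnf : ∀ i, ¬ IsField (↥(Rinf K (M0 * q * q) O) ⧸
      vCentre (fam3 K M0 q O T.V11 T.V02 i) (hVm i))) :
    ∀ (𝔫 : Ideal ↥(Rinf K (M0 * q * q) O)) [𝔫.IsPrime], 𝔫.IsMaximal →
      algebraMap ↥O ↥(Rinf K (M0 * q * q) O) ((q : ℕ) : ↥O) ∈ 𝔫 →
      gen (O := ↥O) (jF K (M0 * q * q))⁻¹ ∈ 𝔫 → OnePoint (fam3 K M0 q O T.V11 T.V02) hVm 𝔫 :=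
  hcusp_of_threeVal T Hm (by rw [map_natCast, map_natCast]) hD hnf

/-- The three `hD i` / `hnf i` from the three separate branch statements (`Fin 3` dispatcher). -/
theorem forall_fin3 {P : Fin 3 → Prop} (h0 : P 0) (h1 : P 1) (h2 : P 2) : ∀ i, P i := by
  intro i
  fin_cases i
  · exact h0
  · exact h1
  · exact h2

end Fermat.Agent.S36.Descent.SpineCuspFinal
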