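/-
S36, spine (helper8, co-typed with helper13's `LevelCore`): **`PowCover.LocalRoots` on BOTH charts
`s`, `s⁻¹` for the SAME gluing constant `cg`** — the interface hypothesis `hLR` of `LevelCore`.

Input = the landed block theorems in their own shapes:
* `GlueConst.exists_glue_chart` (helper29): the global constants and `cg` from the two `GoodNorm`
  packages of `NormPlumb` (helper13);
* `LocalRootsInst.localRoots_chart` (helper29) on the finite chart `chartAlg O F₀ {s}`: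
  per closed point the classification (`Points/ClassifyChart.dispatch`, helper11), (I-R) =
  `hUFD`/`hPID`, and `hrel` at the triple points (`LocalRootsInst.hrel_at`);
* on the chart at infinity `chartAlg O F₀ {s⁻¹}`: `Alg/ChartTransfer.localRoots_inv` (helper25) away
  from the cusps and `LocalRootsInst.localRoots_chart_onlyOne` at the cusps `gen s⁻¹ ∈ 𝔫`
  (helper17's `Cusp/Plug`: every cusp point lies on exactly one component).

Output: `∃ cg, h₂ ≡ 1 (π V i) ∧ LocalRoots π W s h₂ e ∧ LocalRoots π W s⁻¹ h₂ e`,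
`h₂ = h ^ (p (p + 2)) / cg ^ e`.
-/
import Mathlib
import Fermat.Agent.S36.Descent.GlueConst
import Fermat.Agent.S36.Alg.ChartTransfer

set_option autoImplicit false
set_option linter.unusedSectionVars false

namespace Fermat.Agent.S36.Descent.SpineRoots

open Fermat.Agent.S36.Local.Spread Fermat.Agent.S36.Local.LocalRoot
  Fermat.Agent.S36.Local.ChartSpread Fermat.Agent.S36.D.Trivialise
  Fermat.Agent.S36.D.ChartRoots Fermat.Agent.S36.D.RootData Fermat.Agent.N4.Chart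
  Fermat.Agent.N4.Cover.Globalize
  Fermat.Agent.S36.Descent.NormPlumb Fermat.Agent.S36.Descent.LocalRootsInst
  Fermat.Agent.S36.Descent.GlueConst Fermat.Agent.S36.Alg.ChartTransfer
open Fermat.Agent.P3G.Assembly.PowCover (LocalRoots)

universe u

variable {O K₀ : Type*} [CommRing O] [IsDomain O] [IsDiscreteValuationRing O]
  [Field K₀] [CharZero K₀] [Algebra O K₀] [IsFractionRing O K₀]
variable {F₀ : Type u} [Field F₀] [Algebra K₀ F₀] [Algebra O F₀] [IsScalarTower O K₀ F₀]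
variable {F1 : Type*} [Field F1] [Algebra O F1]

/-- **Local roots on both charts for the same `cg`.** -/
theorem localRoots_both (s : F₀) (hs : s ≠ 0)
    [IsNoetherianRing (chartAlg O F₀ {s})] [IsFractionRing (chartAlg O F₀ {s}) F₀]
    [IsNoetherianRing (chartAlg O F₀ {s⁻¹})] [IsFractionRing (chartAlg O F₀ {s⁻¹}) F₀]
    {V : Fin 3 → ValuationSubring F₀}
    {hVp : ∀ i (r : chartAlg O F₀ {s}), algebraMap (chartAlg O F₀ {s}) F₀ r ∈ V i}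
    {hVm : ∀ i (r : chartAlg O F₀ {s⁻¹}), algebraMap (chartAlg O F₀ {s⁻¹}) F₀ r ∈ V i}
    {π : O} {E : ℕ} (Hp : ChartHyp V hVp π E) (Hm : ChartHyp V hVm π E) {W : Subring F₀}
    (hW : ∀ w : F₀, (∀ i, w ∈ V i) → w ∈ W)
    -- the finite chart: classification, (I-R)
    (hclass : ∀ (𝔫 : Ideal (chartAlg O F₀ {s})) [𝔫.IsPrime], 𝔫.IsMaximal →
      algebraMap O (chartAlg O F₀ {s}) π ∈ 𝔫 →
      (∃ i₀, centre (V i₀) (hVp i₀) ≤ 𝔫 ∧ ∀ j, j ≠ i₀ → ¬ centre (V j) (hVp j) ≤ 𝔫) ∨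
        ∀ i, centre (V i) (hVp i) ≤ 𝔫)
    (hUFD : ∀ (𝔫 : Ideal (chartAlg O F₀ {s})) [𝔫.IsPrime], 𝔫.IsMaximal →
      algebraMap O (chartAlg O F₀ {s}) π ∈ 𝔫 → UniqueFactorizationMonoid (locAt (F := F₀) 𝔫))
    (hPID : ∀ (𝔫 : Ideal (chartAlg O F₀ {s})) [𝔫.IsPrime], 𝔫.IsMaximal →
      algebraMap O (chartAlg O F₀ {s}) π ∈ 𝔫 →
      ∀ i (hi : centre (V i) (hVp i) ≤ 𝔫), IsPrincipalIdealRing (locAt (F := F₀) 𝔫 ⧸
        centre (V i) (fun b => locAt_le 𝔫 (V i) (hVp i) hi b)))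
    -- the cusps of the chart at infinity: one component, (I-R)
    (hone : ∀ (𝔫 : Ideal (chartAlg O F₀ {s⁻¹})) [𝔫.IsPrime], 𝔫.IsMaximal →
      algebraMap O (chartAlg O F₀ {s⁻¹}) π ∈ 𝔫 → gen s⁻¹ ∈ 𝔫 →
      ∃ i₀, centre (V i₀) (hVm i₀) ≤ 𝔫 ∧ ∀ j, j ≠ i₀ → ¬ centre (V j) (hVm j) ≤ 𝔫)
    (hUFDc : ∀ (𝔫 : Ideal (chartAlg O F₀ {s⁻¹})) [𝔫.IsPrime], 𝔫.IsMaximal →
      algebraMap O (chartAlg O F₀ {s⁻¹}) π ∈ 𝔫 → gen s⁻¹ ∈ 𝔫 →
      UniqueFactorizationMonoid (locAt (F := F₀) 𝔫))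
    (hPIDc : ∀ (𝔫 : Ideal (chartAlg O F₀ {s⁻¹})) [𝔫.IsPrime], 𝔫.IsMaximal →
      algebraMap O (chartAlg O F₀ {s⁻¹}) π ∈ 𝔫 → gen s⁻¹ ∈ 𝔫 →
      ∀ i (hi : centre (V i) (hVm i) ≤ 𝔫), IsPrincipalIdealRing (locAt (F := F₀) 𝔫 ⧸
        centre (V i) (fun b => locAt_le 𝔫 (V i) (hVm i) hi b)))
    {e : ℕ} (hep : IsUnit ((e : ℕ) : chartAlg O F₀ {s}))
    (hem : IsUnit ((e : ℕ) : chartAlg O F₀ {s⁻¹})) {h : F₀}
    (hh1 : ∀ i, Cong (V i) (algebraMap O F₀ π) (h - 1)) (hhor : Horizontal K₀ e h)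
    {Nα Nβ : F₀ →* F1} (U : Fin 2 → ValuationSubring F1)
    (hU : ∀ c : O, IsUnit c → ∀ j, (U j).valuation (algebraMap O F1 c) = 1)
    (gα : GoodNorm O Nα U e h) (gβ : GoodNorm O Nβ U e h)
    (hNα1 : ∀ j, (U j).valuation (Nα h - 1) < 1) (hNβ1 : ∀ j, (U j).valuation (Nβ h - 1) < 1)
    (p : ℕ)
    (hrel : ∀ (cα sα tα cβ sβ tβ : Oˣ) (Hα Hβ : F1),
      Nα h = algebraMap O F1 cα * Hα ^ e →
      Hα - algebraMap O F1 sα ∈ (U 0).nonunits → Hα - algebraMap O F1 tα ∈ (U 1).nonunits →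
      Nβ h = algebraMap O F1 cβ * Hβ ^ e →
      Hβ - algebraMap O F1 sβ ∈ (U 0).nonunits → Hβ - algebraMap O F1 tβ ∈ (U 1).nonunits →
      ∀ (𝔫 : Ideal (chartAlg O F₀ {s})) [𝔫.IsPrime], 𝔫.IsMaximal →
      algebraMap O (chartAlg O F₀ {s}) π ∈ 𝔫 →
      (∀ i, centre (V i) (hVp i) ≤ 𝔫) → ∀ D : RootDatum (locAt (F := F₀) 𝔫) V e h,
      ¬ IsUnit (algebraMap (chartAlg O F₀ {s}) (locAt (F := F₀) 𝔫)
          (unitR (R := chartAlg O F₀ {s}) tα) * D.y 0 * D.y 1 ^ p -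
        algebraMap (chartAlg O F₀ {s}) (locAt (F := F₀) 𝔫)
          (unitR (R := chartAlg O F₀ {s}) sα) * D.y 2 ^ (p + 1)) ∧
      ¬ IsUnit (algebraMap (chartAlg O F₀ {s}) (locAt (F := F₀) 𝔫)
          (unitR (R := chartAlg O F₀ {s}) sβ) * D.y 2 * D.y 1 ^ p -
        algebraMap (chartAlg O F₀ {s}) (locAt (F := F₀) 𝔫)
          (unitR (R := chartAlg O F₀ {s}) tβ) * D.y 0 ^ (p + 1))) :
    ∃ cg : F₀, (∀ i, Cong (V i) (algebraMap O F₀ π) (h ^ (p * (p + 2)) / cg ^ e - 1)) ∧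
      LocalRoots π W s (h ^ (p * (p + 2)) / cg ^ e) e ∧
      LocalRoots π W s⁻¹ (h ^ (p * (p + 2)) / cg ^ e) e := by
  obtain ⟨cα, sα, tα, cβ, sβ, tβ, Hα, Hβ, h1, h2, h3, h4, h5, h6, cg, hcg, hh2⟩ :=
    exists_glue_chart Hp U hU gα gβ hNα1 hNβ1 (fun i => cong_tower_iff.2 (hh1 i)) p
  have hloc : LocalRoots π W s (h ^ (p * (p + 2)) / cg ^ e) e :=
    localRoots_chart (K₀ := K₀) s Hp hW hclass hUFD hPID hep
      (fun i => cong_mem_nonunits (Hp.mem i) (cong_tower_iff.2 (hh1 i))) hhor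
      (unitR sα) (unitR tα) (unitR sβ) (unitR tβ)
      (hrel cα sα tα cβ sβ tβ Hα Hβ h1 h2 h3 h4 h5 h6) cg hcg hh2
  have hh2O : ∀ i, Cong (V i) (algebraMap O F₀ π) (h ^ (p * (p + 2)) / cg ^ e - 1) :=
    fun i => cong_tower_iff.1 (hh2 i)
  refine ⟨cg, hh2O, hloc, ?_⟩
  exact localRoots_inv hs hloc
    (localRoots_chart_onlyOne (K₀ := K₀) s⁻¹ Hm hW (fun 𝔫 => gen s⁻¹ ∈ 𝔫) hone hUFDc hPIDc hem hhor
      (p * (p + 2)) cg (fun i => cong_tower_iff.2 (hh2O i)))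

end Fermat.Agent.S36.Descent.SpineRoots
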