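/-
S36 SPINE, roots side (helper19), final form: **the interface `LevelCore.RootsInterface` over a
`ThreeVal`, generic in the base `(K, O)`, with NO block hypothesis left.**

`rootsInterface_of_threeVal` = `SpineRootsFinal.rootsInterface_of_hrel` with `hrel` discharged by
`D/SplitInstTop.hrel_top_of_crossing` (block [I-T]; (R1) = `Points/ClassifyTop.hcr_top`, the `β`-side
packages of `D/SplitInstBeta`, the two norm tables of `NormThreeVal`).

Hypotheses: the base facts at level `M₀` (the vocabulary of `Descent/LevelFacts`), `T`, and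
`he : IsUnit (e : O)`.
-/
import Mathlib
import Fermat.Agent.S36.Descent.SpineRootsFinal
import Fermat.Agent.S36.D.SplitInstTop
import Fermat.Agent.S36.Points.ClassifyTop
import Fermat.Agent.S36.NormThreeVal

set_option autoImplicit false
set_option linter.unusedSectionVars false
set_option linter.style.haveILetI false

open ModularCurve Fermat.Agent.N4.Setting Fermat.Agent.N4.Chart
open Fermat.Agent.S28.Gauss Fermat.Agent.N4.FibreEmbedding
open Fermat.Agent.N4.Cover.Globalize
open Fermat.Agent.N4F.E.DegreeLevelRaise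
open Fermat.Agent.P3G.Cover.OfValuations Fermat.Agent.P3G.SecondValuation
open Fermat.Agent.S36.C.ThreeValCover Fermat.Agent.S36.V.ThreeVal
open Fermat.Agent.S36.Descent.LevelCore Fermat.Agent.S36.Descent.ConstHypInst
open Fermat.Agent.S36.D.ChartHypGen
open Fermat.Agent.P4.FrobStep

noncomputable section

namespace Fermat.Agent.S36.Descent.SpineRootsFinal2

variable {K : Type} [Field K] [CharZero K] {M0 q : ℕ} [NeZero M0] [hq : Fact q.Prime]
  {O : Subring K} [IsDiscreteValuationRing ↥O] [IsFractionRing ↥O K]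
  [CharP (IsLocalRing.ResidueField ↥O) q] [PerfectRing (IsLocalRing.ResidueField ↥O) q]
  {sv : SecondVal K M0 q O}

set_option maxHeartbeats 1600000 in
set_option synthInstance.maxHeartbeats 400000 in
/-- **`RootsInterface` over a `ThreeVal`, no block hypothesis left.** -/
theorem rootsInterface_of_threeVal (T : ThreeVal K M0 q O sv)
    [IsNoetherianRing ↥(Rfin K (M0 * q * q) O)]
    [IsFractionRing ↥(Rfin K (M0 * q * q) O) (FF K (M0 * q * q))]
    [IsNoetherianRing ↥(Rinf K (M0 * q * q) O)]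
    [IsFractionRing ↥(Rinf K (M0 * q * q) O) (FF K (M0 * q * q))]
    (ι : K →+* ℂ) (hqM0 : ¬ q ∣ M0) (hirr : Irreducible ((q : ℕ) : ↥O))
    (hN : IsUnit ((M0 : ℕ) : ↥O))
    (hprime : (fibreIdeal K M0 O (Rfin K M0 O)).IsPrime)
    (hprimeInf : (fibreIdeal K M0 O (Rinf K M0 O)).IsPrime)
    (hsmooth : IsDedekindDomain (↥(Rfin K M0 O) ⧸ fibreIdeal K M0 O (Rfin K M0 O)))
    (hDedInf : IsDedekindDomain (↥(Rinf K M0 O) ⧸ fibreIdeal K M0 O (Rinf K M0 O)))
    (hA2 : ∀ x : ↥(gaussSubalgebra K M0 O),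
      theta K M0 O x ∈ modularFunctionFieldFullC (IsLocalRing.ResidueField ↥O) M0)
    (hodd : q ≠ 2 → 2 * 2 ∣ M0) (heven : q = 2 → 9 ∣ M0)
    {e : ℕ} (he : IsUnit ((e : ℕ) : ↥O)) :
    RootsInterface ↥O K (normAlong (alphaF K (M0 * q) q)) (normAlong (betaF K (M0 * q) q))
      (baseFam sv) (fam3 K M0 q O T.V11 T.V02) ((q : ℕ) : ↥O)
      (iInfSubring (fam3 K M0 q O T.V11 T.V02)) (jF K (M0 * q * q)) (q - 1) e := by
  have hqO : ((q : ℕ) : ↥O) ∈ IsLocalRing.maximalIdeal ↥O := by
    rw [hirr.maximalIdeal_eq]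
    exact Ideal.mem_span_singleton_self _
  have hp : q - 1 + 1 = q := Nat.sub_add_cancel hq.out.one_le
  refine Fermat.Agent.S36.Descent.SpineRootsFinal.rootsInterface_of_hrel T ι hqM0 hirr hN hprime
    hprimeInf hsmooth hDedInf hA2 hodd heven he ?_
  exact Fermat.Agent.S36.D.SplitInstTop.hrel_top_of_crossing T hN hprime hsmooth hA2 hirr
    (Fermat.Agent.S36.Points.ClassifyTop.hcr_top hN ι hqM0 hprime hsmooth hA2 sv hirr
      (Associated.refl _) hodd heven)
    (Fermat.Agent.S36.D.SplitInstBeta.insepData_beta T ι hqM0)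
    (Fermat.Agent.S36.D.SplitInstBeta.splitHomData_beta' T) rfl rfl
    (Fermat.Agent.S36.NormThreeVal.normTable_alpha ι T hirr hqO hqM0)
    (Fermat.Agent.S36.NormThreeVal.normTable_beta ι T hirr hqO hqM0) he hp
    (hVp := hVp_of_threeVal T)

end Fermat.Agent.S36.Descent.SpineRootsFinal2
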